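import Fermat.Prelude.Def_GaloisRep_Residual
import Fermat.Prelude.Def_Deformations_MatrixRepresentation
import Fermat.Agent.NebLocal.Dia

/-!
# Weight one eigenforms and Galois representations (Deligne–Serre): the interfaces

Everything is stated for a cusp form of weight one on `Γ₁(N)` with `a₁ = 1` whose coefficients
satisfy the Hecke relations for a character `ε`.  The pieces are:

* `Isotypic`, `CoeffRing`, `Conjugates`: facts on the form;
* `RankinBound`: the second moment of the prime coefficients;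
* `SymDensity`: the density theorem for sets stable under conjugation and inversion;
* `EigenFunctional`: the eigen functional modulo a place on the lattice of weight two;
* `ResidualAttached`: the Galois representation of such a functional;
* `CountBound`, `LiftToComplex`: finite subgroups of `GL₂` in positive characteristic.
-/

set_option autoImplicit false
set_option linter.unusedSectionVars false

noncomputable section

namespace FA.Weight1

open CongruenceSubgroup FA.Level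
open FA.JTorsion (cuspLat)
open FA.HeckeH1 (GamH Tc ulHom)
open FA.NebLocal (lvlH latC iDia)
open scoped MatrixGroups ModularForm

local notation "Qb" => AlgebraicClosure ℚ
local notation "GQ" => AlgebraicClosure ℚ ≃ₐ[ℚ] AlgebraicClosure ℚ
local notation "ZB" => integralClosure ℤ ℂ

/-- A weight one cusp form with `a₁ = 1` and the Hecke relations at the primes prime to the
level. -/
structure IsEigen (N : ℕ) [NeZero N] (ε : DirichletCharacter ℂ N)
    (f : CuspForm (Gamma1 N) 1) : Prop where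
  one : ModularFormClass.qCoeff f 1 = 1
  rel : ∀ p : ℕ, p.Prime → ¬ p ∣ N → ∀ n : ℕ,
    ModularFormClass.qCoeff f (p * n) +
        ε (p : ZMod N) * (if p ∣ n then ModularFormClass.qCoeff f (n / p) else 0) =
      ModularFormClass.qCoeff f p * ModularFormClass.qCoeff f n

/-- The form has nebentypus `ε`. -/
def Isotypic : Prop :=
  ∀ (N : ℕ) [NeZero N] (ε : DirichletCharacter ℂ N) (f : CuspForm (Gamma1 N) 1), IsEigen N ε f →
    ∀ γ : SL(2, ℤ), γ ∈ Gamma0 N →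
      (f : UpperHalfPlane → ℂ) ∣[(1 : ℤ)] γ = ε ((γ 1 1 : ℤ) : ZMod N) • (f : UpperHalfPlane → ℂ)

/-- The eigenvalues are integers of a number field. -/
def CoeffRing : Prop :=
  ∀ (N : ℕ) [NeZero N] (ε : DirichletCharacter ℂ N) (f : CuspForm (Gamma1 N) 1), IsEigen N ε f →
    ∃ K : IntermediateField ℚ ℂ, FiniteDimensional ℚ K ∧ ∀ p : ℕ, p.Prime → ¬ p ∣ N →
      IsIntegral ℤ (ModularFormClass.qCoeff f p) ∧ ModularFormClass.qCoeff f p ∈ K ∧
        ε (p : ZMod N) ∈ K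

/-- Conjugate systems of eigenvalues come from weight one forms. -/
def Conjugates : Prop :=
  ∀ (N : ℕ) [NeZero N] (ε : DirichletCharacter ℂ N) (f : CuspForm (Gamma1 N) 1), IsEigen N ε f →
    ∀ τ : ℂ ≃+* ℂ, ∃ (N' : ℕ) (_ : NeZero N') (ε' : DirichletCharacter ℂ N')
      (f' : CuspForm (Gamma1 N') 1), IsEigen N' ε' f' ∧ N ∣ N' ∧
        ∀ p : ℕ, p.Prime → ¬ p ∣ N' →
          ModularFormClass.qCoeff f' p = τ (ModularFormClass.qCoeff f p)

/-- The second moment of the eigenvalues. -/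
def RankinBound : Prop :=
  ∀ (N : ℕ) [NeZero N] (ε : DirichletCharacter ℂ N) (f : CuspForm (Gamma1 N) 1), IsEigen N ε f →
    ∃ C : ℝ, ∀ s ∈ Set.Ioc (1 : ℝ) 2, ∀ T : Finset ℕ, (∀ p ∈ T, p.Prime ∧ ¬ p ∣ N) →
      ∑ p ∈ T, ‖ModularFormClass.qCoeff f p‖ ^ 2 * (p : ℝ) ^ (-s) ≤ Real.log (1 / (s - 1)) + C

/-- Density of the primes with Frobenius in a set stable under conjugation and inversion. -/
def SymDensity : Prop :=
  ∀ (G : Type) [Group G] [Fintype G] (π : GQ →* G), Function.Surjective π →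
    IsOpen (π.ker : Set GQ) → ∀ X : Set G, (∀ g ∈ X, ∀ x, x * g * x⁻¹ ∈ X) →
      (∀ g ∈ X, g⁻¹ ∈ X) → ∀ δ : ℝ, 0 < δ → ∀ S₀ : Finset ℕ,
        ∃ C : ℝ, ∀ s ∈ Set.Ioc (1 : ℝ) 2, ∃ T : Finset ℕ,
          (∀ p ∈ T, p.Prime ∧ p ∉ S₀ ∧ ∀ A : ValuationSubring Qb, A.LiesOverPrime p →
            ∀ σ : GQ, A.IsFrobeniusAt σ p → π σ ∈ X) ∧
          ((Nat.card X : ℝ) / Fintype.card G - δ) * Real.log (1 / (s - 1)) - C ≤
            ∑ p ∈ T, (p : ℝ) ^ (-s)

/-- `{± 1}`. -/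
def pmOne (M : ℕ) : Subgroup (ZMod M)ˣ := Subgroup.zpowers (-1)

theorem neg_one_mem_pmOne (M : ℕ) : (-1 : (ZMod M)ˣ) ∈ pmOne M := Subgroup.mem_zpowers _

/-- The level `±Γ₁(M)`. -/
def lvlOne (M : ℕ) [NeZero M] [Fact (1 < M)] : Lvl := lvlH (pmOne M) (neg_one_mem_pmOne M)

/-- An eigen functional on the lattice of `±Γ₁(M)`: `T_p ↦ c p` and the diamond of an element
of `Γ₀(M)` with upper left entry `u` ↦ `χ u`. -/
def IsEigenFun {k : Type} [Field k] (M : ℕ) [NeZero M] [Fact (1 < M)] (c : ℕ → k)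
    (χ : (ZMod M)ˣ →* kˣ) (g : cuspLat (lvlOne M) →+ k) : Prop :=
  g ≠ 0 ∧
    (∀ (p : ℕ) [Fact p.Prime], ¬ p ∣ M → ∀ x : cuspLat (lvlOne M),
      g (latC (V := lvlOne M) (V' := lvlOne M) (Tc M (pmOne M) p) x) = c p * g x) ∧
    ∀ (γ : GamH M (⊤ : Subgroup (ZMod M)ˣ)) (x : cuspLat (lvlOne M)),
      g (latC (iDia M (pmOne M) (neg_one_mem_pmOne M) γ).C x) = (χ (ulHom M γ) : k) * g x

/-- Modulo a place over a large prime `ℓ` the system of `f` appears in weight two. -/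
def EigenFunctional : Prop :=
  ∀ (N : ℕ) [NeZero N] (ε : DirichletCharacter ℂ N) (f : CuspForm (Gamma1 N) 1), IsEigen N ε f →
    ∃ B : ℕ, ∀ ℓ : ℕ, ℓ.Prime → B < ℓ → ∀ 𝔪 : Ideal ZB, ∀ [𝔪.IsMaximal], (ℓ : ZB) ∈ 𝔪 →
      letI := Ideal.Quotient.field 𝔪
      ∀ M : ℕ, N ∣ M → ℓ ∣ M → 0 < M →
        ∃ (M' : ℕ) (_ : NeZero M') (_ : Fact (1 < M')) (c : ℕ → ZB ⧸ 𝔪)
          (χ : (ZMod M')ˣ →* (ZB ⧸ 𝔪)ˣ) (g : cuspLat (lvlOne M') →+ ZB ⧸ 𝔪),
          M ∣ M' ∧ (∀ q : ℕ, q.Prime → q ∣ M' → q ∣ M) ∧ IsEigenFun M' c χ g ∧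
            ∀ (p : ℕ) (_ : p.Prime) (_ : ¬ p ∣ M'), ∃ a e : ZB,
              (a : ℂ) = ModularFormClass.qCoeff f p ∧ (e : ℂ) = ε (p : ZMod N) ∧
              c p = Ideal.Quotient.mk 𝔪 a ∧
              ∀ u : (ZMod M')ˣ, (u : ZMod M') = (p : ZMod M') →
                (p : ZB ⧸ 𝔪) * (χ u : ZB ⧸ 𝔪) = Ideal.Quotient.mk 𝔪 e

/-- The representation of an eigen functional; `2` or `3` divides the level to give a chart. -/
def ResidualAttached : Prop :=
  ∀ (ℓ : ℕ) [Fact ℓ.Prime] (k : Type) [Field k] [CharP k ℓ] [IsAlgClosed k] (M : ℕ) [NeZero M]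
    [Fact (1 < M)], ℓ ∣ M → ∀ (c : ℕ → k) (χ : (ZMod M)ˣ →* kˣ) (g : cuspLat (lvlOne M) →+ k),
      IsEigenFun M c χ g →
      ∃ r : GQ →* GL (Fin 2) k, GaloisFactorsThroughFiniteLevel r ∧
        ∀ (p : ℕ) (_ : p.Prime) (_ : ¬ p ∣ M), (2 ∣ M ∨ 3 ∣ M) →
          ∀ A : ValuationSubring Qb, A.LiesOverPrime p →
            (∀ σ ∈ A.inertiaSubgroupIn ℚ, r σ = 1) ∧
            ∀ σ : GQ, A.IsFrobeniusAt σ p → ∀ u : (ZMod M)ˣ, (u : ZMod M) = (p : ZMod M) →
              (r σ : Matrix (Fin 2) (Fin 2) k).trace = c p ∧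
              (r σ : Matrix (Fin 2) (Fin 2) k).det = (p : k) * (χ u : k)

/-- A subgroup of `GL₂` acting semisimply: diagonal, or without a stable line. -/
def IsSSimple {k : Type} [Field k] (G : Subgroup (GL (Fin 2) k)) : Prop :=
  (∀ g ∈ G, (g : Matrix (Fin 2) (Fin 2) k) 0 1 = 0 ∧ (g : Matrix (Fin 2) (Fin 2) k) 1 0 = 0) ∨
    ∀ v : Fin 2 → k, v ≠ 0 → ∃ g ∈ G, ∀ c : k,
      Matrix.mulVec (g : Matrix (Fin 2) (Fin 2) k) v ≠ c • v

/-- A group acting semisimply with few characteristic polynomials is small. -/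
def CountBound : Prop :=
  ∀ (k : Type) [Field k] [IsAlgClosed k] (G : Subgroup (GL (Fin 2) k)) [Fintype G], IsSSimple G →
    ∀ P : Finset (k × k),
      (7 * Fintype.card G : ℕ) < 8 * Nat.card {g : G |
        ((g : GL (Fin 2) k).val.trace, (g : GL (Fin 2) k).val.det) ∈ P} →
      Fintype.card G ≤ 4 * P.card ^ 4 + 4 * P.card

/-- Groups of order prime to the characteristic lift to characteristic zero. -/
def LiftToComplex : Prop :=
  ∀ (ℓ : ℕ) [Fact ℓ.Prime] (𝔪 : Ideal ZB), ∀ [𝔪.IsMaximal], (ℓ : ZB) ∈ 𝔪 →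
    letI := Ideal.Quotient.field 𝔪
    ∀ G : Subgroup (GL (Fin 2) (ZB ⧸ 𝔪)), ∀ [Fintype G], IsSSimple G → ¬ ℓ ∣ Fintype.card G →
      ∃ R : G →* GL (Fin 2) ℂ, ∀ g : G, ∃ t d : ZB,
        ((R g).val.trace = t ∧ (R g).val.det = d) ∧
        (Ideal.Quotient.mk 𝔪 t = (g : GL (Fin 2) (ZB ⧸ 𝔪)).val.trace ∧
          Ideal.Quotient.mk 𝔪 d = (g : GL (Fin 2) (ZB ⧸ 𝔪)).val.det)

/-- The statement to be proved. -/
def DeligneSerreOne : Prop :=
  ∀ (N : ℕ) [NeZero N] (ε : DirichletCharacter ℂ N) (f : CuspForm (Gamma1 N) 1), IsEigen N ε f →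
    ∃ ρ : GQ →* GL (Fin 2) ℂ, GaloisFactorsThroughFiniteLevel ρ ∧
      (Deformation.matrixRepresentation ρ).IsIrreducible ∧
      ∀ p : ℕ, p.Prime → ¬ p ∣ N → ∀ A : ValuationSubring Qb, A.LiesOverPrime p →
        (∀ σ ∈ A.inertiaSubgroupIn ℚ, ρ σ = 1) ∧
        ∀ σ : GQ, A.IsFrobeniusAt σ p →
          ((ρ σ : GL (Fin 2) ℂ) : Matrix (Fin 2) (Fin 2) ℂ).trace = ModularFormClass.qCoeff f p ∧
          ((ρ σ : GL (Fin 2) ℂ) : Matrix (Fin 2) (Fin 2) ℂ).det = ε (p : ZMod N)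

end FA.Weight1

end
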