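import Fermat.Agent.Weight1.Periods
import Fermat.Agent.Weight1.Defs
import Fermat.Agent.Eisenstein.Psi

/-!
# Coefficients of weight two forms on `±Γ₁(M)` lie in a finitely generated group

`a_n F = a₁ (t F)` for an element `t` of the Hecke ring; also products with weight one forms.
-/

set_option autoImplicit false
set_option linter.unusedSectionVars false
set_option linter.style.haveILetI false

noncomputable section

namespace FA.Weight1

open UpperHalfPlane ModularForm CongruenceSubgroup Filter FA.Period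
open FA.HeckeH1 (GamH ulHom mem_GamH_iff ulHom_val GamH_mono)
open scoped MatrixGroups Manifold Topology

/-- A cusp form times a form bounded at the cusps. -/
theorem mul_mem_space {Γ : Subgroup SL(2, ℤ)} {k l : ℤ} {f g : ℍ → ℂ} (hf : f ∈ space Γ k)
    (hinv : ∀ γ ∈ Γ, g ∣[l] γ = g) (hg : MDiff g) (hb : FA.Eis.BddAllCusps l g) :
    f * g ∈ space Γ (k + l) := by
  refine ⟨fun γ hγ => by rw [mul_slash_SL2, hf.1 γ hγ, hinv γ hγ], hf.2.1.mul hg, fun δ => ?_⟩
  rw [mul_slash_SL2]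
  have h0 : IsZeroAtImInfty (f ∣[k] δ) := hf.2.2 δ
  have h1 : IsBoundedAtImInfty (g ∣[l] δ) := hb δ
  have h := ((Asymptotics.isLittleO_one_iff ℝ).2 h0).mul_isBigO h1
  refine ((Asymptotics.isLittleO_one_iff ℝ).1 (?_ : (f ∣[k] δ * g ∣[l] δ) =o[atImInfty] fun _ => (1 : ℝ)))
  simpa [Pi.mul_def] using h

theorem GamH_bot_anti {M N : ℕ} (h : N ∣ M) :
    GamH M (⊥ : Subgroup (ZMod M)ˣ) ≤ GamH N (⊥ : Subgroup (ZMod N)ˣ) := by
  rintro γ ⟨hd, hc, u, hu, hua⟩
  rw [Subgroup.mem_bot] at hu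
  subst hu
  refine ⟨hd, (Int.natCast_dvd_natCast.2 h).trans hc, 1, Subgroup.mem_bot.2 rfl, ?_⟩
  have := congrArg (ZMod.castHom h (ZMod N)) hua
  rw [Units.val_one] at this ⊢
  rwa [map_one, map_intCast] at this

theorem slash_neg_one_two (f : ℍ → ℂ) : f ∣[(2 : ℤ)] (-1 : SL(2, ℤ)) = f := by
  funext z
  rw [SL_slash_apply, ModularGroup.SL_neg_smul, one_smul]
  simp [denom, Matrix.SpecialLinearGroup.coe_neg]

/-- In weight two, forms on `Γ₁(M)` are forms on `±Γ₁(M)`. -/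
theorem space_bot_le_pmOne (M : ℕ) :
    space (GamH M (⊥ : Subgroup (ZMod M)ˣ)) 2 ≤ space (GamH M (pmOne M)) 2 := by
  intro f hf
  refine ⟨fun γ hγ => ?_, hf.2⟩
  let γ₀ : GamH M (⊤ : Subgroup (ZMod M)ˣ) := ⟨γ, GamH_mono le_top hγ⟩
  have hu := (mem_GamH_iff γ₀).1 hγ
  obtain ⟨n, hn⟩ := Subgroup.mem_zpowers_iff.1 hu
  rcases Int.even_or_odd n with he | ho
  · refine hf.1 γ ((mem_GamH_iff γ₀).2 ?_)
    rw [Subgroup.mem_bot, ← hn, he.neg_one_zpow]
  · let m₀ : GamH M (⊤ : Subgroup (ZMod M)ˣ) :=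
      ⟨-1, FA.HeckeH1.neg_one_mem_GamH (Subgroup.mem_top _)⟩
    have hm : ulHom M m₀ = -1 := Units.ext (by
      rw [ulHom_val]
      simp [m₀, Matrix.SpecialLinearGroup.coe_neg])
    have h1 : ((m₀ * γ₀ : GamH M ⊤) : SL(2, ℤ)) ∈ GamH M (⊥ : Subgroup (ZMod M)ˣ) := by
      rw [mem_GamH_iff, Subgroup.mem_bot, map_mul, hm, ← hn, ho.neg_one_zpow, neg_mul_neg, one_mul]
    have h2 := hf.1 _ h1
    rw [Subgroup.coe_mul, SlashAction.slash_mul] at h2
    rw [show (m₀ : SL(2, ℤ)) = -1 from rfl, slash_neg_one_two] at h2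
    exact h2

variable {M : ℕ} [NeZero M] {H : Subgroup (ZMod M)ˣ} {k : ℤ}

/-- The coefficients as a linear map. -/
def qcL (M : ℕ) (H : Subgroup (ZMod M)ˣ) (k : ℤ) : space (GamH M H) k →ₗ[ℂ] (ℕ → ℂ) where
  toFun f n := (qExp (f : ℍ → ℂ)).coeff n
  map_add' f g := by
    funext n
    rw [Submodule.coe_add, (isQFun_of_space T_mem_GamH' f.2).qExp_add
      (isQFun_of_space T_mem_GamH' g.2), map_add]
    rfl
  map_smul' c f := by
    funext n
    rw [SetLike.val_smul, (isQFun_of_space T_mem_GamH' f.2).qExp_smul, PowerSeries.coeff_smul]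
    rfl

theorem qcL_apply (f : space (GamH M H) k) (n : ℕ) :
    qcL M H k f n = (qExp (f : ℍ → ℂ)).coeff n := rfl

theorem qcL_zero (f : space (GamH M H) k) : qcL M H k f 0 = 0 :=
  (isQFun_of_space T_mem_GamH' f.2).isZeroAtImInfty_iff.1 (by simpa using f.2.2.2 1)

theorem qcL_opH {p : ℕ} [Fact p.Prime] (f : space (GamH M H) k) (n : ℕ) :
    qcL M H k (opH M H k p f) n = qcL M H k f (n * p) +
      if hM : p ∣ M then 0 else (p : ℂ) ^ (k - 1) * if p ∣ n then
        qcL M H k (diaF M H k (pGam Fact.out hM)⁻¹ f) (n / p) else 0 := by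
  rw [qcL_apply, qExp_opH, qcL_apply]
  refine congrArg (_ + ·) ?_
  by_cases hM : p ∣ M
  · rw [dif_pos hM, dif_pos hM]
  · rw [dif_neg hM, dif_neg hM, qcL_apply, coe_diaF, inv_inv]

variable [Fact (1 < M)] (hH : (-1 : (ZMod M)ˣ) ∈ H)

/-- The first coefficient after an endomorphism. -/
def endEval (F : S2 M H) : Module.End ℂ (S2 M H) →+ ℂ :=
  AddMonoidHom.mk' (fun w => qcL M H 2 (w F) 1) fun v w => by
    rw [LinearMap.add_apply, map_add]; rfl

theorem endEval_apply (F : S2 M H) (w : Module.End ℂ (S2 M H)) :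
    endEval F w = qcL M H 2 (w F) 1 := rfl

theorem exists_coeffPair (n : ℕ) :
    ∃ x, x ∈ compatRing hH ∧ ∀ F : S2 M H, qcL M H 2 F n = qcL M H 2 (x.2 F) 1 := by
  induction n using Nat.strong_induction_on with
  | _ n ih =>
    rcases eq_or_ne n 0 with rfl | hn0
    · refine ⟨(0, 0), (compatRing hH).zero_mem, fun F => ?_⟩
      show _ = qcL M H 2 ((0 : Module.End ℂ (S2 M H)) F) 1
      rw [LinearMap.zero_apply, LinearMap.map_zero]
      exact qcL_zero F
    rcases eq_or_ne n 1 with rfl | hne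
    · exact ⟨(1, 1), (compatRing hH).one_mem, fun F => rfl⟩
    obtain ⟨p, hp, m, rfl⟩ := Nat.exists_prime_and_dvd hne
    have : Fact p.Prime := ⟨hp⟩
    have hm : m < p * m :=
      lt_mul_of_one_lt_left (Nat.pos_of_ne_zero fun h => hn0 (by rw [h, mul_zero])) hp.one_lt
    obtain ⟨x, hxm, hx⟩ := ih m hm
    have h1 : ∀ F : S2 M H,
        qcL M H 2 (opH M H 2 p F) m = qcL M H 2 ((x * genT hH p).2 F) 1 := fun F => hx _
    have hT := (compatRing hH).mul_mem hxm (genT_mem hH p)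
    by_cases hM : p ∣ M
    · refine ⟨_, hT, fun F => ?_⟩
      rw [← h1, qcL_opH, dif_pos hM, add_zero, mul_comm p m]
    · by_cases hd : p ∣ m
      · obtain ⟨y, hym, hy⟩ := ih (m / p) ((Nat.div_le_self m p).trans_lt hm)
        have hD := (compatRing hH).mul_mem hym (genD_mem hH (pGam hp hM)⁻¹)
        refine ⟨_, (compatRing hH).sub_mem hT ((compatRing hH).nsmul_mem hD p), fun F => ?_⟩
        rw [Prod.snd_sub, Prod.smul_snd, LinearMap.sub_apply, LinearMap.smul_apply, map_sub,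
          map_nsmul, Pi.sub_apply, Pi.smul_apply, ← h1, qcL_opH, dif_neg hM, if_pos hd,
          show qcL M H 2 ((y * genD hH (pGam hp hM)⁻¹).2 F) 1 =
            qcL M H 2 (diaF M H 2 (pGam hp hM)⁻¹ F) (m / p) from (hy _).symm, mul_comm p m,
          nsmul_eq_mul]
        norm_num
      · refine ⟨_, hT, fun F => ?_⟩
        rw [← h1, qcL_opH, dif_neg hM, if_neg hd, mul_zero, add_zero, mul_comm p m]

/-- **All coefficients lie in a finitely generated group.** -/
theorem exists_fg_coeff (hH : (-1 : (ZMod M)ˣ) ∈ H) (F : S2 M H) :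
    ∃ S : Submodule ℤ ℂ, S.FG ∧ ∀ n, qcL M H 2 F n ∈ S := by
  let e : compatRing hH →+ ℂ := ((endEval F).comp
    (AddMonoidHom.snd _ _)).comp (compatRing hH).toAddSubgroup.subtype
  let j : compatRing hH →ₗ[ℤ] ℂ :=
    { toFun := e
      map_add' := e.map_add
      map_smul' := fun n x => map_intCast_smul e ℤ ℤ n x }
  refine ⟨LinearMap.range j, Module.Finite.iff_fg.1 inferInstance, fun n => ?_⟩
  obtain ⟨x, hxm, hx⟩ := exists_coeffPair hH n
  exact ⟨⟨x, hxm⟩, (hx F).symm⟩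

end FA.Weight1

end
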