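import Fermat.Agent.Weight1.Coeff

/-!
# The eigenvalues are integers of a number field

The product with a weight one Eisenstein series of level `3` has weight two, and the series has
constant term `-1` and integral coefficients.
-/

set_option autoImplicit false
set_option linter.unusedSectionVars false
set_option linter.style.haveILetI false

noncomputable section

namespace FA.Weight1

open UpperHalfPlane ModularForm CongruenceSubgroup Filter FA.Period
open FA.HeckeH1 (GamH)
open scoped MatrixGroups Manifold Topology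

theorem fact_three : Fact (Nat.Prime 3) := ⟨Nat.prime_three⟩

/-- `6 G₁` of level `3`. -/
def g3 : ℍ → ℂ :=
  haveI := fact_three
  (6 : ℂ) • FA.Eis.Gfun 3 1

/-- Its series. -/
def g3Ser : PowerSeries ℤ :=
  PowerSeries.mk fun n => if n = 0 then -1 else 6 * FA.Eis.cG 3 1 n

theorem g3Ser_isUnit : IsUnit g3Ser := by
  rw [PowerSeries.isUnit_iff_constantCoeff, ← PowerSeries.coeff_zero_eq_constantCoeff_apply, g3Ser,
    PowerSeries.coeff_mk, if_pos rfl]
  exact isUnit_one.neg

theorem hasQ_g3 : FA.Eis.HasQ 1 g3 (g3Ser.map (Int.castRingHom ℂ)) := by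
  haveI : Fact (Nat.Prime 3) := ⟨Nat.prime_three⟩
  have h := (FA.Eis.hasQ_Gfun (q := 3) 1).smul (6 : ℂ)
  change FA.Eis.HasQ 1 g3 _ at h
  convert h using 1
  ext n
  rw [PowerSeries.coeff_map, g3Ser, PowerSeries.coeff_mk, PowerSeries.coeff_smul, FA.Eis.GSer,
    PowerSeries.coeff_mk]
  split_ifs
  · have hv : (1 : ZMod 3).val = 1 := rfl
    simp [FA.Eis.saw, hv]
    norm_num
  · simp

theorem slash_g3 {γ : SL(2, ℤ)} (hγ : γ ∈ GamH 3 (⊥ : Subgroup (ZMod 3)ˣ)) :
    g3 ∣[(1 : ℤ)] γ = g3 := by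
  haveI : Fact (Nat.Prime 3) := ⟨Nat.prime_three⟩
  obtain ⟨-, hc, u, hu, hua⟩ := hγ
  rw [Subgroup.mem_bot] at hu
  subst hu
  rw [g3, SL_smul_slash, FA.Eis.Gfun_slash_of_mem 1 hc, mul_one, ← hua, Units.val_one]

theorem bdd_g3 : FA.Eis.BddAllCusps 1 g3 :=
  haveI : Fact (Nat.Prime 3) := ⟨Nat.prime_three⟩
  (FA.Eis.bdd_Gfun 1).smul 6

/-- The coefficients of a weight one form lie in a finitely generated group. -/
theorem exists_fg_coeff_one {N : ℕ} [NeZero N] {f : ℍ → ℂ}
    (hf : f ∈ space (GamH N (⊥ : Subgroup (ZMod N)ˣ)) 1) :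
    ∃ S : Submodule ℤ ℂ, S.FG ∧ ∀ n, (qExp f).coeff n ∈ S := by
  haveI : Fact (1 < 3 * N) := ⟨by have := NeZero.pos N; omega⟩
  have hf' := space_anti (GamH_bot_anti (dvd_mul_left N 3)) hf
  have hinvg : ∀ γ ∈ GamH (3 * N) (⊥ : Subgroup (ZMod (3 * N))ˣ), g3 ∣[(1 : ℤ)] γ = g3 :=
    fun γ hγ => slash_g3 (GamH_bot_anti (dvd_mul_right 3 N) hγ)
  have h2 : f * g3 ∈ space (GamH (3 * N) (⊥ : Subgroup (ZMod (3 * N))ˣ)) 2 := by
    have h := mul_mem_space hf' hinvg (hasQ_g3.mdiff one_pos) bdd_g3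
    rwa [one_add_one_eq_two] at h
  have hG : f * g3 ∈ space (GamH (3 * N) (pmOne (3 * N))) 2 := space_bot_le_pmOne (3 * N) h2
  obtain ⟨S, hS, hSn⟩ := exists_fg_coeff (neg_one_mem_pmOne (3 * N))
    (⟨f * g3, hG⟩ : S2 (3 * N) (pmOne (3 * N)))
  refine ⟨S, hS, fun n => ?_⟩
  have hQ := isQFun_of_space T_mem_GamH' hf
  have hgQ : IsQFun g3 :=
    ⟨hasQ_g3.periodic one_pos, hasQ_g3.mdiff one_pos, hasQ_g3.bdd one_pos⟩
  have hmul : qExp (f * g3) = qExp f * g3Ser.map (Int.castRingHom ℂ) := by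
    rw [hQ.qExp_mul hgQ]
    exact congrArg (qExp f * ·) (hasQ_g3.qExpansion_eq one_pos)
  obtain ⟨u, hu⟩ := g3Ser_isUnit
  have hinv : qExp f = qExp (f * g3) *
      PowerSeries.map (Int.castRingHom ℂ) (↑u⁻¹ : PowerSeries ℤ) := by
    rw [hmul, ← hu, mul_assoc, ← map_mul, Units.mul_inv, map_one, mul_one]
  rw [hinv, PowerSeries.coeff_mul]
  refine Submodule.sum_mem _ fun x _ => ?_
  rw [PowerSeries.coeff_map, mul_comm]
  show ((PowerSeries.coeff x.2 (↑u⁻¹ : PowerSeries ℤ) : ℤ) : ℂ) * _ ∈ S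
  rw [← zsmul_eq_mul]
  exact S.smul_mem _ (hSn x.1)

/-- The eigenvalues are integers of a number field. -/
theorem coeffRing : CoeffRing := by
  intro N _ ε f hf
  classical
  let a : ℕ → ℂ := fun n => ModularFormClass.qCoeff f n
  obtain ⟨S, hS, hSn⟩ := exists_fg_coeff_one (coe_mem_space f)
  let gen : Set ℂ := Set.range fun x : ZMod N × ℕ => ε x.1 * a x.2
  let L : Submodule ℤ ℂ := Submodule.span ℤ gen
  have hLfg : L.FG := by
    let big : Submodule ℤ ℂ := ⨆ u : ZMod N, S.map (LinearMap.mulLeft ℤ (ε u))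
    have hbig : big.FG := Submodule.fg_iSup _ fun u => hS.map _
    have hle : L ≤ big := by
      refine Submodule.span_le.2 ?_
      rintro _ ⟨⟨u, n⟩, rfl⟩
      exact Submodule.mem_iSup_of_mem u ⟨a n, hSn n, rfl⟩
    haveI := isNoetherian_of_fg_of_noetherian big hbig
    exact Submodule.FG.of_le hbig hle
  have hmem : ∀ (u : ZMod N) (n : ℕ), ε u * a n ∈ L := fun u n =>
    Submodule.subset_span ⟨(u, n), rfl⟩
  have h1L : (1 : ℂ) ∈ L := by
    have h := hmem 1 1
    rwa [map_one, show a 1 = 1 from hf.one, mul_one] at h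
  let R : Subalgebra ℤ ℂ :=
    { carrier := {x | ∀ y ∈ L, x * y ∈ L}
      one_mem' := fun y hy => by rwa [one_mul]
      mul_mem' := fun hx hy y hy' => by rw [mul_assoc]; exact hx _ (hy y hy')
      zero_mem' := fun y _ => by rw [zero_mul]; exact L.zero_mem
      add_mem' := fun hx hy y hy' => by rw [add_mul]; exact L.add_mem (hx y hy') (hy y hy')
      algebraMap_mem' := fun n y hy => by
        rw [eq_intCast, ← zsmul_eq_mul]; exact L.smul_mem n hy }
  have hR : ∀ x : ℂ, (∀ (u : ZMod N) (n : ℕ), x * (ε u * a n) ∈ L) → x ∈ R := fun x hx y hy => by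
    induction hy using Submodule.span_induction with
    | mem y hy => obtain ⟨⟨u, n⟩, rfl⟩ := hy; exact hx u n
    | zero => rw [mul_zero]; exact L.zero_mem
    | add y z _ _ hy hz => rw [mul_add]; exact L.add_mem hy hz
    | smul c y _ hy => rw [mul_smul_comm]; exact L.smul_mem c hy
  have hint : ∀ x ∈ R, IsIntegral ℤ x := fun x hx =>
    isIntegral_of_smul_mem_submodule L
      (fun h => one_ne_zero ((Submodule.mem_bot ℤ).1 (h ▸ h1L))) hLfg x hx
  have hRL : R.toSubmodule ≤ L := fun x hx => by simpa using hx 1 h1L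
  haveI := isNoetherian_of_fg_of_noetherian L hLfg
  obtain ⟨s, hs⟩ : R.toSubmodule.FG := Submodule.FG.of_le hLfg hRL
  have hsint : ∀ x ∈ (s : Set ℂ), IsIntegral ℚ x := fun x hx =>
    (hint x (show x ∈ R.toSubmodule from hs ▸ Submodule.subset_span hx)).tower_top
  refine ⟨IntermediateField.adjoin ℚ (s : Set ℂ),
    IntermediateField.finiteDimensional_adjoin hsint, fun p hp hpN => ?_⟩
  have hK : ∀ x ∈ R, x ∈ IntermediateField.adjoin ℚ (s : Set ℂ) := fun x hx => by
    have hx' : x ∈ Submodule.span ℤ (s : Set ℂ) := hs.symm ▸ (hx : x ∈ R.toSubmodule)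
    clear hx
    induction hx' using Submodule.span_induction with
    | mem y hy => exact IntermediateField.subset_adjoin ℚ _ hy
    | zero => exact zero_mem _
    | add y z _ _ hy hz => exact add_mem hy hz
    | smul c y _ hy => exact zsmul_mem hy c
  have hεp : ε (p : ZMod N) ∈ R := hR _ fun u n => by
    rw [← mul_assoc, ← map_mul]; exact hmem _ n
  have hap : a p ∈ R := hR _ fun u n => by
    have h : a (p * n) + ε (p : ZMod N) * (if p ∣ n then a (n / p) else 0) = a p * a n :=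
      hf.rel p hp hpN n
    have e : a p * (ε u * a n) = ε u * a (p * n) +
        ε (u * (p : ZMod N)) * (if p ∣ n then a (n / p) else 0) := by
      rw [map_mul]; linear_combination -(ε u) * h
    rw [e]
    refine L.add_mem (hmem _ _) ?_
    split_ifs
    · exact hmem _ _
    · rw [mul_zero]; exact L.zero_mem
  exact ⟨hint _ hap, hK _ hap, hK _ hεp⟩

end FA.Weight1

end
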