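import Fermat.Agent.HeckeH1.Diamond
import Fermat.Agent.Period.Forms
import Fermat.Prelude.Thm_UpperHalfPlane_qCoeff_heckeU

/-!
# Cusp forms on a subgroup of `SL(2, ℤ)` as functions, and the Hecke operators on `Γ_H(M)`

`space Γ k` is the space of functions invariant of weight `k`, holomorphic and zero at every cusp.
-/

set_option autoImplicit false
set_option linter.unusedSectionVars false
set_option linter.style.haveILetI false

noncomputable section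

namespace FA.Weight1

open UpperHalfPlane ModularForm CongruenceSubgroup Filter FA.Period
open FA.HeckeH1 (GamH Tc glQ gl MatZ toR Dl RIdx rep ulHom)
open scoped MatrixGroups Manifold Topology

/-! ### Integral matrices of positive determinant -/

/-- An integral matrix as an element of `GL(2, ℝ)`. -/
def mR (X : MatZ) : GL (Fin 2) ℝ := toR (gl X)

theorem mR_coe (g : SL(2, ℤ)) : mR g.1 = (g : GL (Fin 2) ℝ) := by
  rw [mR, FA.HeckeH1.gl_coe]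
  ext i j
  simp [toR]

theorem mR_mul {X Y : MatZ} (hX : X.det ≠ 0) (hY : Y.det ≠ 0) : mR (X * Y) = mR X * mR Y := by
  rw [mR, FA.HeckeH1.gl_mul hX hY, map_mul]; rfl

theorem coe_mR {X : MatZ} (hX : X.det ≠ 0) : (mR X).1 = X.map (Int.cast : ℤ → ℝ) :=
  FA.HeckeH1.coe_toR_gl hX

theorem det_mR {X : MatZ} (hX : X.det ≠ 0) : ((mR X).det : ℝ) = (X.det : ℝ) := by
  rw [Matrix.GeneralLinearGroup.val_det_apply, coe_mR hX]
  exact ((Int.castRingHom ℝ).map_det X).symm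

theorem σ_mR {X : MatZ} (hX : 0 < X.det) : UpperHalfPlane.σ (mR X) = .refl ℝ ℂ := by
  rw [UpperHalfPlane.σ, if_pos (by rw [det_mR hX.ne']; exact_mod_cast hX)]

theorem smul_slash_mR {k : ℤ} {X : MatZ} (hX : 0 < X.det) (c : ℂ) (f : ℍ → ℂ) :
    (c • f) ∣[k] mR X = c • (f ∣[k] mR X) := by
  rw [ModularForm.smul_slash, σ_mR hX]; rfl

theorem sub_slash_mR {k : ℤ} (X : MatZ) (f g : ℍ → ℂ) :
    (f - g) ∣[k] mR X = f ∣[k] mR X - g ∣[k] mR X := by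
  rw [sub_eq_add_neg, SlashAction.add_slash, SlashAction.neg_slash, ← sub_eq_add_neg]

theorem slash_mR_mul {k : ℤ} (g : SL(2, ℤ)) {X : MatZ} (hX : X.det ≠ 0) (f : ℍ → ℂ) :
    f ∣[k] mR (g.1 * X) = (f ∣[k] g) ∣[k] mR X := by
  rw [mR_mul (by rw [g.2]; exact one_ne_zero) hX, mR_coe, SlashAction.slash_mul]; rfl

theorem slash_mR_mul' {k : ℤ} (g : SL(2, ℤ)) {X : MatZ} (hX : X.det ≠ 0) (f : ℍ → ℂ) :
    f ∣[k] mR (X * g.1) = (f ∣[k] mR X) ∣[k] g := by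
  rw [mR_mul hX (by rw [g.2]; exact one_ne_zero), mR_coe, SlashAction.slash_mul]; rfl

/-- Triangulation by an element of `SL(2, ℤ)`. -/
theorem exists_upper {X : MatZ} (hX : 0 < X.det) :
    ∃ (γ : SL(2, ℤ)) (Y : MatZ), Y 1 0 = 0 ∧ Y.det = X.det ∧ X = γ.1 * Y := by
  have hg : 0 < Int.gcd (X 0 0) (X 1 0) := by
    refine Nat.pos_of_ne_zero fun h => ?_
    obtain ⟨h1, h2⟩ := Int.gcd_eq_zero_iff.mp h
    rw [Matrix.det_fin_two, h1, h2] at hX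
    simp at hX
  obtain ⟨p, r, hpr, hxp, hzr⟩ := Int.exists_gcd_one hg
  obtain ⟨u, v, huv⟩ := Int.isCoprime_iff_gcd_eq_one.mpr hpr
  let γ : SL(2, ℤ) := ⟨!![p, -v; r, u], by rw [Matrix.det_fin_two_of]; linarith [mul_comm u p]⟩
  refine ⟨γ, (γ⁻¹ : SL(2, ℤ)).1 * X, ?_, by rw [Matrix.det_mul, (γ⁻¹).2, one_mul], ?_⟩
  · rw [Matrix.SpecialLinearGroup.coe_inv]
    simp [γ, Matrix.adjugate_fin_two, Matrix.mul_apply, Fin.sum_univ_two]
    linear_combination -r * hxp + p * hzr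
  · rw [← Matrix.mul_assoc, ← Matrix.SpecialLinearGroup.coe_mul, mul_inv_cancel,
      Matrix.SpecialLinearGroup.coe_one, Matrix.one_mul]

theorem mR_one_zero {Y : MatZ} (hd : Y.det ≠ 0) (h : Y 1 0 = 0) : mR Y 1 0 = 0 := by
  rw [coe_mR hd]; simp [h]

/-! ### The spaces -/

/-- Cusp forms of weight `k` on `Γ`, as functions. -/
def space (Γ : Subgroup SL(2, ℤ)) (k : ℤ) : Submodule ℂ (ℍ → ℂ) where
  carrier := {f | (∀ γ ∈ Γ, f ∣[k] γ = f) ∧ MDiff f ∧ ∀ δ : SL(2, ℤ), IsZeroAtImInfty (f ∣[k] δ)}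
  zero_mem' := ⟨fun γ _ => SlashAction.zero_slash _ _, mdifferentiable_const, fun γ => by
    rw [SlashAction.zero_slash]; exact tendsto_const_nhds⟩
  add_mem' := fun {f g} hf hg =>
    ⟨fun γ hγ => by rw [SlashAction.add_slash, hf.1 γ hγ, hg.1 γ hγ], hf.2.1.add hg.2.1,
      fun γ => by
        rw [SlashAction.add_slash]
        simpa [IsZeroAtImInfty, ZeroAtFilter] using (hf.2.2 γ).add (hg.2.2 γ)⟩
  smul_mem' := fun c f hf => ⟨fun γ hγ => by rw [SL_smul_slash, hf.1 γ hγ], hf.2.1.const_smul c,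
    fun γ => by
      rw [SL_smul_slash]
      simpa [IsZeroAtImInfty, ZeroAtFilter, Pi.smul_def] using (hf.2.2 γ).const_smul c⟩

variable {Γ Γ' : Subgroup SL(2, ℤ)} {k : ℤ} {f : ℍ → ℂ}

theorem mem_space : f ∈ space Γ k ↔ (∀ γ ∈ Γ, f ∣[k] γ = f) ∧ MDiff f ∧
    ∀ δ : SL(2, ℤ), IsZeroAtImInfty (f ∣[k] δ) := Iff.rfl

theorem space_anti (h : Γ' ≤ Γ) : space Γ k ≤ space Γ' k :=
  fun _ hf => ⟨fun γ hγ => hf.1 γ (h hγ), hf.2⟩

theorem isQFun_of_space (hT : ModularGroup.T ∈ Γ) (hf : f ∈ space Γ k) : IsQFun f :=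
  ⟨periodic_of_slash_T (hf.1 _ hT), hf.2.1,
    (by simpa using hf.2.2 1 : IsZeroAtImInfty f).isBoundedAtImInfty⟩

theorem isZeroAtImInfty_slash_mR (hf : f ∈ space Γ k) {X : MatZ} (hX : 0 < X.det) :
    IsZeroAtImInfty (f ∣[k] mR X) := by
  obtain ⟨γ, Y, hY0, hYd, rfl⟩ := exists_upper hX
  have hY : Y.det ≠ 0 := by rw [hYd]; exact hX.ne'
  rw [slash_mR_mul γ hY]
  exact IsZeroAtImInfty.slash k (mR_one_zero hY hY0) (hf.2.2 γ)

theorem isZeroAtImInfty_slash_mR_slash (hf : f ∈ space Γ k) {X : MatZ} (hX : 0 < X.det)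
    (δ : SL(2, ℤ)) : IsZeroAtImInfty ((f ∣[k] mR X) ∣[k] δ) := by
  rw [← slash_mR_mul' δ hX.ne']
  exact isZeroAtImInfty_slash_mR hf (by rwa [Matrix.det_mul, δ.2, mul_one])

theorem mdiff_slash_mR (hf : f ∈ space Γ k) (X : MatZ) : MDiff (f ∣[k] mR X) :=
  hf.2.1.slash k _

/-- Conjugating the level. -/
theorem slash_mR_mem (hf : f ∈ space Γ k) {X : MatZ} (hX : 0 < X.det)
    (h : ∀ γ ∈ Γ', ∃ γ' ∈ Γ, X * γ.1 = (γ' : SL(2, ℤ)).1 * X) : f ∣[k] mR X ∈ space Γ' k := by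
  refine ⟨fun γ hγ => ?_, mdiff_slash_mR hf X, isZeroAtImInfty_slash_mR_slash hf hX⟩
  obtain ⟨γ', hγ', e⟩ := h γ hγ
  rw [← slash_mR_mul' γ hX.ne', e, slash_mR_mul γ' hX.ne', hf.1 γ' hγ']

/-- A cusp form on `Γ₁(N)` as a function of the space. -/
theorem coe_mem_space {N : ℕ} [NeZero N] (F : CuspForm (Gamma1 N) k) :
    ⇑F ∈ space (GamH N ⊥) k := by
  refine ⟨fun γ hγ => ?_, CuspFormClass.holo F, fun δ => ?_⟩
  · refine SlashInvariantFormClass.slash_action_eq F (γ : GL (Fin 2) ℝ) ⟨γ, ?_, rfl⟩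
    obtain ⟨-, hc, u, hu, hua⟩ := hγ
    rw [Subgroup.mem_bot] at hu
    subst hu
    have hc' := (ZMod.intCast_zmod_eq_zero_iff_dvd _ _).2 hc
    have hd := congrArg (fun x : ℤ => (x : ZMod N)) γ.2
    simp only [Matrix.det_fin_two, Int.cast_sub, Int.cast_mul, hc', mul_zero, sub_zero, ← hua,
      Units.val_one, one_mul, Int.cast_one] at hd
    exact (Gamma1_mem N γ).2 ⟨by rw [← hua, Units.val_one], hd, hc'⟩
  · refine F.zero_at_cusps' ?_ (δ : GL (Fin 2) ℝ) rfl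
    rw [Subgroup.IsArithmetic.isCusp_iff_isCusp_SL2Z, isCusp_SL2Z_iff']
    exact ⟨δ, rfl⟩

/-! ### Hecke operators -/

variable {M : ℕ} {H : Subgroup (ZMod M)ˣ} {ℓ : ℕ}

/-- The sum over the representatives. -/
def opFun (M : ℕ) (k : ℤ) (ℓ : ℕ) (f : ℍ → ℂ) : ℍ → ℂ :=
  ∑ i : RIdx M ℓ, f ∣[k] mR (rep M ℓ i)

theorem rep_det_pos (hℓ : ℓ.Prime) (i : RIdx M ℓ) : 0 < (rep M ℓ i).det := by
  rw [FA.HeckeH1.rep_det hℓ]; exact_mod_cast hℓ.pos

/-- The Hecke operator of the prime `ℓ` on the space of `Γ_H(M)`. -/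
def opH (M : ℕ) (H : Subgroup (ZMod M)ˣ) (k : ℤ) (ℓ : ℕ) [Fact ℓ.Prime] : space (GamH M H) k →ₗ[ℂ] space (GamH M H) k where
  toFun f := ⟨opFun M k ℓ f, by
    have hℓ : ℓ.Prime := Fact.out
    refine ⟨fun γ hγ => ?_, ?_, fun δ => ?_⟩
    · rw [opFun, SlashAction.sum_slash]
      refine Eq.trans ?_ (Equiv.sum_comp ((Tc M H ℓ).perm ⟨γ, hγ⟩)
        fun i : RIdx M ℓ => (f : ℍ → ℂ) ∣[k] mR (rep M ℓ i))
      refine Finset.sum_congr rfl fun i _ => ?_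
      have e : gl (rep M ℓ i) * glQ γ = glQ ((Tc M H ℓ).fac ⟨γ, hγ⟩ i : SL(2, ℤ)) *
          gl (rep M ℓ ((Tc M H ℓ).perm ⟨γ, hγ⟩ i)) := (Tc M H ℓ).fac_spec ⟨γ, hγ⟩ i
      have e' : mR (rep M ℓ i) * mR γ.1 = mR ((Tc M H ℓ).fac ⟨γ, hγ⟩ i : SL(2, ℤ)).1 *
          mR (rep M ℓ ((Tc M H ℓ).perm ⟨γ, hγ⟩ i)) := by
        simp only [mR, ← map_mul, FA.HeckeH1.gl_coe, e]
      rw [mR_coe, mR_coe] at e'
      show ((f : ℍ → ℂ) ∣[k] mR (rep M ℓ i)) ∣[k] (γ : GL (Fin 2) ℝ) = _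
      rw [← SlashAction.slash_mul, e', SlashAction.slash_mul]
      exact congrArg (· ∣[k] mR (rep M ℓ ((Tc M H ℓ).perm ⟨γ, hγ⟩ i)))
        (f.2.1 _ ((Tc M H ℓ).fac ⟨γ, hγ⟩ i).2)
    · exact MDifferentiable.sum fun i _ => mdiff_slash_mR f.2 _
    · rw [opFun, SlashAction.sum_slash]
      simp only [IsZeroAtImInfty, ZeroAtFilter]
      rw [show (0 : ℂ) = ∑ _i : RIdx M ℓ, (0 : ℂ) by simp, Finset.sum_fn]
      exact tendsto_finsetSum _ fun i _ =>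
        isZeroAtImInfty_slash_mR_slash f.2 (rep_det_pos hℓ i) δ⟩
  map_add' f g := Subtype.ext (by
    simp only [opFun, Submodule.coe_add, SlashAction.add_slash, Finset.sum_add_distrib])
  map_smul' c f := Subtype.ext (by
    simp only [opFun, SetLike.val_smul, RingHom.id_apply, Finset.smul_sum]
    exact Finset.sum_congr rfl fun i _ => smul_slash_mR (rep_det_pos (Fact.out : ℓ.Prime) i) c _)

theorem coe_opH [Fact ℓ.Prime] (f : space (GamH M H) k) :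
    (opH M H k ℓ f : ℍ → ℂ) = opFun M k ℓ f := rfl

/-- The matrix of `Γ₀(M)` with lower right entry `ℓ`. -/
def pGam (hℓ : ℓ.Prime) (hM : ¬ ℓ ∣ M) : GamH M (⊤ : Subgroup (ZMod M)ˣ) :=
  ⟨⟨!![Nat.gcdA ℓ M, -Nat.gcdB ℓ M; (M : ℤ), (ℓ : ℤ)], by
      rw [Matrix.det_fin_two_of]; linear_combination FA.HeckeH1.bezout_eq hℓ hM⟩, by
    refine FA.HeckeH1.GamH_top.ge (Gamma0_mem.2 ?_)
    show (((M : ℤ)) : ZMod M) = 0
    simp⟩

theorem rep_none (hℓ : ℓ.Prime) (hM : ¬ ℓ ∣ M)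
    (hi : (none : Option (Fin ℓ)) = none → ¬ ℓ ∣ M) :
    rep M ℓ ⟨none, hi⟩ = ((pGam hℓ hM : GamH M ⊤) : SL(2, ℤ)).1 * !![(ℓ : ℤ), 0; 0, 1] := by
  ext r s
  fin_cases r <;> fin_cases s <;> simp [rep, pGam, Matrix.mul_apply, Fin.sum_univ_two]

theorem mR_diag {n : ℕ} (hn : n ≠ 0) : mR !![(n : ℤ), 0; 0, 1] = heckeDiagMatrix n := by
  apply Units.ext
  rw [coe_mR (by simp [Matrix.det_fin_two_of, hn]), val_heckeDiagMatrix hn]
  ext r s
  fin_cases r <;> fin_cases s <;> simp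

theorem mR_some (hℓ : ℓ.Prime) (j : Fin ℓ) (hj : (some j : Option (Fin ℓ)) = none → ¬ ℓ ∣ M) :
    mR (rep M ℓ ⟨some j, hj⟩) = heckeMatrix ℓ (j : ℕ) := by
  apply Units.ext
  rw [coe_mR (rep_det_pos hℓ _).ne', val_heckeMatrix hℓ.ne_zero]
  ext r s
  fin_cases r <;> fin_cases s <;> simp [rep]

theorem opFun_eq (hℓ : ℓ.Prime) (f : ℍ → ℂ) : opFun M k ℓ f = heckeU k ℓ f +
    if hM : ℓ ∣ M then 0
    else (f ∣[k] (pGam hℓ hM : SL(2, ℤ))) ∣[k] heckeDiagMatrix ℓ := by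
  classical
  have hU : heckeU k ℓ f = ∑ j : Fin ℓ, f ∣[k] heckeMatrix ℓ (j : ℕ) := by
    rw [heckeU_def, Finset.sum_range]
  rw [hU]
  by_cases hM : ℓ ∣ M
  · rw [dif_pos hM, add_zero]
    exact (Fintype.sum_bijective (fun j : Fin ℓ => (⟨some j, by simp⟩ : RIdx M ℓ))
      ⟨fun a b h => by simpa using h, fun ⟨x, hx⟩ => by
        cases x with
        | none => exact absurd hM (hx rfl)
        | some j => exact ⟨j, rfl⟩⟩ _ _ fun j => by rw [mR_some hℓ]).symm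
  · rw [dif_neg hM]
    let e : RIdx M ℓ ≃ Option (Fin ℓ) := Equiv.subtypeUnivEquiv fun x _ => hM
    rw [opFun, ← Equiv.sum_comp e.symm, Fintype.sum_option, add_comm]
    refine congrArg₂ (· + ·) (Finset.sum_congr rfl fun j _ => ?_) ?_
    · exact congrArg (f ∣[k] ·) (mR_some hℓ j (by simp))
    · show f ∣[k] mR (rep M ℓ ⟨none, fun _ => hM⟩) = _
      rw [rep_none hℓ hM, slash_mR_mul _ (by simp [Matrix.det_fin_two_of, hℓ.ne_zero]),
        mR_diag hℓ.ne_zero]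

/-! ### Coefficients -/

theorem qExp_heckeU (hf : IsQFun f) (hℓ : ℓ ≠ 0) (n : ℕ) :
    (qExp (heckeU k ℓ f)).coeff n = (qExp f).coeff (n * ℓ) :=
  UpperHalfPlane.qCoeff_heckeU (by exact_mod_cast hf.periodic) hf.mdiff hf.bdd k hℓ n

theorem isQFun_slash_diag (hf : IsQFun f) (hℓ : ℓ ≠ 0) : IsQFun (f ∣[k] heckeDiagMatrix ℓ) := by
  refine ⟨fun z => ?_, hf.mdiff.slash k _, hf.bdd.slash k (by simp [val_heckeDiagMatrix hℓ])⟩
  by_cases hz : 0 < z.im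
  · have hz1 : 0 < (z + ((1 : ℝ) : ℂ)).im := by simpa using hz
    simp only [Function.comp_apply, ofComplex_apply_of_im_pos hz, ofComplex_apply_of_im_pos hz1,
      slash_heckeDiagMatrix_apply k hℓ]
    congr 1
    have h := hf.periodic.nat_mul ℓ ((ℓ : ℂ) * z)
    simp only [Function.comp_apply] at h
    have hi : 0 < ((ℓ : ℂ) * z).im := by
      simpa using mul_pos (Nat.cast_pos.2 (Nat.pos_of_ne_zero hℓ) : (0 : ℝ) < ℓ) hz
    have hi1 : 0 < ((ℓ : ℂ) * z + ((ℓ : ℝ) * (1 : ℝ) : ℝ)).im := by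
      simpa using hi
    rw [ofComplex_apply_of_im_pos (by push_cast at hi1 ⊢; simpa using hi1),
      ofComplex_apply_of_im_pos hi] at h
    convert h using 2 <;> apply UpperHalfPlane.ext <;> rw [coe_heckeDiagMatrix_smul hℓ] <;>
      simp <;> ring
  · have hz1 : (z + ((1 : ℝ) : ℂ)).im ≤ 0 := by simpa using hz
    simp only [Function.comp_apply, ofComplex_apply_of_im_nonpos hz1,
      ofComplex_apply_of_im_nonpos (not_lt.mp hz)]

theorem qExp_slash_diag (hf : IsQFun f) (hℓ : ℓ ≠ 0) (n : ℕ) :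
    (qExp (f ∣[k] heckeDiagMatrix ℓ)).coeff n =
      (ℓ : ℂ) ^ (k - 1) * if ℓ ∣ n then (qExp f).coeff (n / ℓ) else 0 := by
  refine ((isQFun_slash_diag hf hℓ).coeff_unique (c := fun n => (ℓ : ℂ) ^ (k - 1) *
    if ℓ ∣ n then (qExp f).coeff (n / ℓ) else 0) (fun τ => ?_) n).symm
  have hs := hasSum_qExpansion one_pos hf.periodic hf.mdiff hf.bdd (heckeDiagMatrix ℓ • τ)
  have hqq : Function.Periodic.qParam 1 (heckeDiagMatrix ℓ • τ : ℍ)
      = Function.Periodic.qParam 1 τ ^ ℓ := by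
    rw [Function.Periodic.qParam, Function.Periodic.qParam, coe_heckeDiagMatrix_smul hℓ,
      ← Complex.exp_nat_mul]
    congr 1
    ring
  rw [slash_heckeDiagMatrix_apply k hℓ]
  simp only [smul_eq_mul, mul_assoc]
  refine HasSum.mul_left _ ?_
  have hinj : Function.Injective fun m : ℕ => ℓ * m := mul_right_injective₀ hℓ
  rw [← hinj.hasSum_iff fun m hm => ?_]
  · refine HasSum.congr_fun hs fun m => ?_
    simp [hqq, Nat.mul_div_cancel_left _ (Nat.pos_of_ne_zero hℓ), pow_mul]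
  · rw [if_neg fun ⟨l, hl⟩ => hm ⟨l, hl.symm⟩, zero_mul]

theorem T_mem_GamH' : ModularGroup.T ∈ GamH M H := FA.HeckeH1.T_mem_GamH

theorem slash_top_mem (hf : f ∈ space (GamH M H) k) (g : GamH M (⊤ : Subgroup (ZMod M)ˣ)) :
    f ∣[k] (g : SL(2, ℤ)) ∈ space (GamH M H) k := by
  refine ⟨fun γ hγ => ?_, hf.2.1.slash k _, fun δ => ?_⟩
  · have h := (FA.HeckeH1.diaConj_mem g ⟨γ, hγ⟩ : _ ∈ GamH M H)
    rw [← SlashAction.slash_mul, show (g : SL(2, ℤ)) * γ =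
      ((g : SL(2, ℤ)) * γ * (g : SL(2, ℤ))⁻¹) * g by group, SlashAction.slash_mul, hf.1 _ h]
  · rw [← SlashAction.slash_mul]; exact hf.2.2 _

/-- **Coefficients of the Hecke operators.** -/
theorem qExp_opH [Fact ℓ.Prime] (f : space (GamH M H) k) (n : ℕ) :
    (qExp (opH M H k ℓ f : ℍ → ℂ)).coeff n = (qExp (f : ℍ → ℂ)).coeff (n * ℓ) +
      if hM : ℓ ∣ M then 0 else (ℓ : ℂ) ^ (k - 1) * if ℓ ∣ n then
        (qExp ((f : ℍ → ℂ) ∣[k] (pGam Fact.out hM : SL(2, ℤ)))).coeff (n / ℓ) else 0 := by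
  have hℓ : ℓ.Prime := Fact.out
  have hQ := isQFun_of_space T_mem_GamH' f.2
  have hQ' := isQFun_of_space T_mem_GamH' (opH M H k ℓ f).2
  rw [coe_opH, opFun_eq hℓ]
  by_cases hM : ℓ ∣ M
  · rw [dif_pos hM, dif_pos hM, add_zero, add_zero, qExp_heckeU hQ hℓ.ne_zero]
  · rw [coe_opH, opFun_eq hℓ, dif_neg hM] at hQ'
    rw [dif_neg hM, dif_neg hM]
    have hgQ := isQFun_of_space (T_mem_GamH' (H := H)) (slash_top_mem f.2 (pGam hℓ hM))
    have hd : IsQFun (((f : ℍ → ℂ) ∣[k] (pGam hℓ hM : SL(2, ℤ))) ∣[k] heckeDiagMatrix ℓ) :=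
      isQFun_slash_diag hgQ hℓ.ne_zero
    have hU : IsQFun (heckeU k ℓ (f : ℍ → ℂ)) := by
      simpa using hQ'.sub hd
    rw [hU.qExp_add hd, map_add, qExp_heckeU hQ hℓ.ne_zero, qExp_slash_diag hgQ hℓ.ne_zero]

end FA.Weight1

end
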