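import Fermat.Agent.Weight1.SepForm
import Fermat.Agent.Weight1.Forms
import Fermat.Agent.Period.Galois

/-!
# Applying a field automorphism to the coefficients of the cusp forms of a level

Interpolation over the cosets with a form of rational series fixed exactly by the group of the
level, and the monic equation over the forms of level one.
-/

set_option autoImplicit false
set_option linter.unusedSectionVars false
set_option linter.style.haveILetI false

noncomputable section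

namespace FA.Weight1

open UpperHalfPlane ModularForm CongruenceSubgroup Filter FA.Period
open scoped MatrixGroups Manifold Topology

section general

variable {Γ : Subgroup SL(2, ℤ)} {w w' k : ℤ} {f g : ℍ → ℂ}

theorem mul_mem_formsG (hf : f ∈ formsG Γ w) (hg : g ∈ formsG Γ w') :
    f * g ∈ formsG Γ (w + w') :=
  ⟨fun γ hγ => by rw [mul_slash_SL2, hf.1 γ hγ, hg.1 γ hγ], hf.2.1.mul hg.2.1,
    fun γ => by rw [mul_slash_SL2]; exact (hf.2.2 γ).mul (hg.2.2 γ)⟩

theorem one_mem_formsG : (1 : ℍ → ℂ) ∈ formsG Γ 0 :=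
  ⟨fun γ _ => is_invariant_one γ, mdifferentiable_const,
    fun γ => by rw [is_invariant_one]; exact Filter.const_boundedAtFilter _ _⟩

theorem space_le_formsG (hf : f ∈ space Γ k) : f ∈ formsG Γ k :=
  ⟨hf.1, hf.2.1, fun γ => (hf.2.2 γ).isBoundedAtImInfty⟩

theorem forms_one_le_formsG : forms 1 w ≤ formsG Γ w := fun _ hf =>
  ⟨fun γ _ => slash_eq_of_mem_forms_one hf γ, hf.2⟩

theorem ratG_le (Γ : Subgroup SL(2, ℤ)) (w : ℤ) : ratG Γ w ≤ formsG Γ w :=
  Submodule.span_le.mpr fun _ hg => hg.1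

theorem isRationalSeq_mul {x y : PowerSeries ℂ} (hx : IsRationalSeq fun n => x.coeff n)
    (hy : IsRationalSeq fun n => y.coeff n) : IsRationalSeq fun n => (x * y).coeff n := by
  choose a ha using hx
  choose b hb using hy
  intro n
  refine ⟨∑ p ∈ Finset.HasAntidiagonal.antidiagonal n, a p.1 * b p.2, ?_⟩
  show (x * y).coeff n = _
  rw [PowerSeries.coeff_mul, Rat.cast_sum]
  refine Finset.sum_congr rfl fun p _ => ?_
  rw [Rat.cast_mul, ← ha, ← hb]

theorem ratForms_one_le_ratG : ratForms 1 w ≤ ratG Γ w := by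
  refine Submodule.span_mono ?_
  rintro g ⟨hg, D, hD, ψ, hψ⟩
  refine ⟨forms_one_le_formsG hg, fun n => ⟨(ψ.coeff n : ℚ) / D, ?_⟩⟩
  have h := congrArg (PowerSeries.coeff n) hψ
  simp only [PowerSeries.coeff_smul, smul_eq_mul, PowerSeries.coeff_map, eq_intCast] at h
  show (qExp g).coeff n = _
  rw [Rat.cast_div, Rat.cast_intCast, Rat.cast_natCast, ← h,
    mul_div_cancel_left₀ _ (Nat.cast_ne_zero.2 hD)]

theorem one_mem_ratG : (1 : ℍ → ℂ) ∈ ratG Γ 0 := ratForms_one_le_ratG one_mem_ratForms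

variable (hT : ModularGroup.T ∈ Γ)
include hT

theorem isQFun_formsG (hf : f ∈ formsG Γ w) : IsQFun f :=
  ⟨periodic_of_slash_T (hf.1 _ hT), hf.2.1, by simpa using hf.2.2 1⟩

theorem mul_mem_ratG (hf : f ∈ ratG Γ w) (hg : g ∈ ratG Γ w') : f * g ∈ ratG Γ (w + w') := by
  have h := Submodule.mul_mem_mul hf hg
  rw [ratG, ratG, Submodule.span_mul_span] at h
  refine Submodule.span_mono ?_ h
  rintro _ ⟨a, ha, b, hb, rfl⟩
  exact ⟨mul_mem_formsG ha.1 hb.1, by
    rw [(isQFun_formsG hT ha.1).qExp_mul (isQFun_formsG hT hb.1)]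
    exact isRationalSeq_mul ha.2 hb.2⟩

theorem pow_mem_ratG (hf : f ∈ ratG Γ w) : ∀ n : ℕ, f ^ n ∈ ratG Γ (n * w)
  | 0 => by simpa using one_mem_ratG
  | n + 1 => by
    have := mul_mem_ratG hT (pow_mem_ratG hf n) hf
    rw [← pow_succ] at this
    convert this using 2
    push_cast; ring

theorem exists_conjugate_ratG (σ : ℂ →+* ℂ) (hf : f ∈ ratG Γ w) :
    ∃ f' ∈ ratG Γ w, qExp f' = PowerSeries.map σ (qExp f) := by
  induction hf using Submodule.span_induction with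
  | mem g hg =>
    refine ⟨g, Submodule.subset_span hg, ?_⟩
    ext n
    obtain ⟨r, hr⟩ := hg.2 n
    rw [PowerSeries.coeff_map]
    simp only at hr
    rw [hr, map_ratCast]
  | zero => exact ⟨0, zero_mem _, by simp [qExpansion_zero]⟩
  | add a b ha hb iha ihb =>
    obtain ⟨a', ha', qa⟩ := iha
    obtain ⟨b', hb', qb⟩ := ihb
    exact ⟨a' + b', add_mem ha' hb', by
      rw [(isQFun_formsG hT (ratG_le _ _ ha')).qExp_add (isQFun_formsG hT (ratG_le _ _ hb')),
        (isQFun_formsG hT (ratG_le _ _ ha)).qExp_add (isQFun_formsG hT (ratG_le _ _ hb)), map_add,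
        qa, qb]⟩
  | smul c a ha iha =>
    obtain ⟨a', ha', qa⟩ := iha
    refine ⟨σ c • a', Submodule.smul_mem _ _ ha', ?_⟩
    rw [(isQFun_formsG hT (ratG_le _ _ ha')).qExp_smul,
      (isQFun_formsG hT (ratG_le _ _ ha)).qExp_smul,
      PowerSeries.smul_eq_C_mul, PowerSeries.smul_eq_C_mul, map_mul, PowerSeries.map_C, qa]

end general

section cosets

variable {Γ : Subgroup SL(2, ℤ)} [Fintype (SL(2, ℤ) ⧸ Γ)] {w k : ℤ} {f F : ℍ → ℂ}

/-- The translate of `f` attached to a coset. -/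
def conjG (w : ℤ) (f : ℍ → ℂ) (q : SL(2, ℤ) ⧸ Γ) : ℍ → ℂ := f ∣[w] (Quotient.out q)⁻¹

theorem conjG_mk (hf : f ∈ formsG Γ w) (g : SL(2, ℤ)) :
    conjG w f (QuotientGroup.mk g : SL(2, ℤ) ⧸ Γ) = f ∣[w] g⁻¹ := by
  obtain ⟨⟨h, hh⟩, hout⟩ := QuotientGroup.mk_out_eq_mul Γ g
  rw [conjG, hout, mul_inv_rev, SlashAction.slash_mul, hf.1 _ (inv_mem hh)]

theorem conjG_slash (hf : f ∈ formsG Γ w) (γ : SL(2, ℤ)) (q : SL(2, ℤ) ⧸ Γ) :
    conjG w f q ∣[w] γ = conjG w f (γ⁻¹ • q) := by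
  induction q using QuotientGroup.induction_on with
  | _ g => rw [MulAction.Quotient.smul_mk, conjG_mk hf, conjG_mk hf, ← SlashAction.slash_mul,
      smul_eq_mul, mul_inv_rev, inv_inv]

theorem conjG_one (hf : f ∈ formsG Γ w) :
    conjG w f (QuotientGroup.mk 1 : SL(2, ℤ) ⧸ Γ) = f := by
  rw [conjG_mk hf, inv_one, SlashAction.slash_one]

theorem prod_conjG_slash (hf : f ∈ formsG Γ w) (γ : SL(2, ℤ)) (S : Finset (SL(2, ℤ) ⧸ Γ)) :
    (∏ q ∈ S, conjG w f q) ∣[(S.card : ℤ) * w] γ = ∏ q ∈ S, conjG w f (γ⁻¹ • q) := by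
  classical
  induction S using Finset.induction_on with
  | empty => simpa using is_invariant_one γ
  | @insert a s ha ih =>
    rw [Finset.prod_insert ha, Finset.prod_insert ha, Finset.card_insert_of_notMem ha,
      show ((s.card + 1 : ℕ) : ℤ) * w = w + (s.card : ℤ) * w by push_cast; ring, mul_slash_SL2,
      conjG_slash hf, ih]

/-- A cusp form is a root of a monic polynomial with coefficients forms of level one. -/
theorem exists_monic_equationG (hf : f ∈ space Γ k) :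
    ∃ (n : ℕ) (e : ℕ → ℍ → ℂ), 0 < n ∧ e 0 = 1 ∧ (∀ j : ℕ, e j ∈ forms 1 ((j : ℤ) * k)) ∧
      (∀ j : ℕ, j ≠ 0 → IsZeroAtImInfty (e j)) ∧
      ∑ j ∈ Finset.range (n + 1), e j * f ^ (n - j) = 0 := by
  classical
  have hff := space_le_formsG hf
  let E : ℕ → ℍ → ℂ := fun j =>
    ∑ S ∈ (Finset.univ : Finset (SL(2, ℤ) ⧸ Γ)).powersetCard j, ∏ q ∈ S, conjG k f q
  have hE : ∀ j : ℕ, E j ∈ forms 1 ((j : ℤ) * k) := fun j => by
    refine mem_forms_one_of (fun γ => ?_)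
      (mdiff_sum _ fun S _ => mdiff_prod _ fun q _ => hf.2.1.slash k _)
      (bdd_sum _ fun S _ => bdd_prod _ fun q _ => hff.2.2 _)
    rw [SlashAction.sum_slash]
    refine Finset.sum_equiv (MulAction.toPerm (γ⁻¹ : SL(2, ℤ)) :
        Equiv.Perm (SL(2, ℤ) ⧸ Γ)).finsetCongr (fun S => ?_) (fun S hS => ?_)
    · simp [Finset.mem_powersetCard]
    · rw [← (Finset.mem_powersetCard.mp hS).2, prod_conjG_slash hff, Equiv.finsetCongr_apply,
        Finset.prod_map]
      rfl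
  have hEz : ∀ j : ℕ, j ≠ 0 → IsZeroAtImInfty (E j) := fun j hj => by
    have key : ∀ S ∈ (Finset.univ : Finset (SL(2, ℤ) ⧸ Γ)).powersetCard j,
        IsZeroAtImInfty (∏ q ∈ S, conjG k f q) := by
      intro S hS
      obtain ⟨a, ha⟩ : S.Nonempty :=
        Finset.card_pos.mp (by rw [(Finset.mem_powersetCard.mp hS).2]; omega)
      rw [← Finset.mul_prod_erase S _ ha]
      have h1 : IsZeroAtImInfty (conjG k f a) := hf.2.2 _
      have h2 : IsBoundedAtImInfty (∏ q ∈ S.erase a, conjG k f q) :=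
        bdd_prod _ fun q _ => hff.2.2 _
      have h3 := ((Asymptotics.isLittleO_one_iff ℝ).mpr h1).mul_isBigO h2
      refine (Asymptotics.isLittleO_one_iff ℝ).mp ?_
      simpa [Pi.mul_def, Finset.prod_fn] using h3
    simpa [IsZeroAtImInfty, ZeroAtFilter, E, Finset.sum_fn] using tendsto_finsetSum _ key
  refine ⟨(Finset.univ : Finset (SL(2, ℤ) ⧸ Γ)).card, fun j => (-1 : ℍ → ℂ) ^ j * E j,
    Finset.card_pos.mpr ⟨QuotientGroup.mk 1, Finset.mem_univ _⟩, by simp [E], fun j => ?_,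
    fun j hj => ?_, ?_⟩
  · have : (-1 : ℍ → ℂ) ^ j * E j = ((-1 : ℂ) ^ j) • E j := by funext z; simp
    beta_reduce
    rw [this]
    exact Submodule.smul_mem _ _ (hE j)
  · have h := (hEz j hj).const_mul ((-1 : ℂ) ^ j)
    simpa [IsZeroAtImInfty, ZeroAtFilter, Pi.mul_def] using h
  · have h := prod_sub_eq_sum (Finset.univ : Finset (SL(2, ℤ) ⧸ Γ)) f (conjG k f)
    rw [Finset.prod_eq_zero (Finset.mem_univ (QuotientGroup.mk 1 : SL(2, ℤ) ⧸ Γ))
      (by rw [conjG_one hff, sub_self])] at h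
    exact h.symm

/-- The multiplier `∏_{δ ≠ 1} (F - F|δ)`. -/
def denomG (Γ : Subgroup SL(2, ℤ)) [Fintype (SL(2, ℤ) ⧸ Γ)] (w : ℤ) (F : ℍ → ℂ) : ℍ → ℂ :=
  open scoped Classical in
  ∏ q ∈ (Finset.univ : Finset (SL(2, ℤ) ⧸ Γ)).erase (QuotientGroup.mk 1), (F - conjG w F q)

variable (hT : ModularGroup.T ∈ Γ)
include hT

/-- Lagrange interpolation. -/
theorem mul_denomG_mem (hF : F ∈ ratG Γ w) (hf : f ∈ formsG Γ k) :
    f * denomG Γ w F ∈ ratG Γ (k + w * ((Fintype.card (SL(2, ℤ) ⧸ Γ) : ℤ) - 1)) := by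
  classical
  have hFf := ratG_le _ _ hF
  set o : SL(2, ℤ) ⧸ Γ := QuotientGroup.mk 1
  set n := Fintype.card (SL(2, ℤ) ⧸ Γ) with hn
  let C : ℕ → ℍ → ℂ := fun j => ∑ q : SL(2, ℤ) ⧸ Γ, conjG k f q *
    ∑ S ∈ ((Finset.univ : Finset (SL(2, ℤ) ⧸ Γ)).erase q).powersetCard j,
      ∏ i ∈ S, conjG w F i
  have hC : ∀ j : ℕ, C j ∈ forms 1 (k + (j : ℤ) * w) := fun j => by
    refine mem_forms_one_of (fun γ => ?_)
      (mdiff_sum _ fun q _ => (hf.2.1.slash k _).mul
        (mdiff_sum _ fun S _ => mdiff_prod _ fun i _ => hFf.2.1.slash w _))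
      (bdd_sum _ fun q _ => (hf.2.2 _).mul
        (bdd_sum _ fun S _ => bdd_prod _ fun i _ => hFf.2.2 _))
    rw [SlashAction.sum_slash]
    refine Finset.sum_equiv (MulAction.toPerm (γ⁻¹ : SL(2, ℤ)) : Equiv.Perm (SL(2, ℤ) ⧸ Γ))
      (fun q => by simp) (fun q _ => ?_)
    rw [mul_slash_SL2, conjG_slash hf, SlashAction.sum_slash]
    refine congrArg₂ (· * ·) rfl (Finset.sum_equiv (MulAction.toPerm (γ⁻¹ : SL(2, ℤ)) :
        Equiv.Perm (SL(2, ℤ) ⧸ Γ)).finsetCongr (fun S => ?_) (fun S hS => ?_))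
    · simp [Finset.mem_powersetCard, Finset.subset_erase]
    · rw [← (Finset.mem_powersetCard.mp hS).2, prod_conjG_slash hFf, Equiv.finsetCongr_apply,
        Finset.prod_map]
      rfl
  have h1 : f * denomG Γ w F = ∑ q : SL(2, ℤ) ⧸ Γ, conjG k f q *
      ∏ i ∈ (Finset.univ : Finset (SL(2, ℤ) ⧸ Γ)).erase q, (F - conjG w F i) := by
    rw [Finset.sum_eq_single o]
    · rw [conjG_one hf]; rfl
    · intro q _ hq
      rw [Finset.prod_eq_zero (Finset.mem_erase.mpr ⟨Ne.symm hq, Finset.mem_univ o⟩)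
        (by rw [conjG_one hFf, sub_self]), mul_zero]
    · simp
  have hcard : ∀ q : SL(2, ℤ) ⧸ Γ,
      ((Finset.univ : Finset (SL(2, ℤ) ⧸ Γ)).erase q).card = n - 1 := fun q => by simp [hn]
  have hpos : 0 < n := Fintype.card_pos_iff.mpr ⟨o⟩
  have h2 : f * denomG Γ w F =
      ∑ j ∈ Finset.range n, ((-1 : ℍ → ℂ) ^ j * C j) * F ^ (n - 1 - j) := by
    rw [h1]
    simp only [prod_sub_eq_sum, hcard, Nat.sub_add_cancel hpos, Finset.mul_sum]
    rw [Finset.sum_comm]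
    refine Finset.sum_congr rfl fun j _ => ?_
    show _ = ((-1 : ℍ → ℂ) ^ j * ∑ q : SL(2, ℤ) ⧸ Γ, conjG k f q *
      ∑ S ∈ ((Finset.univ : Finset (SL(2, ℤ) ⧸ Γ)).erase q).powersetCard j,
        ∏ i ∈ S, conjG w F i) * F ^ (n - 1 - j)
    rw [Finset.mul_sum, Finset.sum_mul]
    refine Finset.sum_congr rfl fun q _ => ?_
    rw [Finset.sum_mul, Finset.mul_sum, Finset.mul_sum, Finset.mul_sum, Finset.sum_mul]
    exact Finset.sum_congr rfl fun S _ => by ring
  rw [h2]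
  refine Submodule.sum_mem _ fun j hj => ?_
  rw [Finset.mem_range] at hj
  have h3 := mul_mem_ratG hT (ratForms_one_le_ratG (mem_ratForms_one (hC j)))
    (pow_mem_ratG hT hF (n - 1 - j))
  have h4 := Submodule.smul_mem _ ((-1 : ℂ) ^ j) h3
  convert h4 using 1
  · congr 1
    rw [Nat.cast_sub (by omega), Nat.cast_sub (by omega)]
    push_cast; ring
  · funext z; simp [mul_assoc]

theorem denomG_mem (hF : F ∈ ratG Γ w) :
    denomG Γ w F ∈ ratG Γ (w * ((Fintype.card (SL(2, ℤ) ⧸ Γ) : ℤ) - 1)) := by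
  simpa using mul_denomG_mem hT hF (one_mem_formsG (Γ := Γ))

theorem denomG_ne_zero (hF : F ∈ ratG Γ w) (hsep : ∀ γ : SL(2, ℤ), F ∣[w] γ = F → γ ∈ Γ) :
    denomG Γ w F ≠ 0 := by
  classical
  have hFf := ratG_le _ _ hF
  intro h
  have hmd : ∀ q : SL(2, ℤ) ⧸ Γ, MDiff (F - conjG w F q) := fun q =>
    hFf.2.1.sub (hFf.2.1.slash w _)
  rw [denomG, prod_eq_zero_iff (fun q _ => hmd q)] at h
  obtain ⟨q, hq, h0⟩ := h
  refine (Finset.mem_erase.mp hq).1 ?_
  have hmem := hsep _ (sub_eq_zero.mp h0).symm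
  rw [← Quotient.out_eq q]
  exact QuotientGroup.eq.mpr (by simpa using inv_mem_iff.mp hmem)

/-- Stability under the automorphisms. -/
theorem exists_conjugate_of_sep (hF : F ∈ ratG Γ w)
    (hsep : ∀ γ : SL(2, ℤ), F ∣[w] γ = F → γ ∈ Γ) (hf : f ∈ space Γ k) (σ : ℂ →+* ℂ) :
    ∃ f' ∈ space Γ k, qExp f' = PowerSeries.map σ (qExp f) := by
  classical
  obtain ⟨n, e, hn, he0, hem, hez, hrel⟩ := exists_monic_equationG hf
  set G := denomG Γ w F
  have hGr := denomG_mem hT hF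
  have hHr := mul_denomG_mem hT hF (space_le_formsG hf)
  obtain ⟨G', hG'r, hG'q⟩ := exists_conjugate_ratG hT σ hGr
  obtain ⟨H', hH'r, hH'q⟩ := exists_conjugate_ratG hT σ hHr
  choose e' he'r he'q using fun j => exists_conjugate_ratForms σ (mem_ratForms_one (hem j))
  have qG := isQFun_formsG hT (ratG_le _ _ hGr)
  have qG' := isQFun_formsG hT (ratG_le _ _ hG'r)
  have qH := isQFun_formsG hT (ratG_le _ _ hHr)
  have qH' := isQFun_formsG hT (ratG_le _ _ hH'r)
  have qe := fun j => isQFun_of_mem (hem j)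
  have qe' := fun j => isQFun_of_mem_ratForms (he'r j)
  have hG'0 : G' ≠ 0 := fun h0 => denomG_ne_zero hT hF hsep <| by
    rw [h0, qExp, qExpansion_zero] at hG'q
    refine qG.qExp_eq_zero_iff.mp (PowerSeries.map_injective σ σ.injective ?_)
    rw [map_zero]; exact hG'q.symm
  have he'0 : e' 0 = 1 := by
    refine (qe' 0).eq_of_qExp_eq IsQFun.one ?_
    rw [he'q, he0, qExp, qExpansion_one, map_one]
  have hrelG : ∑ j ∈ Finset.range (n + 1), e j * (f * G) ^ (n - j) * G ^ j = 0 := by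
    rw [← zero_mul (G ^ n), ← hrel, Finset.sum_mul]
    refine Finset.sum_congr rfl fun j hj => ?_
    have hj' : j ≤ n := by simpa [Nat.lt_succ_iff] using hj
    rw [mul_pow, show G ^ n = G ^ (n - j) * G ^ j by rw [← pow_add]; congr 1; omega]
    ring
  have hrel' : ∑ j ∈ Finset.range (n + 1), e' j * H' ^ (n - j) * G' ^ j = 0 := by
    have hq' : ∀ j ∈ Finset.range (n + 1), IsQFun (e' j * H' ^ (n - j) * G' ^ j) :=
      fun j _ => ((qe' j).mul (qH'.pow _)).mul (qG'.pow _)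
    have hq : ∀ j ∈ Finset.range (n + 1), IsQFun (e j * (f * G) ^ (n - j) * G ^ j) :=
      fun j _ => ((qe j).mul (qH.pow _)).mul (qG.pow _)
    rw [← (IsQFun.sum hq').qExp_eq_zero_iff, IsQFun.qExp_sum hq']
    have h0 := congrArg (fun P => PowerSeries.map σ (qExp P)) hrelG
    simp only [qExp, qExpansion_zero, map_zero] at h0
    rw [← h0]
    change _ = PowerSeries.map σ (qExp _)
    rw [IsQFun.qExp_sum hq, map_sum]
    refine Finset.sum_congr rfl fun j _ => ?_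
    rw [((qe' j).mul (qH'.pow _)).qExp_mul (qG'.pow _), (qe' j).qExp_mul (qH'.pow _),
      qH'.qExp_pow, qG'.qExp_pow, ((qe j).mul (qH.pow _)).qExp_mul (qG.pow _),
      (qe j).qExp_mul (qH.pow _), qH.qExp_pow, qG.qExp_pow, he'q, hH'q, hG'q, map_mul, map_mul,
      map_pow, map_pow]
  obtain ⟨u, hu, huG, hueq⟩ := exists_quotient_of_integral qH'.mdiff qG'.mdiff hG'0 hn
    (fun j => (qe' j).mdiff) he'0 hrel'
  have he'z : ∀ j : ℕ, j ≠ 0 → IsZeroAtImInfty (e' j) := fun j hj => by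
    rw [(qe' j).isZeroAtImInfty_iff, he'q, PowerSeries.coeff_map,
      ((qe j).isZeroAtImInfty_iff).mp (hez j hj), map_zero]
  have hz : ∀ γ : SL(2, ℤ), IsZeroAtImInfty (u ∣[k] γ) := fun γ =>
    zeroAtImInfty_of_equation hn he'0 he'z
      (equation_slash (fun j => ratForms_le _ _ (he'r j)) hueq γ)
  have hinv : ∀ γ ∈ Γ, u ∣[k] γ = u := by
    intro γ hγ
    have h1 : (u ∣[k] γ) * G' = u * G' := by
      rw [huG]
      conv_lhs => rw [← (ratG_le _ _ hG'r).1 γ hγ]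
      rw [← mul_slash_SL2, huG, (ratG_le _ _ hH'r).1 γ hγ]
    have h2 : (u ∣[k] γ - u) * G' = 0 := by rw [sub_mul, h1, sub_self]
    refine sub_eq_zero.mp (((UpperHalfPlane.mul_eq_zero_iff ?_ qG'.mdiff).mp h2).resolve_right hG'0)
    exact (hu.slash k _).sub hu
  have humem : u ∈ space Γ k := ⟨hinv, hu, hz⟩
  refine ⟨u, humem, ?_⟩
  have qu := isQFun_formsG hT (space_le_formsG humem)
  have h := congrArg qExp huG
  rw [qu.qExp_mul qG', hH'q, (isQFun_formsG hT (space_le_formsG hf)).qExp_mul qG, map_mul,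
    ← hG'q] at h
  exact mul_right_cancel₀ (fun h0 => hG'0 (qG'.qExp_eq_zero_iff.mp h0)) h

end cosets

/-- **The cusp forms of a level are stable under the automorphisms of the coefficients.** -/
theorem exists_conjugate_space (V : FA.Level.Lvl) {k : ℤ} {f : ℍ → ℂ} (hf : f ∈ space V.grp k)
    (σ : ℂ →+* ℂ) : ∃ f' ∈ space V.grp k, qExp f' = PowerSeries.map σ (qExp f) := by
  obtain ⟨F, w, hF, hsep⟩ := exists_sepForm V
  exact exists_conjugate_of_sep V.T_mem hF hsep hf σ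

end FA.Weight1

end
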