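import Fermat.Agent.Weight1.Defs
import Fermat.Agent.Weight1.Coeff
import Fermat.Agent.Weight1.CoeffRing
import Fermat.Agent.Weight1.ConjSpace

/-!
# Conjugate systems of eigenvalues come from weight one forms

The products with a weight one Eisenstein series of level `3` and the square have weight two; the
quotient of the conjugates is holomorphic as its square is.
-/

set_option autoImplicit false
set_option linter.unusedSectionVars false
set_option linter.style.haveILetI false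

noncomputable section

namespace FA.Weight1

open UpperHalfPlane ModularForm CongruenceSubgroup Filter FA.Period
open FA.HeckeH1 (GamH)
open scoped MatrixGroups Manifold Topology

theorem sq_slash_one (u : ℍ → ℂ) (γ : SL(2, ℤ)) :
    (u ^ 2) ∣[(2 : ℤ)] γ = (u ∣[(1 : ℤ)] γ) ^ 2 := by
  rw [pow_two, pow_two, show (2 : ℤ) = 1 + 1 from rfl, mul_slash_SL2]

theorem isZeroAtImInfty_of_sq {v : ℍ → ℂ} (h : IsZeroAtImInfty (v ^ 2)) : IsZeroAtImInfty v := by
  rw [IsZeroAtImInfty, ZeroAtFilter, Metric.tendsto_nhds] at h ⊢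
  intro ε hε
  filter_upwards [h (ε ^ 2) (by positivity)] with τ hτ
  rw [dist_zero_right] at hτ ⊢
  rw [Pi.pow_apply, norm_pow] at hτ
  exact lt_of_pow_lt_pow_left₀ 2 hε.le hτ

/-- The conjugate of a weight one form, at three times the level. -/
theorem exists_conjugate_one {N : ℕ} [NeZero N] {f : ℍ → ℂ}
    (hf : f ∈ space (GamH N (⊥ : Subgroup (ZMod N)ˣ)) 1) (σ : ℂ →+* ℂ) :
    ∃ u ∈ space (GamH (3 * N) (⊥ : Subgroup (ZMod (3 * N))ˣ)) 1,
      qExp u = PowerSeries.map σ (qExp f) := by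
  haveI : Fact (1 < 3 * N) := ⟨by have := NeZero.pos N; omega⟩
  have hle := GamH_bot_anti (dvd_mul_left N 3)
  have hf' := space_anti hle hf
  have hinvg : ∀ γ ∈ GamH (3 * N) (⊥ : Subgroup (ZMod (3 * N))ˣ), g3 ∣[(1 : ℤ)] γ = g3 :=
    fun γ hγ => slash_g3 (GamH_bot_anti (dvd_mul_right 3 N) hγ)
  have hg : f * g3 ∈ space (GamH (3 * N) (pmOne (3 * N))) 2 := by
    refine space_bot_le_pmOne _ ?_
    have h := mul_mem_space hf' hinvg (hasQ_g3.mdiff one_pos) bdd_g3
    rwa [one_add_one_eq_two] at h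
  have hff : f * f ∈ space (GamH (3 * N) (pmOne (3 * N))) 2 := by
    refine space_bot_le_pmOne _ ?_
    have h := mul_mem_space hf' hf'.1 hf'.2.1 fun δ => (hf'.2.2 δ).isBoundedAtImInfty
    rwa [one_add_one_eq_two] at h
  obtain ⟨H, hH, hHq⟩ := exists_conjugate_space (lvlOne (3 * N)) hg σ
  obtain ⟨S, hS, hSq⟩ := exists_conjugate_space (lvlOne (3 * N)) hff σ
  have hQf := isQFun_of_space T_mem_GamH' hf
  have hQH : IsQFun H := isQFun_of_space (lvlOne (3 * N)).T_mem hH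
  have hQS : IsQFun S := isQFun_of_space (lvlOne (3 * N)).T_mem hS
  have hQg : IsQFun g3 :=
    ⟨hasQ_g3.periodic one_pos, hasQ_g3.mdiff one_pos, hasQ_g3.bdd one_pos⟩
  have hgq : qExp g3 = g3Ser.map (Int.castRingHom ℂ) := hasQ_g3.qExpansion_eq one_pos
  have hgσ : PowerSeries.map σ (qExp g3) = qExp g3 := by
    ext n
    rw [PowerSeries.coeff_map, hgq, PowerSeries.coeff_map]
    exact map_intCast σ _
  have hg0 : g3 ≠ 0 := fun h => by
    have h0 := congrArg (PowerSeries.coeff 0) hgq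
    rw [h, qExp, qExpansion_zero, map_zero, PowerSeries.coeff_map, g3Ser, PowerSeries.coeff_mk,
      if_pos rfl] at h0
    simp at h0
  have hsq : H ^ 2 = S * g3 ^ 2 := by
    refine (hQH.pow 2).eq_of_qExp_eq (hQS.mul (hQg.pow 2)) ?_
    rw [hQH.qExp_pow, hQS.qExp_mul (hQg.pow 2), hQg.qExp_pow, hHq, hSq, hQf.qExp_mul hQg,
      hQf.qExp_mul hQf, map_mul, map_mul, hgσ]
    ring
  let e : ℕ → ℍ → ℂ := fun j => if j = 0 then 1 else if j = 2 then -S else 0
  have he : ∀ j, MDiff (e j) := fun j => by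
    simp only [e]
    split_ifs
    · exact mdifferentiable_const
    · exact hS.2.1.neg
    · exact mdifferentiable_const
  have hrel : ∑ j ∈ Finset.range (2 + 1), e j * H ^ (2 - j) * g3 ^ j = 0 := by
    simp only [Finset.sum_range_succ, Finset.sum_range_zero, e]
    norm_num
    rw [hsq]; ring
  obtain ⟨u, hu, huG, hueq⟩ := exists_quotient_of_integral (H := H) (G := g3) hH.2.1
    (hasQ_g3.mdiff one_pos) hg0 two_pos he rfl hrel
  have husq : u ^ 2 = S := by
    have h3 : ∑ j ∈ Finset.range 3, e j * u ^ (2 - j) = 0 := hueq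
    rw [Finset.sum_range_succ, Finset.sum_range_succ, Finset.sum_range_succ, Finset.sum_range_zero]
      at h3
    simp [e] at h3
    exact add_neg_eq_zero.1 h3
  have hz : ∀ δ : SL(2, ℤ), IsZeroAtImInfty (u ∣[(1 : ℤ)] δ) := fun δ =>
    isZeroAtImInfty_of_sq (by rw [← sq_slash_one, husq]; exact hS.2.2 δ)
  have hinv : ∀ γ ∈ GamH (3 * N) (⊥ : Subgroup (ZMod (3 * N))ˣ), u ∣[(1 : ℤ)] γ = u := by
    intro γ hγ
    have h1 : (u ∣[(1 : ℤ)] γ) * g3 = u * g3 := by
      conv_lhs => rw [← hinvg γ hγ]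
      rw [← mul_slash_SL2, huG, one_add_one_eq_two, hH.1 γ (FA.HeckeH1.GamH_mono bot_le hγ)]
    have h2 : (u ∣[(1 : ℤ)] γ - u) * g3 = 0 := by rw [sub_mul, h1, sub_self]
    refine sub_eq_zero.mp (((UpperHalfPlane.mul_eq_zero_iff ?_ (hasQ_g3.mdiff one_pos)).mp
      h2).resolve_right hg0)
    exact (hu.slash 1 _).sub hu
  refine ⟨u, ⟨hinv, hu, hz⟩, ?_⟩
  have hQu : IsQFun u :=
    isQFun_of_space (Γ := GamH (3 * N) (⊥ : Subgroup (ZMod (3 * N))ˣ)) T_mem_GamH' ⟨hinv, hu, hz⟩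
  have h := congrArg qExp huG
  rw [hQu.qExp_mul hQg, hHq, hQf.qExp_mul hQg, map_mul, hgσ] at h
  exact mul_right_cancel₀ (fun h0 => hg0 (hQg.qExp_eq_zero_iff.mp h0)) h

theorem Gamma1_le_GamH_bot (N : ℕ) : Gamma1 N ≤ GamH N (⊥ : Subgroup (ZMod N)ˣ) := fun γ hγ => by
  obtain ⟨h1, -, h2⟩ := (Gamma1_mem N γ).1 hγ
  exact ⟨γ.2, (ZMod.intCast_zmod_eq_zero_iff_dvd _ _).1 h2, 1, one_mem _,
    by rw [Units.val_one]; exact h1.symm⟩

/-- A member of the space as a cusp form. -/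
def cuspOfSpace (N : ℕ) [NeZero N] {k : ℤ} (u : ℍ → ℂ)
    (hu : u ∈ space (GamH N (⊥ : Subgroup (ZMod N)ˣ)) k) : CuspForm (Gamma1 N) k where
  toFun := u
  slash_action_eq' := by
    rintro _ ⟨γ, hγ, rfl⟩
    exact hu.1 γ (Gamma1_le_GamH_bot N hγ)
  holo' := hu.2.1
  zero_at_cusps' hc := by
    rw [Subgroup.IsArithmetic.isCusp_iff_isCusp_SL2Z] at hc
    exact (OnePoint.isZeroAt_iff_forall_SL2Z hc).mpr fun γ _ => hu.2.2 γ

/-- **Conjugates.** -/
theorem conjugates : Conjugates := by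
  intro N _ ε f hf τ
  obtain ⟨u, hu, huq⟩ := exists_conjugate_one (coe_mem_space f) τ.toRingHom
  have hc : ∀ n, ModularFormClass.qCoeff (cuspOfSpace (3 * N) u hu) n =
      τ (ModularFormClass.qCoeff f n) := fun n => by
    show (qExp u).coeff n = _
    rw [huq, PowerSeries.coeff_map]
    rfl
  refine ⟨3 * N, inferInstance,
    DirichletCharacter.changeLevel (dvd_mul_left N 3) (ε.ringHomComp τ.toRingHom),
    cuspOfSpace (3 * N) u hu, ⟨?_, fun p hp hpN n => ?_⟩, dvd_mul_left N 3, fun p _ _ => hc p⟩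
  · rw [hc, hf.one, map_one]
  · have hpN' : ¬ p ∣ N := fun h => hpN (h.mul_left 3)
    have hε : DirichletCharacter.changeLevel (dvd_mul_left N 3) (ε.ringHomComp τ.toRingHom)
        (p : ZMod (3 * N)) = τ (ε (p : ZMod N)) := by
      have hu' : IsUnit ((p : ℕ) : ZMod (3 * N)) :=
        (ZMod.isUnit_iff_coprime p (3 * N)).2 (hp.coprime_iff_not_dvd.2 hpN)
      obtain ⟨v, hv⟩ := hu'
      rw [← hv, DirichletCharacter.changeLevel_eq_cast_of_dvd, MulChar.ringHomComp_apply, hv,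
        ZMod.cast_natCast (dvd_mul_left N 3)]
      rfl
    have h := congrArg τ (hf.rel p hp hpN' n)
    rw [map_add, map_mul, map_mul, apply_ite τ, map_zero] at h
    rw [hc, hc, hc, hc, hε]
    exact h

end FA.Weight1

end
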