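import Fermat.Agent.Weight1.Coeff

/-!
# Depletion of an isotypic weight one form at a prime

`f - ∑_j f ∣ [[q, j], [0, q]]` has level `L q²` and the coefficients of index prime to `q`.
-/

set_option autoImplicit false
set_option linter.unusedSectionVars false
set_option linter.style.haveILetI false

noncomputable section

namespace FA.Weight1

open UpperHalfPlane ModularForm CongruenceSubgroup Filter FA.Period
open FA.HeckeH1 (GamH MatZ)
open scoped MatrixGroups Manifold Topology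

/-- Weight one cusp forms of level `L` and nebentypus `ε`. -/
structure IsIso {N : ℕ} (ε : DirichletCharacter ℂ N) (L : ℕ) (f : ℍ → ℂ) : Prop where
  dvd : N ∣ L
  mem : f ∈ space (GamH L (⊥ : Subgroup (ZMod L)ˣ)) 1
  rule : ∀ γ : SL(2, ℤ), γ ∈ Gamma0 L → f ∣[(1 : ℤ)] γ = ε ((γ 1 1 : ℤ) : ZMod N) • f

/-- `[[q, j], [0, q]]`. -/
def shiftX (q : ℕ) (j : ℤ) : MatZ := !![(q : ℤ), j; 0, (q : ℤ)]

theorem shiftX_det_pos {q : ℕ} [NeZero q] (j : ℤ) : 0 < (shiftX q j).det := by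
  rw [shiftX, Matrix.det_fin_two_of]
  simpa using mul_pos (Nat.cast_pos.2 (NeZero.pos q) : (0 : ℤ) < q) (Nat.cast_pos.2 (NeZero.pos q))

/-- The average of the translates. -/
def shiftSum (q : ℕ) [NeZero q] (f : ℍ → ℂ) : ℍ → ℂ :=
  ∑ j : ZMod q, f ∣[(1 : ℤ)] mR (shiftX q (j.val : ℤ))

/-- The depletion. -/
def deplete (q : ℕ) [NeZero q] (f : ℍ → ℂ) : ℍ → ℂ := f - shiftSum q f

variable {N L q : ℕ} [NeZero q] {ε : DirichletCharacter ℂ N} {f : ℍ → ℂ}

theorem det_cast_mul {L : ℕ} {γ : SL(2, ℤ)} (h : γ ∈ Gamma0 L) :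
    (γ.1 0 0 : ZMod L) * (γ.1 1 1 : ZMod L) = 1 := by
  have hd := congrArg (fun x : ℤ => (x : ZMod L)) γ.2
  simp only [Matrix.det_fin_two, Int.cast_sub, Int.cast_mul, Int.cast_one] at hd
  rwa [Gamma0_mem.1 h, mul_zero, sub_zero] at hd

theorem slash_shiftX (hf : IsIso ε L f) {γ : SL(2, ℤ)} (hγ : γ ∈ Gamma0 (L * q ^ 2)) (j : ZMod q) :
    (f ∣[(1 : ℤ)] mR (shiftX q (j.val : ℤ))) ∣[(1 : ℤ)] γ = ε ((γ 1 1 : ℤ) : ZMod N) •
      (f ∣[(1 : ℤ)] mR (shiftX q (((j * (γ.1 1 1 : ZMod q) * (γ.1 1 1 : ZMod q)).val : ℕ) : ℤ))) := by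
  obtain ⟨c, hc⟩ : ((L * q ^ 2 : ℕ) : ℤ) ∣ γ.1 1 0 :=
    (ZMod.intCast_zmod_eq_zero_iff_dvd _ _).1 (Gamma0_mem.1 hγ)
  push_cast at hc
  have hq : γ ∈ Gamma0 q := by
    rw [Gamma0_mem, ZMod.intCast_zmod_eq_zero_iff_dvd, hc]
    exact ⟨(L : ℤ) * q * c, by ring⟩
  have had := det_cast_mul hq
  set j' : ℕ := (j * (γ.1 1 1 : ZMod q) * (γ.1 1 1 : ZMod q)).val with hj'
  obtain ⟨e, he⟩ : (q : ℤ) ∣ (j.val : ℤ) * γ.1 1 1 - (j' : ℤ) * γ.1 0 0 := by
    rw [← ZMod.intCast_zmod_eq_zero_iff_dvd]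
    push_cast
    rw [ZMod.natCast_zmod_val, hj', ZMod.natCast_zmod_val]
    linear_combination (-(j * (γ.1 1 1 : ZMod q))) * had
  set X := shiftX q (j.val : ℤ)
  set X' := shiftX q (j' : ℤ) with hX'
  have hdX' : X'.det ≠ 0 := (shiftX_det_pos _).ne'
  set Y : MatZ := !![γ.1 0 0 + (j.val : ℤ) * ((L : ℤ) * q * c),
    γ.1 0 1 + e - (j.val : ℤ) * (j' : ℤ) * ((L : ℤ) * c);
    γ.1 1 0, γ.1 1 1 - (j' : ℤ) * ((L : ℤ) * q * c)] with hY
  have hXY : X * γ.1 = Y * X' := by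
    ext r s
    fin_cases r <;> fin_cases s <;>
      simp [X, hX', hY, shiftX, Matrix.mul_apply, Fin.sum_univ_two, hc, -ZMod.natCast_val] <;>
      first
        | ring1
        | linear_combination he
  have hdet : Y.det = 1 := by
    have h := congrArg Matrix.det hXY
    rw [Matrix.det_mul, Matrix.det_mul, γ.2, mul_one] at h
    have hXd : X.det = X'.det := by simp [X, hX', shiftX, Matrix.det_fin_two_of]
    rw [hXd] at h
    exact mul_right_cancel₀ hdX' (by rw [one_mul]; exact h.symm)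
  let γ' : SL(2, ℤ) := ⟨Y, hdet⟩
  have hγ' : γ' ∈ Gamma0 L := Gamma0_mem.2 (by
    show ((Y 1 0 : ℤ) : ZMod L) = 0
    rw [hY]
    simp [hc])
  have hd' : ((γ'.1 1 1 : ℤ) : ZMod N) = ((γ.1 1 1 : ℤ) : ZMod N) := by
    have hL : ((L : ℕ) : ZMod N) = 0 := (ZMod.natCast_eq_zero_iff L N).2 hf.dvd
    show ((Y 1 1 : ℤ) : ZMod N) = _
    rw [hY]
    simp [hL]
  rw [← slash_mR_mul' γ (shiftX_det_pos _).ne', hXY, show Y = (γ' : SL(2, ℤ)).1 from rfl,
    slash_mR_mul γ' hdX', hf.rule γ' hγ', hd', smul_slash_mR (shiftX_det_pos _)]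

theorem shiftSum_rule (hf : IsIso ε L f) {γ : SL(2, ℤ)} (hγ : γ ∈ Gamma0 (L * q ^ 2)) :
    shiftSum q f ∣[(1 : ℤ)] γ = ε ((γ 1 1 : ℤ) : ZMod N) • shiftSum q f := by
  have hq : γ ∈ Gamma0 q := by
    rw [Gamma0_mem, ZMod.intCast_zmod_eq_zero_iff_dvd] at hγ ⊢
    exact (Int.natCast_dvd_natCast.2 (dvd_mul_of_dvd_right (dvd_pow_self q two_ne_zero) L)).trans hγ
  have had := det_cast_mul hq
  let u : (ZMod q)ˣ := Units.mkOfMulEqOne _ _ (by rw [mul_comm]; exact had :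
    (γ.1 1 1 : ZMod q) * (γ.1 0 0 : ZMod q) = 1)
  rw [shiftSum, SlashAction.sum_slash, Finset.smul_sum]
  refine Fintype.sum_equiv ((Units.mulRight u).trans (Units.mulRight u)) _ _ fun j => ?_
  exact slash_shiftX hf hγ j

theorem isIso_deplete (hf : IsIso ε L f) : IsIso ε (L * q ^ 2) (deplete q f) := by
  have hN : N ∣ L * q ^ 2 := dvd_mul_of_dvd_left hf.dvd _
  have hrule : ∀ γ : SL(2, ℤ), γ ∈ Gamma0 (L * q ^ 2) →
      deplete q f ∣[(1 : ℤ)] γ = ε ((γ 1 1 : ℤ) : ZMod N) • deplete q f := fun γ hγ => by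
    have hL : γ ∈ Gamma0 L := by
      rw [Gamma0_mem, ZMod.intCast_zmod_eq_zero_iff_dvd] at hγ ⊢
      exact (Int.natCast_dvd_natCast.2 (dvd_mul_right L _)).trans hγ
    rw [deplete, sub_eq_add_neg, SlashAction.add_slash, SlashAction.neg_slash, shiftSum_rule hf hγ,
      hf.rule γ hL, smul_add, smul_neg]
  refine ⟨hN, ⟨fun γ hγ => ?_, ?_, fun δ => ?_⟩, hrule⟩
  · have h0 : γ ∈ Gamma0 (L * q ^ 2) := FA.HeckeH1.GamH_le_Gamma0 hγ
    rw [hrule γ h0]
    obtain ⟨-, -, u, hu, hua⟩ := hγ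
    rw [Subgroup.mem_bot] at hu
    subst hu
    have had := det_cast_mul h0
    rw [← hua, Units.val_one, one_mul] at had
    have := congrArg (ZMod.castHom hN (ZMod N)) had
    rw [map_intCast, map_one] at this
    rw [this, map_one, one_smul]
  · exact hf.mem.2.1.sub (MDifferentiable.sum fun j _ => mdiff_slash_mR hf.mem _)
  · rw [deplete, sub_eq_add_neg, SlashAction.add_slash, SlashAction.neg_slash, shiftSum,
      SlashAction.sum_slash]
    have h1 : Tendsto (f ∣[(1 : ℤ)] δ) atImInfty (𝓝 0) := hf.mem.2.2 δ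
    have h2 : Tendsto (fun z => ∑ j : ZMod q,
        ((f ∣[(1 : ℤ)] mR (shiftX q (j.val : ℤ))) ∣[(1 : ℤ)] δ) z) atImInfty
        (𝓝 (∑ _j : ZMod q, (0 : ℂ))) :=
      tendsto_finsetSum _ fun j _ => isZeroAtImInfty_slash_mR_slash hf.mem (shiftX_det_pos _) δ
    simpa [IsZeroAtImInfty, ZeroAtFilter, Finset.sum_fn, sub_eq_add_neg, Pi.add_def,
      Pi.neg_def] using h1.sub h2

theorem slash_shiftX_apply (f : ℍ → ℂ) (j : ℤ) (τ : ℍ) :
    (f ∣[(1 : ℤ)] mR (shiftX q j)) τ = (q : ℂ)⁻¹ * f (((j : ℝ) / q) +ᵥ τ) := by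
  have hdet := shiftX_det_pos (q := q) j
  have hden : UpperHalfPlane.denom (mR (shiftX q j)) τ = (q : ℂ) := by
    simp only [UpperHalfPlane.denom, coe_mR hdet.ne']
    simp [shiftX]
  have hpt : mR (shiftX q j) • τ = ((j : ℝ) / q) +ᵥ τ := by
    apply UpperHalfPlane.ext
    rw [UpperHalfPlane.coe_smul_of_det_pos (by rw [det_mR hdet.ne']; exact_mod_cast hdet),
      UpperHalfPlane.coe_vadd]
    have hq : (q : ℂ) ≠ 0 := NeZero.ne _
    simp only [UpperHalfPlane.num, UpperHalfPlane.denom, coe_mR hdet.ne']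
    simp [shiftX]
    field_simp
    ring
  rw [ModularForm.slash_apply, σ_mR hdet, hden, hpt]
  simp [mul_comm]

theorem qExp_deplete (hf : IsIso ε L f) (n : ℕ) :
    (qExp (deplete q f)).coeff n = if q ∣ n then 0 else (qExp f).coeff n := by
  have hQ := isQFun_of_space T_mem_GamH' hf.mem
  have hD := isQFun_of_space T_mem_GamH' (isIso_deplete (q := q) hf).mem
  refine ((hD.coeff_unique (c := fun n => if q ∣ n then 0 else (qExp f).coeff n)
    (fun τ => ?_) n)).symm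
  have hs0 := hasSum_qExpansion one_pos hQ.periodic hQ.mdiff hQ.bdd τ
  have hsum : HasSum (fun m : ℕ => (qExp f).coeff m *
      ((q : ℂ)⁻¹ * ∑ j : ZMod q, ZMod.stdAddChar (j * (m : ZMod q))) *
        Function.Periodic.qParam 1 τ ^ m) (shiftSum q f τ) := by
    have hj : ∀ j : ZMod q, HasSum (fun m : ℕ => (qExp f).coeff m *
        ((q : ℂ)⁻¹ * ZMod.stdAddChar (j * (m : ZMod q))) * Function.Periodic.qParam 1 τ ^ m)
        ((f ∣[(1 : ℤ)] mR (shiftX q (j.val : ℤ))) τ) := fun j => by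
      rw [slash_shiftX_apply]
      have h := (hasSum_qExpansion one_pos hQ.periodic hQ.mdiff hQ.bdd
        ((((j.val : ℤ) : ℝ) / q) +ᵥ τ)).mul_left (q : ℂ)⁻¹
      refine h.congr_fun fun m => ?_
      have hq : (q : ℂ) ≠ 0 := NeZero.ne _
      have e1 : Function.Periodic.qParam 1 (((((j.val : ℤ) : ℝ) / q) +ᵥ τ : ℍ) : ℂ) =
          ZMod.stdAddChar j * Function.Periodic.qParam 1 τ := by
        conv_rhs => rw [← ZMod.natCast_zmod_val j, ← Int.cast_natCast, ZMod.stdAddChar_coe]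
        rw [UpperHalfPlane.coe_vadd, Function.Periodic.qParam, Function.Periodic.qParam,
          ← Complex.exp_add]
        congr 1
        push_cast
        field_simp
      rw [e1, mul_pow, ← AddChar.map_nsmul_eq_pow, nsmul_eq_mul, mul_comm (m : ZMod q) j,
        smul_eq_mul]
      ring
    have := hasSum_sum (s := (Finset.univ : Finset (ZMod q))) fun j _ => hj j
    rw [shiftSum, Finset.sum_apply]
    refine this.congr_fun fun m => ?_
    rw [Finset.mul_sum, Finset.mul_sum, Finset.sum_mul]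
  have hs := hs0.sub hsum
  rw [deplete, Pi.sub_apply]
  refine hs.congr_fun fun m => ?_
  simp only [smul_eq_mul]
  rw [AddChar.sum_mulShift (m : ZMod q) (ZMod.isPrimitive_stdAddChar q), ZMod.card]
  have hq : (q : ℂ) ≠ 0 := NeZero.ne _
  by_cases hm : q ∣ m
  · rw [if_pos hm, if_pos ((ZMod.natCast_eq_zero_iff m q).2 hm)]
    field_simp
    ring
  · rw [if_neg hm, if_neg fun h => hm ((ZMod.natCast_eq_zero_iff m q).1 h)]
    simp

/-- Depletion at a set of primes. -/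
theorem exists_depleted_set (hf : IsIso ε L f) (s : Finset ℕ) (hs : ∀ p ∈ s, p.Prime) :
    ∃ g, IsIso ε (L * ∏ p ∈ s, p ^ 2) g ∧
      ∀ n, (qExp g).coeff n = if ∀ p ∈ s, ¬ p ∣ n then (qExp f).coeff n else 0 := by
  classical
  induction s using Finset.induction_on with
  | empty => exact ⟨f, by simpa using hf, fun n => by simp⟩
  | @insert p s hps ih =>
    obtain ⟨g, hg, hgc⟩ := ih fun r hr => hs r (Finset.mem_insert_of_mem hr)
    haveI : NeZero p := ⟨(hs p (Finset.mem_insert_self p s)).ne_zero⟩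
    refine ⟨deplete p g, ?_, fun n => ?_⟩
    · rw [Finset.prod_insert hps, mul_comm (p ^ 2), ← mul_assoc]
      exact isIso_deplete hg
    · rw [qExp_deplete hg, hgc]
      by_cases hp : p ∣ n
      · rw [if_pos hp, if_neg fun h => h p (Finset.mem_insert_self p s) hp]
      · rw [if_neg hp]
        simp [hp]

end FA.Weight1

end
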