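import Fermat.Agent.Weight1.Forms
import Fermat.Agent.Weight1.Defs
import Fermat.Agent.Period.Primitive

/-!
# A weight one Hecke eigensystem is isotypic for the diamond operators

`T_p f - a_p f` is the dilation of `g = f ∣ γ_p - ε(p) f`; then `g` is invariant under
`L(N/p)`, hence has arbitrarily small periods at some cusp, hence vanishes.
-/

set_option autoImplicit false
set_option linter.unusedSectionVars false

noncomputable section

namespace FA.Weight1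

open UpperHalfPlane ModularForm CongruenceSubgroup Filter FA.Period
open FA.HeckeH1 (GamH Dl ulHom ulHom_val mem_GamH_iff)
open scoped MatrixGroups Manifold Topology

/-- A holomorphic function with small periods vanishing at `i∞` is zero. -/
theorem eq_zero_of_small_periods {G : ℍ → ℂ} (hG : MDiff G) (hz : IsZeroAtImInfty G)
    (h : ∀ e : ℝ, 0 < e → ∃ x : ℝ, 0 < x ∧ x < e ∧ ∀ z : ℍ, G (x +ᵥ z) = G z) : G = 0 := by
  choose x hx0 hxe hx using fun m : ℕ => h (1 / ((m : ℝ) + 1)) (by positivity)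
  have hlim : Tendsto (fun m => (x m : ℂ)) atTop (𝓝[≠] 0) := by
    refine tendsto_nhdsWithin_iff.2 ⟨?_, Eventually.of_forall fun m => ?_⟩
    · have h1 : Tendsto x atTop (𝓝 0) :=
        squeeze_zero (fun m => (hx0 m).le) (fun m => (hxe m).le)
          tendsto_one_div_add_atTop_nhds_zero_nat
      exact (Complex.continuous_ofReal.tendsto 0).comp h1
    · exact Complex.ofReal_ne_zero.2 (hx0 m).ne'
  have hprim : IsPrimitive G 0 := fun τ => by
    have hd : DifferentiableAt ℂ (G ∘ ofComplex) (τ : ℂ) :=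
      (UpperHalfPlane.mdifferentiable_iff.1 hG).differentiableAt
        (isOpen_upperHalfPlaneSet.mem_nhds τ.im_pos)
    have hd' := hd.hasDerivAt
    have h0 : Tendsto (fun m : ℕ => (0 : ℂ)) atTop (𝓝 (deriv (G ∘ ofComplex) (τ : ℂ))) := by
      refine (hd'.tendsto_slope_zero.comp hlim).congr fun m => ?_
      have hp : ((x m : ℝ) +ᵥ τ : ℍ) = ofComplex ((τ : ℂ) + (x m : ℂ)) := by
        apply UpperHalfPlane.ext
        rw [ofComplex_apply_of_im_pos (by simpa using τ.im_pos)]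
        simp [add_comm]
      simp only [Function.comp_apply, ← hp, hx m τ, ofComplex_apply, sub_self, smul_zero]
    rw [← tendsto_const_nhds_iff.1 h0] at hd'
    exact hd'
  obtain ⟨c, hc⟩ := hprim.exists_eq_add (G := fun _ => (0 : ℂ))
    fun τ => hasDerivAt_const (τ : ℂ) (0 : ℂ)
  have hne : (atImInfty : Filter ℍ).NeBot := inferInstance
  have hc0 : c = 0 := by
    have h1 : Tendsto (fun _ : ℍ => c) atImInfty (𝓝 0) :=
      hz.congr fun τ => by rw [hc τ, zero_add]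
    exact tendsto_const_nhds_iff.1 h1
  funext τ
  rw [hc τ, hc0, add_zero]; rfl

theorem slash_scalar (k : ℤ) {p : ℕ} (hp : p ≠ 0) (g : ℍ → ℂ) :
    g ∣[k] mR !![(p : ℤ), 0; 0, (p : ℤ)] =
      (((p : ℂ) * p) ^ (k - 1) * (p : ℂ) ^ (-k)) • g := by
  have hdet : 0 < (!![(p : ℤ), 0; 0, (p : ℤ)] : FA.HeckeH1.MatZ).det := by
    rw [Matrix.det_fin_two_of]
    simpa using mul_pos (Nat.cast_pos.2 (Nat.pos_of_ne_zero hp) : (0 : ℤ) < p)
      (Nat.cast_pos.2 (Nat.pos_of_ne_zero hp))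
  funext τ
  have hτ : mR !![(p : ℤ), 0; 0, (p : ℤ)] • τ = τ := by
    apply UpperHalfPlane.ext
    rw [UpperHalfPlane.coe_smul_of_det_pos (by rw [det_mR hdet.ne']; exact_mod_cast hdet)]
    simp [UpperHalfPlane.num, UpperHalfPlane.denom, coe_mR hdet.ne', hp]
  rw [ModularForm.slash_apply, σ_mR hdet, hτ, det_mR hdet.ne', Pi.smul_apply, smul_eq_mul]
  have hden : UpperHalfPlane.denom (mR !![(p : ℤ), 0; 0, (p : ℤ)]) τ = (p : ℂ) := by
    simp [UpperHalfPlane.denom, coe_mR hdet.ne']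
  rw [hden]
  simp [Matrix.det_fin_two_of, abs_of_nonneg]
  ring

variable {N : ℕ} [NeZero N] {H : Subgroup (ZMod N)ˣ} {k : ℤ}

/-- The key vanishing. -/
theorem eq_zero_of_lower_invariant {g : ℍ → ℂ} (hg : g ∈ space (GamH N H) k) {p : ℕ}
    (hp : p.Prime) (hpN : ¬ p ∣ N) {c : ℂ}
    (hB : g ∣[k] mR !![(p : ℤ), 0; (N : ℤ), (p : ℤ)] = c • g) : g = 0 := by
  set A : FA.HeckeH1.MatZ := !![(p : ℤ) + N, (p : ℤ); (N : ℤ), (p : ℤ)] with hA
  have hdB : (!![(p : ℤ), 0; (N : ℤ), (p : ℤ)] : FA.HeckeH1.MatZ).det = (p : ℤ) ^ 2 := by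
    rw [Matrix.det_fin_two_of]; ring
  have hdA : A.det = (p : ℤ) ^ 2 := by rw [hA, Matrix.det_fin_two_of]; ring
  have hp2 : (0 : ℤ) < (p : ℤ) ^ 2 := pow_pos (by exact_mod_cast hp.pos) 2
  have hAT : A = (ModularGroup.T).1 * !![(p : ℤ), 0; (N : ℤ), (p : ℤ)] := by
    ext i j
    fin_cases i <;> fin_cases j <;>
      simp [hA, ModularGroup.coe_T, Matrix.mul_apply, Fin.sum_univ_two]
  have hgA : g ∣[k] mR A = c • g := by
    rw [hAT, slash_mR_mul _ (by rw [hdB]; exact hp2.ne'), hg.1 _ FA.HeckeH1.T_mem_GamH, hB]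
  have hdpow : ∀ n : ℕ, 0 < (A ^ n).det := fun n => by
    rw [Matrix.det_pow, hdA]; exact pow_pos hp2 n
  have hgAn : ∀ n : ℕ, g ∣[k] mR (A ^ n) = c ^ n • g := by
    intro n
    induction n with
    | zero =>
      rw [pow_zero, pow_zero, one_smul, ← Matrix.SpecialLinearGroup.coe_one, mR_coe]
      simp
    | succ n ih =>
      rw [pow_succ, mR_mul (hdpow n).ne' (by rw [hdA]; exact hp2.ne'), SlashAction.slash_mul, ih,
        smul_slash_mR (by rw [hdA]; exact hp2), hgA, smul_smul, pow_succ]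
  have hmod : ∀ n : ℕ, ((A ^ n) 0 0 : ZMod p) = (N : ZMod p) ^ n ∧ ((A ^ n) 0 1 : ZMod p) = 0 := by
    intro n
    induction n with
    | zero => simp
    | succ n ih =>
      constructor <;>
        rw [pow_succ, Matrix.mul_apply, Fin.sum_univ_two, Int.cast_add, Int.cast_mul, Int.cast_mul,
          ih.1, ih.2, hA]
      · simp [pow_succ]
      · simp
  have : Fact p.Prime := ⟨hp⟩
  have hNp : (N : ZMod p) ≠ 0 := fun h => hpN ((ZMod.natCast_eq_zero_iff N p).1 h)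
  have hex : ∀ n : ℕ, ∃ σ : SL(2, ℤ), ∀ z : ℍ,
      (g ∣[k] σ) (((1 / (p : ℝ) ^ (2 * n)) : ℝ) +ᵥ z) = (g ∣[k] σ) z := by
    intro n
    obtain ⟨σ, Y, hY0, hYd, e⟩ := exists_upper (hdpow n)
    refine ⟨σ, fun z => ?_⟩
    have hYdet : Y.det = Y 0 0 * Y 1 1 := by rw [Matrix.det_fin_two, hY0, mul_zero, sub_zero]
    have hrt : Y 0 0 * Y 1 1 = (p : ℤ) ^ (2 * n) := by
      rw [← hYdet, hYd, Matrix.det_pow, hdA, ← pow_mul]
    have hnp : ¬ (p : ℤ) ∣ Y 0 0 := by
      intro h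
      have h1 : (A ^ n) 0 0 = σ.1 0 0 * Y 0 0 := by
        rw [e]; simp [Matrix.mul_apply, Fin.sum_univ_two, hY0]
      have h2 := (hmod n).1
      rw [h1, Int.cast_mul, (ZMod.intCast_zmod_eq_zero_iff_dvd _ _).2 h, mul_zero] at h2
      exact pow_ne_zero n hNp h2.symm
    have hunit : IsUnit (Y 0 0) := by
      have hcop : IsCoprime (Y 0 0) ((p : ℤ) ^ (2 * n)) :=
        IsCoprime.pow_right (((Nat.prime_iff_prime_int.1 hp).coprime_iff_not_dvd.2 hnp).symm)
      exact hcop.isUnit_of_dvd (Dvd.intro _ hrt)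
    have hsq : Y 0 0 * Y 0 0 = 1 := by
      rcases Int.isUnit_iff.1 hunit with h | h <;> simp [h]
    have hY : 0 < Y.det := by rw [hYd]; exact hdpow n
    set G := g ∣[k] σ
    have hinv : (G ∣[k] mR Y) ∣[k] ModularGroup.T = G ∣[k] mR Y := by
      rw [← slash_mR_mul σ hY.ne', ← e, hgAn, SL_smul_slash, hg.1 _ FA.HeckeH1.T_mem_GamH]
    have hY11 : (Y 1 1 : ℂ) ≠ 0 := by
      have : Y 1 1 ≠ 0 := fun h => by rw [hYdet, h, mul_zero] at hY; exact lt_irrefl 0 hY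
      exact_mod_cast this
    have hval : ∀ w : ℍ, (G ∣[k] mR Y) w =
        G (mR Y • w) * ((Y.det : ℂ) ^ (k - 1) * (Y 1 1 : ℂ) ^ (-k)) := by
      intro w
      rw [ModularForm.slash_apply, σ_mR hY, det_mR hY.ne']
      have hden : UpperHalfPlane.denom (mR Y) w = (Y 1 1 : ℂ) := by
        simp [UpperHalfPlane.denom, coe_mR hY.ne', hY0]
      rw [hden, abs_of_pos (by exact_mod_cast hY : (0 : ℝ) < (Y.det : ℝ))]
      simp [mul_assoc]
    have hcoe : ∀ w : ℍ, ((mR Y • w : ℍ) : ℂ) = ((Y 0 0 : ℂ) * w + Y 0 1) / Y 1 1 := fun w => by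
      rw [UpperHalfPlane.coe_smul_of_det_pos (by rw [det_mR hY.ne']; exact_mod_cast hY)]
      simp [UpperHalfPlane.num, UpperHalfPlane.denom, coe_mR hY.ne', hY0]
    obtain ⟨w, rfl⟩ : ∃ w : ℍ, z = mR Y • w := ⟨(mR Y)⁻¹ • z, (smul_inv_smul _ _).symm⟩
    have h2 := congrFun hinv w
    rw [SL_slash_apply, modular_T_smul, hval, hval] at h2
    have hd : denom (ModularGroup.T : GL (Fin 2) ℝ) w = 1 := by
      simp [denom, ModularGroup.coe_T]
    rw [hd, one_zpow, mul_one] at h2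
    have hconst : ((Y.det : ℂ) ^ (k - 1) * (Y 1 1 : ℂ) ^ (-k)) ≠ 0 :=
      mul_ne_zero (zpow_ne_zero _ (by exact_mod_cast hY.ne')) (zpow_ne_zero _ hY11)
    have h3 := mul_right_cancel₀ hconst h2
    rw [← h3]
    congr 1
    apply UpperHalfPlane.ext
    rw [UpperHalfPlane.coe_vadd, hcoe, hcoe, UpperHalfPlane.coe_vadd]
    have hx : ((1 / (p : ℝ) ^ (2 * n) : ℝ) : ℂ) = (Y 0 0 : ℂ) / Y 1 1 := by
      have hrtC : (Y 0 0 : ℂ) * Y 1 1 = (p : ℂ) ^ (2 * n) := by exact_mod_cast hrt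
      have hsqC : (Y 0 0 : ℂ) * Y 0 0 = 1 := by exact_mod_cast hsq
      push_cast
      rw [div_eq_div_iff (pow_ne_zero _ (Nat.cast_ne_zero.2 hp.ne_zero)) hY11, ← hrtC]
      linear_combination -(Y 1 1 : ℂ) * hsqC
    rw [hx]
    push_cast
    ring
  choose σ hσ using hex
  let red : SL(2, ℤ) →* Matrix.SpecialLinearGroup (Fin 2) (ZMod N) :=
    Matrix.SpecialLinearGroup.map (Int.castRingHom (ZMod N))
  obtain ⟨y, hy⟩ := Finite.exists_infinite_fiber fun n => red (σ n)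
  have hinf : ((fun n => red (σ n)) ⁻¹' {y}).Infinite := Set.infinite_coe_iff.1 hy
  obtain ⟨n₀, hn₀⟩ := hinf.nonempty
  have hzero : g ∣[k] σ n₀ = 0 := by
    refine eq_zero_of_small_periods (hg.2.1.slash k _) (hg.2.2 _) fun e he => ?_
    have hp1 : (1 : ℝ) < p := by exact_mod_cast hp.one_lt
    obtain ⟨m, hm⟩ := exists_pow_lt_of_lt_one he (div_lt_one (by linarith) |>.2 hp1)
    obtain ⟨n, hn, hmn⟩ := hinf.exists_gt m
    refine ⟨1 / (p : ℝ) ^ (2 * n), by positivity, lt_of_le_of_lt ?_ hm, fun z => ?_⟩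
    · rw [one_div_pow]
      exact one_div_le_one_div_of_le (by positivity) (pow_le_pow_right₀ hp1.le (by omega))
    · have hmem : σ n * (σ n₀)⁻¹ ∈ GamH N H := FA.HeckeH1.Gamma_le_GamH (by
        show σ n * (σ n₀)⁻¹ ∈ red.ker
        rw [MonoidHom.mem_ker, map_mul, map_inv]
        have h1 : red (σ n) = y := hn
        have h2 : red (σ n₀) = y := hn₀
        rw [h1, h2, mul_inv_cancel])
      have h := hg.1 _ hmem
      have : g ∣[k] σ n = g ∣[k] σ n₀ := by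
        conv_rhs => rw [← h, ← SlashAction.slash_mul, inv_mul_cancel_right]
      rw [← this]
      exact hσ n z
  have := congrArg (· ∣[k] (σ n₀)⁻¹) hzero
  simpa [← SlashAction.slash_mul] using this

/-- The matrix `L(N)`. -/
def lowN (N : ℕ) : SL(2, ℤ) := ⟨!![1, 0; (N : ℤ), 1], by simp [Matrix.det_fin_two_of]⟩

theorem coe_lowN (N : ℕ) : (lowN N).1 = !![1, 0; (N : ℤ), 1] := rfl

theorem lowN_mem (N : ℕ) (H : Subgroup (ZMod N)ˣ) : lowN N ∈ GamH N H :=
  ⟨(lowN N).2, by simp [lowN], 1, one_mem _, by simp [lowN]⟩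

/-- The form has nebentypus `ε`. -/
theorem isotypic : Isotypic := by
  intro N _ ε f hf γ hγ
  set F : ℍ → ℂ := ⇑f
  have hF : F ∈ space (GamH N ⊥) 1 := coe_mem_space f
  have hFQ := isQFun_of_space T_mem_GamH' hF
  have main : ∀ (p : ℕ) (hp : p.Prime) (hpN : ¬ p ∣ N),
      F ∣[(1 : ℤ)] (pGam hp hpN : SL(2, ℤ)) = ε (p : ZMod N) • F := by
    intro p hp hpN
    have : Fact p.Prime := ⟨hp⟩
    set Fs : space (GamH N ⊥) 1 := ⟨F, hF⟩
    set g := F ∣[(1 : ℤ)] (pGam hp hpN : SL(2, ℤ)) - ε (p : ZMod N) • F with hgdef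
    have hg : g ∈ space (GamH N ⊥) 1 :=
      sub_mem (slash_top_mem hF _) (Submodule.smul_mem _ _ hF)
    set a := ModularFormClass.qCoeff f p
    set h := opH N ⊥ 1 p Fs - a • Fs with hhdef
    have hgQ := isQFun_of_space T_mem_GamH' hg
    have hh : (h : ℍ → ℂ) = g ∣[(1 : ℤ)] heckeDiagMatrix p := by
      have hOQ := isQFun_of_space T_mem_GamH' (opH N ⊥ 1 p Fs).2
      have hγQ := isQFun_of_space (T_mem_GamH' (H := ⊥)) (slash_top_mem hF (pGam hp hpN))
      refine (isQFun_of_space T_mem_GamH' h.2).eq_of_qExp_eq (isQFun_slash_diag hgQ hp.ne_zero) ?_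
      ext n
      rw [qExp_slash_diag hgQ hp.ne_zero, hgdef, hγQ.qExp_sub (hFQ.smul _), hFQ.qExp_smul, hhdef,
        Submodule.coe_sub, SetLike.val_smul, hOQ.qExp_sub (hFQ.smul a), hFQ.qExp_smul, map_sub,
        map_sub, qExp_opH, dif_neg hpN, PowerSeries.coeff_smul, PowerSeries.coeff_smul]
      simp only [sub_self, zpow_zero, one_mul, smul_eq_mul]
      have hr := hf.rel p hp hpN n
      simp only [ModularFormClass.qCoeff] at hr
      rw [mul_comm p n] at hr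
      show (qExp F).coeff (n * p) + _ - (qExp F).coeff p * (qExp F).coeff n = _
      split_ifs at hr ⊢ with hd
      · linear_combination hr
      · linear_combination hr
    have hL : (h : ℍ → ℂ) ∣[(1 : ℤ)] lowN N = h := h.2.1 _ (lowN_mem N ⊥)
    have hB : g ∣[(1 : ℤ)] mR !![(p : ℤ), 0; (N : ℤ), (p : ℤ)] =
        (((p : ℂ) * p) ^ ((1 : ℤ) - 1) * (p : ℂ) ^ (-(1 : ℤ))) • g := by
      set L : SL(2, ℤ) := lowN N with hLdef
      have hp0 : (p : ℤ) ≠ 0 := by exact_mod_cast hp.ne_zero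
      have e1 : (!![(p : ℤ), 0; (N : ℤ), (p : ℤ)] : FA.HeckeH1.MatZ) =
          (!![(p : ℤ), 0; 0, 1] * L.1) * !![1, 0; 0, (p : ℤ)] := by
        rw [hLdef, coe_lowN]
        ext i j
        fin_cases i <;> fin_cases j <;> simp [Matrix.mul_apply, Fin.sum_univ_two]
      have hdD : (!![(p : ℤ), 0; 0, 1] : FA.HeckeH1.MatZ).det ≠ 0 := by
        simp [Matrix.det_fin_two_of, hp.ne_zero]
      have hdU : (!![1, 0; 0, (p : ℤ)] : FA.HeckeH1.MatZ).det ≠ 0 := by
        simp [Matrix.det_fin_two_of, hp.ne_zero]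
      rw [e1, mR_mul (by rw [Matrix.det_mul, L.2, mul_one]; exact hdD) hdU,
        SlashAction.slash_mul, slash_mR_mul' L hdD, mR_diag hp.ne_zero, ← hh, hL, hh,
        ← mR_diag hp.ne_zero, ← SlashAction.slash_mul, ← mR_mul hdD hdU,
        show (!![(p : ℤ), 0; 0, 1] : FA.HeckeH1.MatZ) * !![1, 0; 0, (p : ℤ)] =
          !![(p : ℤ), 0; 0, (p : ℤ)] by
          ext i j; fin_cases i <;> fin_cases j <;> simp [Matrix.mul_apply, Fin.sum_univ_two],
        slash_scalar _ hp.ne_zero]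
    exact sub_eq_zero.1 (eq_zero_of_lower_invariant hg hp hpN hB)
  -- every class contains a prime
  have hγ' : γ ∈ GamH N (⊤ : Subgroup (ZMod N)ˣ) := FA.HeckeH1.GamH_top.ge hγ
  have hdet : ((γ.1 0 0 : ℤ) : ZMod N) * ((γ.1 1 1 : ℤ) : ZMod N) = 1 := by
    have hd := congrArg (fun x : ℤ => (x : ZMod N)) γ.2
    simp only [Matrix.det_fin_two, Int.cast_sub, Int.cast_mul, Int.cast_one] at hd
    rwa [Gamma0_mem.1 hγ, mul_zero, sub_zero] at hd
  obtain ⟨p, hpgt, hp, hpd⟩ :=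
    Nat.forall_exists_prime_gt_and_eq_mod (IsUnit.of_mul_eq_one_right _ hdet) N
  have hpN : ¬ p ∣ N := fun h => (Nat.le_of_dvd (NeZero.pos N) h).not_gt hpgt
  set δ : GamH N (⊤ : Subgroup (ZMod N)ˣ) := ⟨γ, hγ'⟩ * (pGam hp hpN)⁻¹
  have hδ : (δ : SL(2, ℤ)) ∈ GamH N (⊥ : Subgroup (ZMod N)ˣ) := by
    rw [mem_GamH_iff, Subgroup.mem_bot, map_mul, map_inv, mul_inv_eq_one, Units.ext_iff,
      ulHom_val, ulHom_val]
    have h1 : ((pGam hp hpN : SL(2, ℤ)).1 0 0 : ZMod N) * (p : ZMod N) = 1 := by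
      have hb := congrArg (fun x : ℤ => (x : ZMod N)) (FA.HeckeH1.bezout_eq hp hpN)
      simp only [Int.cast_add, Int.cast_mul, Int.cast_natCast, ZMod.natCast_self, zero_mul,
        add_zero, Int.cast_one] at hb
      simpa [pGam, mul_comm] using hb
    rw [hpd] at h1
    calc ((γ.1 0 0 : ℤ) : ZMod N)
        = (γ.1 0 0 : ZMod N) * (((pGam hp hpN : SL(2, ℤ)).1 0 0 : ZMod N) * (γ.1 1 1 : ZMod N)) := by
          rw [h1, mul_one]
      _ = ((pGam hp hpN : SL(2, ℤ)).1 0 0 : ZMod N) := by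
          rw [mul_left_comm, hdet, mul_one]
  have e : γ = (δ : SL(2, ℤ)) * (pGam hp hpN : SL(2, ℤ)) := by
    simp [δ]
  rw [← hpd, e, SlashAction.slash_mul, hF.1 _ hδ, main p hp hpN]

end FA.Weight1

end
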