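import Fermat.Agent.Weight1.CycLevel
import Fermat.Agent.Weight1.Defs
import Mathlib.NumberTheory.LSeries.PrimesInAP
import Mathlib.RingTheory.Polynomial.Cyclotomic.Roots
import Mathlib.FieldTheory.Normal.Basic

/-!
# An auxiliary level for the density theorem

For a finite quotient `G` of the absolute Galois group and an integer `k` there is a prime `m`
such that `|G| ^ k` divides the order of `(ℤ/m)ˣ / ± 1` and the absolute Galois group maps onto
the product of the two groups.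
-/

set_option autoImplicit false

noncomputable section

open scoped Classical

namespace FA.Weight1

local notation "Qb" => AlgebraicClosure ℚ
local notation "GQ" => AlgebraicClosure ℚ ≃ₐ[ℚ] AlgebraicClosure ℚ

/-- The units modulo `m` up to sign. -/
abbrev PmUnits (m : ℕ) := (ZMod m)ˣ ⧸ pmOne m

/-- The cyclotomic character up to sign. -/
def cycPm (m : ℕ) [NeZero m] : GQ →* PmUnits m := (QuotientGroup.mk' (pmOne m)).comp (cycM m)

/-- Cyclotomic polynomials are irreducible. -/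
theorem exists_cycM_eq (m : ℕ) [NeZero m] (u : (ZMod m)ˣ) : ∃ σ : GQ, cycM m σ = u := by
  obtain ⟨ζ, hζ⟩ := HasEnoughRootsOfUnity.exists_primitiveRoot Qb m
  have : Algebra.IsAlgebraic ℚ Qb := AlgebraicClosure.isAlgebraic ℚ
  have : IsAlgClosure ℚ Qb := ⟨inferInstance, inferInstance⟩
  have : Normal ℚ Qb := IsAlgClosure.normal ℚ Qb
  have hco : Nat.Coprime (u : ZMod m).val m := ZMod.val_coe_unit_coprime u
  have hm : 0 < m := Nat.pos_of_ne_zero (NeZero.ne m)
  have hmin : minpoly ℚ (ζ ^ (u : ZMod m).val) = minpoly ℚ ζ := by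
    rw [← Polynomial.cyclotomic_eq_minpoly_rat (hζ.pow_of_coprime _ hco) hm,
      ← Polynomial.cyclotomic_eq_minpoly_rat hζ hm]
  obtain ⟨σ, hσ⟩ := (Normal.minpoly_eq_iff_mem_orbit (E := Qb)).mp hmin
  refine ⟨σ, Units.ext (cycM_val m σ _ fun t ht => ?_)⟩
  obtain ⟨i, -, rfl⟩ := hζ.eq_pow_of_pow_eq_one ht
  rw [map_pow, show σ ζ = ζ ^ (u : ZMod m).val from hσ, ← pow_mul, ← pow_mul, mul_comm]

theorem cycM_comp (m M : ℕ) [NeZero m] [NeZero M] (h : m ∣ M) (σ : GQ) :
    ((cycM m σ : (ZMod m)ˣ) : ZMod m) =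
      ZMod.castHom h (ZMod m) ((cycM M σ : (ZMod M)ˣ) : ZMod M) := by
  obtain ⟨ζ, hζ⟩ := HasEnoughRootsOfUnity.exists_primitiveRoot Qb M
  set c : ZMod M := ((cycM M σ : (ZMod M)ˣ) : ZMod M) with hc
  have hspec : ∀ t : Qb, t ^ M = 1 → σ t = t ^ c.val := fun t ht => by
    have ht0 : t ≠ 0 := fun h => by simp [h, zero_pow (NeZero.ne M)] at ht
    have h1 := modularCyclotomicCharacter.spec Qb
      (HasEnoughRootsOfUnity.natCard_rootsOfUnity Qb M) (σ : Qb ≃+* Qb)
      (t := Units.mk0 t ht0) (by rw [mem_rootsOfUnity]; ext; simpa using ht)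
    exact h1
  refine cycM_val m σ _ fun t ht => ?_
  obtain ⟨d, rfl⟩ := h
  rw [hspec t (by rw [pow_mul, ht, one_pow]), ZMod.castHom_apply, ZMod.cast_eq_val,
    ZMod.val_natCast]
  exact pow_eq_pow_mod _ ht

theorem exists_cycM_eq_pair {m m' : ℕ} [NeZero m] [NeZero m'] (h : Nat.Coprime m m')
    (u : (ZMod m')ˣ) : ∃ σ : GQ, cycM m σ = 1 ∧ cycM m' σ = u := by
  have : NeZero (m * m') := ⟨mul_ne_zero (NeZero.ne m) (NeZero.ne m')⟩
  let e : ZMod (m * m') ≃+* ZMod m × ZMod m' := ZMod.chineseRemainder h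
  obtain ⟨σ, hσ⟩ := exists_cycM_eq (m * m')
    (Units.map e.symm.toRingHom.toMonoidHom (MulEquiv.prodUnits.symm (1, u)))
  refine ⟨σ, Units.ext ?_, Units.ext ?_⟩
  · rw [cycM_comp m (m * m') (dvd_mul_right m m') σ, hσ]
    have hproj : (ZMod.castHom (dvd_mul_right m m') (ZMod m)) =
        (RingHom.fst (ZMod m) (ZMod m')).comp e.toRingHom := Subsingleton.elim _ _
    rw [hproj]
    simp [e, MulEquiv.prodUnits]
  · rw [cycM_comp m' (m * m') (dvd_mul_left m' m) σ, hσ]
    have hproj : (ZMod.castHom (dvd_mul_left m' m) (ZMod m')) =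
        (RingHom.snd (ZMod m) (ZMod m')).comp e.toRingHom := Subsingleton.elim _ _
    rw [hproj]
    simp [e, MulEquiv.prodUnits]

theorem neg_one_ne_one_units {m : ℕ} (hm : 2 < m) : (-1 : (ZMod m)ˣ) ≠ 1 := fun h => by
  have h1 : ((2 : ℕ) : ZMod m) = 0 := by
    have := congrArg (fun u : (ZMod m)ˣ => (u : ZMod m)) h
    simp only [Units.val_neg, Units.val_one] at this
    push_cast
    linear_combination -this
  rw [ZMod.natCast_eq_zero_iff] at h1
  exact absurd (Nat.le_of_dvd two_pos h1) (by omega)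

theorem two_mul_card_pmUnits {m : ℕ} [Fact m.Prime] (hm : 2 < m) :
    2 * Nat.card (PmUnits m) = m - 1 := by
  have h1 : Nat.card (pmOne m) = 2 := by
    rw [pmOne, Nat.card_zpowers]
    exact orderOf_eq_prime (by rw [sq, neg_mul_neg, one_mul]) (neg_one_ne_one_units hm)
  have h2 : Nat.card (ZMod m)ˣ = Nat.card (PmUnits m) * Nat.card (pmOne m) :=
    Subgroup.card_eq_card_quotient_mul_card_subgroup (pmOne m)
  rw [Nat.card_eq_fintype_card (α := (ZMod m)ˣ), ZMod.card_units_eq_totient,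
    Nat.totient_prime Fact.out, h1] at h2
  omega

/-- The auxiliary level. -/
theorem exists_level {G : Type} [Group G] [Finite G] (π : GQ →* G) (hπ : Function.Surjective π)
    {c : ℕ} (hc : 0 < c) :
    ∃ m : ℕ, ∃ _ : Fact m.Prime, 2 < m ∧ c ∣ Nat.card (PmUnits m) ∧
      Function.Surjective (π.prod (cycPm m)) := by
  have hinf : {m : ℕ | m.Prime ∧ 2 < m ∧ 2 * c ∣ m - 1}.Infinite := by
    refine Set.infinite_of_forall_exists_gt fun N => ?_
    obtain ⟨p, hpN, hp, hmod⟩ := Nat.forall_exists_prime_gt_and_modEq (max N 2)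
      (q := 2 * c) (a := 1) (by omega) (Nat.coprime_one_left _)
    exact ⟨p, ⟨hp, lt_of_le_of_lt (le_max_right _ _) hpN,
      (Nat.modEq_iff_dvd' hp.one_lt.le).mp hmod.symm⟩, lt_of_le_of_lt (le_max_left _ _) hpN⟩
  let D : ℕ → Subgroup G := fun m =>
    if h : m = 0 then ⊤ else haveI : NeZero m := ⟨h⟩; (cycM m).ker.map π
  obtain ⟨m, hm, m', hm', hne, hD⟩ := hinf.exists_ne_map_eq_of_mapsTo (f := D)
    (fun _ _ => Set.mem_univ _) Set.finite_univ
  have : Fact m.Prime := ⟨hm.1⟩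
  have : Fact m'.Prime := ⟨hm'.1⟩
  have hco : Nat.Coprime m m' := (Nat.coprime_primes hm.1 hm'.1).mpr hne
  simp only [D, dif_neg hm.1.ne_zero, dif_neg hm'.1.ne_zero] at hD
  have htop : ∀ x : G, x ∈ (cycM m).ker.map π := by
    intro x
    obtain ⟨g, rfl⟩ := hπ x
    obtain ⟨σ, h1, h2⟩ := exists_cycM_eq_pair hco (cycM m' g)
    have hg : g * σ⁻¹ ∈ (cycM m').ker := by
      rw [MonoidHom.mem_ker, map_mul, map_inv, h2, mul_inv_cancel]
    have h3 : π (g * σ⁻¹) ∈ (cycM m).ker.map π := hD ▸ Subgroup.mem_map_of_mem π hg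
    have h4 : π σ ∈ (cycM m).ker.map π := Subgroup.mem_map_of_mem π h1
    have := mul_mem h3 h4
    rwa [← map_mul, inv_mul_cancel_right] at this
  refine ⟨m, ⟨hm.1⟩, hm.2.1, ?_, fun xu => ?_⟩
  · have h2 := two_mul_card_pmUnits (m := m) hm.2.1
    exact Nat.dvd_of_mul_dvd_mul_left two_pos (h2.symm ▸ hm.2.2)
  · obtain ⟨x, u⟩ := xu
    obtain ⟨w, rfl⟩ := QuotientGroup.mk'_surjective (pmOne m) u
    obtain ⟨g, hg⟩ := exists_cycM_eq m w
    obtain ⟨σ, hσ, hσx⟩ := htop ((π g)⁻¹ * x)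
    refine ⟨g * σ, Prod.ext ?_ ?_⟩
    · simp [map_mul, hσx]
    · show (QuotientGroup.mk' (pmOne m)) (cycM m (g * σ)) = _
      rw [map_mul (cycM m), MonoidHom.mem_ker.mp hσ, mul_one, hg]

/-- Few elements of a cyclic group have order not divisible by `n` if `n ^ k` divides the order
of the group. -/
theorem card_not_dvd_orderOf_le {U : Type*} [CommGroup U] [Fintype U] [IsCyclic U] {n k : ℕ}
    (hk : 0 < k) (hn : n ^ k ∣ Fintype.card U) :
    (Finset.univ.filter fun a : U => ¬ n ∣ orderOf a).card * 2 ^ k ≤ n * Fintype.card U := by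
  rcases Nat.eq_zero_or_pos n with rfl | hn0
  · simp [zero_pow hk.ne', Fintype.card_ne_zero] at hn
  set N := Fintype.card U
  have hsub : (Finset.univ.filter fun a : U => ¬ n ∣ orderOf a) ⊆
      n.primeFactors.biUnion fun ℓ => Finset.univ.filter fun a : U => a ^ (N / ℓ ^ k) = 1 := by
    intro a ha
    have ha' := (Finset.mem_filter.mp ha).2
    obtain ⟨ℓ, hℓ, hlt⟩ : ∃ ℓ ∈ n.primeFactors,
        (orderOf a).factorization ℓ < n.factorization ℓ := by
      by_contra hcon
      push Not at hcon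
      refine ha' ((Nat.factorization_le_iff_dvd hn0.ne' (orderOf_pos a).ne').mp fun ℓ => ?_)
      by_cases hℓ : ℓ ∈ n.primeFactors
      · exact hcon ℓ hℓ
      · simp [Finsupp.notMem_support_iff.mp (Nat.support_factorization n ▸ hℓ)]
    have hp := Nat.prime_of_mem_primeFactors hℓ
    refine Finset.mem_biUnion.mpr ⟨ℓ, hℓ, Finset.mem_filter.mpr ⟨Finset.mem_univ _, ?_⟩⟩
    rw [← orderOf_dvd_iff_pow_eq_one]
    have hℓN : ℓ ^ k ∣ N :=
      (pow_dvd_pow_of_dvd (Nat.dvd_of_mem_primeFactors hℓ) k).trans hn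
    have hd : orderOf a ∣ N := orderOf_dvd_card
    have hN : N ≠ 0 := Fintype.card_ne_zero
    rw [Nat.dvd_div_iff_mul_dvd hℓN]
    refine (Nat.factorization_le_iff_dvd
      (mul_ne_zero (pow_ne_zero _ hp.ne_zero) (orderOf_pos a).ne') hN).mp fun r => ?_
    rw [Nat.factorization_mul (pow_ne_zero _ hp.ne_zero) (orderOf_pos a).ne', Finsupp.add_apply,
      hp.factorization_pow]
    rcases eq_or_ne ℓ r with rfl | hr
    · have h1 := ((Nat.factorization_le_iff_dvd (pow_ne_zero k hn0.ne') hN).mpr hn) ℓ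
      rw [Nat.factorization_pow, Finsupp.smul_apply, smul_eq_mul] at h1
      rw [Finsupp.single_eq_same]
      have h2 : k * ((orderOf a).factorization ℓ + 1) ≤ k * n.factorization ℓ :=
        Nat.mul_le_mul_left _ hlt
      have h3 : (orderOf a).factorization ℓ ≤ k * (orderOf a).factorization ℓ :=
        Nat.le_mul_of_pos_left _ hk
      rw [Nat.mul_add, mul_one] at h2
      omega
    · rw [Finsupp.single_eq_of_ne hr.symm, zero_add]
      exact ((Nat.factorization_le_iff_dvd (orderOf_pos a).ne' hN).mpr hd) r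
  calc (Finset.univ.filter fun a : U => ¬ n ∣ orderOf a).card * 2 ^ k
      ≤ (∑ ℓ ∈ n.primeFactors, N / ℓ ^ k) * 2 ^ k := by
        refine Nat.mul_le_mul_right _ ((Finset.card_le_card hsub).trans
          (Finset.card_biUnion_le.trans (Finset.sum_le_sum fun ℓ hℓ => ?_)))
        have hℓN : ℓ ^ k ∣ N :=
          (pow_dvd_pow_of_dvd (Nat.dvd_of_mem_primeFactors hℓ) k).trans hn
        exact IsCyclic.card_pow_eq_one_le (Nat.div_pos (Nat.le_of_dvd Fintype.card_pos hℓN)
          (pow_pos (Nat.prime_of_mem_primeFactors hℓ).pos k))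
    _ ≤ n.primeFactors.card * N := by
        rw [Finset.sum_mul]
        refine Finset.sum_le_card_nsmul _ _ N fun ℓ hℓ => ?_
        exact (Nat.mul_le_mul_left _ (Nat.pow_le_pow_left
          (Nat.prime_of_mem_primeFactors hℓ).two_le k)).trans (Nat.div_mul_le_self _ _)
    _ ≤ n * N := Nat.mul_le_mul_right _ (by
        calc n.primeFactors.card ≤ (Finset.Icc 1 n).card := Finset.card_le_card fun ℓ hℓ =>
              Finset.mem_Icc.mpr ⟨(Nat.prime_of_mem_primeFactors hℓ).pos,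
                Nat.le_of_mem_primeFactors hℓ⟩
          _ = n := by simp)

end FA.Weight1

end
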