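import Fermat.Agent.Weight1.DensityL
import Fermat.Agent.Weight1.DensityLevel
import Fermat.Agent.Density.Frobenius
import Mathlib.GroupTheory.FiniteAbelian.Duality
import Mathlib.Analysis.Complex.Polynomial.Basic

/-!
# Primes with Frobenius element `(σ, a ^ ±1)`

In a Galois extension with group `G × (ℤ/m)ˣ/±1`, where the second projection is the cyclotomic
one, we bound below the primes with Frobenius element conjugate to `(σ, a)` or `(σ⁻¹, a⁻¹)`,
provided that the order of `σ` divides the one of `a`.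
-/

set_option autoImplicit false
set_option linter.style.haveILetI false

noncomputable section

open NumberField IsDedekindDomain Filter Topology FA.Density
open FA.Ext (zN zN_nonneg primeIdeal zN_primeIdeal zN_primeIdeal_le_half exists_sum_le)
open scoped nonZeroDivisors Classical

namespace FA.Weight1

/-- The number of conjugators of `x` to `σ`. -/
def hits {G : Type*} [Group G] [Fintype G] (σ x : G) : ℕ :=
  (Finset.univ.filter fun y : G => y * x * y⁻¹ = σ).card

section Characters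

variable {U : Type*} [CommGroup U] [Fintype U]

instance fintypeDual : Fintype (U →* ℂˣ) :=
  Fintype.ofEquiv U (CommGroup.monoidHom_mulEquiv_of_hasEnoughRootsOfUnity U ℂ).some.symm.toEquiv

theorem sum_char_apply (x : U) :
    ∑ χ : U →* ℂˣ, ((χ x : ℂˣ) : ℂ) = if x = 1 then (Fintype.card U : ℂ) else 0 := by
  split_ifs with h
  · subst h
    simp [Fintype.card_congr (CommGroup.monoidHom_mulEquiv_of_hasEnoughRootsOfUnity U ℂ).some.toEquiv]
  · obtain ⟨χ₀, hχ₀⟩ := CommGroup.exists_apply_ne_one_of_hasEnoughRootsOfUnity U ℂ h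
    have h1 : ((χ₀ x : ℂˣ) : ℂ) * ∑ χ : U →* ℂˣ, ((χ x : ℂˣ) : ℂ) =
        ∑ χ : U →* ℂˣ, ((χ x : ℂˣ) : ℂ) := by
      rw [Finset.mul_sum]
      exact Fintype.sum_equiv (Equiv.mulLeft χ₀) _ _ fun χ => by simp
    exact (mul_eq_zero.mp (by rw [sub_mul, one_mul, h1, sub_self] :
      (((χ₀ x : ℂˣ) : ℂ) - 1) * ∑ χ : U →* ℂˣ, ((χ x : ℂˣ) : ℂ) = 0)).resolve_left
        (sub_ne_zero.mpr fun he => hχ₀ (Units.ext (by simpa using he)))

theorem norm_char_apply (χ : U →* ℂˣ) (x : U) : ‖((χ x : ℂˣ) : ℂ)‖ = 1 :=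
  Complex.norm_eq_one_of_pow_eq_one
    (by rw [← Units.val_pow_eq_pow_val, ← map_pow, pow_orderOf_eq_one, map_one, Units.val_one])
    (orderOf_pos x).ne'

theorem card_trivial_mul_orderOf (a : U) :
    (Finset.univ.filter fun χ : U →* ℂˣ => χ a = 1).card * orderOf a = Fintype.card U := by
  have h : ∀ χ : U →* ℂˣ, ∑ k ∈ Finset.range (orderOf a), ((χ (a ^ k) : ℂˣ) : ℂ) =
      if χ a = 1 then (orderOf a : ℂ) else 0 := fun χ => by
    split_ifs with hχ
    · simp [map_pow, hχ]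
    · simp only [map_pow, Units.val_pow_eq_pow_val]
      rw [geom_sum_eq (fun he => hχ (Units.ext (by simpa using he))), ← Units.val_pow_eq_pow_val,
        ← map_pow, pow_orderOf_eq_one, map_one, Units.val_one, sub_self, zero_div]
  have h1 := Finset.sum_congr (rfl : (Finset.univ : Finset (U →* ℂˣ)) = _) fun χ _ => h χ
  rw [Finset.sum_comm] at h1
  simp only [sum_char_apply] at h1
  rw [← Finset.sum_filter (s := Finset.univ), Finset.sum_const, nsmul_eq_mul,
    ← Finset.sum_filter, show (Finset.range (orderOf a)).filter (fun k => a ^ k = 1) = {0} by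
      ext k
      simp only [Finset.mem_filter, Finset.mem_range, Finset.mem_singleton]
      constructor
      · rintro ⟨hk, hk1⟩
        by_contra h0
        exact pow_ne_one_of_lt_orderOf h0 hk hk1
      · rintro rfl
        exact ⟨orderOf_pos a, pow_zero a⟩,
    Finset.sum_singleton] at h1
  exact_mod_cast h1.symm

end Characters

variable {m : ℕ} [Fact m.Prime]

instance fintypeDualPm [Fintype (PmUnits m)] : Fintype (PmUnits m →* ℂˣ) :=
  fintypeDual (U := PmUnits m)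

/-- The Dirichlet character of a character of `(ℤ/m)ˣ/±1`. -/
def dirChar (χ : PmUnits m →* ℂˣ) : DirichletCharacter ℂ m :=
  MulChar.ofUnitHom (χ.comp (QuotientGroup.mk' (pmOne m)))

theorem dirChar_unit (χ : PmUnits m →* ℂˣ) (w : (ZMod m)ˣ) :
    dirChar χ (w : ZMod m) = ((χ (QuotientGroup.mk' (pmOne m) w) : ℂˣ) : ℂ) :=
  MulChar.ofUnitHom_coe _ w

theorem dirChar_neg_one (χ : PmUnits m →* ℂˣ) : dirChar χ (-1) = 1 := by
  have h : (QuotientGroup.mk' (pmOne m)) (-1) = 1 :=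
    (QuotientGroup.eq_one_iff _).mpr (neg_one_mem_pmOne m)
  rw [show (-1 : ZMod m) = ((-1 : (ZMod m)ˣ) : ZMod m) by simp, dirChar_unit, h, map_one,
    Units.val_one]

variable (m) in
/-- The class up to sign of a natural number. -/
def InClass (u : PmUnits m) (N : ℕ) : Prop :=
  ∃ w : (ZMod m)ˣ, (w : ZMod m) = (N : ZMod m) ∧ QuotientGroup.mk' (pmOne m) w = u

/-- The indicator of `InClass`. -/
def classInd (u : PmUnits m) (N : ℕ) : ℝ := if InClass m u N then 1 else 0

theorem classInd_nonneg (u : PmUnits m) (N : ℕ) : 0 ≤ classInd u N := by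
  unfold classInd; split_ifs <;> norm_num

theorem classInd_le_one (u : PmUnits m) (N : ℕ) : classInd u N ≤ 1 := by
  unfold classInd; split_ifs <;> norm_num

theorem sum_dirChar_mul [Fintype (PmUnits m)] (u : PmUnits m) (N : ℕ) :
    ∑ χ : PmUnits m →* ℂˣ, dirChar χ (N : ZMod m) * ((χ u⁻¹ : ℂˣ) : ℂ) =
      ((Fintype.card (PmUnits m) : ℝ) * classInd u N : ℝ) := by
  by_cases hN : IsUnit (N : ZMod m)
  · obtain ⟨w, hw⟩ := hN
    simp only [← hw, dirChar_unit, ← Units.val_mul, ← map_mul, classInd]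
    rw [show ∑ χ : PmUnits m →* ℂˣ, ((χ (QuotientGroup.mk' (pmOne m) w * u⁻¹) : ℂˣ) : ℂ) =
      if QuotientGroup.mk' (pmOne m) w * u⁻¹ = 1 then (Fintype.card (PmUnits m) : ℂ) else 0 from by
        convert sum_char_apply (U := PmUnits m) _]
    simp only [mul_inv_eq_one]
    have : InClass m u N ↔ QuotientGroup.mk' (pmOne m) w = u :=
      ⟨fun ⟨w', h1, h2⟩ => by rwa [Units.ext (hw.trans h1.symm)], fun h => ⟨w, hw, h⟩⟩
    split_ifs with h1 h2 h2
    · push_cast; ring
    · exact absurd (this.mpr h1) h2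
    · exact absurd (this.mp h2) h1
    · push_cast; ring
  · have : ¬ InClass m u N := fun ⟨w, hw, _⟩ => hN (hw ▸ w.isUnit)
    simp [classInd, this, MulChar.map_nonunit _ hN]

variable {F : Type*} [Field F] [NumberField F] [IsGalois ℚ F] (𝔉 : FrobSystem F)
variable {G : Type*} [Group G] [Fintype G] (e : (F ≃ₐ[ℚ] F) ≃* G × PmUnits m)

theorem conjCount_pair [Fintype (PmUnits m)] {σ : G} {a : PmUnits m} (hσa : σ ^ orderOf a = 1)
    {g : F ≃ₐ[ℚ] F} (hg : (e g).2 = a) :
    conjCount ((Subgroup.zpowers (e.symm (σ, a)) : Subgroup (F ≃ₐ[ℚ] F)) : Set (F ≃ₐ[ℚ] F)) g =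
      Fintype.card (PmUnits m) * hits σ (e g).1 := by
  have hmem : ∀ z : F ≃ₐ[ℚ] F, z * g * z⁻¹ ∈ Subgroup.zpowers (e.symm (σ, a)) ↔
      (e z).1 * (e g).1 * (e z).1⁻¹ = σ := by
    intro z
    have h2 : (e (z * g * z⁻¹)).2 = a := by
      simp only [map_mul, map_inv, Prod.snd_mul, Prod.snd_inv, hg]
      rw [mul_comm ((e z).2), mul_inv_cancel_right]
    constructor
    · rintro ⟨k, hk⟩
      have hk' : e (z * g * z⁻¹) = (σ, a) ^ k := by
        rw [← hk, map_zpow, MulEquiv.apply_symm_apply]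
      rw [hk', Prod.pow_snd] at h2
      have h3 : (orderOf a : ℤ) ∣ k - 1 := by
        rw [orderOf_dvd_iff_zpow_eq_one, zpow_sub, h2, zpow_one, mul_inv_cancel]
      obtain ⟨j, hj⟩ := h3
      have h4 := congrArg Prod.fst hk'
      simp only [map_mul, map_inv, Prod.fst_mul, Prod.fst_inv, Prod.pow_fst] at h4
      rw [h4, show k = (orderOf a : ℤ) * j + 1 by omega, zpow_add, zpow_mul, zpow_natCast, hσa,
        one_zpow, one_mul, zpow_one]
    · intro h
      refine ⟨1, ?_⟩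
      simp only [zpow_one]
      rw [MulEquiv.symm_apply_eq]
      refine (Prod.ext ?_ h2).symm
      simp only [map_mul, map_inv, Prod.fst_mul, Prod.fst_inv, h]
  rw [conjCount, hits]
  simp only [SetLike.mem_coe, hmem]
  rw [← Finset.card_map e.toEquiv.toEmbedding,
    show (Finset.univ.filter fun z : F ≃ₐ[ℚ] F => (e z).1 * (e g).1 * (e z).1⁻¹ = σ).map
      e.toEquiv.toEmbedding = (Finset.univ.filter fun y : G => y * (e g).1 * y⁻¹ = σ) ×ˢ
        (Finset.univ : Finset (PmUnits m)) by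
      ext ⟨y, u⟩
      simp only [Finset.mem_map_equiv, Finset.mem_filter, Finset.mem_univ, true_and,
        Finset.mem_product, and_true]
      rw [show e.toEquiv.symm (y, u) = e.symm (y, u) from rfl, MulEquiv.apply_symm_apply],
    Finset.card_product, Finset.card_univ, mul_comm]

theorem zN_congr {K : Type*} [Field K] [NumberField K] (s : ℝ) {v : HeightOneSpectrum (𝓞 K)}
    {q : ℕ} (h : Ideal.absNorm v.asIdeal = q) : zN s (primeIdeal v) = (q : ℝ) ^ (-s) := by
  rw [zN_primeIdeal, h]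

variable (hq : ∀ q, 𝔉.Good q → ∀ u, InClass m u q ↔ (e (𝔉.frob q)).2 = u)

include hq in
theorem exists_pair_bound [Fintype (PmUnits m)] {σ : G} {a : PmUnits m}
    (hσa : σ ^ orderOf a = 1) :
    ∃ B : ℝ, ∀ s ∈ Set.Ioc (1 : ℝ) 2, ∃ S : Finset ℕ, (∀ q ∈ S, 𝔉.Good q) ∧
      2 * Real.log (1 / (s - 1)) - B ≤ (Fintype.card (PmUnits m) : ℝ) * ∑ q ∈ S,
        ((if (e (𝔉.frob q)).2 = a then (hits σ (e (𝔉.frob q)).1 : ℝ) else 0) +
          (if (e (𝔉.frob q)).2 = a⁻¹ then (hits σ⁻¹ (e (𝔉.frob q)).1 : ℝ) else 0)) *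
        (q : ℝ) ^ (-s) := by
  set r := orderOf a with hr
  have hr0 : 0 < r := orderOf_pos a
  set z₀ := e.symm (σ, a)
  set H := Subgroup.zpowers z₀ with hH
  have hcardH : Nat.card H = r := by
    rw [hH, Nat.card_zpowers, MulEquiv.orderOf_eq, Prod.orderOf_mk]
    exact Nat.lcm_eq_right (orderOf_dvd_of_pow_eq_one hσa)
  let K := IntermediateField.fixedField H
  have hcount : ∀ q : ℕ, ∃ T : Finset (HeightOneSpectrum (𝓞 K)), 𝔉.Good q →
      (∀ v, v ∈ T ↔ v ∈ degOne H q) ∧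
      conjCount (H : Set (F ≃ₐ[ℚ] F)) (𝔉.frob q) = r * T.card := fun q => by
    by_cases hg : 𝔉.Good q
    · obtain ⟨P, hP⟩ := 𝔉.spec q hg.1 hg.2
      obtain ⟨T, hT, hTc⟩ := hP.exists_count H
      exact ⟨T, fun _ => ⟨hT, by rw [← hcardH]; exact hTc⟩⟩
    · exact ⟨∅, fun h => absurd h hg⟩
  choose T hT using hcount
  let degV : Finset ℕ → Finset (HeightOneSpectrum (𝓞 K)) := fun S =>
    (S.filter 𝔉.Good).biUnion T
  have hnorm : ∀ (S : Finset ℕ), ∀ v ∈ degV S, 𝔉.Good (Ideal.absNorm v.asIdeal) := by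
    intro S v hv
    obtain ⟨q, hqS, hvq⟩ := Finset.mem_biUnion.mp hv
    have hg := (Finset.mem_filter.mp hqS).2
    rwa [show Ideal.absNorm v.asIdeal = q from ((hT q hg).1 v).mp hvq]
  have hsumT : ∀ (s : ℝ) (S : Finset ℕ) (φ : ℕ → ℝ),
      (r : ℝ) * ∑ v ∈ degV S, φ (Ideal.absNorm v.asIdeal) * zN s (primeIdeal v) =
        ∑ q ∈ S.filter 𝔉.Good, (conjCount (H : Set (F ≃ₐ[ℚ] F)) (𝔉.frob q) : ℝ) * φ q *
          (q : ℝ) ^ (-s) := by
    intro s S φ
    rw [Finset.sum_biUnion, Finset.mul_sum]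
    · refine Finset.sum_congr rfl fun q hqS => ?_
      have hg := (Finset.mem_filter.mp hqS).2
      rw [Finset.sum_congr rfl (g := fun _ => φ q * (q : ℝ) ^ (-s)) (fun v hv => by
        rw [zN_congr s (((hT q hg).1 v).mp hv),
          show Ideal.absNorm v.asIdeal = q from ((hT q hg).1 v).mp hv]),
        Finset.sum_const, nsmul_eq_mul, (hT q hg).2]
      push_cast
      ring
    · intro x hx y hy hxy
      rw [Function.onFun, Finset.disjoint_left]
      intro v hvx hvy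
      exact hxy ((((hT x (Finset.mem_filter.mp hx).2).1 v).mp hvx).symm.trans
        (((hT y (Finset.mem_filter.mp hy).2).1 v).mp hvy))
  set nU : ℝ := (Fintype.card (PmUnits m) : ℝ) with hnU
  have hnU0 : 0 < nU := Nat.cast_pos.mpr Fintype.card_pos
  set W := Finset.univ.filter fun χ : PmUnits m →* ℂˣ => χ a = 1
  have hW : (W.card : ℝ) * r = nU := by
    rw [hnU, ← card_trivial_mul_orderOf a]; push_cast; rfl
  -- the characters nontrivial on `a` are nontrivial on some norm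
  have hex : ∀ χ : PmUnits m →* ℂˣ, χ a ≠ 1 → ∃ I : (Ideal (𝓞 K))⁰,
      normVal (dirChar χ) I.1 ≠ 0 ∧ normVal (dirChar χ) I.1 ≠ 1 := by
    intro χ hχ
    obtain ⟨q, hqp, -, hqe, x, hx⟩ := 𝔉.exists_generating z₀ ∅
    have hg : 𝔉.Good q := ⟨hqp, hqe⟩
    have hxH : x * 𝔉.frob q * x⁻¹ ∈ H := by
      rw [hH, ← hx]; exact Subgroup.mem_zpowers _
    have hpos : 0 < conjCount (H : Set (F ≃ₐ[ℚ] F)) (𝔉.frob q) :=
      Finset.card_pos.mpr ⟨x, Finset.mem_filter.mpr ⟨Finset.mem_univ _, hxH⟩⟩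
    rw [(hT q hg).2] at hpos
    obtain ⟨v, hv⟩ := Finset.card_pos.mp (Nat.pos_of_mul_pos_left hpos)
    obtain ⟨w, hw, hwu⟩ := (hq q hg _).mpr rfl
    refine ⟨primeIdeal v, ?_⟩
    have hval : normVal (dirChar χ) (primeIdeal v).1 = ((χ (e (𝔉.frob q)).2 : ℂˣ) : ℂ) := by
      show dirChar χ ((Ideal.absNorm v.asIdeal : ℕ) : ZMod m) = _
      rw [show Ideal.absNorm v.asIdeal = q from ((hT q hg).1 v).mp hv, ← hw, dirChar_unit, hwu]
    rw [hval]
    refine ⟨Units.ne_zero _, fun h1 => hχ ?_⟩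
    have hz : z₀ ∈ Subgroup.zpowers (x * 𝔉.frob q * x⁻¹) := hx ▸ Subgroup.mem_zpowers z₀
    obtain ⟨k, hk⟩ := hz
    have h2 : ((e (𝔉.frob q)).2) ^ k = a := by
      have := congrArg (fun z => (e z).2) hk
      simp only [z₀, map_zpow, map_mul, map_inv, MulEquiv.apply_symm_apply, Prod.pow_snd,
        Prod.snd_mul, Prod.snd_inv] at this
      rwa [mul_comm ((e x).2), mul_inv_cancel_right] at this
    rw [← h2, map_zpow, show χ (e (𝔉.frob q)).2 = 1 from Units.ext (by simpa using h1), one_zpow]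
  -- bounds on each of the sums
  have hB : ∀ χ : PmUnits m →* ℂˣ, ∃ B : ℝ, χ ∉ W → ∀ s ∈ Set.Ioc (1 : ℝ) 2,
      ∀ᶠ V : Finset (HeightOneSpectrum (𝓞 K)) in atTop,
        (∑ v ∈ V, normHom (dirChar χ) s (primeIdeal v)).re ≤ B := fun χ => by
    by_cases h : χ ∈ W
    · exact ⟨0, fun h' => absurd h h'⟩
    · obtain ⟨B, hB⟩ := exists_re_sum_le (K := K) (dirChar χ) (dirChar_neg_one χ)
        (hex χ fun he => h (Finset.mem_filter.mpr ⟨Finset.mem_univ _, he⟩))
      exact ⟨B, fun _ => hB⟩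
  choose B hB using hB
  obtain ⟨M₁, hM₁⟩ := exists_sum_le K
  obtain ⟨M₂, hM₂⟩ := 𝔉.exists_bound_subgroup H
  obtain ⟨M₃, hM₃⟩ := 𝔉.exists_bound_subgroup (⊥ : Subgroup (F ≃ₐ[ℚ] F))
  -- the constants
  set Bp : ℝ := ∑ χ : PmUnits m →* ℂˣ, max (B χ) 0
  set C₀ : ℝ := 2 * |M₂| + |M₁|
  set C₁ : ℝ := nU * |M₃| + W.card * |M₁| + Bp
  refine ⟨2 * C₀ + 2 * (r * (nU * C₁)) + (2 * r) * (|M₁| + |M₂|), fun s hs => ?_⟩
  set L := Real.log (1 / (s - 1))
  have hL : 0 ≤ L := Real.log_nonneg (by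
    rw [le_div_iff₀ (by linarith [hs.1]), one_mul]; linarith [hs.2])
  have hev : ∀ᶠ V : Finset (HeightOneSpectrum (𝓞 K)) in atTop, ∀ χ : PmUnits m →* ℂˣ, χ ∉ W →
      (∑ v ∈ V, normHom (dirChar χ) s (primeIdeal v)).re ≤ B χ :=
    eventually_all.mpr fun χ => by
      by_cases h : χ ∈ W
      · exact Eventually.of_forall fun V h' => absurd h h'
      · exact (hB χ h s hs).mono fun V hV _ => hV
  obtain ⟨S₂, hS₂⟩ := (hM₂ s hs).2
  obtain ⟨S₃, hS₃⟩ := (hM₃ s hs).2
  obtain ⟨V, hV, hV₂, hV₃⟩ := (hev.and ((eventually_ge_atTop (degV S₂)).and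
    (eventually_ge_atTop (degV S₃)))).exists
  set x : HeightOneSpectrum (𝓞 K) → ℝ := fun v => zN s (primeIdeal v)
  have hx0 : ∀ v, 0 ≤ x v := fun v => zN_nonneg _ _
  set N : HeightOneSpectrum (𝓞 K) → ℕ := fun v => Ideal.absNorm v.asIdeal
  set good := V.filter fun v => 𝔉.Good (N v)
  set bad := V.filter fun v => ¬ 𝔉.Good (N v)
  have hsplit : ∀ f : HeightOneSpectrum (𝓞 K) → ℝ, ∑ v ∈ good, f v + ∑ v ∈ bad, f v =
      ∑ v ∈ V, f v := fun f => Finset.sum_filter_add_sum_filter_not V _ f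
  have hall : ∑ v ∈ V, x v ≤ L + |M₁| := (hM₁ s hs V).trans (by linarith [le_abs_self M₁])
  have hgood : L - |M₂| ≤ ∑ v ∈ good, x v := by
    have h1 : (r : ℝ) * ∑ v ∈ degV S₂, (1 : ℝ) * x v = 𝔉.psum S₂ (H : Set (F ≃ₐ[ℚ] F)) s := by
      rw [hsumT s S₂ fun _ => 1, FrobSystem.psum]; simp only [mul_one]
    have h2 : ∑ v ∈ degV S₂, (1 : ℝ) * x v ≤ ∑ v ∈ good, x v := by
      simp only [one_mul]
      exact Finset.sum_le_sum_of_subset_of_nonneg
        (fun v hv => Finset.mem_filter.mpr ⟨hV₂ hv, hnorm S₂ v hv⟩) fun v _ _ => hx0 v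
    rw [hcardH, ← h1] at hS₂
    have hr1 : (1 : ℝ) ≤ r := by exact_mod_cast hr0
    nlinarith [le_abs_self M₂, abs_nonneg M₂, mul_le_mul_of_nonneg_left h2 (le_trans zero_le_one hr1)]
  have hbad : ∑ v ∈ bad, x v ≤ |M₁| + |M₂| := by linarith [hsplit x]
  -- the class of `1`
  have hone : L - |M₃| ≤ (r : ℝ) * ∑ v ∈ V, classInd (1 : PmUnits m) (N v) * x v := by
    refine le_trans (le_trans ?_ hS₃) (le_trans ?_ (mul_le_mul_of_nonneg_left
      (Finset.sum_le_sum_of_subset_of_nonneg hV₃ fun v _ _ =>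
        mul_nonneg (classInd_nonneg _ _) (hx0 v)) (Nat.cast_nonneg r)))
    · rw [Subgroup.card_bot, Nat.cast_one, one_mul]; linarith [le_abs_self M₃]
    rw [hsumT s S₃ (classInd (1 : PmUnits m)), FrobSystem.psum]
    refine Finset.sum_le_sum fun q hqS => ?_
    have hgq := (Finset.mem_filter.mp hqS).2
    refine mul_le_mul_of_nonneg_right ?_ (Real.rpow_nonneg (Nat.cast_nonneg _) _)
    rcases eq_or_ne (𝔉.frob q) 1 with h | h
    · have hc : conjCount (H : Set (F ≃ₐ[ℚ] F)) (𝔉.frob q) = Fintype.card (F ≃ₐ[ℚ] F) := by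
        simp [conjCount, h, H.one_mem]
      rw [classInd, if_pos ((hq q hgq 1).mpr (by rw [h, map_one]; rfl)), mul_one, hc]
      exact_mod_cast conjCount_le _ _
    · rw [show conjCount ((⊥ : Subgroup (F ≃ₐ[ℚ] F)) : Set (F ≃ₐ[ℚ] F)) (𝔉.frob q) = 0 from
        Finset.card_eq_zero.mpr (Finset.filter_eq_empty_iff.mpr fun {y} _ hy => h (by
          simpa [mul_inv_eq_one] using hy)), Nat.cast_zero]
      exact mul_nonneg (Nat.cast_nonneg _) (classInd_nonneg _ _)
  -- the character sums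
  set S : (PmUnits m →* ℂˣ) → ℝ := fun χ =>
    (∑ v ∈ V, normHom (dirChar χ) s (primeIdeal v)).re
  have hSeq : ∀ χ, S χ = ∑ v ∈ V, (dirChar χ (N v : ZMod m)).re * x v := fun χ => by
    simp only [S, Complex.re_sum]
    exact Finset.sum_congr rfl fun v _ => Complex.re_mul_ofReal _ _
  have hre1 : ∀ (χ : PmUnits m →* ℂˣ) (z : ZMod m), |(dirChar χ z).re| ≤ 1 := fun χ z =>
    (Complex.abs_re_le_norm _).trans ((dirChar χ).norm_le_one z)
  have hSup : ∀ χ, S χ ≤ L + |M₁| := fun χ => by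
    rw [hSeq]
    refine le_trans (Finset.sum_le_sum fun v _ => ?_) hall
    exact mul_le_of_le_one_left (hx0 v) ((abs_le.mp (hre1 χ _)).2)
  have hSW : ∀ χ ∈ W, L - C₀ ≤ S χ := fun χ hχ => by
    have hχa := (Finset.mem_filter.mp hχ).2
    rw [hSeq, ← hsplit]
    have h1 : ∑ v ∈ good, x v ≤ ∑ v ∈ good, (dirChar χ (N v : ZMod m)).re * x v + ∑ v ∈ bad, x v := by
      have h2 : ∀ v ∈ good, v ∈ degV (V.image N) →
          (dirChar χ (N v : ZMod m)).re * x v = x v := fun v hv hvd => by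
        have hgv := (Finset.mem_filter.mp hv).2
        obtain ⟨w, hw, hwu⟩ := (hq (N v) hgv _).mpr rfl
        obtain ⟨q, hqS, hvq⟩ := Finset.mem_biUnion.mp hvd
        have hgq := (Finset.mem_filter.mp hqS).2
        have hNq : N v = q := ((hT q hgq).1 v).mp hvq
        have hpos : 0 < conjCount (H : Set (F ≃ₐ[ℚ] F)) (𝔉.frob q) := by
          rw [(hT q hgq).2]; exact Nat.mul_pos hr0 (Finset.card_pos.mpr ⟨v, hvq⟩)
        obtain ⟨y, hy⟩ := Finset.card_pos.mp hpos
        obtain ⟨k, hk⟩ := (Finset.mem_filter.mp hy).2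
        have h3 : (e (𝔉.frob q)).2 = a ^ k := by
          have := congrArg (fun z => (e z).2) hk
          simp only [z₀, map_zpow, map_mul, map_inv, MulEquiv.apply_symm_apply, Prod.pow_snd,
            Prod.snd_mul, Prod.snd_inv] at this
          rw [mul_comm ((e y).2), mul_inv_cancel_right] at this
          exact this.symm
        rw [← hw, dirChar_unit, hwu, hNq, h3, map_zpow, hχa, one_zpow, Units.val_one,
          Complex.one_re, one_mul]
      rw [Finset.sum_congr rfl fun v hv => h2 v hv (Finset.mem_biUnion.mpr ⟨N v,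
        Finset.mem_filter.mpr ⟨Finset.mem_image_of_mem _ (Finset.mem_filter.mp hv).1,
          (Finset.mem_filter.mp hv).2⟩, ((hT (N v) (Finset.mem_filter.mp hv).2).1 v).mpr rfl⟩)]
      linarith [Finset.sum_nonneg fun v (_ : v ∈ bad) => hx0 v]
    have h4 : -∑ v ∈ bad, x v ≤ ∑ v ∈ bad, (dirChar χ (N v : ZMod m)).re * x v := by
      rw [← Finset.sum_neg_distrib]
      refine Finset.sum_le_sum fun v _ => ?_
      rw [neg_eq_neg_one_mul]
      exact mul_le_mul_of_nonneg_right (abs_le.mp (hre1 χ _)).1 (hx0 v)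
    have h5 : ∑ v ∈ good, (dirChar χ (N v : ZMod m)).re * x v = ∑ v ∈ good, x v :=
      Finset.sum_congr rfl fun v hv => by
        have hgv := (Finset.mem_filter.mp hv).2
        have hvd : v ∈ T (N v) := ((hT (N v) hgv).1 v).mpr rfl
        obtain ⟨w, hw, hwu⟩ := (hq (N v) hgv _).mpr rfl
        have hpos : 0 < conjCount (H : Set (F ≃ₐ[ℚ] F)) (𝔉.frob (N v)) := by
          rw [(hT _ hgv).2]; exact Nat.mul_pos hr0 (Finset.card_pos.mpr ⟨v, hvd⟩)
        obtain ⟨y, hy⟩ := Finset.card_pos.mp hpos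
        obtain ⟨k, hk⟩ := (Finset.mem_filter.mp hy).2
        have h3 : (e (𝔉.frob (N v))).2 = a ^ k := by
          have := congrArg (fun z => (e z).2) hk
          simp only [z₀, map_zpow, map_mul, map_inv, MulEquiv.apply_symm_apply, Prod.pow_snd,
            Prod.snd_mul, Prod.snd_inv] at this
          rw [mul_comm ((e y).2), mul_inv_cancel_right] at this
          exact this.symm
        rw [← hw, dirChar_unit, hwu, h3, map_zpow, hχa, one_zpow, Units.val_one, Complex.one_re,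
          one_mul]
    simp only [C₀]
    linarith
  have horth : ∀ u : PmUnits m, nU * ∑ v ∈ V, classInd u (N v) * x v =
      (∑ χ : PmUnits m →* ℂˣ, ((χ u⁻¹ : ℂˣ) : ℂ) *
        ∑ v ∈ V, normHom (dirChar χ) s (primeIdeal v)).re := by
    intro u
    simp only [Finset.mul_sum]
    rw [Finset.sum_comm, Complex.re_sum]
    refine Finset.sum_congr rfl fun v _ => ?_
    have h1 : ∀ χ : PmUnits m →* ℂˣ, ((χ u⁻¹ : ℂˣ) : ℂ) * normHom (dirChar χ) s (primeIdeal v) =
        dirChar χ (N v : ZMod m) * ((χ u⁻¹ : ℂˣ) : ℂ) * (x v : ℂ) := fun χ => by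
      simp only [normHom_apply, normVal, x, N, primeIdeal]
      ring
    rw [Finset.sum_congr rfl fun χ _ => h1 χ, ← Finset.sum_mul, sum_dirChar_mul,
      ← Complex.ofReal_mul, Complex.ofReal_re, mul_assoc]
  have hother : ∀ χ ∉ W, |S χ| ≤ C₁ := by
    intro χ₀ hχ₀
    have h1 := horth (1 : PmUnits m)
    simp only [inv_one, map_one, Units.val_one, one_mul, Complex.re_sum] at h1
    have h1' : nU * ∑ v ∈ V, classInd (1 : PmUnits m) (N v) * x v = ∑ χ, S χ := by
      rw [h1]; simp only [S, Complex.re_sum]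
    have h2 : (W.card : ℝ) * L - nU * |M₃| ≤ ∑ χ, S χ := by
      rw [← h1', ← hW]
      calc (W.card : ℝ) * L - W.card * r * |M₃| ≤ W.card * (L - |M₃|) := by
            have : (1 : ℝ) ≤ r := by exact_mod_cast hr0
            nlinarith [mul_nonneg (Nat.cast_nonneg (α := ℝ) W.card) (abs_nonneg M₃)]
        _ ≤ _ := by
            rw [mul_assoc]
            exact mul_le_mul_of_nonneg_left hone (Nat.cast_nonneg _)
    have h3 : ∑ χ, S χ ≤ S χ₀ + (W.card * (L + |M₁|) + Bp) := by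
      rw [← Finset.sum_filter_add_sum_filter_not Finset.univ (fun χ => χ ∈ W) S]
      have hW' : Finset.univ.filter (fun χ => χ ∈ W) = W := by ext; simp
      have hχ₀' : χ₀ ∈ Finset.univ.filter (fun χ => χ ∉ W) := by simp [hχ₀]
      rw [hW', ← Finset.add_sum_erase _ _ hχ₀']
      have e1 : ∑ χ ∈ W, S χ ≤ W.card * (L + |M₁|) := by
        rw [← nsmul_eq_mul]; exact Finset.sum_le_card_nsmul _ _ _ fun χ _ => hSup χ
      have e2 : ∑ χ ∈ (Finset.univ.filter (fun χ => χ ∉ W)).erase χ₀, S χ ≤ Bp := by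
        refine (Finset.sum_le_sum fun χ hχ => ?_).trans
          (Finset.sum_le_sum_of_subset_of_nonneg (Finset.subset_univ _) fun χ _ _ =>
            le_max_right (B χ) 0)
        exact (hV χ (Finset.mem_filter.mp (Finset.mem_of_mem_erase hχ)).2).trans (le_max_left _ _)
      linarith
    refine abs_le.mpr ⟨by simp only [C₁]; linarith, ?_⟩
    refine ((hV χ₀ hχ₀).trans (le_max_left _ 0)).trans ?_
    have : max (B χ₀) 0 ≤ Bp :=
      Finset.single_le_sum (f := fun χ => max (B χ) 0) (fun χ _ => le_max_right _ _)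
        (Finset.mem_univ χ₀)
    simp only [C₁]
    linarith [mul_nonneg hnU0.le (abs_nonneg M₃),
      mul_nonneg (Nat.cast_nonneg (α := ℝ) W.card) (abs_nonneg M₁)]
  -- orthogonality
  set P : PmUnits m → ℝ := fun u => ∑ v ∈ V, classInd u (N v) * x v
  have hmain : nU * (P a + P a⁻¹) = ∑ χ : PmUnits m →* ℂˣ, 2 * ((χ a : ℂˣ) : ℂ).re * S χ := by
    rw [mul_add, horth, horth, ← Complex.add_re, ← Finset.sum_add_distrib, Complex.re_sum]
    refine Finset.sum_congr rfl fun χ _ => ?_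
    simp only [S, inv_inv]
    rw [← add_mul, map_inv, Units.val_inv_eq_inv_val, Complex.inv_eq_conj (norm_char_apply χ a),
      add_comm, Complex.add_conj, Complex.re_ofReal_mul]
  have hlow : 2 * (W.card : ℝ) * (L - C₀) - 2 * (nU * C₁) ≤ nU * (P a + P a⁻¹) := by
    rw [hmain, ← Finset.sum_filter_add_sum_filter_not Finset.univ (fun χ => χ ∈ W)]
    have hW' : Finset.univ.filter (fun χ => χ ∈ W) = W := by ext; simp
    rw [hW']
    have e1 : 2 * (W.card : ℝ) * (L - C₀) ≤ ∑ χ ∈ W, 2 * ((χ a : ℂˣ) : ℂ).re * S χ := by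
      rw [mul_comm 2, mul_assoc, ← nsmul_eq_mul]
      refine Finset.card_nsmul_le_sum _ _ _ fun χ hχ => ?_
      rw [(Finset.mem_filter.mp hχ).2, Units.val_one, Complex.one_re, mul_one]
      linarith [hSW χ hχ]
    have e2 : -(2 * (nU * C₁)) ≤
        ∑ χ ∈ Finset.univ.filter (fun χ => χ ∉ W), 2 * ((χ a : ℂˣ) : ℂ).re * S χ := by
      have h1 : ∀ χ ∈ Finset.univ.filter (fun χ => χ ∉ W),
          -(2 * C₁) ≤ 2 * ((χ a : ℂˣ) : ℂ).re * S χ := fun χ hχ => by
        have h2 := hother χ (Finset.mem_filter.mp hχ).2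
        have h3 : |((χ a : ℂˣ) : ℂ).re| ≤ 1 :=
          (Complex.abs_re_le_norm _).trans (norm_char_apply χ a).le
        have h4 : |((χ a : ℂˣ) : ℂ).re * S χ| ≤ C₁ := by
          rw [abs_mul]
          exact (mul_le_of_le_one_left (abs_nonneg _) h3).trans h2
        linarith [(abs_le.mp h4).1]
      refine le_trans ?_ (Finset.card_nsmul_le_sum _ _ _ h1)
      rw [nsmul_eq_mul]
      have hc : ((Finset.univ.filter (fun χ => χ ∉ W)).card : ℝ) ≤ nU := by
        rw [hnU, Nat.cast_le]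
        refine (Finset.card_filter_le _ _).trans_eq ?_
        exact Fintype.card_congr
          (CommGroup.monoidHom_mulEquiv_of_hasEnoughRootsOfUnity (PmUnits m) ℂ).some.toEquiv
      have hC1 : 0 ≤ C₁ := by
        simp only [C₁, Bp]
        have : 0 ≤ ∑ χ : PmUnits m →* ℂˣ, max (B χ) 0 :=
          Finset.sum_nonneg fun χ _ => le_max_right _ _
        positivity
      nlinarith [mul_le_mul_of_nonneg_right hc hC1]
    linarith
  have hP : 2 * (L - C₀) - 2 * (r * C₁) ≤ r * (P a + P a⁻¹) := by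
    have h1 : nU * (2 * (L - C₀) - 2 * (r * C₁)) ≤ nU * (r * (P a + P a⁻¹)) := by
      have h2 := mul_le_mul_of_nonneg_left hlow (Nat.cast_nonneg (α := ℝ) r)
      rw [← hW] at h2 ⊢
      linarith
    exact le_of_mul_le_mul_left h1 hnU0
  -- back to the primes
  refine ⟨(V.image N).filter 𝔉.Good, fun q h => (Finset.mem_filter.mp h).2, ?_⟩
  have hPu : ∀ u : PmUnits m, P u ≤
      ∑ v ∈ degV (V.image N), classInd u (N v) * x v + (|M₁| + |M₂|) := by
    intro u
    simp only [P]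
    rw [← hsplit]
    refine add_le_add (Finset.sum_le_sum_of_subset_of_nonneg (fun v hv => ?_) fun v _ _ =>
      mul_nonneg (classInd_nonneg _ _) (hx0 v)) ?_
    · exact Finset.mem_biUnion.mpr ⟨N v,
        Finset.mem_filter.mpr ⟨Finset.mem_image_of_mem _ (Finset.mem_filter.mp hv).1,
          (Finset.mem_filter.mp hv).2⟩, ((hT (N v) (Finset.mem_filter.mp hv).2).1 v).mpr rfl⟩
    · exact le_trans (Finset.sum_le_sum fun v _ =>
        mul_le_of_le_one_left (hx0 v) (classInd_le_one _ _)) hbad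
  have hterm : ∀ q ∈ (V.image N).filter 𝔉.Good, ∀ (τ : G) (b : PmUnits m), τ ^ orderOf b = 1 →
      e.symm (τ, b) ∈ H → z₀ ∈ Subgroup.zpowers (e.symm (τ, b)) →
      (conjCount (H : Set (F ≃ₐ[ℚ] F)) (𝔉.frob q) : ℝ) * classInd b q =
        nU * if (e (𝔉.frob q)).2 = b then (hits τ (e (𝔉.frob q)).1 : ℝ) else 0 := by
    intro q hqS τ b hτ h1 h2
    have hgq := (Finset.mem_filter.mp hqS).2
    have hH' : H = Subgroup.zpowers (e.symm (τ, b)) :=
      le_antisymm (Subgroup.zpowers_le.mpr h2) (Subgroup.zpowers_le.mpr h1)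
    by_cases hb : (e (𝔉.frob q)).2 = b
    · rw [if_pos hb, classInd, if_pos ((hq q hgq b).mpr hb), mul_one, hH',
        conjCount_pair e hτ hb, Nat.cast_mul]
    · rw [if_neg hb, classInd, if_neg fun h => hb ((hq q hgq b).mp h), mul_zero, mul_zero]
  have hinv : e.symm (σ⁻¹, a⁻¹) = z₀⁻¹ := by
    rw [← map_inv e.symm, Prod.inv_mk]
  have hconv : ∀ (τ : G) (b : PmUnits m), τ ^ orderOf b = 1 →
      e.symm (τ, b) ∈ H → z₀ ∈ Subgroup.zpowers (e.symm (τ, b)) →
      (r : ℝ) * ∑ v ∈ degV (V.image N), classInd b (N v) * x v =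
        nU * ∑ q ∈ (V.image N).filter 𝔉.Good,
          (if (e (𝔉.frob q)).2 = b then (hits τ (e (𝔉.frob q)).1 : ℝ) else 0) * (q : ℝ) ^ (-s) := by
    intro τ b hτ h1 h2
    rw [hsumT s _ (classInd b), Finset.mul_sum]
    exact Finset.sum_congr rfl fun q hqS => by rw [hterm q hqS τ b hτ h1 h2, mul_assoc]
  simp only [add_mul, Finset.sum_add_distrib]
  conv_rhs => rw [mul_add nU]
  rw [← hconv σ a hσa (Subgroup.mem_zpowers _) (Subgroup.mem_zpowers _),
    ← hconv σ⁻¹ a⁻¹ (by rw [orderOf_inv, inv_pow, hσa, inv_one])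
      (hinv ▸ H.inv_mem (Subgroup.mem_zpowers _))
      (hinv ▸ by rw [Subgroup.zpowers_inv]; exact Subgroup.mem_zpowers _)]
  have h5 := mul_le_mul_of_nonneg_left (add_le_add (hPu a) (hPu a⁻¹)) (Nat.cast_nonneg (α := ℝ) r)
  have h6 : (r : ℝ) * C₁ ≤ r * (nU * C₁) := by
    refine mul_le_mul_of_nonneg_left (le_mul_of_one_le_left ?_ ?_) (Nat.cast_nonneg _)
    · simp only [C₁, Bp]
      have : 0 ≤ ∑ χ : PmUnits m →* ℂˣ, max (B χ) 0 :=
        Finset.sum_nonneg fun χ _ => le_max_right _ _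
      positivity
    · rw [hnU]; exact_mod_cast Fintype.card_pos
  linarith [h5, h6]

end FA.Weight1

end
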