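import Fermat.Agent.Weight1.DensityPairs
import Fermat.Agent.Density.Places
import Fermat.Agent.TW.Frobenius

/-!
# The density theorem for sets stable under conjugation and inversion

Chebotarev's density theorem, as a lower bound for such sets, deduced from the density of degree
one primes and the characters of the norm modulo an auxiliary prime.
-/

set_option autoImplicit false
set_option linter.style.haveILetI false

noncomputable section

open NumberField IntermediateField FA.Density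
open scoped Classical

namespace FA.Weight1

local notation "Qb" => AlgebraicClosure ℚ
local notation "GQ" => AlgebraicClosure ℚ ≃ₐ[ℚ] AlgebraicClosure ℚ

theorem hits_eq_zero_of_not_mem {G : Type*} [Group G] [Fintype G] {X : Set G}
    (hX : ∀ g ∈ X, ∀ x, x * g * x⁻¹ ∈ X) {σ x : G} (hσ : σ ∈ X) (hx : x ∉ X) : hits σ x = 0 := by
  refine Finset.card_eq_zero.mpr (Finset.filter_eq_empty_iff.mpr fun {y} _ hy => hx ?_)
  have := hX σ hσ y⁻¹
  rwa [← hy, show y⁻¹ * (y * x * y⁻¹) * y⁻¹⁻¹ = x by group] at this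

theorem sum_hits {G : Type*} [Group G] [Fintype G] {X : Set G}
    (hX : ∀ g ∈ X, ∀ x, x * g * x⁻¹ ∈ X) {x : G} (hx : x ∈ X) :
    ∑ σ ∈ X.toFinset, hits σ x = Fintype.card G := by
  rw [← Finset.card_univ]
  exact (Finset.card_eq_sum_card_fiberwise (f := fun y : G => y * x * y⁻¹)
    (fun y _ => by simpa using hX x hx y)).symm

/-- The summation over the pairs. -/
theorem weighted_sum_le {G U : Type*} [Group G] [Fintype G] [CommGroup U] [Fintype U] {X : Set G}
    (hX : ∀ g ∈ X, ∀ x, x * g * x⁻¹ ∈ X) (hinv : ∀ g ∈ X, g⁻¹ ∈ X) (A : Finset U) (g : G × U) :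
    ∑ σ ∈ X.toFinset, ∑ a ∈ A,
      ((if g.2 = a then (hits σ g.1 : ℝ) else 0) + (if g.2 = a⁻¹ then (hits σ⁻¹ g.1 : ℝ) else 0)) ≤
      2 * Fintype.card G * (if g.1 ∈ X then 1 else 0) := by
  have h1 : ∀ (c : ℝ), 0 ≤ c → ∀ f : U → U, Function.Injective f →
      ∑ a ∈ A, (if g.2 = f a then c else 0) ≤ c := fun c hc f hf => by
    rw [← Finset.sum_filter, Finset.sum_const, nsmul_eq_mul]
    refine mul_le_of_le_one_left hc ?_
    rw [Nat.cast_le_one, Finset.card_le_one]
    intro a ha b hb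
    exact hf ((Finset.mem_filter.mp ha).2.symm.trans (Finset.mem_filter.mp hb).2)
  calc _ ≤ ∑ σ ∈ X.toFinset, ((hits σ g.1 : ℝ) + (hits σ⁻¹ g.1 : ℝ)) := by
        refine Finset.sum_le_sum fun σ _ => ?_
        rw [Finset.sum_add_distrib]
        exact add_le_add (h1 _ (Nat.cast_nonneg _) id Function.injective_id)
          (h1 _ (Nat.cast_nonneg _) _ inv_injective)
    _ ≤ _ := by
        by_cases hg : g.1 ∈ X
        · have h2 : ∑ σ ∈ X.toFinset, (hits σ⁻¹ g.1 : ℝ) = ∑ σ ∈ X.toFinset, (hits σ g.1 : ℝ) := by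
            refine Finset.sum_nbij' (fun σ => σ⁻¹) (fun σ => σ⁻¹) ?_ ?_ ?_ ?_ ?_
            · intro σ hσ; simpa using hinv σ (by simpa using hσ)
            · intro σ hσ; simpa using hinv σ (by simpa using hσ)
            · intro σ _; simp
            · intro σ _; simp
            · intro σ _; rfl
          rw [Finset.sum_add_distrib, h2, ← Nat.cast_sum, sum_hits hX hg, if_pos hg]
          linarith
        · rw [if_neg hg, mul_zero]
          refine (Finset.sum_eq_zero fun σ hσ => ?_).le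
          rw [hits_eq_zero_of_not_mem hX (by simpa using hσ) hg,
            hits_eq_zero_of_not_mem hX (hinv σ (by simpa using hσ)) hg]
          simp

theorem inertia_restrict_eq_one (F : IntermediateField ℚ Qb) [FiniteDimensional ℚ F] [IsGalois ℚ F]
    [NumberField F] {q : ℕ} (hq : q.Prime) (hqm : ¬ q ∣ (exists_unramified F).choose)
    {A : ValuationSubring Qb} (hA : A.LiesOverPrime q) {σ : GQ}
    (hσ : σ ∈ A.inertiaSubgroupIn ℚ) : AlgEquiv.restrictNormalHom F σ = 1 := by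
  obtain ⟨-, hm⟩ := (exists_unramified F).choose_spec
  let P : Ideal (𝓞 F) := (FA.Deform.primeAt A).comap (FA.Local.intIncl F)
  have hqP : (q : 𝓞 F) ∈ P := by
    show FA.Local.intIncl F q ∈ FA.Deform.primeAt A
    rw [map_natCast, FA.Deform.mem_primeAt]
    exact hA
  have hP : P.IsPrime := Ideal.comap_isPrime _ _
  have hP0 : P ≠ ⊥ := fun h => by
    rw [h, Ideal.mem_bot] at hqP
    exact hq.ne_zero (by exact_mod_cast hqP)
  refine hm q P hq (hP.isMaximal hP0) hqP hqm _ fun y => ?_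
  show FA.Local.intIncl F ((AlgEquiv.restrictNormalHom F σ) • y - y) ∈ FA.Deform.primeAt A
  rw [FA.Deform.mem_primeAt]
  have e : ((FA.Local.intIncl F ((AlgEquiv.restrictNormalHom F σ) • y - y) : FA.Deform.ZBar) : Qb) =
      σ ((y : F) : Qb) - ((y : F) : Qb) := by
    rw [FA.Local.coe_intIncl]
    show ((((AlgEquiv.restrictNormalHom F σ) (y : F) - (y : F) : F)) : Qb) = _
    push_cast
    congr 1
    exact AlgEquiv.restrictNormal_commutes σ F (y : F)
  rw [e, A.mem_nonunits_iff]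
  refine (FA.Local.inert_of_mem_inertiaSubgroupIn A hσ).sub_lt _ ?_
  exact (A.valuation_le_one_iff _).mpr
    (FA.Deform.zbar_mem_valuationSubring A (FA.Local.intIncl F y))

theorem symDensity : SymDensity := by
  intro G _ _ π hπ hker X hX hinv δ hδ S₀
  set n := Fintype.card G with hn
  have hn0 : 0 < n := Fintype.card_pos
  obtain ⟨k, hk⟩ := pow_unbounded_of_one_lt ((n : ℝ) / δ) one_lt_two
  set k' := k + 1
  obtain ⟨m, hm, hm2, hdiv, hsurj⟩ := exists_level π hπ (c := n ^ k') (pow_pos hn0 _)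
  let _ : Fintype (PmUnits m) := Fintype.ofFinite _
  rw [Nat.card_eq_fintype_card] at hdiv
  have : IsCyclic (PmUnits m) :=
    isCyclic_of_surjective (QuotientGroup.mk' (pmOne m)) (QuotientGroup.mk'_surjective _)
  -- the field
  set θ := π.prod (cycPm m) with hθ
  set N := θ.ker
  have hNo : IsOpen (N : Set GQ) := by
    have : Fact (1 < m) := ⟨hm.1.one_lt⟩
    obtain ⟨L, hL, hLc⟩ := exists_field_cycM m
    have hLo : IsOpen (L.fixingSubgroup : Set GQ) :=
      IntermediateField.fixingSubgroup_isOpen L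
    refine Subgroup.isOpen_mono (H₁ := π.ker ⊓ L.fixingSubgroup) (fun g hg => ?_)
      (hker.inter hLo)
    obtain ⟨h1, h2⟩ := hg
    rw [MonoidHom.mem_ker]
    refine Prod.ext h1 ?_
    show QuotientGroup.mk' (pmOne m) (cycM m g) = 1
    rw [hLc g ((IntermediateField.mem_fixingSubgroup_iff L g).mp h2), map_one]
  let F : IntermediateField ℚ Qb := IntermediateField.fixedField N
  have hFN : F.fixingSubgroup = N :=
    InfiniteGalois.fixingSubgroup_fixedField ⟨N, Subgroup.isClosed_of_isOpen N hNo⟩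
  have hFnorm : F.fixingSubgroup.Normal := hFN.symm ▸ MonoidHom.normal_ker θ
  have hFgal : IsGalois ℚ F := (InfiniteGalois.normal_iff_isGalois F).mp hFnorm
  have hFfin : FiniteDimensional ℚ F :=
    (InfiniteGalois.isOpen_iff_finite F).mp (by rw [hFN]; exact hNo)
  have : NumberField F := { }
  let res : GQ →* (F ≃ₐ[ℚ] F) := AlgEquiv.restrictNormalHom F
  have hres : res.ker = N := (IntermediateField.restrictNormalHom_ker F).trans hFN
  have hres_surj : Function.Surjective res :=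
    AlgEquiv.restrictNormalHom_surjective (F := ℚ) (K₁ := F) Qb
  let φ : (F ≃ₐ[ℚ] F) →* G × PmUnits m :=
    res.liftOfSurjective hres_surj ⟨θ, hres.le⟩
  have hφ : ∀ g : GQ, φ (res g) = θ g := MonoidHom.liftOfRightInverse_comp_apply _ _ _ ⟨θ, hres.le⟩
  have hφb : Function.Bijective φ := by
    refine ⟨(injective_iff_map_eq_one φ).mpr fun z hz => ?_, fun p => ?_⟩
    · obtain ⟨g, rfl⟩ := hres_surj z
      rw [hφ] at hz
      rw [← MonoidHom.mem_ker, hres]
      exact hz
    · obtain ⟨g, rfl⟩ := hsurj p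
      exact ⟨res g, hφ g⟩
  let e : (F ≃ₐ[ℚ] F) ≃* G × PmUnits m := MulEquiv.ofBijective φ hφb
  -- the Frobenius system
  have hex : ∀ q : ℕ, ∃ A : ValuationSubring Qb, ∃ σ : GQ, q.Prime →
      A.LiesOverPrime q ∧ A.IsFrobeniusAt σ q := fun q => by
    by_cases hq : q.Prime
    · obtain ⟨A, hA⟩ := FA.Deform.exists_liesOverPrime hq
      obtain ⟨σ, hσ⟩ := FA.Deform.exists_isFrobeniusAt hq hA
      exact ⟨A, σ, fun _ => ⟨hA, hσ⟩⟩
    · exact ⟨⊤, 1, fun h => absurd h hq⟩
  choose A₁ σ₁ hAσ using hex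
  set 𝔉₀ := frobSystem F A₁ σ₁ hAσ
  let 𝔉 : FrobSystem F :=
    { frob := 𝔉₀.frob
      excluded := 𝔉₀.excluded ∪ ({m} ∪ S₀)
      spec := fun q hq hex => 𝔉₀.spec q hq fun h => hex (Finset.mem_union_left _ h) }
  have hgood : ∀ q, 𝔉.Good q → q.Prime ∧ q ∉ 𝔉₀.excluded ∧ q ≠ m ∧ q ∉ S₀ := fun q hq => by
    refine ⟨hq.1, ?_⟩
    have := hq.2
    simp [𝔉, not_or] at this
    tauto
  have hefrob : ∀ q, e (𝔉.frob q) = θ (σ₁ q) := fun q => hφ (σ₁ q)
  have hmq : ∀ q, q.Prime → q ≠ m → ¬ q ∣ m := fun q hq hne h =>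
    hne ((Nat.prime_dvd_prime_iff_eq hq hm.1).mp h)
  have hq : ∀ q, 𝔉.Good q → ∀ u, InClass m u q ↔ (e (𝔉.frob q)).2 = u := by
    intro q hg u
    obtain ⟨hqp, -, hqm, -⟩ := hgood q hg
    obtain ⟨hA, hσ⟩ := hAσ q hqp
    have hc := cycM_frobenius m hqp (hmq q hqp hqm) hA hσ
    rw [hefrob]
    show InClass m u q ↔ QuotientGroup.mk' (pmOne m) (cycM m (σ₁ q)) = u
    constructor
    · rintro ⟨w, hw, rfl⟩
      rw [show cycM m (σ₁ q) = w from Units.ext (hc.trans hw.symm)]
    · exact fun h => ⟨_, hc, h⟩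
  -- the pairs
  set Agood := Finset.univ.filter fun a : PmUnits m => n ∣ orderOf a
  have hpair : ∀ p : G × PmUnits m, ∃ B : ℝ, p.1 ∈ X → p.2 ∈ Agood →
      ∀ s ∈ Set.Ioc (1 : ℝ) 2, ∃ S : Finset ℕ, (∀ q ∈ S, 𝔉.Good q) ∧
      2 * Real.log (1 / (s - 1)) - B ≤ (Fintype.card (PmUnits m) : ℝ) * ∑ q ∈ S,
        ((if (e (𝔉.frob q)).2 = p.2 then (hits p.1 (e (𝔉.frob q)).1 : ℝ) else 0) +
          (if (e (𝔉.frob q)).2 = p.2⁻¹ then (hits p.1⁻¹ (e (𝔉.frob q)).1 : ℝ) else 0)) *
        (q : ℝ) ^ (-s) := by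
    intro p
    by_cases hp : p.2 ∈ Agood
    · have h1 : p.1 ^ orderOf p.2 = 1 := by
        obtain ⟨j, hj⟩ := (Finset.mem_filter.mp hp).2
        rw [hj, pow_mul, hn, pow_card_eq_one, one_pow]
      obtain ⟨B, hB⟩ := exists_pair_bound 𝔉 e hq h1
      exact ⟨B, fun _ _ => hB⟩
    · exact ⟨0, fun _ h => absurd h hp⟩
  choose B hB using hpair
  set nU : ℝ := (Fintype.card (PmUnits m) : ℝ) with hnU
  have hnU0 : 0 < nU := Nat.cast_pos.mpr Fintype.card_pos
  set idx := X.toFinset ×ˢ Agood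
  refine ⟨(∑ p ∈ idx, |B p|) / (2 * n * nU), fun s hs => ?_⟩
  have hS : ∀ p : G × PmUnits m, ∃ S : Finset ℕ, (∀ q ∈ S, 𝔉.Good q) ∧ (p ∈ idx →
      2 * Real.log (1 / (s - 1)) - B p ≤ nU * ∑ q ∈ S,
        ((if (e (𝔉.frob q)).2 = p.2 then (hits p.1 (e (𝔉.frob q)).1 : ℝ) else 0) +
          (if (e (𝔉.frob q)).2 = p.2⁻¹ then (hits p.1⁻¹ (e (𝔉.frob q)).1 : ℝ) else 0)) *
        (q : ℝ) ^ (-s)) := fun p => by
    by_cases hp : p ∈ idx
    · obtain ⟨hp1, hp2⟩ := Finset.mem_product.mp hp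
      obtain ⟨S, h1, h2⟩ := hB p (by simpa using hp1) hp2 s hs
      exact ⟨S, h1, fun _ => h2⟩
    · exact ⟨∅, by simp, fun h => absurd h hp⟩
  choose S hSgood hSsum using hS
  set U := idx.biUnion S
  refine ⟨U.filter fun q => (e (𝔉.frob q)).1 ∈ X, fun q hqT => ?_, ?_⟩
  · obtain ⟨hqU, hqX⟩ := Finset.mem_filter.mp hqT
    obtain ⟨p, -, hqp⟩ := Finset.mem_biUnion.mp hqU
    obtain ⟨hqpr, hqex, hqm, hqS₀⟩ := hgood q (hSgood p q hqp)
    refine ⟨hqpr, hqS₀, fun A hA σ hσ => ?_⟩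
    have hunr : ∀ A : ValuationSubring Qb, A.LiesOverPrime q →
        ∀ σ ∈ A.inertiaSubgroupIn ℚ, π σ = 1 := fun A hA σ hσ => by
      have hd : ¬ q ∣ (exists_unramified F).choose := fun h =>
        hqex (Nat.mem_divisors.mpr ⟨h, (exists_unramified F).choose_spec.1⟩)
      have h1 := inertia_restrict_eq_one F hqpr hd hA hσ
      rw [← MonoidHom.mem_ker, hres] at h1
      exact congrArg Prod.fst (MonoidHom.mem_ker.mp h1)
    obtain ⟨hA₁, hσ₁⟩ := hAσ q hqpr
    obtain ⟨τ, hτ⟩ := FA.TW.exists_conj_frobenius π hqpr hunr hA₁ hA hσ₁ hσ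
    rw [hτ, map_inv]
    refine hX _ ?_ _
    rw [hefrob] at hqX
    exact hqX
  · set L := Real.log (1 / (s - 1))
    have hL : 0 ≤ L := Real.log_nonneg (by
      rw [le_div_iff₀ (by linarith [hs.1]), one_mul]; linarith [hs.2])
    have hterm0 : ∀ (p : G × PmUnits m) (q : ℕ), 0 ≤
        ((if (e (𝔉.frob q)).2 = p.2 then (hits p.1 (e (𝔉.frob q)).1 : ℝ) else 0) +
          (if (e (𝔉.frob q)).2 = p.2⁻¹ then (hits p.1⁻¹ (e (𝔉.frob q)).1 : ℝ) else 0)) *
        (q : ℝ) ^ (-s) := fun p q =>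
      mul_nonneg (add_nonneg (by split_ifs <;> simp) (by split_ifs <;> simp))
        (Real.rpow_nonneg (Nat.cast_nonneg _) _)
    have h1 : ∑ p ∈ idx, (2 * L - B p) ≤
        nU * (2 * n * ∑ q ∈ U.filter (fun q => (e (𝔉.frob q)).1 ∈ X), (q : ℝ) ^ (-s)) := by
      calc ∑ p ∈ idx, (2 * L - B p)
          ≤ ∑ p ∈ idx, nU * ∑ q ∈ U,
            ((if (e (𝔉.frob q)).2 = p.2 then (hits p.1 (e (𝔉.frob q)).1 : ℝ) else 0) +
              (if (e (𝔉.frob q)).2 = p.2⁻¹ then (hits p.1⁻¹ (e (𝔉.frob q)).1 : ℝ) else 0)) *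
            (q : ℝ) ^ (-s) := Finset.sum_le_sum fun p hp => (hSsum p hp).trans
              (mul_le_mul_of_nonneg_left (Finset.sum_le_sum_of_subset_of_nonneg
                (Finset.subset_biUnion_of_mem S hp) fun q _ _ => hterm0 p q) hnU0.le)
        _ = nU * ∑ q ∈ U, (∑ σ ∈ X.toFinset, ∑ a ∈ Agood,
            ((if (e (𝔉.frob q)).2 = a then (hits σ (e (𝔉.frob q)).1 : ℝ) else 0) +
              (if (e (𝔉.frob q)).2 = a⁻¹ then (hits σ⁻¹ (e (𝔉.frob q)).1 : ℝ) else 0))) *
            (q : ℝ) ^ (-s) := by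
          rw [← Finset.mul_sum, Finset.sum_comm]
          congr 1
          refine Finset.sum_congr rfl fun q _ => ?_
          rw [← Finset.sum_mul, Finset.sum_product]
        _ ≤ _ := by
          refine mul_le_mul_of_nonneg_left ?_ hnU0.le
          rw [Finset.mul_sum, Finset.sum_filter]
          refine Finset.sum_le_sum fun q _ => ?_
          refine le_trans (mul_le_mul_of_nonneg_right
            (c := 2 * (Fintype.card G : ℝ) * (if (e (𝔉.frob q)).1 ∈ X then 1 else 0))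
            (by convert weighted_sum_le hX hinv Agood (e (𝔉.frob q)); rfl)
            (Real.rpow_nonneg (Nat.cast_nonneg _) _)) (le_of_eq ?_)
          split_ifs <;> simp [hn]
    rw [Finset.sum_sub_distrib, Finset.sum_const, nsmul_eq_mul, Finset.card_product] at h1
    have hBsum : ∑ p ∈ idx, B p ≤ ∑ p ∈ idx, |B p| :=
      Finset.sum_le_sum fun p _ => le_abs_self _
    -- the count of the elements of large order
    have hA : (1 - δ) * nU ≤ (Agood.card : ℝ) := by
      have h2 := card_not_dvd_orderOf_le (U := PmUnits m) (n := n) (k := k') (Nat.succ_pos k) hdiv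
      have h3 : (Agood.card : ℝ) + ((Finset.univ.filter
          fun a : PmUnits m => ¬ n ∣ orderOf a).card : ℝ) = nU := by
        rw [hnU, ← Nat.cast_add, Nat.cast_inj]
        exact Finset.card_filter_add_card_filter_not _
      have h4 : (n : ℝ) ≤ δ * 2 ^ k' := by
        rw [pow_succ]
        rw [div_lt_iff₀ hδ] at hk
        nlinarith [pow_pos (two_pos (α := ℝ)) k]
      have h5 : ((Finset.univ.filter fun a : PmUnits m => ¬ n ∣ orderOf a).card : ℝ) * 2 ^ k' ≤
          n * nU := by rw [hnU]; exact_mod_cast h2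
      have h6 : ((Finset.univ.filter fun a : PmUnits m => ¬ n ∣ orderOf a).card : ℝ) ≤ δ * nU := by
        refine le_of_mul_le_mul_right ?_ (pow_pos (two_pos (α := ℝ)) k')
        nlinarith [mul_le_mul_of_nonneg_right h4 hnU0.le]
      linarith
    set x : ℝ := (Nat.card X : ℝ) with hx
    have hXc : (X.toFinset.card : ℝ) = x := by
      rw [hx, Nat.card_coe_set_eq, Set.ncard_eq_toFinset_card']
    have hxn : x ≤ n := by
      rw [← hXc, hn, Nat.cast_le]; exact Finset.card_le_univ _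
    have hx0 : 0 ≤ x := Nat.cast_nonneg _
    have hn' : (0 : ℝ) < n := Nat.cast_pos.mpr hn0
    push_cast at h1
    rw [hXc] at h1
    have h7 : x * ((1 - δ) * nU) * (2 * L) ≤ x * (Agood.card : ℝ) * (2 * L) :=
      mul_le_mul_of_nonneg_right (mul_le_mul_of_nonneg_left hA hx0) (by linarith)
    have h8 : x * δ * L ≤ n * δ * L :=
      mul_le_mul_of_nonneg_right (mul_le_mul_of_nonneg_right hxn hδ.le) hL
    rw [show ((x / n - δ) * L - (∑ p ∈ idx, |B p|) / (2 * n * nU)) =
      (2 * nU * (x - n * δ) * L - ∑ p ∈ idx, |B p|) / (2 * n * nU) by field_simp,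
      div_le_iff₀ (by positivity)]
    nlinarith [mul_le_mul_of_nonneg_left h8 hnU0.le]

end FA.Weight1

end
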