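import Fermat.Agent.TW.Frobenius
import Fermat.Agent.Local.Inertia
import Mathlib.NumberTheory.Cyclotomic.CyclotomicCharacter
import Mathlib.RingTheory.RootsOfUnity.AlgebraicallyClosed

/-!
# The cyclotomic character modulo an integer at the primes not dividing it
-/

set_option autoImplicit false
set_option linter.style.haveILetI false

noncomputable section

namespace FA.Weight1

local notation "Qb" => AlgebraicClosure ℚ
local notation "GQ" => AlgebraicClosure ℚ ≃ₐ[ℚ] AlgebraicClosure ℚ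

/-- A root of unity congruent to one at a place not dividing its order is one. -/
theorem eq_one_of_pow_eq_one {M q : ℕ} (hq : q.Prime) (hqM : ¬ q ∣ M)
    {A : ValuationSubring Qb} (hA : A.LiesOverPrime q) {μ : Qb} (hμ : μ ^ M = 1)
    (h1 : A.valuation (μ - 1) < 1) : μ = 1 := by
  by_contra hne
  have hM : M ≠ 0 := fun h => hqM (h ▸ dvd_zero q)
  have hle : A.valuation μ ≤ 1 := by
    by_contra hc
    have := one_lt_pow₀ (not_le.mp hc) hM
    rw [← map_pow, hμ, map_one] at this
    exact lt_irrefl _ this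
  have hsum : ∑ i ∈ Finset.range M, μ ^ i = 0 := by
    rw [geom_sum_eq hne, hμ, sub_self, zero_div]
  have hpow : ∀ i : ℕ, A.valuation (μ ^ i - 1) < 1 := fun i => by
    rw [← geom_sum_mul μ i, map_mul]
    refine lt_of_le_of_lt (mul_le_of_le_one_left' (A.valuation.map_sum_le fun j _ => ?_)) h1
    rw [map_pow]
    exact pow_le_one₀ zero_le hle
  have hs : A.valuation (∑ i ∈ Finset.range M, (μ ^ i - 1)) < 1 :=
    A.valuation.map_sum_lt one_ne_zero fun i _ => hpow i
  rw [Finset.sum_sub_distrib, hsum, Finset.sum_const, Finset.card_range, nsmul_one, zero_sub,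
    A.valuation.map_neg] at hs
  have hMA : (M : Qb) ∈ A.nonunits := A.mem_nonunits_iff.2 hs
  have hqA : A.valuation (q : Qb) < 1 := A.mem_nonunits_iff.1 hA
  obtain ⟨a, b, hab⟩ : IsCoprime (q : ℤ) (M : ℤ) :=
    Int.isCoprime_iff_gcd_eq_one.2 (hq.coprime_iff_not_dvd.2 hqM)
  have hint : ∀ z : ℤ, A.valuation (z : Qb) ≤ 1 := fun z =>
    (A.valuation_le_one_iff _).2 (intCast_mem A z)
  have h := congrArg (fun z : ℤ => A.valuation (z : Qb)) hab
  simp only [Int.cast_add, Int.cast_mul, Int.cast_natCast, Int.cast_one, map_one] at h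
  have hlt : A.valuation ((a : Qb) * q + (b : Qb) * M) < 1 := by
    refine A.valuation.map_add_lt ?_ ?_ <;> rw [map_mul]
    · exact lt_of_le_of_lt (mul_le_of_le_one_left' (hint a)) hqA
    · exact lt_of_le_of_lt (mul_le_of_le_one_left' (hint b)) hs
  rw [h] at hlt
  exact lt_irrefl _ hlt

variable (M : ℕ) [NeZero M]

/-- The cyclotomic character modulo `M`. -/
def cycM : GQ →* (ZMod M)ˣ :=
  (modularCyclotomicCharacter Qb (HasEnoughRootsOfUnity.natCard_rootsOfUnity Qb M)).comp
    { toFun := fun σ => (σ : Qb ≃+* Qb)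
      map_one' := rfl
      map_mul' := fun _ _ => rfl }

theorem cycM_val (σ : GQ) (c : ZMod M) (h : ∀ t : Qb, t ^ M = 1 → σ t = t ^ c.val) :
    ((cycM M σ : (ZMod M)ˣ) : ZMod M) = c := by
  show (modularCyclotomicCharacter Qb (HasEnoughRootsOfUnity.natCard_rootsOfUnity Qb M)
    (σ : Qb ≃+* Qb) : ZMod M) = c
  symm
  refine modularCyclotomicCharacter.unique Qb _ _ fun t ht => h (t : Qb) ?_
  rw [← Units.val_pow_eq_pow_val, (mem_rootsOfUnity _ t).mp ht, Units.val_one]

theorem valuation_eq_one {A : ValuationSubring Qb} {t : Qb} (ht : t ^ M = 1) :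
    A.valuation t = 1 := by
  have h : A.valuation t ^ M = 1 := by rw [← map_pow, ht, map_one]
  exact (pow_eq_one_iff.mp h).resolve_right (NeZero.ne M)

theorem cycM_frobenius {q : ℕ} (hq : q.Prime) (hqM : ¬ q ∣ M) {A : ValuationSubring Qb}
    (hA : A.LiesOverPrime q) {σ : GQ} (hσ : A.IsFrobeniusAt σ q) :
    ((cycM M σ : (ZMod M)ˣ) : ZMod M) = (q : ZMod M) := by
  refine cycM_val M σ _ fun t ht => ?_
  have ht0 : t ≠ 0 := fun h => by simp [h, zero_pow (NeZero.ne M)] at ht
  rw [ZMod.val_natCast]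
  refine Eq.trans ?_ (pow_eq_pow_mod q ht)
  rw [← div_eq_one_iff_eq (pow_ne_zero q ht0)]
  refine eq_one_of_pow_eq_one hq hqM hA ?_ ?_
  · rw [div_pow, ← map_pow, ht, map_one, ← pow_mul, mul_comm, pow_mul, ht, one_pow, div_one]
  · have h := FA.Density.sub_pow_mem_nonunits hσ
      ((A.valuation_le_one_iff t).1 (valuation_eq_one M ht).le)
    rw [A.mem_nonunits_iff] at h
    rw [div_sub_one (pow_ne_zero _ ht0), map_div₀, map_pow, valuation_eq_one M ht, one_pow, div_one]
    exact h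

theorem cycM_inertia [Fact (1 < M)] {q : ℕ} (hq : q.Prime) (hqM : ¬ q ∣ M) {A : ValuationSubring Qb}
    (hA : A.LiesOverPrime q) {σ : GQ} (hσ : σ ∈ A.inertiaSubgroupIn ℚ) : cycM M σ = 1 := by
  refine Units.ext ((cycM_val M σ 1 fun t ht => ?_).trans Units.val_one.symm)
  haveI : Algebra.IsAlgebraic ℚ Qb := AlgebraicClosure.isAlgebraic ℚ
  have ht0 : t ≠ 0 := fun h => by simp [h, zero_pow (NeZero.ne M)] at ht
  rw [ZMod.val_one, pow_one, ← div_eq_one_iff_eq ht0]
  refine eq_one_of_pow_eq_one hq hqM hA ?_ ?_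
  · rw [div_pow, ← map_pow, ht, map_one, div_one]
  · rw [div_sub_one ht0, map_div₀, valuation_eq_one M ht, div_one]
    exact (FA.Local.inert_of_mem_inertiaSubgroupIn A hσ).sub_lt t (valuation_eq_one M ht).le

theorem exists_field_cycM [Fact (1 < M)] :
    ∃ L : IntermediateField ℚ Qb, FiniteDimensional ℚ L ∧
      ∀ σ : GQ, (∀ a ∈ L, σ a = a) → cycM M σ = 1 := by
  obtain ⟨ζ, hζ⟩ := HasEnoughRootsOfUnity.exists_primitiveRoot Qb M
  refine ⟨IntermediateField.adjoin ℚ {ζ}, IntermediateField.adjoin.finiteDimensional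
    (((AlgebraicClosure.isAlgebraic ℚ).isAlgebraic ζ).isIntegral), fun σ hσ => ?_⟩
  refine Units.ext ((cycM_val M σ 1 fun t ht => ?_).trans Units.val_one.symm)
  obtain ⟨i, -, hi⟩ := hζ.eq_pow_of_pow_eq_one ht
  rw [ZMod.val_one, pow_one, ← hi, map_pow, hσ ζ (IntermediateField.mem_adjoin_simple_self ℚ ζ)]

end FA.Weight1

end
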