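import Fermat.Agent.Weight1.FiniteImage
import Fermat.Agent.Density.Traces
import Fermat.Agent.JTorsion.Attach
import Mathlib.NumberTheory.LSeries.PrimesInAP
import Mathlib.NumberTheory.NumberField.InfinitePlace.Embeddings

/-!
# Deligne–Serre in weight one from the pieces

The residual representations at the large primes have bounded image, hence lift; two of the
lifts at different primes and auxiliary primes cover every prime not dividing the level.
-/

set_option autoImplicit false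
set_option linter.unusedSectionVars false
set_option linter.style.haveILetI false

noncomputable section

namespace FA.Weight1

open CongruenceSubgroup Matrix

local notation "Qb" => AlgebraicClosure ℚ
local notation "GQ" => AlgebraicClosure ℚ ≃ₐ[ℚ] AlgebraicClosure ℚ
local notation "ZB" => integralClosure ℤ ℂ
local notation "M2" => Matrix (Fin 2) (Fin 2)

/-- The primes with an eigenvalue outside a fixed finite set are rare. -/
theorem exists_finite_pairs (hK : CoeffRing) (hC : Conjugates) (hR : RankinBound) {N : ℕ}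
    [NeZero N] {ε : DirichletCharacter ℂ N} {f : CuspForm (Gamma1 N) 1} (h : IsEigen N ε f) :
    ∃ (P : Finset (ZB × ZB)) (S : Finset ℕ) (C : ℝ),
      (∀ x ∈ P, x.2 ≠ 0) ∧
      (∀ x ∈ P, ∃ y ∈ P, x.2 * y.2 = 1 ∧ x.1 = y.1 * x.2) ∧
      ∀ s ∈ Set.Ioc (1 : ℝ) 2, ∀ T : Finset ℕ,
        (∀ p ∈ T, p.Prime ∧ p ∉ S ∧ ∀ a e : ZB, (a : ℂ) = ModularFormClass.qCoeff f p →
          (e : ℂ) = ε (p : ZMod N) → (a, e) ∉ P) →
        ∑ p ∈ T, (p : ℝ) ^ (-s) ≤ (1 / 32) * Real.log (1 / (s - 1)) + C := by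
  classical
  obtain ⟨K, hKfin, hK⟩ := hK N ε f h
  haveI : NumberField K := { to_charZero := inferInstance, to_finiteDimensional := hKfin }
  have hφ : ∀ φ : K →+* ℂ, ∃ (N' : ℕ) (C : ℝ), N' ≠ 0 ∧ N ∣ N' ∧ ∀ s ∈ Set.Ioc (1 : ℝ) 2,
      ∀ T : Finset ℕ, (∀ p ∈ T, p.Prime ∧ ¬ p ∣ N') →
        ∑ p ∈ T, (if hp : ModularFormClass.qCoeff f p ∈ K then ‖φ ⟨_, hp⟩‖ ^ 2 else 0) *
          (p : ℝ) ^ (-s) ≤ Real.log (1 / (s - 1)) + C := by
    intro φ
    obtain ⟨τ, hτ⟩ := exists_auto_extending K φ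
    obtain ⟨N', hN', ε', f', h', hdvd, he⟩ := hC N ε f h τ
    obtain ⟨C, hC'⟩ := hR N' ε' f' h'
    refine ⟨N', C, NeZero.ne N', hdvd, fun s hs T hT => le_trans (le_of_eq ?_) (hC' s hs T hT)⟩
    refine Finset.sum_congr rfl fun p hp => ?_
    have hpK := (hK p (hT p hp).1 (fun hd => (hT p hp).2 (hd.trans hdvd))).2.1
    rw [dif_pos hpK, he p (hT p hp).1 (hT p hp).2, ← hτ ⟨_, hpK⟩]
  choose N' C hN'0 hN' hbound using hφ
  set d : ℕ := Fintype.card (K →+* ℂ) with hd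
  have hd0 : 0 < d := by
    rw [hd, NumberField.Embeddings.card]; exact Module.finrank_pos
  set B : ℝ := Real.sqrt (32 * d) with hB
  -- the finite set
  set t : ℕ := Fintype.card (ZMod N)ˣ with ht
  have ht0 : 0 < t := Fintype.card_pos
  set Y : Finset ℂ := ((NumberField.Embeddings.finite_of_norm_le K ℂ B).image
    (fun x : K => (x : ℂ))).toFinset with hY
  set U : Finset ℂ := muFin t with hU
  set Y' : Finset ℂ := (Y ×ˢ U).image fun yu => yu.1 * yu.2 with hY'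
  have hinj : Function.Injective fun x : ZB × ZB => ((x.1 : ℂ), (x.2 : ℂ)) := fun a b hab => by
    simp only [Prod.mk.injEq] at hab
    exact Prod.ext (Subtype.ext hab.1) (Subtype.ext hab.2)
  set P : Finset (ZB × ZB) := (Y' ×ˢ U).preimage _ hinj.injOn with hP
  have memP : ∀ x : ZB × ZB, x ∈ P ↔ (x.1 : ℂ) ∈ Y' ∧ (x.2 : ℂ) ∈ U := fun x => by
    rw [hP, Finset.mem_preimage, Finset.mem_product]
  have hU' : ∀ {x : ℂ}, x ∈ U ↔ x ^ t = 1 := fun {x} => mem_muFin ht0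
  refine ⟨P, N.primeFactors ∪ Finset.univ.biUnion fun φ => (N' φ).primeFactors,
    (∑ φ, C φ) / (32 * d), ?_, ?_, ?_⟩
  · intro x hx h0
    have := hU'.mp ((memP x).mp hx).2
    rw [h0, ZeroMemClass.coe_zero, zero_pow ht0.ne'] at this
    exact zero_ne_one this
  · intro x hx
    obtain ⟨hx1, hx2⟩ := (memP x).mp hx
    obtain ⟨⟨y, u⟩, hyu, hyx⟩ := Finset.mem_image.mp hx1
    rw [Finset.mem_product] at hyu
    have he : (x.2 : ℂ) ^ t = 1 := hU'.mp hx2
    let ei : ZB := x.2 ^ (t - 1)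
    have hei : x.2 * ei = 1 := Subtype.ext (by
      show (x.2 : ℂ) * _ = 1
      rw [SubmonoidClass.coe_pow, ← pow_succ', Nat.sub_add_cancel ht0, he])
    refine ⟨(x.1 * ei, ei), (memP _).mpr ⟨Finset.mem_image.mpr ⟨(y, u * (ei : ℂ)),
      Finset.mem_product.mpr ⟨hyu.1, hU'.mpr ?_⟩, ?_⟩, hU'.mpr ?_⟩, hei, ?_⟩
    · rw [mul_pow, hU'.mp hyu.2, one_mul, SubmonoidClass.coe_pow, ← pow_mul, mul_comm, pow_mul,
        he, one_pow]
    · show y * (u * (ei : ℂ)) = ((x.1 * ei : ZB) : ℂ)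
      rw [MulMemClass.coe_mul, ← mul_assoc, show y * u = (x.1 : ℂ) from hyx]
    · show ((ei : ℂ)) ^ t = 1
      rw [SubmonoidClass.coe_pow, ← pow_mul, mul_comm, pow_mul, he, one_pow]
    · show x.1 = x.1 * ei * x.2
      rw [mul_assoc, mul_comm ei, hei, mul_one]
  intro s hs T hT
  have hTN : ∀ p ∈ T, p.Prime ∧ ¬ p ∣ N ∧ ∀ φ, ¬ p ∣ N' φ := fun p hp => by
    obtain ⟨hp', hpS, -⟩ := hT p hp
    simp only [Finset.mem_union, Finset.mem_biUnion, Finset.mem_univ, true_and, not_or,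
      not_exists, Nat.mem_primeFactors, not_and] at hpS
    exact ⟨hp', fun hd => hpS.1 hp' hd (NeZero.ne N), fun φ hd => hpS.2 φ hp' hd (hN'0 φ)⟩
  have hbig : ∀ p ∈ T, (32 * d : ℝ) * (p : ℝ) ^ (-s) ≤ ∑ φ : K →+* ℂ,
      (if hp : ModularFormClass.qCoeff f p ∈ K then ‖φ ⟨_, hp⟩‖ ^ 2 else 0) *
        (p : ℝ) ^ (-s) := by
    intro p hp
    obtain ⟨hp', hpN, -⟩ := hTN p hp
    obtain ⟨hint, haK, heK⟩ := hK p hp' hpN
    rw [← Finset.sum_mul]
    refine mul_le_mul_of_nonneg_right ?_ (Real.rpow_nonneg (Nat.cast_nonneg _) _)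
    by_contra hlt
    push Not at hlt
    simp only [dif_pos haK] at hlt
    have hepow : ε (p : ZMod N) ^ t = 1 := by
      obtain ⟨u, hu⟩ := (ZMod.isUnit_prime_iff_not_dvd hp').mpr hpN
      rw [← hu, ← map_pow, ← Units.val_pow_eq_pow_val, ht, pow_card_eq_one, Units.val_one,
        map_one]
    refine (hT p hp).2.2 ⟨_, hint⟩ ⟨_, IsIntegral.of_pow ht0 (hepow.symm ▸ isIntegral_one)⟩ rfl rfl
      ((memP _).mpr ⟨Finset.mem_image.mpr ⟨(ModularFormClass.qCoeff f p, 1),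
        Finset.mem_product.mpr ⟨?_, hU'.mpr (one_pow t)⟩, mul_one _⟩, hU'.mpr hepow⟩)
    rw [hY, Set.Finite.mem_toFinset]
    refine ⟨⟨_, haK⟩, ⟨?_, fun φ => ?_⟩, rfl⟩
    · exact (isIntegral_algHom_iff ((IsScalarTower.toAlgHom ℤ K ℂ))
        (algebraMap K ℂ).injective).mp hint
    · rw [hB, Real.le_sqrt (norm_nonneg _) (by positivity)]
      exact (Finset.single_le_sum (f := fun φ : K →+* ℂ =>
        ‖φ (⟨_, haK⟩ : K)‖ ^ 2) (fun _ _ => sq_nonneg _) (Finset.mem_univ φ)).trans hlt.le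
  have h1 : (32 * d : ℝ) * ∑ p ∈ T, (p : ℝ) ^ (-s) ≤
      d * Real.log (1 / (s - 1)) + ∑ φ, C φ := by
    rw [Finset.mul_sum]
    refine (Finset.sum_le_sum hbig).trans ?_
    rw [Finset.sum_comm]
    refine (Finset.sum_le_sum fun φ _ =>
      hbound φ s hs T fun p hp => ⟨(hTN p hp).1, (hTN p hp).2.2 φ⟩).trans (le_of_eq ?_)
    rw [Finset.sum_add_distrib, Finset.sum_const, nsmul_eq_mul, Finset.card_univ]
  have hd' : (0 : ℝ) < 32 * d := by positivity
  rw [← mul_le_mul_iff_right₀ hd']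
  refine h1.trans (le_of_eq ?_)
  field_simp

/-- An inequality between affine functions of `log (1 / (s - 1))` near `1`. -/
theorem le_of_log_bound {x y C : ℝ}
    (h : ∀ s ∈ Set.Ioc (1 : ℝ) 2, x * Real.log (1 / (s - 1)) ≤ y * Real.log (1 / (s - 1)) + C) :
    x ≤ y := by
  by_contra hlt
  push Not at hlt
  set L : ℝ := max ((C + 1) / (x - y)) 0
  have h1 : Real.exp (-L) ≤ 1 := Real.exp_le_one_iff.mpr (by simp [L])
  have h2 := h (1 + Real.exp (-L))
    ⟨lt_add_of_pos_right _ (Real.exp_pos _), by linarith⟩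
  rw [show (1 + Real.exp (-L)) - 1 = Real.exp (-L) by ring, one_div, ← Real.exp_neg, neg_neg,
    Real.log_exp] at h2
  have h3 : (C + 1) / (x - y) ≤ L := le_max_left _ _
  rw [div_le_iff₀ (sub_pos.mpr hlt)] at h3
  linarith

/-- The data of the lift at a prime and an auxiliary prime. -/
def IsGoodLift (N : ℕ) [NeZero N] (ε : DirichletCharacter ℂ N) (f : CuspForm (Gamma1 N) 1)
    (ℓ j : ℕ) (ρ : GQ →* GL (Fin 2) ℂ) : Prop :=
  GaloisFactorsThroughFiniteLevel ρ ∧ ∀ p : ℕ, p.Prime → ¬ p ∣ N → p ≠ ℓ → p ≠ j →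
    ∀ A : ValuationSubring Qb, A.LiesOverPrime p →
      (∀ σ ∈ A.inertiaSubgroupIn ℚ, ρ σ = 1) ∧
      ∀ σ : GQ, A.IsFrobeniusAt σ p →
        (ρ σ).val.trace = ModularFormClass.qCoeff f p ∧ (ρ σ).val.det = ε (p : ZMod N)

/-- The residual data at a prime and an auxiliary prime: a lift of bounded order with congruent
traces and determinants. -/
def IsLiftMod (N : ℕ) [NeZero N] (ε : DirichletCharacter ℂ N) (f : CuspForm (Gamma1 N) 1)
    (ℓ j A₀ : ℕ) (𝔪 : Ideal ZB) (ρ : GQ →* GL (Fin 2) ℂ) : Prop :=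
  GaloisFactorsThroughFiniteLevel ρ ∧ (∀ σ, ρ σ ^ A₀.factorial = 1) ∧
    ∀ p : ℕ, p.Prime → ¬ p ∣ N → p ≠ ℓ → p ≠ j →
      ∀ A : ValuationSubring Qb, A.LiesOverPrime p →
        (∀ σ ∈ A.inertiaSubgroupIn ℚ, ρ σ = 1) ∧
        ∀ σ : GQ, A.IsFrobeniusAt σ p → ∃ t d a e : ZB,
          ((ρ σ).val.trace = t ∧ (ρ σ).val.det = d) ∧
          ((a : ℂ) = ModularFormClass.qCoeff f p ∧ (e : ℂ) = ε (p : ZMod N)) ∧
          t - a ∈ 𝔪 ∧ d - e ∈ 𝔪

/-- Residual representations of bounded image at the large primes, lifted. -/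
theorem exists_liftMod (hK : CoeffRing) (hC : Conjugates) (hR : RankinBound) (hD : SymDensity)
    (hE : EigenFunctional) (hA : ResidualAttached) (hB : CountBound) (hL : LiftToComplex) {N : ℕ}
    [NeZero N] {ε : DirichletCharacter ℂ N} {f : CuspForm (Gamma1 N) 1} (h : IsEigen N ε f) :
    ∃ A₀ B₀ : ℕ, ∀ ℓ : ℕ, ℓ.Prime → B₀ < ℓ → ∀ j : ℕ, j = 2 ∨ j = 3 →
      ∀ 𝔪 : Ideal ZB, 𝔪.IsMaximal → (ℓ : ZB) ∈ 𝔪 →
        ∃ ρ : GQ →* GL (Fin 2) ℂ, IsLiftMod N ε f ℓ j A₀ 𝔪 ρ := by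
  classical
  obtain ⟨P, S, C, hPne, hPinv, hPrare⟩ := exists_finite_pairs hK hC hR h
  obtain ⟨B, hE⟩ := hE N ε f h
  set A₀ := 4 * P.card ^ 4 + 4 * P.card
  refine ⟨A₀, max B (max A₀ 3), fun ℓ hℓ hℓB j hj 𝔪 hm hℓm => ?_⟩
  haveI := Fact.mk hℓ
  haveI := hm
  letI := Ideal.Quotient.field 𝔪
  haveI := FA.JTorsion.isAlgClosed_residue 𝔪
  have hjp : j.Prime := by rcases hj with rfl | rfl; exacts [Nat.prime_two, Nat.prime_three]
  haveI : CharP (ZB ⧸ 𝔪) ℓ := by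
    have h0 : ((ℓ : ℕ) : ZB ⧸ 𝔪) = 0 := by
      rw [← map_natCast (Ideal.Quotient.mk 𝔪), Ideal.Quotient.eq_zero_iff_mem]; exact hℓm
    refine ringChar.of_eq ?_
    exact ((Nat.dvd_prime hℓ).mp (ringChar.dvd h0)).resolve_left (CharP.ringChar_ne_one)
  obtain ⟨M, hM0, hM1, c, χ, g, hdvd, hMp, hg, hcong⟩ := hE ℓ hℓ
    (lt_of_le_of_lt (le_max_left _ _) hℓB) 𝔪 hℓm (N * ℓ * j)
    ((dvd_mul_right N ℓ).trans (dvd_mul_right _ j)) ((dvd_mul_left ℓ N).trans (dvd_mul_right _ j))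
    (Nat.mul_pos (Nat.mul_pos (NeZero.pos N) hℓ.pos) hjp.pos)
  have hℓM : ℓ ∣ M := ((dvd_mul_left ℓ N).trans (dvd_mul_right _ j)).trans hdvd
  have hNM : N ∣ M := ((dvd_mul_right N ℓ).trans (dvd_mul_right _ j)).trans hdvd
  have h23 : 2 ∣ M ∨ 3 ∣ M := by
    rcases hj with rfl | rfl
    exacts [Or.inl ((dvd_mul_left 2 _).trans hdvd), Or.inr ((dvd_mul_left 3 _).trans hdvd)]
  obtain ⟨r₀, hr₀, hfrob₀⟩ := hA ℓ (ZB ⧸ 𝔪) M hℓM c χ g hg
  obtain ⟨r, hr, hss, hrr⟩ := exists_semisimple hr₀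
  have hgood : ∀ p : ℕ, p.Prime → ¬ p ∣ N → p ≠ ℓ → p ≠ j → ∀ A : ValuationSubring Qb,
      A.LiesOverPrime p → (∀ σ ∈ A.inertiaSubgroupIn ℚ, r σ = 1) ∧
      ∀ σ : GQ, A.IsFrobeniusAt σ p → ∃ a e : ZB,
        ((a : ℂ) = ModularFormClass.qCoeff f p ∧ (e : ℂ) = ε (p : ZMod N)) ∧
        (r σ).val.trace = Ideal.Quotient.mk 𝔪 a ∧ (r σ).val.det = Ideal.Quotient.mk 𝔪 e := by
    intro p hp hpN hpℓ hpj A hA'
    have hpM : ¬ p ∣ M := fun hd => by
      rcases hp.dvd_mul.mp (hMp p hp hd) with h1 | h1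
      · rcases hp.dvd_mul.mp h1 with h2 | h2
        · exact hpN h2
        · exact hpℓ ((Nat.prime_dvd_prime_iff_eq hp hℓ).mp h2)
      · exact hpj ((Nat.prime_dvd_prime_iff_eq hp hjp).mp h1)
    obtain ⟨hin, hfr⟩ := hfrob₀ p hp hpM h23 A hA'
    refine ⟨fun σ hσ => (hrr σ).2.2 (hin σ hσ), fun σ hσ => ?_⟩
    obtain ⟨a, e, ha, he, hca, hχ⟩ := hcong p hp hpM
    obtain ⟨u, hu⟩ := (ZMod.isUnit_prime_iff_not_dvd hp).mpr hpM
    obtain ⟨h1, h2⟩ := hfr σ hσ u hu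
    exact ⟨a, e, ⟨ha, he⟩, (hrr σ).1.trans (h1.trans hca),
      (hrr σ).2.1.trans (h2.trans (hχ u hu))⟩
  haveI : Finite r.range := finite_range_of_finite_level hr
  haveI : Fintype r.range := Fintype.ofFinite _
  set π := r.rangeRestrict
  have hker : IsOpen (π.ker : Set GQ) := by
    rw [MonoidHom.ker_rangeRestrict]; exact isOpen_ker_of_finite_level hr
  set Pbar : Finset ((ZB ⧸ 𝔪) × (ZB ⧸ 𝔪)) :=
    P.image fun x => (Ideal.Quotient.mk 𝔪 x.1, Ideal.Quotient.mk 𝔪 x.2)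
  set X : Set r.range := {x | (x.1.val.trace, x.1.val.det) ∉ Pbar}
  have hXconj : ∀ x ∈ X, ∀ y, y * x * y⁻¹ ∈ X := by
    intro x hx y
    show ((y * x * y⁻¹).1.val.trace, (y * x * y⁻¹).1.val.det) ∉ Pbar
    rw [Subgroup.coe_mul, Subgroup.coe_mul, Subgroup.coe_inv, Units.val_mul, Units.val_mul,
      Matrix.trace_units_conj, Matrix.det_units_conj]
    exact hx
  have hXinv : ∀ x ∈ X, x⁻¹ ∈ X := by
    intro x hx hmem
    obtain ⟨z, hz, hze⟩ := Finset.mem_image.mp hmem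
    obtain ⟨w, hw, hwz, hw1⟩ := hPinv z hz
    simp only [Prod.mk.injEq] at hze
    refine hx (Finset.mem_image.mpr ⟨w, hw, ?_⟩)
    have hd : x⁻¹.1.val.det * x.1.val.det = 1 := by
      rw [← Matrix.det_mul, ← Units.val_mul, Subgroup.coe_inv, inv_mul_cancel, Units.val_one,
        Matrix.det_one]
    have ht : x.1.val.trace = x⁻¹.1.val.trace * x.1.val.det := by
      have e : x⁻¹.1.val * x.1.val = 1 := by
        rw [← Units.val_mul, Subgroup.coe_inv, inv_mul_cancel, Units.val_one]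
      have e00 := congrFun (congrFun e 0) 0
      have e01 := congrFun (congrFun e 0) 1
      have e10 := congrFun (congrFun e 1) 0
      have e11 := congrFun (congrFun e 1) 1
      simp only [Matrix.mul_apply, Fin.sum_univ_two, Matrix.one_apply, Fin.isValue, if_true,
        show (0 : Fin 2) ≠ 1 by decide, show (1 : Fin 2) ≠ 0 by decide, if_false] at e00 e01 e10 e11
      simp only [Matrix.trace_fin_two, Matrix.det_fin_two]
      grind
    have hz2 : (Ideal.Quotient.mk 𝔪 z.2) ≠ 0 := by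
      rw [hze.2]; exact left_ne_zero_of_mul_eq_one hd
    have hw2 : Ideal.Quotient.mk 𝔪 w.2 = x.1.val.det := by
      have e1 : Ideal.Quotient.mk 𝔪 z.2 * Ideal.Quotient.mk 𝔪 w.2 = 1 := by
        rw [← map_mul, hwz, map_one]
      rw [hze.2] at e1
      exact mul_left_cancel₀ (left_ne_zero_of_mul_eq_one hd) (e1.trans hd.symm)
    refine Prod.ext ?_ hw2
    show Ideal.Quotient.mk 𝔪 w.1 = _
    refine mul_right_cancel₀ hz2 ?_
    rw [← map_mul, ← hw1, hze.1, ht, mul_assoc, hze.2, mul_comm x.1.val.det, hd, mul_one]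
  obtain ⟨C', hdens⟩ := hD r.range π r.rangeRestrict_surjective hker X hXconj hXinv (1 / 64)
    (by norm_num) (S ∪ M.primeFactors ∪ {ℓ, j} ∪ N.primeFactors)
  have hX : (Nat.card X : ℝ) / Fintype.card r.range - 1 / 64 ≤ 1 / 32 := by
    refine le_of_log_bound (C := C + C') fun s hs => ?_
    obtain ⟨T, hT, hle⟩ := hdens s hs
    have h2 := hPrare s hs T fun p hp => by
      obtain ⟨hp', hpS, hfr⟩ := hT p hp
      simp only [Finset.mem_union, Finset.mem_insert, Finset.mem_singleton, not_or] at hpS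
      refine ⟨hp', hpS.1.1.1, fun a e ha he hmem => ?_⟩
      obtain ⟨A, hA'⟩ := FA.Deform.exists_liesOverPrime hp'
      obtain ⟨σ, hσ⟩ := FA.Deform.exists_isFrobeniusAt hp' hA'
      have hpN : ¬ p ∣ N := fun hd => hpS.2 (Nat.mem_primeFactors.mpr ⟨hp', hd, NeZero.ne N⟩)
      obtain ⟨a', e', ⟨ha', he'⟩, htr, hdet⟩ := (hgood p hp' hpN hpS.1.2.1 hpS.1.2.2 A hA').2 σ hσ
      refine hfr A hA' σ hσ (Finset.mem_image.mpr ⟨(a, e), hmem, ?_⟩)
      rw [show a = a' from Subtype.ext (ha.trans ha'.symm),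
        show e = e' from Subtype.ext (he.trans he'.symm)]
      exact Prod.ext htr.symm hdet.symm
    linarith
  have hcount : Fintype.card r.range ≤ A₀ := by
    refine (hB (ZB ⧸ 𝔪) r.range hss Pbar ?_).trans ?_
    · have hsplit : Nat.card X + Nat.card {x : r.range |
          (x.1.val.trace, x.1.val.det) ∈ Pbar} = Fintype.card r.range := by
        rw [Nat.card_coe_set_eq, Nat.card_coe_set_eq, ← Nat.card_eq_fintype_card,
          show {x : r.range | (x.1.val.trace, x.1.val.det) ∈ Pbar} = Xᶜ by ext x; simp [X],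
          Set.ncard_add_ncard_compl]
      have hpos : (0 : ℝ) < Fintype.card r.range := Nat.cast_pos.mpr Fintype.card_pos
      have h4 : (Nat.card X : ℝ) * 8 < Fintype.card r.range := by
        have := (sub_le_iff_le_add.mp hX)
        rw [div_le_iff₀ hpos] at this
        nlinarith
      have h5 : Nat.card X * 8 < Fintype.card r.range := by exact_mod_cast h4
      omega
    · have : Pbar.card ≤ P.card := Finset.card_image_le
      simp only [A₀]; gcongr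
  obtain ⟨R, hR'⟩ := hL ℓ 𝔪 hℓm r.range hss (fun hd => by
    have := Nat.le_of_dvd Fintype.card_pos hd
    have : A₀ < ℓ := lt_of_le_of_lt ((le_max_left _ _).trans (le_max_right _ _)) hℓB
    omega)
  refine ⟨R.comp π, ?_, fun σ => ?_, fun p hp hpN hpℓ hpj A hA' => ?_⟩
  · obtain ⟨L, hLfin, hL1⟩ := hr
    refine ⟨L, hLfin, fun σ hσ => ?_⟩
    rw [MonoidHom.comp_apply, show π σ = 1 from Subtype.ext (hL1 σ hσ), map_one]
  · rw [MonoidHom.comp_apply, ← map_pow]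
    have : π σ ^ A₀.factorial = 1 := orderOf_dvd_iff_pow_eq_one.mp
      ((orderOf_dvd_natCard _).trans (Nat.dvd_factorial Nat.card_pos
        (by rwa [Nat.card_eq_fintype_card])))
    rw [this, map_one]
  · obtain ⟨hin, hfr⟩ := hgood p hp hpN hpℓ hpj A hA'
    refine ⟨fun σ hσ => ?_, fun σ hσ => ?_⟩
    · rw [MonoidHom.comp_apply, show π σ = 1 from Subtype.ext (hin σ hσ), map_one]
    · obtain ⟨a, e, hae, htr, hdet⟩ := hfr σ hσ
      obtain ⟨t, d, htd, htm, hdm⟩ := hR' (π σ)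
      exact ⟨t, d, a, e, htd, hae, (Ideal.Quotient.mk_eq_mk_iff_sub_mem t a).mp (htm.trans htr),
        (Ideal.Quotient.mk_eq_mk_iff_sub_mem d e).mp (hdm.trans hdet)⟩

/-- **Exact lifts.** -/
theorem exists_goodLift (hK : CoeffRing) (hC : Conjugates) (hR : RankinBound) (hD : SymDensity)
    (hE : EigenFunctional) (hA : ResidualAttached) (hB : CountBound) (hL : LiftToComplex) {N : ℕ}
    [NeZero N] {ε : DirichletCharacter ℂ N} {f : CuspForm (Gamma1 N) 1} (h : IsEigen N ε f) :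
    ∃ B₀ : ℕ, ∀ ℓ : ℕ, ℓ.Prime → B₀ < ℓ → ∀ j : ℕ, j = 2 ∨ j = 3 →
      ∃ ρ : GQ →* GL (Fin 2) ℂ, IsGoodLift N ε f ℓ j ρ := by
  classical
  obtain ⟨A₀, B₁, hlift⟩ := exists_liftMod hK hC hR hD hE hA hB hL h
  obtain ⟨K, -, hK'⟩ := hK N ε f h
  set n := A₀.factorial
  have hn : 0 < n := Nat.factorial_pos _
  set t := Fintype.card (ZMod N)ˣ with ht
  have ht0 : 0 < t := Fintype.card_pos
  set Z : Finset ℂ := (muFin n ×ˢ muFin n).image (fun xy => xy.1 + xy.2) ∪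
    ((muFin n ×ˢ muFin n).image fun xy => xy.1 * xy.2) ∪ muFin t with hZ
  have hZint : ∀ z ∈ Z, IsIntegral ℤ z := by
    intro z hz
    simp only [hZ, Finset.mem_union, Finset.mem_image, Finset.mem_product] at hz
    rcases hz with (⟨xy, ⟨hx, hy⟩, rfl⟩ | ⟨xy, ⟨hx, hy⟩, rfl⟩) | hz
    · exact (isIntegral_of_mem_muFin hn hx).add (isIntegral_of_mem_muFin hn hy)
    · exact (isIntegral_of_mem_muFin hn hx).mul (isIntegral_of_mem_muFin hn hy)
    · exact isIntegral_of_mem_muFin ht0 hz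
  have hmem : ∀ (g : GL (Fin 2) ℂ), g ^ n = 1 → g.val.trace ∈ Z ∧ g.val.det ∈ Z := by
    intro g hg
    obtain ⟨x, y, hx, hy, e1, e2⟩ := exists_roots_of_pow hg
    simp only [hZ, Finset.mem_union, Finset.mem_image, Finset.mem_product]
    exact ⟨Or.inl (Or.inl ⟨(x, y), ⟨(mem_muFin hn).mpr hx, (mem_muFin hn).mpr hy⟩, e1.symm⟩),
      Or.inl (Or.inr ⟨(x, y), ⟨(mem_muFin hn).mpr hx, (mem_muFin hn).mpr hy⟩, e2.symm⟩)⟩
  set Z' : Finset ZB := Z.preimage _ Subtype.val_injective.injOn with hZ'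
  have hmemZ' : ∀ z : ZB, z ∈ Z' ↔ (z : ℂ) ∈ Z := fun z => by rw [hZ', Finset.mem_preimage]
  obtain ⟨B₂, hsep⟩ := exists_bound_separated Z'
  -- the eigenvalues lie in the finite set
  have haZ : ∀ p : ℕ, p.Prime → ¬ p ∣ N → ModularFormClass.qCoeff f p ∈ Z := by
    intro p hp hpN
    set a : ZB := ⟨_, (hK' p hp hpN).1⟩
    by_contra hnot
    obtain ⟨B₃, hB₃⟩ := exists_bound_separated (insert a Z')
    obtain ⟨ℓ, hℓlt, hℓ⟩ := Nat.exists_infinite_primes (max B₁ (max B₃ p) + 1)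
    obtain ⟨𝔪, hm, hℓm⟩ := exists_maximal_over hℓ
    obtain ⟨ρ, -, hpow, hfr⟩ := hlift ℓ hℓ (by omega) (if p = 2 then 3 else 2)
      (by split_ifs <;> simp) 𝔪 hm hℓm
    obtain ⟨A, hA'⟩ := FA.Deform.exists_liesOverPrime hp
    obtain ⟨σ, hσ⟩ := FA.Deform.exists_isFrobeniusAt hp hA'
    obtain ⟨t', d, a', e, ⟨htr, -⟩, ⟨ha', -⟩, hta, -⟩ :=
      (hfr p hp hpN (by omega) (by split_ifs <;> omega) A hA').2 σ hσ
    have haa : a' = a := Subtype.ext ha'
    have ht' : t' ∈ Z' := (hmemZ' t').mpr (htr ▸ (hmem _ (hpow σ)).1)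
    rw [haa] at hta
    have := hB₃ ℓ hℓ (by omega) 𝔪 hm hℓm t' (Finset.mem_insert_of_mem ht') a
      (Finset.mem_insert_self _ _) hta
    exact hnot (by rw [show ModularFormClass.qCoeff f p = (a : ℂ) from rfl, ← this, ← hmemZ']; exact ht')
  refine ⟨max B₁ B₂, fun ℓ hℓ hℓB j hj => ?_⟩
  obtain ⟨𝔪, hm, hℓm⟩ := exists_maximal_over hℓ
  obtain ⟨ρ, hfin, hpow, hfr⟩ := hlift ℓ hℓ (lt_of_le_of_lt (le_max_left _ _) hℓB) j hj 𝔪 hm hℓm
  refine ⟨ρ, hfin, fun p hp hpN hpℓ hpj A hA' => ?_⟩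
  obtain ⟨hin, hfr'⟩ := hfr p hp hpN hpℓ hpj A hA'
  refine ⟨hin, fun σ hσ => ?_⟩
  obtain ⟨t', d, a, e, ⟨htr, hdet⟩, ⟨ha, he⟩, hta, hde⟩ := hfr' σ hσ
  have hB2 : B₂ < ℓ := lt_of_le_of_lt (le_max_right _ _) hℓB
  have hepow : ε (p : ZMod N) ^ t = 1 := by
    obtain ⟨u, hu⟩ := (ZMod.isUnit_prime_iff_not_dvd hp).mpr hpN
    rw [← hu, ← map_pow, ← Units.val_pow_eq_pow_val, ht, pow_card_eq_one, Units.val_one, map_one]
  have h1 := hsep ℓ hℓ hB2 𝔪 hm hℓm t' ((hmemZ' _).mpr (htr ▸ (hmem _ (hpow σ)).1)) a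
    ((hmemZ' _).mpr (ha ▸ haZ p hp hpN)) hta
  have h2 := hsep ℓ hℓ hB2 𝔪 hm hℓm d ((hmemZ' _).mpr (hdet ▸ (hmem _ (hpow σ)).2)) e
    ((hmemZ' _).mpr (he ▸ by
      simp only [hZ, Finset.mem_union]
      exact Or.inr ((mem_muFin ht0).mpr hepow))) hde
  exact ⟨by rw [htr, h1, ha], by rw [hdet, h2, he]⟩

theorem exists_pow_eq_one_of_finite_level {M : Type} [Group M] {r : GQ →* M}
    (hr : GaloisFactorsThroughFiniteLevel r) (σ : GQ) : ∃ n : ℕ, 0 < n ∧ r σ ^ n = 1 := by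
  haveI := finite_range_of_finite_level hr
  refine ⟨orderOf (⟨r σ, σ, rfl⟩ : r.range), orderOf_pos _, ?_⟩
  have h := pow_orderOf_eq_one (⟨r σ, σ, rfl⟩ : r.range)
  exact (SubmonoidClass.coe_pow _ _).symm.trans (congrArg Subtype.val h)

/-- A representation attached to `f` has no stable line. -/
theorem no_stable_line (hR : RankinBound) (hD : SymDensity) {N : ℕ} [NeZero N]
    {ε : DirichletCharacter ℂ N} {f : CuspForm (Gamma1 N) 1} (h : IsEigen N ε f)
    {ρ : GQ →* GL (Fin 2) ℂ} (hfin : GaloisFactorsThroughFiniteLevel ρ)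
    (hfr : ∀ p : ℕ, p.Prime → ¬ p ∣ N → ∀ A : ValuationSubring Qb, A.LiesOverPrime p →
      ∀ σ : GQ, A.IsFrobeniusAt σ p → (ρ σ).val.trace = ModularFormClass.qCoeff f p)
    (v : Fin 2 → ℂ) (hv : v ≠ 0) : ∃ σ : GQ, ∀ c : ℂ, (ρ σ).val *ᵥ v ≠ c • v := by
  classical
  by_contra hcon
  push Not at hcon
  obtain ⟨r, hr, hss, hrr⟩ := exists_diagonal hfin hv (by
    rintro g ⟨σ, rfl⟩
    exact hcon σ)
  haveI : Finite r.range := finite_range_of_finite_level hr
  haveI : Fintype r.range := Fintype.ofFinite _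
  set π := r.rangeRestrict
  have hker : IsOpen (π.ker : Set GQ) := by
    rw [MonoidHom.ker_rangeRestrict]; exact isOpen_ker_of_finite_level hr
  have hdiag : ∀ x : r.range, x.1.val 0 1 = 0 ∧ x.1.val 1 0 = 0 := fun x => hss x.1 x.2
  let χ : Fin 2 → r.range →* ℂ := fun i =>
    { toFun := fun x => x.1.val i i
      map_one' := by simp
      map_mul' := fun x y => by
        rw [Subgroup.coe_mul, Units.val_mul, Matrix.mul_apply, Fin.sum_univ_two]
        fin_cases i <;> simp [hdiag] }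
  have hroot : ∀ (i : Fin 2) (x : r.range), χ i x ^ Fintype.card r.range = 1 := fun i x => by
    rw [← map_pow, pow_card_eq_one, map_one]
  have hnorm : ∀ (i : Fin 2) (x : r.range), ‖χ i x‖ = 1 := fun i x =>
    Complex.norm_eq_one_of_pow_eq_one (hroot i x) Fintype.card_ne_zero
  set w : r.range → ℝ := fun x => ‖x.1.val.trace‖ ^ 2 with hw
  -- the mean of `|tr|²` is at least `2`
  let ψ : r.range →* ℂ :=
    { toFun := fun x => χ 0 x * (starRingEnd ℂ) (χ 1 x)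
      map_one' := by simp
      map_mul' := fun x y => by simp only [map_mul]; ring }
  have hwx : ∀ x, w x = 2 + 2 * (ψ x).re := fun x => by
    have e : x.1.val.trace = χ 0 x + χ 1 x := Matrix.trace_fin_two _
    rw [hw]
    simp only
    rw [e, Complex.sq_norm, Complex.normSq_add, Complex.normSq_eq_norm_sq,
      Complex.normSq_eq_norm_sq, hnorm, hnorm]
    show _ = 2 + 2 * (χ 0 x * (starRingEnd ℂ) (χ 1 x)).re
    ring
  have hsum : 2 * (Fintype.card r.range : ℝ) ≤ ∑ x, w x := by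
    simp only [hwx, Finset.sum_add_distrib, ← Finset.mul_sum, Finset.sum_const,
      Finset.card_univ, nsmul_eq_mul]
    have h0 : 0 ≤ ∑ x, (ψ x).re := by
      rw [← Complex.re_sum]
      by_cases hψ : ψ = 1
      · simp [hψ]
      · obtain ⟨x₀, hx₀⟩ : ∃ x₀, ψ x₀ ≠ 1 := by
          by_contra hall; push Not at hall; exact hψ (MonoidHom.ext hall)
        have e : ψ x₀ * ∑ x, ψ x = ∑ x, ψ x := by
          rw [Finset.mul_sum]
          exact Fintype.sum_equiv (Equiv.mulLeft x₀) _ _ fun x => (map_mul ψ _ _).symm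
        rw [(mul_eq_zero.mp (by rw [sub_mul, one_mul, e, sub_self] :
          (ψ x₀ - 1) * ∑ x, ψ x = 0)).resolve_left (sub_ne_zero.mpr hx₀)]
        simp
    linarith
  -- symmetric level sets
  have hwinv : ∀ x, w x⁻¹ = w x := fun x => by
    rw [hwx, hwx]
    congr 2
    have hx : ψ x * ψ x⁻¹ = 1 := by rw [← map_mul, mul_inv_cancel, map_one]
    have hn : ‖ψ x‖ = 1 := by
      show ‖χ 0 x * (starRingEnd ℂ) (χ 1 x)‖ = 1
      rw [norm_mul, Complex.norm_conj, hnorm, hnorm, mul_one]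
    rw [← inv_eq_of_mul_eq_one_right hx, Complex.inv_eq_conj hn, Complex.conj_re]
  have hwconj : ∀ x y, w (y * x * y⁻¹) = w x := fun x y => by
    rw [hw]
    simp only
    rw [Subgroup.coe_mul, Subgroup.coe_mul, Subgroup.coe_inv, Units.val_mul, Units.val_mul,
      Matrix.trace_units_conj]
  obtain ⟨C, hC⟩ := hR N ε f h
  have hlev : ∀ v : ℝ, ∃ C' : ℝ, ∀ s ∈ Set.Ioc (1 : ℝ) 2, ∃ T : Finset ℕ,
      (∀ p ∈ T, p.Prime ∧ ¬ p ∣ N ∧ ‖ModularFormClass.qCoeff f p‖ ^ 2 = v) ∧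
      ((Nat.card {x | w x = v} : ℝ) / Fintype.card r.range -
          1 / (16 * (Fintype.card r.range : ℝ))) * Real.log (1 / (s - 1)) - C' ≤
        ∑ p ∈ T, (p : ℝ) ^ (-s) := by
    intro v
    obtain ⟨C', hC'⟩ := hD r.range π r.rangeRestrict_surjective hker {x | w x = v}
      (fun x hx y => (hwconj x y).trans hx) (fun x hx => (hwinv x).trans hx)
      (1 / (16 * (Fintype.card r.range : ℝ))) (by positivity) N.primeFactors
    refine ⟨C', fun s hs => ?_⟩
    obtain ⟨T, hT, hle⟩ := hC' s hs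
    refine ⟨T, fun p hp => ?_, hle⟩
    obtain ⟨hp', hpN, hfrT⟩ := hT p hp
    have hpN' : ¬ p ∣ N := fun hd => hpN (Nat.mem_primeFactors.mpr ⟨hp', hd, NeZero.ne N⟩)
    obtain ⟨A, hA'⟩ := FA.Deform.exists_liesOverPrime hp'
    obtain ⟨σ, hσ⟩ := FA.Deform.exists_isFrobeniusAt hp' hA'
    refine ⟨hp', hpN', ?_⟩
    rw [← hfr p hp' hpN' A hA' σ hσ, ← (hrr σ).1]
    exact hfrT A hA' σ hσ
  choose C' hC' using hlev
  set V : Finset ℝ := Finset.univ.image w
  have hwmax : ∀ x, w x ≤ 4 := fun x => by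
    rw [hwx]
    have : (ψ x).re ≤ ‖ψ x‖ := Complex.re_le_norm _
    have hn : ‖ψ x‖ = 1 := by
      show ‖χ 0 x * (starRingEnd ℂ) (χ 1 x)‖ = 1
      rw [norm_mul, Complex.norm_conj, hnorm, hnorm, mul_one]
    linarith
  have hkey : (2 : ℝ) - 1 / 4 ≤ 1 := by
    refine le_of_log_bound (C := C + ∑ v ∈ V, v * C' v) fun s hs => ?_
    have hL0 : 0 ≤ Real.log (1 / (s - 1)) := Real.log_nonneg (by
      rw [le_div_iff₀ (by linarith [hs.1])]; linarith [hs.2])
    choose T hT hle using fun v => hC' v s hs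
    have hdisj : (V : Set ℝ).PairwiseDisjoint T := fun a _ b _ hab => by
      rw [Function.onFun, Finset.disjoint_left]
      exact fun p hpa hpb => hab ((hT a p hpa).2.2.symm.trans (hT b p hpb).2.2)
    have h1 := hC s hs (V.biUnion T) fun p hp => by
      obtain ⟨v, -, hpv⟩ := Finset.mem_biUnion.mp hp
      exact ⟨(hT v p hpv).1, (hT v p hpv).2.1⟩
    rw [Finset.sum_biUnion hdisj] at h1
    have h2 : ∀ v ∈ V, v * (((Nat.card {x | w x = v} : ℝ) / Fintype.card r.range -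
        1 / (16 * (Fintype.card r.range : ℝ))) * Real.log (1 / (s - 1))) - v * C' v ≤
        ∑ p ∈ T v, ‖ModularFormClass.qCoeff f p‖ ^ 2 * (p : ℝ) ^ (-s) := fun v hv => by
      obtain ⟨x, -, rfl⟩ := Finset.mem_image.mp hv
      rw [← mul_sub, Finset.sum_congr rfl fun p hp => by rw [(hT _ p hp).2.2], ← Finset.mul_sum]
      exact mul_le_mul_of_nonneg_left (hle _) (sq_nonneg _)
    have h3 := (Finset.sum_le_sum h2).trans h1
    rw [Finset.sum_sub_distrib] at h3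
    set G : ℝ := (Fintype.card r.range : ℝ) with hG
    have hGpos : 0 < G := Nat.cast_pos.mpr Fintype.card_pos
    have hfib : ∑ v ∈ V, v * ((Nat.card {x | w x = v} : ℝ)) = ∑ x, w x := by
      rw [← Finset.sum_fiberwise_of_maps_to (g := w) (t := V)
        fun x _ => Finset.mem_image_of_mem w (Finset.mem_univ x)]
      refine Finset.sum_congr rfl fun v _ => ?_
      rw [Finset.sum_congr rfl fun x hx => (Finset.mem_filter.mp hx).2, Finset.sum_const,
        nsmul_eq_mul, mul_comm, Nat.card_eq_fintype_card, Fintype.card_subtype]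
      rfl
    have hVsum : ∑ v ∈ V, v ≤ 4 * G := by
      refine (Finset.sum_le_card_nsmul V id 4 fun v hv => ?_).trans ?_
      · obtain ⟨x, -, rfl⟩ := Finset.mem_image.mp hv; exact hwmax x
      · rw [nsmul_eq_mul, mul_comm]
        exact mul_le_mul_of_nonneg_left (Nat.cast_le.mpr Finset.card_image_le) (by norm_num)
    have h4 : ∑ v ∈ V, v * (((Nat.card {x | w x = v} : ℝ) / G - 1 / (16 * G)) *
        Real.log (1 / (s - 1))) = ((∑ x, w x) / G - (∑ v ∈ V, v) / (16 * G)) *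
          Real.log (1 / (s - 1)) := by
      rw [← hfib, Finset.sum_div, Finset.sum_div, ← Finset.sum_sub_distrib, Finset.sum_mul]
      refine Finset.sum_congr rfl fun v _ => ?_
      ring
    rw [h4] at h3
    have h5 : (2 : ℝ) - 1 / 4 ≤ (∑ x, w x) / G - (∑ v ∈ V, v) / (16 * G) := by
      have e1 : 2 ≤ (∑ x, w x) / G := by rw [le_div_iff₀ hGpos]; exact hsum
      have e2 : (∑ v ∈ V, v) / (16 * G) ≤ 1 / 4 := by
        rw [div_le_iff₀ (by positivity)]; linarith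
      linarith
    nlinarith [mul_le_mul_of_nonneg_right h5 hL0]
  norm_num at hkey

theorem isIrreducible_of_no_stable_line {ρ : GQ →* GL (Fin 2) ℂ}
    (h : ∀ v : Fin 2 → ℂ, v ≠ 0 → ∃ σ : GQ, ∀ c : ℂ, (ρ σ).val *ᵥ v ≠ c • v) :
    (Deformation.matrixRepresentation ρ).IsIrreducible := by
  haveI : Nontrivial (Subrepresentation (Deformation.matrixRepresentation ρ)) := by
    refine ⟨⊥, ⊤, fun he => ?_⟩
    have h1 : ((fun _ => 1) : Fin 2 → ℂ) ∈
        (⊥ : Subrepresentation (Deformation.matrixRepresentation ρ)).toSubmodule := by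
      rw [he]; exact Submodule.mem_top
    exact one_ne_zero (congrFun ((Submodule.mem_bot ℂ).mp h1) 0)
  refine ⟨fun S => ?_⟩
  by_cases hbot : S.toSubmodule = ⊥
  · exact Or.inl (Subrepresentation.toSubmodule_injective hbot)
  refine Or.inr (Subrepresentation.toSubmodule_injective ?_)
  show S.toSubmodule = ⊤
  by_contra htop
  obtain ⟨v, hv, hv0⟩ := Submodule.exists_mem_ne_zero_of_ne_bot hbot
  obtain ⟨σ, hσ⟩ := h v hv0
  have hlt : Module.finrank ℂ S.toSubmodule < 2 := by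
    have := Submodule.finrank_lt htop
    simpa using this
  have hle : Submodule.span ℂ {v} ≤ S.toSubmodule := (Submodule.span_singleton_le_iff_mem _ _).mpr hv
  have heq : Submodule.span ℂ {v} = S.toSubmodule := Submodule.eq_of_le_of_finrank_le hle (by
    rw [finrank_span_singleton hv0]; omega)
  have hmem := S.apply_mem_toSubmodule σ hv
  rw [← heq, Submodule.mem_span_singleton] at hmem
  obtain ⟨c, hc⟩ := hmem
  exact hσ c (by rw [hc]; simp)

/-- **Deligne–Serre in weight one, from the pieces.** -/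
theorem deligneSerreOne_of (hK : CoeffRing) (hC : Conjugates) (hR : RankinBound)
    (hD : SymDensity) (hE : EigenFunctional) (hA : ResidualAttached) (hB : CountBound)
    (hL : LiftToComplex) : DeligneSerreOne := by
  intro N _ ε f h
  obtain ⟨B₀, hgood⟩ := exists_goodLift hK hC hR hD hE hA hB hL h
  obtain ⟨ℓ₀, hℓ₀, hℓ₀p⟩ := Nat.exists_infinite_primes (B₀ + 4)
  obtain ⟨ℓ₁, hℓ₁, hℓ₁p⟩ := Nat.exists_infinite_primes (ℓ₀ + 1)
  obtain ⟨ρ, hfin, hρ⟩ := hgood ℓ₀ hℓ₀p (by omega) 2 (Or.inl rfl)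
  have hsame : ∀ (ℓ j : ℕ) (ρ' : GQ →* GL (Fin 2) ℂ), IsGoodLift N ε f ℓ j ρ' →
      ∀ σ, (ρ' σ = 1 → ρ σ = 1) ∧ (ρ σ).val.trace = (ρ' σ).val.trace ∧
        (ρ σ).val.det = (ρ' σ).val.det := by
    intro ℓ j ρ' hρ' σ
    have hval : ∀ (τ : GQ →* GL (Fin 2) ℂ), GaloisFactorsThroughFiniteLevel τ →
        IsOpen (((Units.coeHom _).comp τ).ker : Set GQ) := fun τ hτ =>
      isOpen_ker_of_finite_level (M := GL (Fin 2) ℂ) hτ |> fun h' => by
        convert h' using 2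
        ext x
        simp [MonoidHom.mem_ker]
    have heq := FA.Density.trace_det_eq_of_frobenius ((Units.coeHom _).comp ρ)
      ((Units.coeHom _).comp ρ') (hval ρ hfin) (hval ρ' hρ'.1)
      (N.primeFactors ∪ {ℓ₀, 2, ℓ, j}) (fun q hq hqS A hA' τ hτ => by
        simp only [Finset.mem_union, Nat.mem_primeFactors, Finset.mem_insert,
          Finset.mem_singleton, not_or, not_and, ne_eq, NeZero.ne, not_false_eq_true,
          imp_false, not_true_eq_false] at hqS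
        have hqN : ¬ q ∣ N := hqS.1 hq
        have e1 := (hρ q hq hqN hqS.2.1 hqS.2.2.1 A hA').2 τ hτ
        have e2 := (hρ'.2 q hq hqN hqS.2.2.2.1 hqS.2.2.2.2 A hA').2 τ hτ
        exact ⟨e1.1.trans e2.1.symm, e1.2.trans e2.2.symm⟩) σ
    refine ⟨fun h1 => ?_, heq.1, heq.2⟩
    obtain ⟨n, hn, hpow⟩ := exists_pow_eq_one_of_finite_level hfin σ
    exact eq_one_of_trace_det hn hpow
      (by rw [show (ρ σ).val.trace = _ from heq.1]; simp [h1])
      (by rw [show (ρ σ).val.det = _ from heq.2]; simp [h1])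
  have hall : ∀ p : ℕ, p.Prime → ¬ p ∣ N → ∀ A : ValuationSubring Qb, A.LiesOverPrime p →
      (∀ σ ∈ A.inertiaSubgroupIn ℚ, ρ σ = 1) ∧ ∀ σ : GQ, A.IsFrobeniusAt σ p →
        (ρ σ).val.trace = ModularFormClass.qCoeff f p ∧ (ρ σ).val.det = ε (p : ZMod N) := by
    intro p hp hpN A hA'
    obtain ⟨ρ', hρ'⟩ := hgood (if p = ℓ₀ then ℓ₁ else ℓ₀) (by split_ifs <;> assumption)
      (by split_ifs <;> omega) (if p = 2 then 3 else 2) (by split_ifs <;> simp)
    obtain ⟨hin, hfr⟩ := hρ'.2 p hp hpN (by split_ifs <;> omega) (by split_ifs <;> omega) A hA'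
    refine ⟨fun σ hσ => (hsame _ _ ρ' hρ' σ).1 (hin σ hσ), fun σ hσ => ?_⟩
    obtain ⟨-, e1, e2⟩ := hsame _ _ ρ' hρ' σ
    exact ⟨e1.trans (hfr σ hσ).1, e2.trans (hfr σ hσ).2⟩
  exact ⟨ρ, hfin, isIrreducible_of_no_stable_line (no_stable_line hR hD h hfin
    fun p hp hpN A hA' σ hσ => ((hall p hp hpN A hA').2 σ hσ).1), hall⟩

end FA.Weight1

end
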