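import Fermat.Agent.Weight1.Defs
import Fermat.Agent.Deform.Burnside

/-!
# A group acting semisimply with few characteristic polynomials is small
-/

set_option autoImplicit false
set_option linter.unusedSectionVars false

noncomputable section

namespace FA.Weight1

open Matrix

/-- A subgroup of `GL₂` without a stable line spans the matrices. -/
theorem span_eq_top_of_no_line {k : Type} [Field k] [IsAlgClosed k] (G : Subgroup (GL (Fin 2) k))
    (h : ∀ v : Fin 2 → k, v ≠ 0 → ∃ g ∈ G, ∀ c : k,
      Matrix.mulVec (g : Matrix (Fin 2) (Fin 2) k) v ≠ c • v) :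
    Submodule.span k (Set.range fun g : G => ((g : GL (Fin 2) k) : Matrix (Fin 2) (Fin 2) k)) =
      ⊤ := by
  set s := Set.range fun g : G => ((g : GL (Fin 2) k) : Matrix (Fin 2) (Fin 2) k) with hs
  refine FA.Deform.eq_top_of_no_invariant_line _ (Submodule.subset_span ⟨1, rfl⟩)
    (fun a ha b hb => ?_) fun v hv => ?_
  · have h2 : Submodule.span k s * Submodule.span k s ≤ Submodule.span k s := by
      rw [Submodule.span_mul_span]
      refine Submodule.span_mono ?_
      rintro _ ⟨_, ⟨x, rfl⟩, _, ⟨y, rfl⟩, rfl⟩
      exact ⟨x * y, rfl⟩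
    exact h2 (Submodule.mul_mem_mul ha hb)
  · obtain ⟨g, hg, hgv⟩ := h v hv
    exact ⟨_, Submodule.subset_span ⟨⟨g, hg⟩, rfl⟩, hgv⟩

/-- The trace form separates matrices. -/
theorem eq_zero_of_trace_span {k : Type} [Field k] {s : Set (Matrix (Fin 2) (Fin 2) k)}
    (hs : Submodule.span k s = ⊤) {D : Matrix (Fin 2) (Fin 2) k}
    (h : ∀ x ∈ s, (D * x).trace = 0) : D = 0 := by
  have hall : ∀ x, (D * x).trace = 0 := fun x => by
    have hx : x ∈ Submodule.span k s := hs ▸ Submodule.mem_top
    induction hx using Submodule.span_induction with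
    | mem x hx => exact h x hx
    | zero => simp
    | add x y _ _ hx hy => rw [Matrix.mul_add, Matrix.trace_add, hx, hy, add_zero]
    | smul c x _ hx => rw [Matrix.mul_smul, Matrix.trace_smul, hx, smul_zero]
  ext i j
  have := hall (Matrix.single j i 1)
  rwa [Matrix.trace_mul_single, MulOpposite.op_one, one_smul] at this

/-- **Few characteristic polynomials.** -/
theorem countBound : CountBound := by
  intro k _ _ G _ hG P hP
  classical
  set cp : G → k × k := fun g =>
    ((g : GL (Fin 2) k).val.trace, (g : GL (Fin 2) k).val.det) with hcp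
  set good : Finset G := Finset.univ.filter fun g => cp g ∈ P with hgood
  replace hP : 7 * Fintype.card G < 8 * good.card := by
    refine lt_of_lt_of_eq hP (congrArg (8 * ·) ?_)
    rw [Nat.card_eq_fintype_card]
    exact Fintype.card_of_subtype _ fun g => by simp [hgood, hcp]
  rcases hG with hd | hirr
  · have h2 : good.card ≤ 2 * P.card := by
      refine Finset.card_le_mul_card_image_of_maps_to (f := cp)
        (fun g hg => (Finset.mem_filter.mp hg).2) _ fun td _ => ?_
      by_contra! hlt
      obtain ⟨x, hx, y, hy, z, hz, hxy, hxz, hyz⟩ := Finset.two_lt_card.mp hlt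
      simp only [Finset.mem_filter, hcp, Prod.ext_iff, Matrix.trace_fin_two,
        Matrix.det_fin_two] at hx hy hz
      obtain ⟨-, hxt, hxd⟩ := hx
      obtain ⟨-, hyt, hyd⟩ := hy
      obtain ⟨-, hzt, hzd⟩ := hz
      have hext : ∀ a b : G, (a : GL (Fin 2) k).val 0 0 = (b : GL (Fin 2) k).val 0 0 →
          (a : GL (Fin 2) k).val 1 1 = (b : GL (Fin 2) k).val 1 1 → a = b := by
        intro a b h0 h1
        refine Subtype.ext (Units.ext ?_)
        ext i j
        fin_cases i <;> fin_cases j
        · exact h0
        · exact (hd a a.2).1.trans (hd b b.2).1.symm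
        · exact (hd a a.2).2.trans (hd b b.2).2.symm
        · exact h1
      simp only [(hd _ x.2).1, (hd _ y.2).1, (hd _ z.2).1, zero_mul, sub_zero] at hxd hyd hzd
      -- the upper left entries are roots of one quadratic
      have key : ∀ a b a' b' : k, a + b = td.1 → a * b = td.2 → a' + b' = td.1 →
          a' * b' = td.2 → a ≠ a' → a + a' = td.1 := by
        intro a b a' b' h1 h2 h3 h4 hne
        have h5 : (a - a') * (a + a' - td.1) = 0 := by
          linear_combination a * h1 - h2 - a' * h3 + h4
        exact sub_eq_zero.mp ((mul_eq_zero.mp h5).resolve_left (sub_ne_zero.mpr hne))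
      have hne : ∀ a b : G, a ≠ b →
          (a : GL (Fin 2) k).val 0 0 + (a : GL (Fin 2) k).val 1 1 = td.1 →
          (b : GL (Fin 2) k).val 0 0 + (b : GL (Fin 2) k).val 1 1 = td.1 →
          (a : GL (Fin 2) k).val 0 0 ≠ (b : GL (Fin 2) k).val 0 0 := fun a b hab ha hb h0 =>
        hab (hext a b h0 (add_left_cancel ((h0 ▸ ha).trans hb.symm)))
      exact hne y z hyz hyt hzt (add_left_cancel ((key _ _ _ _ hxt hxd hyt hyd
        (hne x y hxy hxt hyt)).trans (key _ _ _ _ hxt hxd hzt hzd (hne x z hxz hxt hzt)).symm))
    calc Fintype.card G ≤ 4 * P.card := by omega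
      _ ≤ _ := Nat.le_add_left _ _
  · set m : G → Matrix (Fin 2) (Fin 2) k := fun g => ((g : GL (Fin 2) k) : Matrix _ _ k) with hm
    obtain ⟨b, hbs, hbspan, hbli⟩ := exists_linearIndependent k (Set.range m)
    rw [span_eq_top_of_no_line G hirr] at hbspan
    have : Finite b := (Set.finite_range m).subset hbs
    have : Fintype b := Fintype.ofFinite b
    have hb4 : Fintype.card b ≤ 4 := by
      have := hbli.fintype_card_le_finrank
      simpa [Module.finrank_matrix] using this
    choose sec hsec using fun x : b => hbs x.2
    set all4 : Finset G := Finset.univ.filter fun g => ∀ x : b, g * sec x ∈ good with hall4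
    have hshift : ∀ x : b, (Finset.univ.filter fun g : G => g * sec x ∉ good).card =
        Fintype.card G - good.card := by
      intro x
      rw [← Finset.card_compl]
      refine Finset.card_equiv (Equiv.mulRight (sec x)) fun g => ?_
      simp
    have hcov : (Finset.univ : Finset G) ⊆
        all4 ∪ Finset.univ.biUnion fun x : b => Finset.univ.filter fun g => g * sec x ∉ good := by
      intro g _
      by_cases h : ∀ x : b, g * sec x ∈ good
      · exact Finset.mem_union_left _ (Finset.mem_filter.mpr ⟨Finset.mem_univ g, h⟩)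
      · push Not at h
        obtain ⟨x, hx⟩ := h
        exact Finset.mem_union_right _ (Finset.mem_biUnion.mpr
          ⟨x, Finset.mem_univ x, Finset.mem_filter.mpr ⟨Finset.mem_univ g, hx⟩⟩)
    have h1 : Fintype.card G ≤ all4.card + 4 * (Fintype.card G - good.card) := by
      refine (Finset.card_le_card hcov).trans ((Finset.card_union_le _ _).trans
        (Nat.add_le_add_left (Finset.card_biUnion_le.trans ?_) _))
      rw [Finset.sum_congr rfl fun x _ => hshift x, Finset.sum_const, smul_eq_mul]
      exact Nat.mul_le_mul_right _ hb4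
    have h2 : all4.card ≤ P.card ^ Fintype.card b := by
      let F : all4 → b → P := fun g x =>
        ⟨cp (g.1 * sec x), (Finset.mem_filter.mp ((Finset.mem_filter.mp g.2).2 x)).2⟩
      have hF : Function.Injective F := fun g g' h => by
        refine Subtype.ext (Subtype.ext (Units.ext (sub_eq_zero.mp ?_)))
        refine eq_zero_of_trace_span hbspan fun x hx => ?_
        have h3 := congrArg (fun p : P => p.1.1) (congrFun h ⟨x, hx⟩)
        simp only [F, hcp, Subgroup.coe_mul, Units.val_mul] at h3
        have h4 := hsec ⟨x, hx⟩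
        simp only [hm] at h4
        rw [h4] at h3
        rw [sub_mul, Matrix.trace_sub, h3, sub_self]
      simpa using Fintype.card_le_of_injective F hF
    have hgle : good.card ≤ Fintype.card G := Finset.card_le_univ _
    have hP0 : 0 < P.card := by
      have hpos : 0 < good.card := by omega
      obtain ⟨g, hg⟩ := Finset.card_pos.mp hpos
      exact Finset.card_pos.mpr ⟨_, (Finset.mem_filter.mp hg).2⟩
    have h3 : all4.card ≤ P.card ^ 4 := h2.trans (Nat.pow_le_pow_right hP0 hb4)
    omega

end FA.Weight1

end
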