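import Fermat.Agent.Weight1.ModTwo
import Fermat.Agent.Weight1.Isotypic
import Fermat.Agent.JTorsion.ResidualAbs

/-!
# The system of a weight one form modulo a place occurs on the lattice of weight two

The Hecke elements multiplying the series of the form of weight two modulo the place by a scalar
form a ring with a character, and a functional on the lattice follows by faithfulness.
-/

set_option autoImplicit false
set_option linter.unusedSectionVars false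
set_option linter.style.haveILetI false

noncomputable section

namespace FA.Weight1

open UpperHalfPlane ModularForm CongruenceSubgroup FA.Period
open FA.HeckeH1 (GamH ulHom ulHom_val)
open FA.JTorsion (cuspLat exists_functional_of_faithful)
open scoped MatrixGroups

local notation "ZB" => integralClosure ℤ ℂ
local notation "incl" => Subring.subtype (Subalgebra.toSubring (integralClosure ℤ ℂ))

/-- The character modulo the place. -/
def chiMod {M : ℕ} (ξ : ZMod M →* ZB) (𝔪 : Ideal ZB) : (ZMod M)ˣ →* (ZB ⧸ 𝔪)ˣ :=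
  (((Ideal.Quotient.mk 𝔪 : ZB →* ZB ⧸ 𝔪).comp ξ).comp (Units.coeHom _)).toHomUnits

theorem Tc_iDia_comm {M : ℕ} [NeZero M] [Fact (1 < M)] {H : Subgroup (ZMod M)ˣ} (hH : -1 ∈ H)
    (p : ℕ) [Fact p.Prime] (g : GamH M (⊤ : Subgroup (ZMod M)ˣ))
    (z : FA.HeckeH1.Hom1 (GamH M H) ℤ) :
    (FA.HeckeH1.Tc M H p).act ((FA.NebLocal.iDia M H hH g).C.act z) =
      (FA.NebLocal.iDia M H hH g).C.act ((FA.HeckeH1.Tc M H p).act z) := by
  simp only [FA.NebLocal.iDia_act, FA.HeckeH1.Tc_dia]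

theorem iDia_act_comm {M : ℕ} [NeZero M] [Fact (1 < M)] {H : Subgroup (ZMod M)ˣ} (hH : -1 ∈ H)
    (g g' : GamH M (⊤ : Subgroup (ZMod M)ˣ)) (z : FA.HeckeH1.Hom1 (GamH M H) ℤ) :
    (FA.NebLocal.iDia M H hH g).C.act ((FA.NebLocal.iDia M H hH g').C.act z) =
      (FA.NebLocal.iDia M H hH g').C.act ((FA.NebLocal.iDia M H hH g).C.act z) := by
  simp only [FA.NebLocal.iDia_act, ← FA.HeckeH1.dia_mul]
  refine (FA.HeckeH1.dia_congr ?_ _).symm
  rw [map_mul, map_mul, mul_comm (ulHom _ g), inv_mul_cancel]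
  exact one_mem _

/-- A functional from a character of a ring of endomorphisms with commuting generators. -/
theorem exists_functional_of_comm (ℓ : ℕ) [Fact ℓ.Prime] {k : Type} [Field k] [CharP k ℓ]
    {R : Type} [Ring R] [Module.Finite ℤ R] {X : Type} [AddCommGroup X] [Module.Finite ℤ X]
    (E : R →+* AddMonoid.End X) (hE : ∀ r, E r = 0 → r = 0) (ψ : R →+* k) (s : Set R)
    (hs : ∀ x ∈ s, ∀ y ∈ s, E (x * y) = E (y * x)) :
    ∃ g : X →+ k, g ≠ 0 ∧ ∀ x ∈ s, ∀ w, g (E x w) = ψ x * g w := by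
  let U := Subring.closure s
  haveI : IsMulCommutative U := Subring.isMulCommutative_closure fun x hx y hy => by
    rw [← sub_eq_zero]
    exact hE _ (by rw [map_sub, hs x hx y hy, sub_self])
  letI : CommRing U := { (inferInstance : Ring U) with mul_comm := mul_comm' }
  letI : Module U X := Module.compHom X (E.comp U.subtype)
  haveI : IsNoetherian ℤ R := isNoetherian_of_isNoetherianRing_of_finite ℤ R
  haveI : Module.Finite ℤ U :=
    Module.Finite.of_injective U.subtype.toAddMonoidHom.toIntLinearMap Subtype.val_injective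
  haveI : IsScalarTower ℤ U X := AddCommGroup.intIsScalarTower
  haveI : Module.Finite U X := Module.Finite.of_restrictScalars_finite ℤ U X
  letI : Algebra U k := (ψ.comp U.subtype).toAlgebra
  obtain ⟨g, v, hv, -⟩ := exists_functional_of_faithful (T := U) ℓ (k := k) (X := X)
    fun x hx => Subtype.ext (hE x.1 (AddMonoidHom.ext hx))
  refine ⟨g.toAddMonoidHom, fun h0 => hv (DFunLike.congr_fun h0 v), fun x hx w => ?_⟩
  show g ((⟨x, Subring.subset_closure hx⟩ : U) • w) = _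
  rw [map_smul, Algebra.smul_def]
  rfl

set_option maxHeartbeats 1600000 in
-- many subrings of endomorphisms and their modules
/-- A series on which the correspondences act by scalars modulo the place gives a functional. -/
theorem exists_eigenFun (ℓ : ℕ) [Fact ℓ.Prime] {𝔪 : Ideal ZB} [𝔪.IsMaximal] (hm : (ℓ : ZB) ∈ 𝔪)
    {M : ℕ} [NeZero M] [Fact (1 < M)] (ξ : ZMod M →* ZB) (Abar : PowerSeries (ZB ⧸ 𝔪))
    (hA1 : Abar.coeff 1 = 1) {Fs : S2 M (pmOne M)} {t : ZB ⧸ 𝔪} (ht : t ≠ 0)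
    (hgood : GoodMod ξ 𝔪 Abar Fs t) (c : ℕ → ZB ⧸ 𝔪)
    (hTmem : ∀ (p : ℕ) [Fact p.Prime], ¬ p ∣ M →
      ActsBy ξ 𝔪 Abar (genT (neg_one_mem_pmOne M) p) (c p)) :
    letI := Ideal.Quotient.field 𝔪
    ∃ g : cuspLat (lvlOne M) →+ ZB ⧸ 𝔪, IsEigenFun M c (chiMod ξ 𝔪) g := by
  letI := Ideal.Quotient.field 𝔪
  haveI := charP_quot (Fact.out : ℓ.Prime) 𝔪 hm
  classical
  set T := scalarRing ξ 𝔪 Abar with hT
  have huniq : ∀ (x : T) (a b : ZB ⧸ 𝔪), ActsBy ξ 𝔪 Abar x.1 a → ActsBy ξ 𝔪 Abar x.1 b → a = b := by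
    intro x a b ha hb
    obtain ⟨-, P, hP, hP'⟩ := ha Fs _ hgood
    obtain ⟨-, Q, hQ, hQ'⟩ := hb Fs _ hgood
    have hPQ : P = Q := PowerSeries.map_injective incl Subtype.val_injective (hP.symm.trans hQ)
    have h := congrArg (fun S : PowerSeries (ZB ⧸ 𝔪) => S.coeff 1) ((hPQ ▸ hP').symm.trans hQ')
    simp only [PowerSeries.coeff_smul, hA1, smul_eq_mul, mul_one] at h
    exact mul_right_cancel₀ ht h
  choose κ hκ using fun x : T => x.2.2
  let ψ : T →+* ZB ⧸ 𝔪 :=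
    { toFun := κ
      map_one' := huniq 1 _ _ (hκ 1) fun G t h => by rw [one_mul]; exact h
      map_mul' := fun x y => huniq (x * y) _ _ (hκ _) fun G t h => by
        rw [mul_assoc]; exact hκ x _ _ (hκ y G t h)
      map_zero' := huniq 0 _ _ (hκ 0) (actsBy_zero ξ 𝔪 Abar)
      map_add' := fun x y => huniq (x + y) _ _ (hκ _) (actsBy_add ξ 𝔪 Abar (hκ x) (hκ y)) }
  -- commutativity
  let toEnd : T →+* AddMonoid.End (cuspLat (lvlOne M)) :=
    (RingHom.fst _ _).comp T.subtype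
  have htoEnd : ∀ x : T, toEnd x = 0 → x = 0 := fun x hx =>
    Subtype.ext (eq_zero_of_compat (neg_one_mem_pmOne _) x.2.1 hx)
  -- the commutative ring generated by the correspondences
  let gens : Set T := {x | (∃ (p : ℕ) (hp : Fact p.Prime), ¬ p ∣ M ∧
      x.1 = @genT M _ (pmOne M) _ (neg_one_mem_pmOne _) p hp) ∨
    ∃ g, x.1 = genD (neg_one_mem_pmOne _) g}
  have hcommE : ∀ x ∈ gens, ∀ y ∈ gens, toEnd (x * y) = toEnd (y * x) := by
    intro x hx y hy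
    refine AddMonoidHom.ext fun v => Subtype.ext ?_
    rcases hx with ⟨p, hp, -, hx⟩ | ⟨g, hx⟩ <;> rcases hy with ⟨r, hr, -, hy⟩ | ⟨g', hy⟩
    · show (((x.1 * y.1).1 v : cuspLat (lvlOne M)) : FA.HeckeH1.Hom1 _ ℤ) = ((y.1 * x.1).1 v).1
      rw [hx, hy]
      rcases eq_or_ne p r with rfl | hne
      · rfl
      · exact FA.HeckeH1.Tc_comm _ _ hne _
    · show (((x.1 * y.1).1 v : cuspLat (lvlOne M)) : FA.HeckeH1.Hom1 _ ℤ) = ((y.1 * x.1).1 v).1
      rw [hx, hy]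
      exact Tc_iDia_comm (neg_one_mem_pmOne M) p g' v.1
    · show (((x.1 * y.1).1 v : cuspLat (lvlOne M)) : FA.HeckeH1.Hom1 _ ℤ) = ((y.1 * x.1).1 v).1
      rw [hx, hy]
      exact (Tc_iDia_comm (neg_one_mem_pmOne M) r g v.1).symm
    · show (((x.1 * y.1).1 v : cuspLat (lvlOne M)) : FA.HeckeH1.Hom1 _ ℤ) = ((y.1 * x.1).1 v).1
      rw [hx, hy]
      exact iDia_act_comm (neg_one_mem_pmOne M) g g' v.1
  haveI : Module.Finite ℤ (cuspLat (lvlOne M)) := (FA.JTorsion.cuspLat_free_finite (lvlOne M)).2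
  obtain ⟨g, hg0, hsmul⟩ := exists_functional_of_comm ℓ toEnd htoEnd ψ gens hcommE
  refine ⟨g, hg0, ?_, ?_⟩
  · intro p _ hpM w
    have hmem : (genT (neg_one_mem_pmOne M) p) ∈ T := ⟨genT_mem _ p, _, hTmem p hpM⟩
    have h := hsmul ⟨_, hmem⟩ (Or.inl ⟨p, ‹_›, hpM, rfl⟩) w
    rw [show ψ ⟨_, hmem⟩ = c p from huniq ⟨_, hmem⟩ _ _ (hκ _) (hTmem p hpM)] at h
    exact h
  · intro γ w
    have hmem : (genD (neg_one_mem_pmOne M) γ) ∈ T :=
      ⟨genD_mem _ γ, _, actsBy_genD ξ 𝔪 Abar γ⟩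
    have h := hsmul ⟨_, hmem⟩ (Or.inr ⟨γ, rfl⟩) w
    rw [show ψ ⟨_, hmem⟩ = Ideal.Quotient.mk 𝔪 (ξ (ulHom M γ : ZMod M)) from
      huniq ⟨_, hmem⟩ _ _ (hκ _) (actsBy_genD ξ 𝔪 Abar γ)] at h
    exact h

/-- The system of a weight one form occurs modulo the place. -/
theorem eigenFunctional : EigenFunctional := by
  intro N _ ε f hf
  refine ⟨2, fun ℓ hℓ hℓ2 𝔪 _ hℓm M hNM hℓM hM => ?_⟩
  letI := Ideal.Quotient.field 𝔪
  haveI : Fact ℓ.Prime := ⟨hℓ⟩
  haveI := charP_quot hℓ 𝔪 hℓm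
  have hM' : 1 < M ^ 3 := Nat.one_lt_pow three_ne_zero
    (hℓ.one_lt.trans_le (Nat.le_of_dvd hM hℓM))
  haveI : NeZero (M ^ 3) := ⟨by omega⟩
  haveI : Fact (1 < M ^ 3) := ⟨hM'⟩
  have hsp : ∀ p ∈ M.primeFactors, p.Prime := fun p hp => Nat.prime_of_mem_primeFactors hp
  have hF0 : IsIso ε N ⇑f := ⟨dvd_rfl, coe_mem_space f, fun γ hγ => isotypic N ε f hf γ hγ⟩
  obtain ⟨g₀, hg₀, hg₀c⟩ := exists_depleted_set hF0 M.primeFactors hsp
  have hL : N * ∏ p ∈ M.primeFactors, p ^ 2 ∣ M ^ 3 := by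
    rw [show M ^ 3 = M * M ^ 2 by ring, Finset.prod_pow]
    exact mul_dvd_mul hNM (pow_dvd_pow_of_dvd M.prod_primeFactors_dvd 2)
  choose aZ haZ using depleted_int hf
    (fun p hp h => Nat.mem_primeFactors.2 ⟨hp, h.trans hNM, hM.ne'⟩) hg₀c
  have hAg : qExp g₀ = (PowerSeries.mk aZ).map incl := by
    ext n
    rw [PowerSeries.coeff_map, PowerSeries.coeff_mk]
    exact (haZ n).symm
  obtain ⟨φ, hφ⟩ := exists_teich 𝔪 hℓm
  have hℓ3 : ℓ ∣ M ^ 3 := hℓM.trans (dvd_pow_self M three_ne_zero)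
  have hN3 : N ∣ M ^ 3 := hNM.trans (dvd_pow_self M three_ne_zero)
  obtain ⟨Fs, hgood⟩ := exists_goodMod hℓm hφ hg₀ hL hN3 hℓ3 hAg
  have h2 : (-2 : ZB ⧸ 𝔪) ≠ 0 := by
    rw [neg_ne_zero, show (2 : ZB ⧸ 𝔪) = ((2 : ℕ) : ZB ⧸ 𝔪) by norm_num, Ne,
      CharP.cast_eq_zero_iff (ZB ⧸ 𝔪) ℓ]
    exact fun h => (Nat.le_of_dvd two_pos h).not_gt hℓ2
  have hA1 : ((PowerSeries.mk aZ).map (Ideal.Quotient.mk 𝔪)).coeff 1 = 1 := by
    rw [PowerSeries.coeff_map, PowerSeries.coeff_mk]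
    have : aZ 1 = 1 := Subtype.ext (by
      rw [haZ 1, hg₀c, if_pos fun p hp h => (hsp p hp).ne_one (Nat.dvd_one.1 h)]
      exact hf.one)
    rw [this, map_one]
  have hps : ∀ p : ℕ, p.Prime → ¬ p ∣ M ^ 3 → p ∉ M.primeFactors := fun p _ hpM h =>
    hpM ((Nat.dvd_of_mem_primeFactors h).trans (dvd_pow_self M three_ne_zero))
  obtain ⟨g, hg⟩ := exists_eigenFun ℓ hℓm (xiMod ε φ hN3 hℓ3) _ hA1 h2 hgood
    (fun p => Ideal.Quotient.mk 𝔪 (aZ p)) fun p _ hpM => by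
      refine actsBy_genT _ 𝔪 _ p hpM _ fun n => ?_
      rw [natCast_mul_xiMod hℓm hφ hN3 hℓ3 Fact.out hpM]
      simp only [PowerSeries.coeff_map, PowerSeries.coeff_mk]
      rw [← map_mul, ← depleted_rel hf hsp hg₀c haZ Fact.out (fun h => hpM (h.trans hN3))
        (hps p Fact.out hpM) n, map_add, map_mul, apply_ite (Ideal.Quotient.mk 𝔪), map_zero]
  refine ⟨M ^ 3, inferInstance, inferInstance, _, _, g, dvd_pow_self M three_ne_zero,
    fun q hq h => hq.dvd_of_dvd_pow h, hg, fun p hp hpM => ?_⟩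
  refine ⟨aZ p, valZB ε (p : ZMod N), ?_, rfl, rfl, fun u hu => ?_⟩
  · rw [haZ, hg₀c, if_pos fun r hr h => hps p hp hpM ((Nat.prime_dvd_prime_iff_eq (hsp r hr) hp).1 h ▸ hr)]
    rfl
  · show _ * Ideal.Quotient.mk 𝔪 (xiMod ε φ hN3 hℓ3 (u : ZMod (M ^ 3))) = _
    rw [hu]
    exact natCast_mul_xiMod hℓm hφ hN3 hℓ3 hp hpM

end FA.Weight1

end
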