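import Fermat.Agent.Weight1.Defs
import Fermat.Agent.Deform.Frobenius
import Fermat.Agent.Period.AutC
import Fermat.Agent.EC.S51Aux

/-!
# Finite images: elementary lemmas for the assembly
-/

set_option autoImplicit false
set_option linter.unusedSectionVars false
set_option linter.style.haveILetI false

noncomputable section

namespace FA.Weight1

open Matrix

local notation "Qb" => AlgebraicClosure ℚ
local notation "GQ" => AlgebraicClosure ℚ ≃ₐ[ℚ] AlgebraicClosure ℚ
local notation "ZB" => integralClosure ℤ ℂ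
local notation "M2" => Matrix (Fin 2) (Fin 2)

/-- Embeddings of subfields of finite degree extend to automorphisms of `ℂ`. -/
theorem exists_auto_extending (K : IntermediateField ℚ ℂ) [FiniteDimensional ℚ K] (φ : K →+* ℂ) :
    ∃ τ : ℂ ≃+* ℂ, ∀ x : K, τ (x : ℂ) = φ x := by
  let Kc := algebraicClosure ℚ ℂ
  have : IsAlgClosure ℚ Kc := algebraicClosure.isAlgClosure ℚ ℂ
  have : Normal ℚ Kc := IsAlgClosure.normal ℚ Kc
  have hle : K ≤ Kc := fun x hx => (mem_algebraicClosure_iff' ..).mpr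
    (IntermediateField.isIntegral_iff.mp (IsIntegral.of_finite ℚ (⟨x, hx⟩ : K)))
  let φa : K →ₐ[ℚ] ℂ :=
    { φ with
      commutes' := fun r =>
        RingHom.congr_fun (Subsingleton.elim (φ.comp (algebraMap ℚ K)) (algebraMap ℚ ℂ)) r }
  have hrange : ∀ x : K, φa x ∈ Kc := fun x =>
    (mem_algebraicClosure_iff' ..).mpr ((IsIntegral.of_finite ℚ x).map φa)
  let φc : K →ₐ[ℚ] Kc := φa.codRestrict Kc.toSubalgebra hrange
  letI : Algebra K Kc := (IntermediateField.inclusion hle).toRingHom.toAlgebra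
  haveI : IsScalarTower ℚ K Kc := IsScalarTower.of_algebraMap_eq fun r => Subtype.ext rfl
  let e : Kc →ₐ[ℚ] Kc := φc.liftNormal Kc
  let σ₀ : Kc ≃ₐ[ℚ] Kc := AlgEquiv.ofBijective e (Algebra.IsAlgebraic.algHom_bijective e)
  obtain ⟨ι, v, hv⟩ := exists_isTranscendenceBasis' Kc ℂ
  obtain ⟨τ, hτ⟩ := FA.Period.exists_ringEquiv_extending v hv
    (MvPolynomial.mapEquiv ι σ₀.toRingEquiv)
  refine ⟨τ, fun x => ?_⟩
  have h1 := hτ (MvPolynomial.C (⟨(x : ℂ), hle x.2⟩ : Kc))
  rw [show MvPolynomial.mapEquiv ι σ₀.toRingEquiv (MvPolynomial.C (⟨(x : ℂ), hle x.2⟩ : Kc)) =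
      MvPolynomial.C (σ₀ ⟨(x : ℂ), hle x.2⟩) by simp, MvPolynomial.aeval_C,
    MvPolynomial.aeval_C] at h1
  refine h1.trans ?_
  have h2 : σ₀ ⟨(x : ℂ), hle x.2⟩ = φc x := AlgHom.liftNormal_commutes φc Kc x
  rw [h2]
  rfl

/-- A nonzero algebraic integer lies in no maximal ideal over a large prime. -/
theorem exists_bound_notMem (z : ℂ) (hz : IsIntegral ℤ z) (h0 : z ≠ 0) :
    ∃ B : ℕ, ∀ ℓ : ℕ, ℓ.Prime → B < ℓ → ∀ 𝔪 : Ideal ZB, 𝔪.IsMaximal → (ℓ : ZB) ∈ 𝔪 →
      (⟨z, hz⟩ : ZB) ∉ 𝔪 := by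
  set P := minpoly ℤ z
  refine ⟨(P.coeff 0).natAbs, fun ℓ hℓ hB 𝔪 hm hℓm hzm => ?_⟩
  have hc : ((P.coeff 0 : ℤ) : ZB) ∈ 𝔪 := by
    have he : Polynomial.aeval (⟨z, hz⟩ : ZB) P = 0 := by
      refine Subtype.ext ?_
      rw [← Subalgebra.coe_val, ← Polynomial.aeval_algHom_apply]
      exact minpoly.aeval ℤ z
    rw [← Polynomial.X_mul_divX_add P, map_add, map_mul, Polynomial.aeval_X, Polynomial.aeval_C,
      add_comm, ← eq_neg_iff_add_eq_zero, algebraMap_int_eq, eq_intCast] at he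
    rw [he, neg_mem_iff]
    exact Ideal.mul_mem_right _ _ hzm
  have hne : P.coeff 0 ≠ 0 := fun h => by
    have h1 := minpoly.coeff_zero_ne_zero (hz.tower_top (A := ℚ)) h0
    rw [minpoly.isIntegrallyClosed_eq_field_fractions' ℚ hz, Polynomial.coeff_map] at h1
    exact h1 (by rw [show (minpoly ℤ z).coeff 0 = 0 from h, map_zero])
  obtain ⟨u, v, huv⟩ := Int.isCoprime_iff_gcd_eq_one.mpr (show Int.gcd (P.coeff 0) (ℓ : ℤ) = 1 by
    rw [Int.gcd_def, Int.natAbs_natCast]
    exact Nat.Coprime.symm ((Nat.Prime.coprime_iff_not_dvd hℓ).mpr fun h =>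
      absurd (Nat.le_of_dvd (Int.natAbs_pos.mpr hne) h) (not_le.mpr hB)))
  refine hm.ne_top ((Ideal.eq_top_iff_one 𝔪).mpr ?_)
  have h1 := congrArg (fun n : ℤ => ((n : ℤ) : ZB)) huv
  push_cast at h1
  rw [← h1]
  exact add_mem (Ideal.mul_mem_left _ _ hc) (Ideal.mul_mem_left _ _ (by simpa using hℓm))

/-- Large primes separate finitely many algebraic integers. -/
theorem exists_bound_separated (T : Finset ZB) :
    ∃ B : ℕ, ∀ ℓ : ℕ, ℓ.Prime → B < ℓ → ∀ 𝔪 : Ideal ZB, 𝔪.IsMaximal → (ℓ : ZB) ∈ 𝔪 →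
      ∀ x ∈ T, ∀ y ∈ T, x - y ∈ 𝔪 → x = y := by
  classical
  have h : ∀ xy ∈ T ×ˢ T, ∃ B : ℕ, ∀ ℓ : ℕ, ℓ.Prime → B < ℓ → ∀ 𝔪 : Ideal ZB, 𝔪.IsMaximal →
      (ℓ : ZB) ∈ 𝔪 → xy.1 - xy.2 ∈ 𝔪 → xy.1 = xy.2 := by
    intro xy _
    by_cases he : xy.1 = xy.2
    · exact ⟨0, fun _ _ _ _ _ _ _ => he⟩
    · obtain ⟨B, hB⟩ := exists_bound_notMem _ (xy.1 - xy.2).2
        (fun h => he (sub_eq_zero.mp (Subtype.ext h)))
      exact ⟨B, fun ℓ hℓ hlt 𝔪 hm hℓm hxy => absurd hxy (hB ℓ hℓ hlt 𝔪 hm hℓm)⟩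
  choose! B hB using h
  refine ⟨(T ×ˢ T).sup B, fun ℓ hℓ hlt 𝔪 hm hℓm x hx y hy hxy => ?_⟩
  exact hB (x, y) (Finset.mem_product.mpr ⟨hx, hy⟩) ℓ hℓ
    (lt_of_le_of_lt (Finset.le_sup (Finset.mem_product.mpr ⟨hx, hy⟩)) hlt) 𝔪 hm hℓm hxy

/-- Every prime lies in a maximal ideal of the algebraic integers. -/
theorem exists_maximal_over {ℓ : ℕ} (hℓ : ℓ.Prime) :
    ∃ 𝔪 : Ideal ZB, 𝔪.IsMaximal ∧ (ℓ : ZB) ∈ 𝔪 := by
  have hne : Ideal.span {(ℓ : ZB)} ≠ ⊤ := by
    rw [Ne, Ideal.span_singleton_eq_top]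
    rintro ⟨u, hu⟩
    have h1 : ((ℓ : ℂ))⁻¹ = ((↑u⁻¹ : ZB) : ℂ) := by
      refine inv_eq_of_mul_eq_one_right ?_
      rw [show (ℓ : ℂ) = ((ℓ : ZB) : ℂ) by simp, ← hu, ← Subalgebra.coe_mul,
        ← Units.val_mul, mul_inv_cancel, Units.val_one]
      rfl
    have h2 : IsIntegral ℤ ((ℓ : ℚ))⁻¹ := by
      refine (isIntegral_algHom_iff (IsScalarTower.toAlgHom ℤ ℚ ℂ) (algebraMap ℚ ℂ).injective).mp ?_
      rw [IsScalarTower.coe_toAlgHom', map_inv₀, map_natCast, h1]
      exact (↑u⁻¹ : ZB).2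
    obtain ⟨z, hz⟩ := IsIntegrallyClosed.isIntegral_iff.mp h2
    rw [eq_intCast] at hz
    have h3 : (ℓ : ℤ) * z = 1 := by
      have : (ℓ : ℚ) * (z : ℚ) = 1 := by
        rw [hz, mul_inv_cancel₀ (Nat.cast_ne_zero.mpr hℓ.ne_zero)]
      exact_mod_cast this
    rcases Int.eq_one_or_neg_one_of_mul_eq_one h3 with h | h
    · exact hℓ.one_lt.ne' (by exact_mod_cast h)
    · have := hℓ.pos; omega
  obtain ⟨𝔪, h𝔪, hle⟩ := Ideal.exists_le_maximal _ hne
  exact ⟨𝔪, h𝔪, hle (Ideal.mem_span_singleton_self _)⟩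

/-- An element of finite order with trace `2` and determinant `1` is trivial. -/
theorem eq_one_of_trace_det {g : GL (Fin 2) ℂ} {n : ℕ} (hn : 0 < n) (hg : g ^ n = 1)
    (ht : g.val.trace = 2) (hd : g.val.det = 1) : g = 1 := by
  set N : M2 ℂ := g.val - 1 with hNdef
  have hN : N * N = 0 := by
    have h := Matrix.aeval_self_charpoly g.val
    rw [Matrix.charpoly_fin_two, ht, hd] at h
    simp only [map_add, map_sub, map_mul, map_pow, Polynomial.aeval_X,
      map_one, map_ofNat] at h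
    rw [← h, hNdef]
    noncomm_ring
  have hpow : ∀ m : ℕ, g.val ^ m = 1 + (m : ℂ) • N := by
    intro m
    induction m with
    | zero => simp
    | succ m ih =>
      rw [pow_succ, ih, show g.val = 1 + N by rw [hNdef]; abel, add_mul, one_mul, mul_add, mul_one,
        smul_mul_assoc, hN, smul_zero, add_zero, Nat.cast_succ, add_smul, one_smul]
      abel
  have h1 := hpow n
  rw [← Units.val_pow_eq_pow_val, hg, Units.val_one, left_eq_add, smul_eq_zero] at h1
  refine Units.ext ?_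
  rw [Units.val_one]
  exact sub_eq_zero.mp (h1.resolve_left (Nat.cast_ne_zero.mpr hn.ne'))

/-- The eigenvalues of an element of finite order are roots of unity. -/
theorem exists_roots_of_pow {g : GL (Fin 2) ℂ} {n : ℕ} (hg : g ^ n = 1) :
    ∃ x y : ℂ, x ^ n = 1 ∧ y ^ n = 1 ∧ g.val.trace = x + y ∧ g.val.det = x * y := by
  set t := g.val.trace
  set d := g.val.det
  obtain ⟨x, hx⟩ := IsAlgClosed.exists_root (k := ℂ)
    (Polynomial.X ^ 2 - Polynomial.C t * Polynomial.X + Polynomial.C d) (by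
      rw [← Matrix.charpoly_fin_two g.val, Matrix.charpoly_degree_eq_dim]
      decide)
  simp only [Polynomial.IsRoot.def, Polynomial.eval_add, Polynomial.eval_sub, Polynomial.eval_mul,
    Polynomial.eval_pow, Polynomial.eval_X, Polynomial.eval_C] at hx
  have key : ∀ z : ℂ, z ^ 2 - t * z + d = 0 → z ^ n = 1 := by
    intro z hz
    have hdet : (g.val - z • (1 : M2 ℂ)).det = 0 := by
      simp only [Matrix.det_fin_two, Matrix.trace_fin_two, t, d] at hz ⊢
      simp only [Matrix.sub_apply, Matrix.smul_apply, Matrix.one_apply, Fin.isValue,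
        if_true, show (0 : Fin 2) ≠ 1 by decide, show (1 : Fin 2) ≠ 0 by decide, if_false,
        smul_eq_mul, mul_one, mul_zero, sub_zero]
      linear_combination hz
    obtain ⟨v, hv0, hv⟩ := Matrix.exists_mulVec_eq_zero_iff.mpr hdet
    rw [Matrix.sub_mulVec, Matrix.smul_mulVec, Matrix.one_mulVec, sub_eq_zero] at hv
    have hpow : ∀ m : ℕ, (g.val ^ m) *ᵥ v = z ^ m • v := fun m => by
      induction m with
      | zero => simp
      | succ m ih =>
        rw [pow_succ, ← Matrix.mulVec_mulVec, hv, Matrix.mulVec_smul, ih, smul_smul, pow_succ,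
          mul_comm]
    have h1 := hpow n
    rw [← Units.val_pow_eq_pow_val, hg, Units.val_one, Matrix.one_mulVec] at h1
    exact smul_left_injective ℂ hv0 (h1.symm.trans (one_smul ℂ v).symm)
  exact ⟨x, t - x, key x hx, key (t - x) (by linear_combination hx), by ring,
    by linear_combination hx⟩

/-- Finitely many roots of unity. -/
def muFin (t : ℕ) : Finset ℂ := (Polynomial.nthRoots t (1 : ℂ)).toFinset

theorem mem_muFin {t : ℕ} (ht : 0 < t) {x : ℂ} : x ∈ muFin t ↔ x ^ t = 1 := by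
  rw [muFin, Multiset.mem_toFinset, Polynomial.mem_nthRoots ht]

theorem isIntegral_of_mem_muFin {t : ℕ} (ht : 0 < t) {x : ℂ} (hx : x ∈ muFin t) :
    IsIntegral ℤ x :=
  IsIntegral.of_pow ht (by rw [(mem_muFin ht).mp hx]; exact isIntegral_one)

/-- A representation with finite image and a stable line has a diagonal semisimplification. -/
theorem exists_diagonal {k : Type} [Field k] {r : GQ →* GL (Fin 2) k}
    (hr : GaloisFactorsThroughFiniteLevel r) {v : Fin 2 → k} (hv : v ≠ 0)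
    (hline : ∀ g ∈ r.range, ∃ c : k, Matrix.mulVec (g : M2 k) v = c • v) :
    ∃ r' : GQ →* GL (Fin 2) k, GaloisFactorsThroughFiniteLevel r' ∧
      (∀ g ∈ r'.range, (g : M2 k) 0 1 = 0 ∧ (g : M2 k) 1 0 = 0) ∧
      ∀ σ, (r' σ).val.trace = (r σ).val.trace ∧ (r' σ).val.det = (r σ).val.det ∧
        (r σ = 1 → r' σ = 1) := by
  classical
  obtain ⟨P, hP⟩ : ∃ P : GL (Fin 2) k, ∀ i, P.val i 0 = v i := by
    by_cases h0 : v 0 = 0
    · have h1 : v 1 ≠ 0 := fun h1 => hv (funext fun i => by fin_cases i <;> assumption)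
      refine ⟨Matrix.GeneralLinearGroup.mkOfDetNeZero !![v 0, 1; v 1, 0] ?_, fun i => ?_⟩
      · simp [Matrix.det_fin_two, h1]
      · fin_cases i <;> simp [Matrix.GeneralLinearGroup.mkOfDetNeZero]
    · refine ⟨Matrix.GeneralLinearGroup.mkOfDetNeZero !![v 0, 0; v 1, 1] ?_, fun i => ?_⟩
      · simp [Matrix.det_fin_two, h0]
      · fin_cases i <;> simp [Matrix.GeneralLinearGroup.mkOfDetNeZero]
  set s : GQ →* GL (Fin 2) k := (MulAut.conj P⁻¹).toMonoidHom.comp r with hs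
  have hsval : ∀ σ, s σ = P⁻¹ * r σ * P := fun σ => by simp [hs]
  have hup : ∀ σ, (s σ).val 1 0 = 0 := by
    intro σ
    obtain ⟨c, hc⟩ := hline (r σ) ⟨σ, rfl⟩
    have e : (r σ).val * P.val = P.val * (s σ).val := by
      rw [hsval, ← Units.val_mul, ← Units.val_mul, ← mul_assoc, ← mul_assoc, mul_inv_cancel,
        one_mul]
    have hcol : ∀ i, ((r σ).val * P.val) i 0 = c * v i := fun i => by
      have := congrFun hc i
      simp only [Matrix.mulVec, dotProduct, Pi.smul_apply, smul_eq_mul] at this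
      rw [Matrix.mul_apply, ← this]
      simp [hP]
    rw [e] at hcol
    have h2 : (s σ).val 1 0 = (P⁻¹.val * (P.val * (s σ).val)) 1 0 := by
      rw [← Matrix.mul_assoc, ← Units.val_mul, inv_mul_cancel, Units.val_one, Matrix.one_mul]
    rw [h2, Matrix.mul_apply, Fin.sum_univ_two, hcol, hcol]
    have h3 : (P⁻¹.val * P.val) 1 0 = 0 := by
      rw [← Units.val_mul, inv_mul_cancel, Units.val_one]; simp
    rw [Matrix.mul_apply, Fin.sum_univ_two, hP, hP] at h3
    linear_combination c * h3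
  have hmul : ∀ σ τ : GQ, ∀ i : Fin 2, (s (σ * τ)).val i i = (s σ).val i i * (s τ).val i i := by
    intro σ τ i
    rw [map_mul, Units.val_mul, Matrix.mul_apply, Fin.sum_univ_two]
    fin_cases i <;> simp [hup]
  have hdet : ∀ σ, (s σ).val.det = (s σ).val 0 0 * (s σ).val 1 1 := fun σ => by
    simp [Matrix.det_fin_two, hup]
  have hne : ∀ σ, (s σ).val.det ≠ 0 := fun σ =>
    ((Matrix.isUnit_iff_isUnit_det _).mp (s σ).isUnit).ne_zero
  let r' : GQ →* GL (Fin 2) k :=
    { toFun := fun σ => Matrix.GeneralLinearGroup.mkOfDetNeZero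
        (Matrix.diagonal fun i => (s σ).val i i) (by
          rw [Matrix.det_diagonal, Fin.prod_univ_two, ← hdet]; exact hne σ)
      map_one' := Units.ext (by
        show Matrix.diagonal _ = 1
        rw [map_one, Units.val_one]; simp)
      map_mul' := fun σ τ => Units.ext (by
        show Matrix.diagonal _ = Matrix.diagonal _ * Matrix.diagonal _
        rw [Matrix.diagonal_mul_diagonal]
        exact congrArg _ (funext fun i => hmul σ τ i)) }
  have htriv : ∀ σ, r σ = 1 → r' σ = 1 := fun σ hσ => Units.ext (by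
    show Matrix.diagonal (fun i => (s σ).val i i) = 1
    rw [show s σ = 1 by rw [hsval, hσ, mul_one, inv_mul_cancel], Units.val_one]
    simp)
  obtain ⟨L, hL, h1⟩ := hr
  refine ⟨r', ⟨L, hL, fun σ hσ => htriv σ (h1 σ hσ)⟩, ?_, fun σ => ⟨?_, ?_, htriv σ⟩⟩
  · rintro g ⟨σ, rfl⟩
    exact ⟨Matrix.diagonal_apply_ne _ (by decide), Matrix.diagonal_apply_ne _ (by decide)⟩
  · show (Matrix.diagonal fun i => (s σ).val i i).trace = _
    rw [Matrix.trace_diagonal, Fin.sum_univ_two, ← Matrix.trace_fin_two, hsval, Units.val_mul,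
      Units.val_mul, Matrix.trace_mul_cycle, ← Units.val_mul, mul_inv_cancel, Units.val_one,
      one_mul]
  · show (Matrix.diagonal fun i => (s σ).val i i).det = _
    rw [Matrix.det_diagonal, Fin.prod_univ_two, ← hdet, hsval, Units.val_mul, Units.val_mul,
      Matrix.det_mul_right_comm, ← Units.val_mul, inv_mul_cancel, Units.val_one, one_mul]

/-- Semisimplification of a representation with finite image. -/
theorem exists_semisimple {k : Type} [Field k] {r : GQ →* GL (Fin 2) k}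
    (hr : GaloisFactorsThroughFiniteLevel r) :
    ∃ r' : GQ →* GL (Fin 2) k, GaloisFactorsThroughFiniteLevel r' ∧ IsSSimple r'.range ∧
      ∀ σ, (r' σ).val.trace = (r σ).val.trace ∧ (r' σ).val.det = (r σ).val.det ∧
        (r σ = 1 → r' σ = 1) := by
  by_cases h : ∀ v : Fin 2 → k, v ≠ 0 → ∃ g ∈ r.range, ∀ c : k,
      Matrix.mulVec (g : M2 k) v ≠ c • v
  · exact ⟨r, hr, Or.inr h, fun σ => ⟨rfl, rfl, id⟩⟩
  push Not at h
  obtain ⟨v, hv, hline⟩ := h
  obtain ⟨r', h1, h2, h3⟩ := exists_diagonal hr hv hline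
  exact ⟨r', h1, Or.inl h2, h3⟩

theorem isOpen_ker_of_finite_level {M : Type} [Group M] {r : GQ →* M}
    (hr : GaloisFactorsThroughFiniteLevel r) : IsOpen (r.ker : Set GQ) := by
  obtain ⟨L, hL, h⟩ := hr
  exact Subgroup.isOpen_mono (H₁ := L.fixingSubgroup)
    (fun σ hσ => MonoidHom.mem_ker.mpr (h σ ((IntermediateField.mem_fixingSubgroup_iff L σ).mp hσ)))
    (IntermediateField.fixingSubgroup_isOpen L)

theorem finite_range_of_finite_level {M : Type} [Group M] {r : GQ →* M}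
    (hr : GaloisFactorsThroughFiniteLevel r) : Finite r.range := by
  haveI : IsGalois ℚ Qb := FA.EC.isGalois_algebraicClosure
  have : r.ker.FiniteIndex := Subgroup.finiteIndex_iff_finite_quotient.mpr
    (Subgroup.quotient_finite_of_isOpen r.ker (isOpen_ker_of_finite_level hr))
  exact Finite.of_equiv _ (QuotientGroup.quotientKerEquivRange r).toEquiv

end FA.Weight1

end
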