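import Mathlib

/-!
# Lifting representations of groups of invertible order

`q : O →+* k` detects units, enough monic polynomials split over `O`.  A representation over `k`
whose commutant consists of the scalars lifts to `O` when the order of the group is invertible in
`k`: it is cut out of the permutation module by an idempotent, which lifts.
-/

set_option autoImplicit false

noncomputable section

namespace FA.Weight1

open Matrix Polynomial

section Idempotent

variable {R : Type*} [CommRing R]

/-- A polynomial at an idempotent only sees its values at `0` and `1`. -/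
theorem aeval_of_idem {B : Type*} [Ring B] [Algebra R B] {e : B} (he : e * e = e) (p : R[X]) :
    aeval e p = p.eval 0 • (1 - e) + p.eval 1 • e := by
  induction p using Polynomial.induction_on' with
  | add p q hp hq =>
    rw [map_add, hp, hq, Polynomial.eval_add, Polynomial.eval_add, add_smul, add_smul]; abel
  | monomial n a =>
    rw [Polynomial.aeval_monomial, Polynomial.eval_monomial, Polynomial.eval_monomial,
      ← Algebra.smul_def]
    rcases n with _ | n
    · simp only [pow_zero, mul_one, ← smul_add, sub_add_cancel]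
    · rw [zero_pow n.succ_ne_zero, one_pow, mul_zero, zero_smul, zero_add, mul_one]
      congr 1
      induction n with
      | zero => rw [pow_one]
      | succ n ih => rw [pow_succ, ih, he]

variable {k : Type*} [Field k] {ι : Type*} [Fintype ι] [DecidableEq ι]

/-- An idempotent lifts along `q`, commuting with everything its lift commutes with. -/
theorem exists_idempotent_lift (q : R →+* k) (hq : ∀ x, q x ≠ 0 → IsUnit x) (M : Matrix ι ι R)
    (S : Multiset R) (hS : M.charpoly = (S.map fun r => X - C r).prod)
    (hM : M.map q * M.map q = M.map q) :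
    ∃ E : Matrix ι ι R, E * E = E ∧ E.map q = M.map q ∧
      ∀ L : Matrix ι ι R, Commute L M → Commute L E := by
  classical
  set S0 := S.filter fun r => q r = 0 with hS0
  set S1 := S.filter fun r => ¬ q r = 0 with hS1
  set a : R[X] := X * (S0.map fun r => X - C r).prod with ha
  set b : R[X] := (X - C 1) * (S1.map fun r => X - C r).prod with hb
  have hchar : M.charpoly ∣ a * b := by
    refine ⟨X * (X - C 1), ?_⟩
    have h01 : S0 + S1 = S := Multiset.filter_add_not _ S
    rw [hS, ha, hb]
    conv_rhs => rw [← h01, Multiset.map_add, Multiset.prod_add]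
    ring
  have hprod : ∀ (T : Multiset R) (r : R), (∀ s ∈ T, IsUnit (r - s)) →
      IsCoprime (X - C r) (T.map fun s => X - C s).prod := by
    intro T r
    induction T using Multiset.induction with
    | empty => intro _; simpa using isCoprime_one_right
    | cons s T ih =>
      intro h
      rw [Multiset.map_cons, Multiset.prod_cons]
      exact (isCoprime_X_sub_C_of_isUnit_sub (h s (Multiset.mem_cons_self _ _))).mul_right
        (ih fun t ht => h t (Multiset.mem_cons_of_mem ht))
  have hprod2 : ∀ (U T : Multiset R), (∀ r ∈ U, ∀ s ∈ T, IsUnit (r - s)) →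
      IsCoprime (U.map fun s => X - C s).prod (T.map fun s => X - C s).prod := by
    intro U T
    induction U using Multiset.induction with
    | empty => intro _; simpa using isCoprime_one_left
    | cons s U ih =>
      intro h
      rw [Multiset.map_cons, Multiset.prod_cons]
      exact (hprod T s (h s (Multiset.mem_cons_self _ _))).mul_left
        (ih fun r hr => h r (Multiset.mem_cons_of_mem hr))
  have hco : IsCoprime a b := by
    have hsep : ∀ r ∈ (0 : R) ::ₘ S0, ∀ s ∈ (1 : R) ::ₘ S1, IsUnit (r - s) := by
      intro r hr s hs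
      refine hq _ ?_
      have hr0 : q r = 0 := by
        rcases Multiset.mem_cons.mp hr with rfl | hr
        · exact map_zero q
        · exact (Multiset.mem_filter.mp hr).2
      have hs0 : q s ≠ 0 := by
        rcases Multiset.mem_cons.mp hs with rfl | hs
        · rw [map_one]; exact one_ne_zero
        · exact (Multiset.mem_filter.mp hs).2
      rw [map_sub, hr0, zero_sub]
      exact neg_ne_zero.mpr hs0
    have := hprod2 _ _ hsep
    rwa [Multiset.map_cons, Multiset.map_cons, Multiset.prod_cons, Multiset.prod_cons, map_zero,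
      sub_zero] at this
  obtain ⟨u, v, huv⟩ := hco
  refine ⟨aeval M (u * a), ?_, ?_, fun L hL => ?_⟩
  · have h0 : aeval M (a * b) = 0 :=
      aeval_eq_zero_of_dvd_aeval_eq_zero hchar (Matrix.aeval_self_charpoly M)
    have h1 : u * a * (u * a) = u * a - a * b * (u * v) := by
      linear_combination (u * a) * huv
    rw [← map_mul, h1, map_sub, map_mul (aeval M) (a * b), h0, zero_mul, sub_zero]
  · have hmap : (aeval M (u * a)).map q = aeval (M.map q) ((u * a).map q) := by
      show q.mapMatrix (aeval M (u * a)) = aeval (q.mapMatrix M) ((u * a).map q)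
      rw [Polynomial.aeval_def, Polynomial.aeval_def, Polynomial.hom_eval₂,
        Polynomial.eval₂_map]
      congr 1
      ext r i j
      simp [Matrix.algebraMap_matrix_apply, apply_ite q]
    have e0 : ((u * a).map q).eval 0 = 0 := by
      simp [ha, Polynomial.map_mul]
    have e1 : ((u * a).map q).eval 1 = 1 := by
      have h1 : ((v * b).map q).eval 1 = 0 := by simp [hb, Polynomial.map_mul]
      have h2 := congrArg (fun p : R[X] => (p.map q).eval 1) huv
      simp only [Polynomial.map_add, Polynomial.eval_add, h1, add_zero, Polynomial.map_one,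
        Polynomial.eval_one] at h2
      exact h2
    rw [hmap, aeval_of_idem hM, e0, e1, zero_smul, one_smul, zero_add]
  · induction (u * a) using Polynomial.induction_on' with
    | add p p' hp hp' => rw [map_add]; exact hp.add_right hp'
    | monomial n r =>
      rw [Polynomial.aeval_monomial, ← Algebra.smul_def]
      exact (hL.pow_right n).smul_right r

end Idempotent

section Lift

variable {G : Type*} [Group G] [Fintype G]

/-- Left translation on the functions on `G`. -/
def transMat (O : Type*) [CommRing O] [DecidableEq G] (g : G) : Matrix G G O :=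
  Matrix.of fun h h' => if h = g * h' then 1 else 0

variable [DecidableEq G] {O : Type*} [CommRing O]

theorem transMat_mul_apply {J : Type*} (g : G) (M : Matrix G J O) (h : G) (j : J) :
    (transMat O g * M) h j = M (g⁻¹ * h) j := by
  rw [Matrix.mul_apply, Finset.sum_eq_single (g⁻¹ * h)]
  · simp [transMat]
  · intro x _ hx
    simp [transMat, show h ≠ g * x from fun e => hx (by rw [e, inv_mul_cancel_left])]
  · simp

theorem mul_transMat_apply {J : Type*} (g : G) (M : Matrix J G O) (j : J) (h : G) :
    (M * transMat O g) j h = M j (g * h) := by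
  rw [Matrix.mul_apply, Finset.sum_eq_single (g * h)]
  · simp [transMat]
  · intro x _ hx
    simp [transMat, hx]
  · simp

theorem transMat_mul (g g' : G) :
    (transMat O g * transMat O g' : Matrix G G O) = transMat O (g * g') := by
  ext h h'
  rw [transMat_mul_apply]
  simp only [transMat, Matrix.of_apply]
  refine if_congr ?_ rfl rfl
  rw [inv_mul_eq_iff_eq_mul, mul_assoc]

variable {A k : Type*} [CommRing A] [Field k] {ι : Type*} [Fintype ι] [DecidableEq ι] [Nonempty ι]

/-- A matrix reducing to `1` has unit determinant. -/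
theorem isUnit_det_of_map {R k J : Type*} [CommRing R] [Field k] [Fintype J] [DecidableEq J]
    (q : R →+* k) (hq : ∀ x, q x ≠ 0 → IsUnit x) (N : Matrix J J R) (hN : N.map q = 1) :
    IsUnit N.det := by
  refine hq _ ?_
  rw [RingHom.map_det, RingHom.mapMatrix_apply, hN, Matrix.det_one]
  exact one_ne_zero

/-- **The lift.** -/
theorem exists_lift_rep (φ : A →+* O) (q : O →+* k) (hq : ∀ x, q x ≠ 0 → IsUnit x)
    (hsurj : Function.Surjective (q.comp φ))
    (hA : ∀ p : A[X], p.Monic → ∃ S : Multiset A, p = (S.map fun r => X - C r).prod)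
    (ρ : G →* Matrix ι ι k) (hn : (Fintype.card G : k) ≠ 0)
    (hcomm : ∀ M : Matrix ι ι k, (∀ g, ρ g * M = M * ρ g) → ∃ c : k, M = c • 1) :
    ∃ R : G →* Matrix ι ι O, ∀ g, (R g).map q = ρ g := by
  classical
  obtain ⟨i0⟩ := ‹Nonempty ι›
  -- the intertwiners
  set Bb : Matrix ι G k := Matrix.of fun i h => ρ h i i0 with hBb
  set A1 : Matrix G ι k := Matrix.of fun h j => ρ h⁻¹ i0 j with hA1
  have hBL : ∀ g, Bb * transMat k g = ρ g * Bb := fun g => by
    ext i h
    rw [mul_transMat_apply]
    simp only [hBb, Matrix.of_apply, map_mul, Matrix.mul_apply]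
  have hLA : ∀ g, transMat k g * A1 = A1 * ρ g := fun g => by
    ext h j
    rw [transMat_mul_apply]
    simp only [hA1, Matrix.of_apply, _root_.mul_inv_rev, inv_inv, map_mul, Matrix.mul_apply]
  obtain ⟨lam, hlam⟩ := hcomm (Bb * A1) fun g => by
    rw [← Matrix.mul_assoc, ← hBL, Matrix.mul_assoc, hLA, Matrix.mul_assoc]
  have hlam0 : lam ≠ 0 := by
    intro h0
    rw [h0, zero_smul] at hlam
    apply hn
    have h1 : (A1 * Bb).trace = (Fintype.card G : k) := by
      rw [Matrix.trace, Finset.sum_congr rfl (g := fun _ : G => (1 : k))]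
      · simp
      · intro h _
        simp only [Matrix.diag_apply, Matrix.mul_apply, hA1, hBb, Matrix.of_apply]
        rw [← Matrix.mul_apply, ← map_mul, inv_mul_cancel, map_one, Matrix.one_apply_eq]
    rw [← h1, Matrix.trace_mul_comm, hlam, Matrix.trace_zero]
  set Ab : Matrix G ι k := lam⁻¹ • A1 with hAb
  have hBA : Bb * Ab = 1 := by
    rw [hAb, Matrix.mul_smul, hlam, smul_smul, inv_mul_cancel₀ hlam0, one_smul]
  have hLA' : ∀ g, transMat k g * Ab = Ab * ρ g := fun g => by
    rw [hAb, Matrix.mul_smul, Matrix.smul_mul, hLA]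
  set P : Matrix G G k := Ab * Bb with hP
  have hPP : P * P = P := by
    rw [hP, Matrix.mul_assoc, ← Matrix.mul_assoc Bb, hBA, Matrix.one_mul]
  -- lifts
  choose sec hsec using hsurj
  have hsec' : ∀ x, q (φ (sec x)) = x := hsec
  set M0 : Matrix G G A := Matrix.of fun h h' => sec (lam⁻¹ * ρ (h⁻¹ * h') i0 i0) with hM0
  set M : Matrix G G O := M0.map φ with hM
  have hMq : M.map q = P := by
    ext h h'
    simp only [hM, hM0, Matrix.map_apply, Matrix.of_apply, hsec', hP, hAb, hA1, hBb,
      Matrix.mul_apply, Matrix.smul_apply, smul_eq_mul, map_mul, Finset.mul_sum, mul_assoc]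
  have hML : ∀ g, Commute (transMat O g) M := fun g => by
    ext h h'
    rw [transMat_mul_apply, mul_transMat_apply]
    simp only [hM, hM0, Matrix.map_apply, Matrix.of_apply, _root_.mul_inv_rev, inv_inv, mul_assoc]
  obtain ⟨S, hS⟩ := hA M0.charpoly (Matrix.charpoly_monic _)
  have hS' : M.charpoly = ((S.map φ).map fun r => X - C r).prod := by
    rw [hM, Matrix.charpoly_map, hS, Polynomial.map_multiset_prod, Multiset.map_map,
      Multiset.map_map]
    simp
  obtain ⟨E, hEE, hEq, hEL⟩ := exists_idempotent_lift q hq M _ hS' (by rw [hMq, hPP])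
  rw [hMq] at hEq
  set A0 : Matrix G ι O := Matrix.of fun h j => φ (sec (Ab h j)) with hA0
  set B0 : Matrix ι G O := Matrix.of fun i h => φ (sec (Bb i h)) with hB0
  have hA0q : A0.map q = Ab := by ext; simp [hA0, hsec']
  have hB0q : B0.map q = Bb := by ext; simp [hB0, hsec']
  set D := B0 * E * (E * A0) with hD
  have hDq : D.map q = 1 := by
    rw [hD, Matrix.map_mul, Matrix.map_mul, Matrix.map_mul, hA0q, hB0q, hEq, hP,
      ← Matrix.mul_assoc Bb, hBA, Matrix.one_mul, Matrix.mul_assoc Ab, hBA, Matrix.mul_one, hBA]
  set A2 : Matrix G ι O := E * A0 with hA2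
  set B2 : Matrix ι G O := D⁻¹ * (B0 * E) with hB2
  have hBA2 : B2 * A2 = 1 := by
    rw [hB2, Matrix.mul_assoc, ← hD, Matrix.nonsing_inv_mul D (isUnit_det_of_map q hq D hDq)]
  have hDiq : D⁻¹.map q = 1 := by
    have h1 := congrArg (fun N : Matrix ι ι O => N.map q)
      (Matrix.nonsing_inv_mul D (isUnit_det_of_map q hq D hDq))
    simpa [Matrix.map_mul, hDq] using h1
  have hA2q : A2.map q = Ab := by
    rw [hA2, Matrix.map_mul, hA0q, hEq, hP, Matrix.mul_assoc, hBA, Matrix.mul_one]
  have hB2q : B2.map q = Bb := by
    rw [hB2, Matrix.map_mul, Matrix.map_mul, hDiq, hB0q, hEq, hP, ← Matrix.mul_assoc Bb, hBA,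
      Matrix.one_mul, Matrix.one_mul]
  have hEA : E * A2 = A2 := by rw [hA2, ← Matrix.mul_assoc, hEE]
  have hBE : B2 * E = B2 := by rw [hB2, Matrix.mul_assoc, Matrix.mul_assoc B0, hEE]
  clear_value A2 B2
  -- the range of the idempotent
  have hE : E = A2 * B2 := by
    set Q := E - A2 * B2 with hQ
    have hQQ : Q * Q = Q := by
      have e1 : E * (A2 * B2) = A2 * B2 := by rw [← Matrix.mul_assoc, hEA]
      have e2 : A2 * B2 * E = A2 * B2 := by rw [Matrix.mul_assoc, hBE]
      have e3 : A2 * B2 * (A2 * B2) = A2 * B2 := by
        rw [Matrix.mul_assoc, ← Matrix.mul_assoc B2, hBA2, Matrix.one_mul]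
      rw [hQ, sub_mul, mul_sub, mul_sub, hEE, e1, e2, e3, sub_self, sub_zero]
    have hQq : (1 - Q).map q = 1 := by
      rw [hQ, ← RingHom.mapMatrix_apply, map_sub, map_one, map_sub, RingHom.mapMatrix_apply,
        RingHom.mapMatrix_apply, Matrix.map_mul, hEq, hA2q, hB2q, hP, sub_self, sub_zero]
    refine sub_eq_zero.mp ?_
    have h := Matrix.mul_nonsing_inv (1 - Q) (isUnit_det_of_map q hq _ hQq)
    calc Q = Q * ((1 - Q) * (1 - Q)⁻¹) := by rw [h, Matrix.mul_one]
      _ = (Q - Q * Q) * (1 - Q)⁻¹ := by rw [← Matrix.mul_assoc, Matrix.mul_sub, Matrix.mul_one]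
      _ = 0 := by rw [hQQ, sub_self, Matrix.zero_mul]
  have hone : transMat O (1 : G) = (1 : Matrix G G O) := by
    ext h h'
    simp [transMat, Matrix.one_apply]
  refine ⟨{ toFun := fun g => B2 * (transMat O g * A2)
            map_one' := by rw [hone, Matrix.one_mul, hBA2]
            map_mul' := fun g g' => ?_ }, fun g => ?_⟩
  · calc B2 * (transMat O (g * g') * A2)
        = B2 * (transMat O g * (transMat O g' * E) * A2) := by
          rw [← transMat_mul, Matrix.mul_assoc (transMat O g), Matrix.mul_assoc,
            Matrix.mul_assoc (transMat O g') E, hEA]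
      _ = B2 * (transMat O g * (E * transMat O g') * A2) := by rw [(hEL _ (hML g')).eq]
      _ = B2 * (transMat O g * A2) * (B2 * (transMat O g' * A2)) := by
          rw [hE]; simp only [Matrix.mul_assoc]
  · show (B2 * (transMat O g * A2)).map q = ρ g
    have hTq : (transMat O g).map q = transMat k g := by
      ext h h'
      simp [transMat, apply_ite q]
    rw [Matrix.map_mul, Matrix.map_mul, hTq, hA2q, hB2q, hLA', ← Matrix.mul_assoc, hBA,
      Matrix.one_mul]

end Lift

end FA.Weight1

end
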