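import Mathlib

/-!
# The inverse Teichmüller character at a place over `ℓ`
-/

set_option autoImplicit false
set_option linter.style.haveILetI false

noncomputable section

namespace FA.Weight1

local notation "ZB" => integralClosure ℤ ℂ

theorem charP_quot {ℓ : ℕ} (hℓ : ℓ.Prime) (𝔪 : Ideal ZB) [𝔪.IsMaximal] (h : (ℓ : ZB) ∈ 𝔪) :
    CharP (ZB ⧸ 𝔪) ℓ :=
  (CharP.charP_iff_prime_eq_zero hℓ).2 (by
    rw [← map_natCast (Ideal.Quotient.mk 𝔪)]; exact Ideal.Quotient.eq_zero_iff_mem.2 h)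

/-- The values of a character of finite order are algebraic integers. -/
theorem isIntegral_mulChar {N : ℕ} [NeZero N] (χ : DirichletCharacter ℂ N) (x : ZMod N) :
    IsIntegral ℤ (χ x) := by
  by_cases hx : IsUnit x
  · obtain ⟨u, rfl⟩ := hx
    refine IsIntegral.of_pow (n := Fintype.card (ZMod N)ˣ) Fintype.card_pos ?_
    rw [← map_pow, ← Units.val_pow_eq_pow_val, pow_card_eq_one, Units.val_one, map_one]
    exact isIntegral_one
  · rw [MulChar.map_nonunit χ hx]; exact isIntegral_zero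

/-- **The inverse Teichmüller character.** -/
theorem exists_teich {ℓ : ℕ} [Fact ℓ.Prime] (𝔪 : Ideal ZB) [𝔪.IsMaximal] (h : (ℓ : ZB) ∈ 𝔪) :
    ∃ φ : DirichletCharacter ℂ ℓ, ∀ x : ZMod ℓ, x ≠ 0 →
      Ideal.Quotient.mk 𝔪 (⟨φ x, isIntegral_mulChar φ x⟩ : ZB) * (x.val : ZB ⧸ 𝔪) = 1 := by
  classical
  letI := Ideal.Quotient.field 𝔪
  have hℓ : ℓ.Prime := Fact.out
  haveI := charP_quot hℓ 𝔪 h
  set n := ℓ - 1 with hn
  have hn0 : n ≠ 0 := by have := hℓ.two_le; omega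
  haveI : NeZero n := ⟨hn0⟩
  let q : ZB →+* ZB ⧸ 𝔪 := Ideal.Quotient.mk 𝔪
  have hnk : (n : ZB ⧸ 𝔪) ≠ 0 := by
    rw [Ne, CharP.cast_eq_zero_iff (ZB ⧸ 𝔪) ℓ]
    intro hd
    have := Nat.le_of_dvd (Nat.pos_of_ne_zero hn0) hd
    omega
  -- roots of unity of order dividing `n` are separated
  have hsep : ∀ μ : ZB, μ ^ n = 1 → q μ = 1 → μ = 1 := by
    intro μ hμ hq
    by_contra hne
    have hsum : ∑ i ∈ Finset.range n, μ ^ i = 0 := by
      have := geom_sum_mul μ n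
      rw [hμ, sub_self, mul_eq_zero] at this
      exact this.resolve_right (sub_ne_zero.2 hne)
    apply hnk
    simpa [map_sum, map_pow, hq] using congrArg q hsum
  let res : rootsOfUnity n ZB →* rootsOfUnity n (ZB ⧸ 𝔪) := restrictRootsOfUnity q n
  have hres : ∀ μ : rootsOfUnity n ZB, ((res μ : (ZB ⧸ 𝔪)ˣ) : ZB ⧸ 𝔪) = q ((μ : ZBˣ) : ZB) :=
    fun μ => rfl
  have hinj : Function.Injective res := (injective_iff_map_eq_one res).2 fun μ hμ => by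
    have h1 : q ((μ : ZBˣ) : ZB) = 1 := by rw [← hres, hμ]; rfl
    have h2 : ((μ : ZBˣ) : ZB) ^ n = 1 := (mem_rootsOfUnity' n _).1 μ.2
    exact Subtype.ext (Units.ext (hsep _ h2 h1))
  obtain ⟨ζ, hζ⟩ : ∃ ζ : ZB, IsPrimitiveRoot ζ n := by
    have hC := Complex.isPrimitiveRoot_exp n hn0
    exact ⟨⟨_, hC.isIntegral (Nat.pos_of_ne_zero hn0)⟩,
      IsPrimitiveRoot.of_map_of_injective (f := (integralClosure ℤ ℂ).val) hC Subtype.val_injective⟩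
  have hprim : IsPrimitiveRoot (q ζ) n := by
    refine IsPrimitiveRoot.iff_def _ n |>.2 ⟨by rw [← map_pow, hζ.pow_eq_one, map_one], fun m hm => ?_⟩
    refine hζ.dvd_of_pow_eq_one m (hsep _ ?_ (by rw [map_pow]; exact hm))
    rw [← pow_mul, mul_comm, pow_mul, hζ.pow_eq_one, one_pow]
  have hsurj : Function.Surjective res := fun y => by
    obtain ⟨i, -, hi⟩ := hprim.eq_pow_of_pow_eq_one ((mem_rootsOfUnity' n _).1 y.2)
    refine ⟨hζ.toRootsOfUnity ^ i, Subtype.ext (Units.ext ?_)⟩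
    rw [hres, ← hi]
    simp [IsPrimitiveRoot.val_toRootsOfUnity_coe, map_pow]
  let e := MulEquiv.ofBijective res ⟨hinj, hsurj⟩
  let emb : (ZMod ℓ)ˣ →* rootsOfUnity n (ZB ⧸ 𝔪) :=
    MonoidHom.codRestrict (Units.map (ZMod.castHom dvd_rfl (ZB ⧸ 𝔪) : ZMod ℓ →* ZB ⧸ 𝔪))
      (rootsOfUnity n (ZB ⧸ 𝔪)) fun u => by
        rw [mem_rootsOfUnity, ← map_pow, hn, ← ZMod.card_units ℓ, pow_card_eq_one, map_one]
  let toC : rootsOfUnity n ZB →* ℂˣ :=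
    (Units.map ((integralClosure ℤ ℂ).val : ZB →* ℂ)).comp (rootsOfUnity n ZB).subtype
  let inv : (ZMod ℓ)ˣ →* (ZMod ℓ)ˣ := MonoidHom.mk' (·⁻¹) fun a b => mul_inv a b
  refine ⟨MulChar.ofUnitHom (toC.comp ((e.symm.toMonoidHom.comp emb).comp inv)), fun x hx => ?_⟩
  obtain ⟨u, rfl⟩ := (isUnit_iff_ne_zero.2 hx : IsUnit x)
  set μ := e.symm (emb u⁻¹)
  have hval : (⟨_, isIntegral_mulChar (MulChar.ofUnitHom
      (toC.comp ((e.symm.toMonoidHom.comp emb).comp inv))) u⟩ : ZB) = ((μ : ZBˣ) : ZB) :=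
    Subtype.ext (MulChar.ofUnitHom_coe _ u)
  rw [hval, show Ideal.Quotient.mk 𝔪 ((μ : ZBˣ) : ZB) = q ((μ : ZBˣ) : ZB) from rfl, ← hres,
    show res μ = emb u⁻¹ from e.apply_symm_apply _]
  show ZMod.castHom dvd_rfl (ZB ⧸ 𝔪) ((u⁻¹ : (ZMod ℓ)ˣ) : ZMod ℓ) * _ = 1
  rw [← map_natCast (ZMod.castHom dvd_rfl (ZB ⧸ 𝔪)) (u : ZMod ℓ).val, ZMod.natCast_zmod_val,
    ← map_mul, Units.inv_mul, map_one]

end FA.Weight1

end
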