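import Fermat.Agent.Weight1.CountBound
import Fermat.Agent.Weight1.FiniteImage
import Fermat.Agent.Weight1.LiftRep
import Fermat.Agent.Weight1.Teich
import Fermat.Agent.JTorsion.Attach

/-!
# Finite subgroups of `GL₂` of order prime to the characteristic lift to characteristic zero
-/

set_option autoImplicit false
set_option linter.unusedSectionVars false
set_option linter.style.haveILetI false

noncomputable section

namespace FA.Weight1

open Matrix Polynomial

local notation "ZB" => integralClosure ℤ ℂ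

/-- Monic polynomials split over the algebraic integers. -/
theorem exists_roots_ZB (p : Polynomial ZB) (hp : p.Monic) :
    ∃ S : Multiset ZB, p = (S.map fun r => X - Polynomial.C r).prod := by
  set P := p.map (algebraMap ZB ℂ) with hP
  have hPm : P.Monic := hp.map _
  have hint : ∀ r ∈ P.roots, IsIntegral ℤ r := fun r hr =>
    isIntegral_trans (R := ℤ) (A := ZB) r ⟨p, hp, by
      rw [← Polynomial.eval_map]; exact (Polynomial.mem_roots hPm.ne_zero).mp hr⟩
  refine ⟨P.roots.attach.map fun r => (⟨r.1, hint r.1 r.2⟩ : ZB),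
    Polynomial.map_injective (algebraMap ZB ℂ) Subtype.val_injective ?_⟩
  rw [Polynomial.map_multiset_prod, Multiset.map_map, Multiset.map_map]
  have h := (IsAlgClosed.splits P).eq_prod_roots_of_monic hPm
  refine h.trans (congrArg Multiset.prod ?_)
  conv_lhs => rw [← Multiset.attach_map_val P.roots, Multiset.map_map]
  refine Multiset.map_congr rfl fun r _ => ?_
  simp

section

variable (𝔪 : Ideal ZB) [𝔪.IsMaximal]

/-- The algebraic integers localised at the maximal ideal, inside `ℂ`. -/
abbrev Loc := Localization.AtPrime 𝔪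

theorem algebraMap_isUnit (s : 𝔪.primeCompl) : IsUnit ((algebraMap ZB ℂ) (s : ZB)) :=
  isUnit_iff_ne_zero.mpr fun h => s.2 (by
    rw [show (s : ZB) = 0 from Subtype.val_injective h]; exact zero_mem _)

/-- The embedding in `ℂ`. -/
def locToC : Loc 𝔪 →+* ℂ := IsLocalization.lift (algebraMap_isUnit 𝔪)

theorem locToC_algebraMap (x : ZB) : locToC 𝔪 (algebraMap ZB (Loc 𝔪) x) = x :=
  IsLocalization.lift_eq _ x

theorem mk_isUnit (s : 𝔪.primeCompl) : IsUnit (Ideal.Quotient.mk 𝔪 (s : ZB)) := by
  letI := Ideal.Quotient.field 𝔪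
  exact isUnit_iff_ne_zero.mpr fun h => s.2 (Ideal.Quotient.eq_zero_iff_mem.mp h)

/-- The reduction. -/
def locToK : Loc 𝔪 →+* ZB ⧸ 𝔪 := IsLocalization.lift (mk_isUnit 𝔪)

theorem locToK_algebraMap (x : ZB) :
    locToK 𝔪 (algebraMap ZB (Loc 𝔪) x) = Ideal.Quotient.mk 𝔪 x :=
  IsLocalization.lift_eq _ x

theorem isUnit_of_locToK (x : Loc 𝔪) (hx : locToK 𝔪 x ≠ 0) : IsUnit x := by
  obtain ⟨a, s, rfl⟩ := IsLocalization.exists_mk'_eq 𝔪.primeCompl x
  refine (IsLocalization.AtPrime.isUnit_mk'_iff _ 𝔪 a s).mpr fun ha => hx ?_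
  rw [locToK, IsLocalization.lift_mk']
  simp [Ideal.Quotient.eq_zero_iff_mem.mpr ha]

theorem locToC_injective : Function.Injective (locToC 𝔪) :=
  (IsLocalization.lift_injective_iff _).mpr fun x y => by
    rw [(IsLocalization.injective (Loc 𝔪) 𝔪.primeCompl_le_nonZeroDivisors).eq_iff]
    exact Subtype.val_injective.eq_iff.symm

/-- An element of the localisation which is an algebraic integer reduces to its class. -/
theorem exists_of_integral (x : Loc 𝔪) (hx : IsIntegral ℤ (locToC 𝔪 x)) :
    ∃ t : ZB, locToC 𝔪 x = t ∧ Ideal.Quotient.mk 𝔪 t = locToK 𝔪 x := by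
  refine ⟨⟨_, hx⟩, rfl, ?_⟩
  rw [← locToK_algebraMap]
  exact congrArg _ (locToC_injective 𝔪 (locToC_algebraMap 𝔪 _))

end

/-- **Lifting to characteristic zero.** -/
theorem liftToComplex : LiftToComplex := by
  intro ℓ hℓ 𝔪 h𝔪 hmem
  letI := Ideal.Quotient.field 𝔪
  intro G _ hG hcard
  classical
  haveI := charP_quot (Fact.out : ℓ.Prime) 𝔪 hmem
  haveI := FA.JTorsion.isAlgClosed_residue 𝔪
  have hn : (Fintype.card G : ZB ⧸ 𝔪) ≠ 0 := fun h =>
    hcard ((CharP.cast_eq_zero_iff (ZB ⧸ 𝔪) ℓ _).mp h)
  have hsurj : Function.Surjective ((locToK 𝔪).comp (algebraMap ZB (Loc 𝔪))) := fun x => by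
    obtain ⟨y, rfl⟩ := Ideal.Quotient.mk_surjective x
    exact ⟨y, locToK_algebraMap 𝔪 y⟩
  let ρ : G →* Matrix (Fin 2) (Fin 2) (ZB ⧸ 𝔪) :=
    (Units.coeHom _).comp G.subtype
  obtain ⟨S, hSt, hSd⟩ : ∃ S : G →* Matrix (Fin 2) (Fin 2) (Loc 𝔪),
      (∀ g, locToK 𝔪 (S g).trace = (ρ g).trace) ∧ ∀ g, locToK 𝔪 (S g).det = (ρ g).det := by
    have fromMap : ∀ S : G →* Matrix (Fin 2) (Fin 2) (Loc 𝔪),
        (∀ g, (S g).map (locToK 𝔪) = ρ g) →
        (∀ g, locToK 𝔪 (S g).trace = (ρ g).trace) ∧
          ∀ g, locToK 𝔪 (S g).det = (ρ g).det := fun S hS =>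
      ⟨fun g => by rw [← hS g, AddMonoidHom.map_trace],
        fun g => by rw [← hS g, RingHom.map_det]; rfl⟩
    rcases hG with hd | hirr
    · -- two characters
      let χ : Fin 2 → G →* Matrix (Fin 1) (Fin 1) (ZB ⧸ 𝔪) := fun i =>
        { toFun := fun g => Matrix.of fun _ _ => ρ g i i
          map_one' := by
            ext a b
            fin_cases a; fin_cases b
            simp
          map_mul' := fun g g' => by
            ext a b
            fin_cases a; fin_cases b
            simp only [map_mul, Matrix.of_apply, Matrix.mul_apply, Fin.sum_univ_two,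
              Fin.sum_univ_one]
            fin_cases i
            · simp [ρ, (hd _ g.2).1]
            · simp [ρ, (hd _ g.2).2] }
      have hex : ∀ i, ∃ T : G →* Matrix (Fin 1) (Fin 1) (Loc 𝔪),
          ∀ g, (T g).map (locToK 𝔪) = χ i g := fun i =>
        exists_lift_rep _ (locToK 𝔪) (isUnit_of_locToK 𝔪) hsurj exists_roots_ZB (χ i) hn
          fun M _ => ⟨M 0 0, by ext a b; fin_cases a; fin_cases b; simp⟩
      choose T hT using hex
      let S : G →* Matrix (Fin 2) (Fin 2) (Loc 𝔪) :=
        { toFun := fun g => Matrix.diagonal fun i => T i g 0 0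
          map_one' := by simp
          map_mul' := fun g g' => by
            rw [Matrix.diagonal_mul_diagonal]
            congr 1
            funext i
            rw [map_mul, Matrix.mul_apply, Fin.sum_univ_one] }
      refine ⟨S, fromMap S fun g => ?_⟩
      ext a b
      by_cases hab : a = b
      · subst hab
        have := congrFun (congrFun (hT a g) 0) 0
        simpa [S, χ] using this
      · fin_cases a <;> fin_cases b
        · exact absurd rfl hab
        · simp [S, ρ, (hd _ g.2).1]
        · simp [S, ρ, (hd _ g.2).2]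
        · exact absurd rfl hab
    · obtain ⟨S, hS⟩ := exists_lift_rep _ (locToK 𝔪) (isUnit_of_locToK 𝔪) hsurj exists_roots_ZB ρ
        hn fun M hM => by
          have hall : ∀ N, Commute N M := fun N => by
            have hN : N ∈ Submodule.span (ZB ⧸ 𝔪) (Set.range fun g : G =>
                ((g : GL (Fin 2) (ZB ⧸ 𝔪)) : Matrix (Fin 2) (Fin 2) (ZB ⧸ 𝔪))) := by
              rw [span_eq_top_of_no_line G hirr]; exact Submodule.mem_top
            induction hN using Submodule.span_induction with
            | mem x hx => obtain ⟨g, rfl⟩ := hx; exact hM g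
            | zero => exact Commute.zero_left _
            | add x y _ _ hx hy => exact hx.add_left hy
            | smul c x _ hx => exact hx.smul_left c
          obtain ⟨c, hc⟩ := Matrix.mem_range_scalar_of_commute_single fun i j _ => hall _
          exact ⟨c, by rw [← hc, Matrix.smul_one_eq_diagonal]; rfl⟩
      exact ⟨S, fromMap S hS⟩
  let R : G →* GL (Fin 2) ℂ :=
    (((locToC 𝔪).mapMatrix : Matrix (Fin 2) (Fin 2) (Loc 𝔪) →+* Matrix (Fin 2) (Fin 2) ℂ).toMonoidHom.comp S).toHomUnits
  have htr : ∀ g, (R g).val.trace = locToC 𝔪 (S g).trace := fun g => by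
    rw [AddMonoidHom.map_trace]; rfl
  have hdet : ∀ g, (R g).val.det = locToC 𝔪 (S g).det := fun g => by
    rw [RingHom.map_det]; rfl
  refine ⟨R, fun g => ?_⟩
  obtain ⟨x, y, hx, hy, ht, hd⟩ := exists_roots_of_pow (g := R g) (n := Fintype.card G)
    (by rw [← map_pow, pow_card_eq_one, map_one])
  have hix : IsIntegral ℤ x := IsIntegral.of_pow Fintype.card_pos (by rw [hx]; exact isIntegral_one)
  have hiy : IsIntegral ℤ y := IsIntegral.of_pow Fintype.card_pos (by rw [hy]; exact isIntegral_one)
  obtain ⟨t, ht1, ht2⟩ := exists_of_integral 𝔪 (S g).trace (by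
    rw [← htr, ht]; exact hix.add hiy)
  obtain ⟨d, hd1, hd2⟩ := exists_of_integral 𝔪 (S g).det (by
    rw [← hdet, hd]; exact hix.mul hiy)
  exact ⟨t, d, ⟨(htr g).trans ht1, (hdet g).trans hd1⟩, ht2.trans (hSt g), hd2.trans (hSd g)⟩

end FA.Weight1

end
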