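import Fermat.Agent.Weight1.Defs
import Mathlib.NumberTheory.ModularForms.Bounds
import Mathlib.Analysis.Fourier.AddCircle
import Mathlib.Analysis.SpecialFunctions.Pow.Real

/-!
# The second moment of the eigenvalues of a weight one form

Parseval on horizontal lines bounds `∑_{n ≤ X} |aₙ|²` by a multiple of `X`, so the Dirichlet series
of `|aₙ|²` is at most `C / (s - 1)`; its Euler factor at `p` is at least
`exp (|a_p|² p^{-s} - 3 p^{-2s})`.
-/

set_option autoImplicit false
set_option linter.unusedSectionVars false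
set_option maxHeartbeats 1000000

noncomputable section

namespace FA.Weight1

open CongruenceSubgroup UpperHalfPlane MeasureTheory Filter
open scoped MatrixGroups Real Topology ComplexConjugate

namespace Rankin

/-! ### The coefficients on a line -/

theorem line_bound {N : ℕ} [NeZero N] (f : CuspForm (Gamma1 N) 1) :
    ∃ B : ℝ, ∀ t : ℝ, 0 < t → ∀ U : Finset ℕ,
      ∑ n ∈ U, ‖ModularFormClass.qCoeff f n‖ ^ 2 * Real.exp (-4 * π * n * t) ≤ B / t := by
  obtain ⟨C, hC⟩ := CuspFormClass.exists_bound f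
  refine ⟨C ^ 2, fun t ht U => ?_⟩
  have h1 : (1 : ℝ) ∈ ((Gamma1 N : Subgroup (GL (Fin 2) ℝ))).strictPeriods := by simp
  let pt : ℝ → ℍ := fun u => ⟨u + t * Complex.I, by simpa using ht⟩
  let g : ℝ → ℂ := fun u => f (pt u)
  have hcont : Continuous g :=
    (ModularFormClass.holo f).continuous.comp
      (UpperHalfPlane.isEmbedding_coe.continuous_iff.2 (by simp only [pt]; fun_prop))
  have hgb : ∀ u, ‖g u‖ ^ 2 ≤ C ^ 2 / t := fun u => by
    have h := hC (pt u)
    have him : (pt u).im = t := by simp [pt, UpperHalfPlane.im]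
    rw [him, Int.cast_one, ← Real.sqrt_eq_rpow] at h
    have hs : 0 < Real.sqrt t := Real.sqrt_pos.2 ht
    calc ‖g u‖ ^ 2 ≤ (C / Real.sqrt t) ^ 2 := pow_le_pow_left₀ (norm_nonneg _) h 2
      _ = C ^ 2 / t := by rw [div_pow, Real.sq_sqrt ht.le]
  have hL2 : MemLp g 2 (volume.restrict (Set.Ioc (0 : ℝ) 1)) := by
    refine MemLp.of_bound hcont.aestronglyMeasurable (Real.sqrt (C ^ 2 / t))
      (Eventually.of_forall fun u => ?_)
    rw [← Real.sqrt_sq (norm_nonneg (g u))]
    exact Real.sqrt_le_sqrt (hgb u)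
  have hsum := hasSum_sq_fourierCoeffOn zero_lt_one hL2
  have hcoef : ∀ n : ℕ, ‖ModularFormClass.qCoeff f n‖ ^ 2 * Real.exp (-4 * π * n * t) =
      ‖fourierCoeffOn zero_lt_one g n‖ ^ 2 := by
    intro n
    have hkey : ModularFormClass.qCoeff f n =
        (Real.exp (2 * π * n * t) : ℂ) * fourierCoeffOn zero_lt_one g n := by
      rw [ModularFormClass.qCoeff, ModularFormClass.qExpansion_coeff_eq_intervalIntegral f one_pos h1 n ht,
        fourierCoeffOn_eq_integral, sub_zero, one_div_one, one_smul, Complex.ofReal_one, div_one,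
        one_mul, ← intervalIntegral.integral_const_mul]
      refine intervalIntegral.integral_congr fun u _ => ?_
      simp only [fourier_coe_apply, g, pt, smul_eq_mul, Function.Periodic.qParam]
      rw [← mul_assoc, Complex.ofReal_exp, ← Complex.exp_add, ← Complex.exp_nat_mul, one_div,
        ← Complex.exp_neg]
      refine congrArg (· * _) (congrArg Complex.exp ?_)
      push_cast
      linear_combination (-2 * (π : ℂ) * n * t) * Complex.I_sq
    rw [hkey, norm_mul, Complex.norm_real, Real.norm_eq_abs, Real.abs_exp, mul_pow,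
      show Real.exp (-4 * π * n * t) = (Real.exp (2 * π * n * t) ^ 2)⁻¹ by
        rw [← Real.exp_nat_mul, ← Real.exp_neg]; congr 1; push_cast; ring]
    have := Real.exp_ne_zero (2 * π * n * t)
    field_simp
  rw [Finset.sum_congr rfl fun n _ => hcoef n]
  refine (le_of_eq (Finset.sum_map U ⟨_, Nat.cast_injective (R := ℤ)⟩
    (fun i : ℤ => ‖fourierCoeffOn zero_lt_one g i‖ ^ 2)).symm).trans ?_
  refine (sum_le_hasSum _ (fun i _ => by positivity) hsum).trans ?_
  rw [sub_zero, inv_one, one_smul]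
  refine (intervalIntegral.integral_mono_on zero_le_one ((hcont.norm.pow 2).intervalIntegrable _ _)
    intervalIntegrable_const fun u _ => hgb u).trans ?_
  simp

theorem sum_sq_le {N : ℕ} [NeZero N] (f : CuspForm (Gamma1 N) 1) :
    ∃ C : ℝ, 0 < C ∧ ∀ (X : ℝ), 0 < X → ∀ U : Finset ℕ, (∀ n ∈ U, (n : ℝ) ≤ X) →
      ∑ n ∈ U, ‖ModularFormClass.qCoeff f n‖ ^ 2 ≤ C * X := by
  obtain ⟨B, hB⟩ := line_bound f
  refine ⟨max B 1 * Real.exp (4 * π), by positivity, fun X hX U hU => ?_⟩
  have h := hB X⁻¹ (inv_pos.2 hX) U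
  rw [div_inv_eq_mul] at h
  calc ∑ n ∈ U, ‖ModularFormClass.qCoeff f n‖ ^ 2
      ≤ ∑ n ∈ U, ‖ModularFormClass.qCoeff f n‖ ^ 2 * Real.exp (-4 * π * n * X⁻¹) *
          Real.exp (4 * π) := by
        refine Finset.sum_le_sum fun n hn => ?_
        rw [mul_assoc, ← Real.exp_add]
        refine le_mul_of_one_le_right (by positivity) (Real.one_le_exp ?_)
        have : (n : ℝ) * X⁻¹ ≤ 1 := by
          rw [← div_eq_mul_inv, div_le_one hX]; exact hU n hn
        nlinarith [Real.pi_pos]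
    _ ≤ B * X * Real.exp (4 * π) := by
        rw [← Finset.sum_mul]; exact mul_le_mul_of_nonneg_right h (Real.exp_pos _).le
    _ ≤ _ := by
        have : B ≤ max B 1 := le_max_left _ _
        nlinarith [mul_pos hX (Real.exp_pos (4 * π))]

theorem dirichlet_le (a : ℕ → ℝ) (ha : ∀ n, 0 ≤ a n) {C : ℝ} (hC : 0 ≤ C)
    (h : ∀ X : ℝ, 0 < X → ∀ U : Finset ℕ, (∀ n ∈ U, (n : ℝ) ≤ X) → ∑ n ∈ U, a n ≤ C * X)
    {s : ℝ} (hs : s ∈ Set.Ioc (1 : ℝ) 2) (U : Finset ℕ) (hU : ∀ n ∈ U, n ≠ 0) :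
    ∑ n ∈ U, a n * (n : ℝ) ^ (-s) ≤ 4 * C / (s - 1) := by
  classical
  set u := s - 1 with hu
  have hu0 : 0 < u := sub_pos.2 hs.1
  have hu1 : u ≤ 1 := by linarith [hs.2]
  set x : ℝ := (1 / 2 : ℝ) ^ u with hx
  have hx1 : x ≤ 1 - u / 2 := by
    have := rpow_one_add_le_one_add_mul_self (s := (-(1 / 2) : ℝ)) (by norm_num) hu0.le hu1
    rw [show (1 : ℝ) + -(1 / 2) = 1 / 2 by norm_num] at this
    linarith
  have hx0 : 0 ≤ x := (Real.rpow_pos_of_pos (by norm_num) _).le
  set J := (U.image (Nat.log 2)) with hJ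
  rw [← Finset.sum_fiberwise_of_maps_to (t := J) (g := Nat.log 2)
    fun n hn => Finset.mem_image_of_mem _ hn]
  calc ∑ j ∈ J, ∑ n ∈ U.filter (fun n => Nat.log 2 n = j), a n * (n : ℝ) ^ (-s)
      ≤ ∑ j ∈ J, 2 * C * x ^ j := by
        refine Finset.sum_le_sum fun j _ => ?_
        have h2 : (0 : ℝ) < 2 ^ j := by positivity
        calc ∑ n ∈ U.filter (fun n => Nat.log 2 n = j), a n * (n : ℝ) ^ (-s)
            ≤ ∑ n ∈ U.filter (fun n => Nat.log 2 n = j), a n * ((2 : ℝ) ^ j) ^ (-s) := by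
              refine Finset.sum_le_sum fun n hn => mul_le_mul_of_nonneg_left ?_ (ha n)
              rw [Finset.mem_filter] at hn
              refine Real.rpow_le_rpow_of_nonpos h2 ?_ (by linarith [hs.1])
              rw [← hn.2]
              exact_mod_cast Nat.pow_log_le_self 2 (hU n hn.1)
          _ ≤ C * 2 ^ (j + 1) * ((2 : ℝ) ^ j) ^ (-s) := by
              rw [← Finset.sum_mul]
              refine mul_le_mul_of_nonneg_right (h _ (by positivity) _ fun n hn => ?_) (by positivity)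
              rw [Finset.mem_filter] at hn
              rw [← hn.2]
              exact_mod_cast (Nat.lt_pow_succ_log_self one_lt_two n).le
          _ = 2 * C * x ^ j := by
              have h3 : ((2 : ℝ) ^ j) ^ (-s) = ((2 : ℝ) ^ j)⁻¹ * x ^ j := by
                rw [hx, one_div, Real.inv_rpow (by norm_num), ← Real.rpow_natCast, ← Real.rpow_mul
                  (by norm_num), ← Real.rpow_neg (by norm_num), ← Real.rpow_natCast,
                  ← Real.rpow_neg (by norm_num), ← Real.rpow_mul (by norm_num),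
                  ← Real.rpow_add (by norm_num)]
                congr 1
                simp only [hu]
                ring
              rw [h3, pow_succ]
              field_simp
    _ ≤ 2 * C * (1 - x)⁻¹ := by
        rw [← Finset.mul_sum]
        exact mul_le_mul_of_nonneg_left
          (sum_le_hasSum J (fun j _ => pow_nonneg hx0 j)
            (hasSum_geometric_of_lt_one hx0 (by linarith))) (by linarith)
    _ ≤ 4 * C / u := by
        rw [← div_eq_mul_inv, div_le_div_iff₀ (by linarith) hu0]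
        nlinarith

/-! ### The Euler factor -/

/-- The sequence of a Euler factor: `b₀ = 1`, `b₁ = α + β`. -/
theorem euler_lower {b : ℕ → ℂ} {a e : ℂ} (h0 : b 0 = 1) (h1 : b 1 = a)
    (hrec : ∀ k, b (k + 2) + e * b k = a * b (k + 1)) (he : ‖e‖ = 1) {P C : ℝ} (hP : 1 ≤ P)
    (hb : ∀ k, ‖b k‖ ^ 2 ≤ C * P ^ k) {X : ℝ} (hX0 : 0 < X) (hX : X ≤ 1 / 2) (hPX : P * X < 1) :
    ∃ G : ℝ, HasSum (fun k => ‖b k‖ ^ 2 * X ^ k) G ∧
      Real.exp (‖a‖ ^ 2 * X - 3 * X ^ 2) ≤ G := by
  obtain ⟨d, hd⟩ := IsAlgClosed.exists_pow_nat_eq (a ^ 2 - 4 * e) (n := 2) two_pos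
  set α := (a + d) / 2
  set β := (a - d) / 2
  have hab : α + β = a := by simp only [α, β]; ring
  have hαβ : α * β = e := by simp only [α, β]; linear_combination (-(1 : ℂ) / 4) * hd
  -- the roots are small
  have hroot : ∀ u v : ℂ, u + v = a → u * v = e → ‖u‖ ^ 2 ≤ P := by
    intro u v huv huv'
    have hpow : ∀ k, b (k + 1) - v * b k = u ^ (k + 1) := by
      intro k
      induction k with
      | zero => rw [h1, h0, ← huv]; ring
      | succ k ih =>
        linear_combination u * ih + hrec k - b (k + 1) * huv + b k * huv'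
    by_contra hlt
    push Not at hlt
    have hr : 1 < ‖u‖ ^ 2 / P := by rw [lt_div_iff₀ (by linarith)]; linarith
    obtain ⟨k, hk⟩ := pow_unbounded_of_one_lt (2 * C + 2 * ‖v‖ ^ 2 * C / P) hr
    have hk2 : (‖u‖ ^ 2 / P) ^ (k + 1) ≤ 2 * C + 2 * ‖v‖ ^ 2 * C / P := by
      rw [div_pow, div_le_iff₀ (by positivity), ← pow_mul, mul_comm, pow_mul, ← norm_pow, ← hpow]
      have h3 : ‖b (k + 1) - v * b k‖ ^ 2 ≤ 2 * ‖b (k + 1)‖ ^ 2 + 2 * (‖v‖ ^ 2 * ‖b k‖ ^ 2) := by
        have h5 := norm_sub_le (b (k + 1)) (v * b k)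
        rw [norm_mul] at h5
        nlinarith [sq_nonneg (‖b (k + 1)‖ - ‖v‖ * ‖b k‖), norm_nonneg (b (k + 1) - v * b k)]
      refine h3.trans ?_
      calc 2 * ‖b (k + 1)‖ ^ 2 + 2 * (‖v‖ ^ 2 * ‖b k‖ ^ 2)
          ≤ 2 * (C * P ^ (k + 1)) + 2 * (‖v‖ ^ 2 * (C * P ^ k)) := by
            gcongr <;> exact hb _
        _ = _ := by
            have : P ≠ 0 := by linarith
            field_simp; ring
    have hgrow := pow_le_pow_right₀ hr.le (Nat.le_add_right k 1)
    linarith
  have hα := hroot α β hab hαβ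
  have hβ := hroot β α (by rw [← hab, add_comm]) (by rw [← hαβ, mul_comm])
  -- the series
  set c : ℕ → ℝ := fun k => ‖b k‖ ^ 2 with hc
  have hsummable : Summable fun k => c k * X ^ k :=
    Summable.of_nonneg_of_le (fun k => by positivity) (fun k => by
        rw [show C * (P * X) ^ k = C * P ^ k * X ^ k by rw [mul_pow]; ring]
        exact mul_le_mul_of_nonneg_right (hb k) (by positivity))
      ((summable_geometric_of_lt_one (by positivity) hPX).mul_left C)
  set G := ∑' k, c k * X ^ k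
  have hG : HasSum (fun k => c k * X ^ k) G := hsummable.hasSum
  refine ⟨G, hG, ?_⟩
  -- the closed form
  set e1 : ℝ := ‖a‖ ^ 2 with he1
  set e2 : ℝ := 2 * (a ^ 2 * conj e).re - 2 with he2
  have hee : e * conj e = 1 := by rw [Complex.mul_conj', he]; simp
  have hcc : ∀ k, (c k : ℂ) = b k * conj (b k) := fun k => by
    simp only [hc]; rw [Complex.mul_conj']; push_cast; rfl
  have hrec4 : ∀ k, c (k + 4) - e1 * c (k + 3) + e2 * c (k + 2) - e1 * c (k + 1) + c k = 0 := by
    intro k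
    apply Complex.ofReal_injective
    simp only [Complex.ofReal_zero, Complex.ofReal_add, Complex.ofReal_sub, Complex.ofReal_mul]
    have e1' : (e1 : ℂ) = a * conj a := by rw [he1, Complex.mul_conj']; push_cast; rfl
    have e2' : (e2 : ℂ) = a ^ 2 * conj e + conj a ^ 2 * e - 2 := by
      rw [he2]; push_cast
      have := Complex.add_conj (a ^ 2 * conj e)
      rw [map_mul, map_pow, Complex.conj_conj] at this
      rw [this]; push_cast; ring
    have r2 : ∀ j, b (j + 2) = a * b (j + 1) - e * b j := fun j => eq_sub_of_add_eq (hrec j)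
    rw [hcc, hcc, hcc, hcc, hcc, e1', e2', r2 (k + 2), r2 (k + 1), r2 k]
    simp only [map_sub, map_mul]
    grind
  set Pd : ℝ := 1 - e1 * X + e2 * X ^ 2 - e1 * X ^ 3 + X ^ 4 with hPd
  have hGP : G * Pd = 1 - X ^ 2 := by
    have hshift : ∀ j : ℕ, HasSum (fun k => c (k + j) * X ^ (k + j))
        (G - ∑ i ∈ Finset.range j, c i * X ^ i) := fun j => (hasSum_nat_add_iff' j).2 hG
    have hz := ((((hshift 4).sub ((hshift 3).mul_left (e1 * X))).add
      ((hshift 2).mul_left (e2 * X ^ 2))).sub ((hshift 1).mul_left (e1 * X ^ 3))).add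
      (hG.mul_left (X ^ 4))
    have hzero : (fun k => c (k + 4) * X ^ (k + 4) - e1 * X * (c (k + 3) * X ^ (k + 3)) +
        e2 * X ^ 2 * (c (k + 2) * X ^ (k + 2)) - e1 * X ^ 3 * (c (k + 1) * X ^ (k + 1)) +
        X ^ 4 * (c k * X ^ k)) = fun _ => (0 : ℝ) := funext fun k => by
      linear_combination X ^ (k + 4) * hrec4 k
    rw [hzero] at hz
    have h := hz.unique hasSum_zero
    simp only [Finset.sum_range_succ, Finset.sum_range_zero, zero_add, pow_zero, mul_one,
      pow_one] at h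
    have hb2 : b 2 = a ^ 2 - e := by linear_combination hrec 0 + a * h1 - e * h0
    have hb3 : b 3 = a ^ 3 - 2 * a * e := by linear_combination hrec 1 + a * hb2 - e * h1
    have hc0 : c 0 = 1 := by simp [hc, h0]
    have hc1 : c 1 = e1 := by simp [hc, he1, h1]
    have hc2 : c 2 = e1 ^ 2 - (e2 + 2) + 1 := by
      apply Complex.ofReal_injective
      rw [hcc, hb2, he1, he2]
      simp only [map_sub, map_pow, Complex.ofReal_add, Complex.ofReal_sub, Complex.ofReal_mul,
        Complex.ofReal_one, Complex.ofReal_pow, Complex.ofReal_ofNat]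
      have := Complex.add_conj (a ^ 2 * conj e)
      rw [map_mul, map_pow, Complex.conj_conj] at this
      push_cast at this
      have h4 : ((‖a‖ : ℝ) : ℂ) ^ 2 = a * conj a := (Complex.mul_conj' a).symm
      rw [h4]
      grind
    have hc3 : c 3 = e1 * (e1 ^ 2 - 2 * (e2 + 2) + 4) := by
      apply Complex.ofReal_injective
      rw [hcc, hb3, he1, he2]
      simp only [map_sub, map_mul, map_pow, map_ofNat, Complex.ofReal_add,
        Complex.ofReal_sub, Complex.ofReal_mul, Complex.ofReal_pow, Complex.ofReal_ofNat]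
      have := Complex.add_conj (a ^ 2 * conj e)
      rw [map_mul, map_pow, Complex.conj_conj] at this
      push_cast at this
      have h4 : ((‖a‖ : ℝ) : ℂ) ^ 2 = a * conj a := (Complex.mul_conj' a).symm
      rw [h4]
      grind
    rw [hc0, hc1, hc2, hc3] at h
    rw [hPd]
    linear_combination h
  -- the bound
  set z : ℂ := α * conj β * X with hz
  have hnorm : ‖α‖ * ‖β‖ = 1 := by rw [← norm_mul, hαβ, he]
  have hPeq : Pd = (1 - ‖α‖ ^ 2 * X) * (1 - ‖β‖ ^ 2 * X) * (1 - 2 * z.re + X ^ 2) := by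
    apply Complex.ofReal_injective
    rw [hPd, he1, he2]
    push_cast
    have h1 := Complex.add_conj z
    have h2 := Complex.add_conj (a ^ 2 * conj e)
    push_cast at h1 h2
    rw [← Complex.mul_conj' a, ← Complex.mul_conj' α, ← Complex.mul_conj' β, ← h1, ← h2, hz,
      ← hαβ, ← hab]
    have hαβ' : α * conj α * (β * conj β) = 1 := by
      rw [← hee, ← hαβ, map_mul]; ring
    simp only [map_mul, map_pow, map_add, Complex.conj_conj, Complex.conj_ofReal]
    grind
  have hre : ‖α‖ ^ 2 + ‖β‖ ^ 2 + 2 * (α * conj β).re = ‖a‖ ^ 2 := by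
    rw [← hab, ← Complex.normSq_eq_norm_sq, ← Complex.normSq_eq_norm_sq,
      ← Complex.normSq_eq_norm_sq, Complex.normSq_add]
  have hA : ∀ u : ℂ, ‖u‖ ^ 2 ≤ P → 0 < 1 - ‖u‖ ^ 2 * X := fun u hu => by
    nlinarith [mul_le_mul_of_nonneg_right hu hX0.le]
  have hzn : ‖z‖ = X := by
    rw [hz, norm_mul, norm_mul, Complex.norm_conj, hnorm, one_mul, Complex.norm_real,
      Real.norm_eq_abs, abs_of_pos hX0]
  have h3 : 0 < 1 - 2 * z.re + X ^ 2 := by
    have := Complex.re_le_norm z
    rw [hzn] at this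
    nlinarith
  have hPd0 : 0 < Pd := by rw [hPeq]; exact mul_pos (mul_pos (hA α hα) (hA β hβ)) h3
  have hPle : Pd ≤ Real.exp (X ^ 2 - e1 * X) := by
    have hzre : z.re = (α * conj β).re * X := by rw [hz]; simp
    calc Pd ≤ Real.exp (-(‖α‖ ^ 2 * X)) * Real.exp (-(‖β‖ ^ 2 * X)) *
          Real.exp (X ^ 2 - 2 * z.re) := by
          rw [hPeq]
          refine mul_le_mul (mul_le_mul ?_ ?_ (hA β hβ).le (Real.exp_pos _).le) ?_ h3.le
            (by positivity)
          · linarith [Real.add_one_le_exp (-(‖α‖ ^ 2 * X))]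
          · linarith [Real.add_one_le_exp (-(‖β‖ ^ 2 * X))]
          · linarith [Real.add_one_le_exp (X ^ 2 - 2 * z.re)]
      _ = _ := by
          rw [← Real.exp_add, ← Real.exp_add, hzre, he1, ← hre]
          congr 1; ring
  have hlow : Real.exp (-(2 * X ^ 2)) ≤ 1 - X ^ 2 := by
    rw [Real.exp_neg, inv_le_iff_one_le_mul₀ (Real.exp_pos _)]
    nlinarith [Real.add_one_le_exp (2 * X ^ 2), mul_le_mul hX hX hX0.le (by norm_num : (0 : ℝ) ≤ 1 / 2)]
  refine le_of_mul_le_mul_right ?_ hPd0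
  rw [hGP]
  calc Real.exp (e1 * X - 3 * X ^ 2) * Pd
      ≤ Real.exp (e1 * X - 3 * X ^ 2) * Real.exp (X ^ 2 - e1 * X) :=
        mul_le_mul_of_nonneg_left hPle (Real.exp_pos _).le
    _ = Real.exp (-(2 * X ^ 2)) := by rw [← Real.exp_add]; congr 1; ring
    _ ≤ _ := hlow

/-! ### Multiplicativity -/

theorem qCoeff_pow_mul {N : ℕ} [NeZero N] {ε : DirichletCharacter ℂ N}
    {f : CuspForm (Gamma1 N) 1} (h : IsEigen N ε f) {p : ℕ} (hp : p.Prime) (hpN : ¬ p ∣ N)
    {m : ℕ} (hm : ¬ p ∣ m) (k : ℕ) : ModularFormClass.qCoeff f (p ^ k * m) =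
      ModularFormClass.qCoeff f (p ^ k) * ModularFormClass.qCoeff f m := by
  induction k using Nat.twoStepInduction with
  | zero => rw [pow_zero, one_mul, h.one, one_mul]
  | one =>
    have := h.rel p hp hpN m
    rw [if_neg hm, mul_zero, add_zero] at this
    rw [pow_one, this]
  | more k ih1 ih2 =>
    have e1 := h.rel p hp hpN (p ^ (k + 1) * m)
    have e2 := h.rel p hp hpN (p ^ (k + 1))
    rw [if_pos ((dvd_pow_self p (Nat.succ_ne_zero k)).mul_right m),
      show p ^ (k + 1) * m / p = p ^ k * m by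
        rw [pow_succ', mul_assoc, Nat.mul_div_cancel_left _ hp.pos],
      ← mul_assoc, ← pow_succ', ih1, ih2] at e1
    rw [if_pos (dvd_pow_self p (Nat.succ_ne_zero k)), pow_succ' p k,
      Nat.mul_div_cancel_left _ hp.pos, ← pow_succ' p k, ← pow_succ'] at e2
    linear_combination e1 - ModularFormClass.qCoeff f m * e2

theorem qCoeff_rec {N : ℕ} [NeZero N] {ε : DirichletCharacter ℂ N}
    {f : CuspForm (Gamma1 N) 1} (h : IsEigen N ε f) {p : ℕ} (hp : p.Prime) (hpN : ¬ p ∣ N) (k : ℕ) :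
    ModularFormClass.qCoeff f (p ^ (k + 2)) + ε (p : ZMod N) * ModularFormClass.qCoeff f (p ^ k) =
      ModularFormClass.qCoeff f p * ModularFormClass.qCoeff f (p ^ (k + 1)) := by
  have e2 := h.rel p hp hpN (p ^ (k + 1))
  rwa [if_pos (dvd_pow_self p (Nat.succ_ne_zero k)), pow_succ' p k,
    Nat.mul_div_cancel_left _ hp.pos, ← pow_succ' p k, ← pow_succ'] at e2

theorem norm_eps {N : ℕ} [NeZero N] (ε : DirichletCharacter ℂ N) {p : ℕ} (hp : p.Prime)
    (hpN : ¬ p ∣ N) : ‖ε (p : ZMod N)‖ = 1 := by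
  have hu : IsUnit (p : ZMod N) := (ZMod.isUnit_iff_coprime p N).2 (hp.coprime_iff_not_dvd.2 hpN)
  obtain ⟨u, hu⟩ := hu
  rw [← hu]
  exact ε.unit_norm_eq_one u

theorem prod_le_sum {N : ℕ} [NeZero N] {ε : DirichletCharacter ℂ N}
    {f : CuspForm (Gamma1 N) 1} (h : IsEigen N ε f) (s : ℝ) (K : ℕ) (T : Finset ℕ)
    (hT : ∀ p ∈ T, p.Prime ∧ ¬ p ∣ N) :
    ∃ U : Finset ℕ, (∀ n ∈ U, n ≠ 0 ∧ ∀ p : ℕ, p.Prime → p ∣ n → p ∈ T) ∧
      ∑ n ∈ U, ‖ModularFormClass.qCoeff f n‖ ^ 2 * (n : ℝ) ^ (-s) =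
        ∏ p ∈ T, ∑ k ∈ Finset.range K,
          ‖ModularFormClass.qCoeff f (p ^ k)‖ ^ 2 * ((p : ℝ) ^ (-s)) ^ k := by
  classical
  induction T using Finset.induction_on with
  | empty =>
    refine ⟨{1}, fun n hn => ?_, by simp [h.one]⟩
    rw [Finset.mem_singleton] at hn
    subst hn
    exact ⟨one_ne_zero, fun p hp hd => absurd (Nat.dvd_one.1 hd) hp.ne_one⟩
  | @insert q T hq ih =>
    obtain ⟨U, hU, hsum⟩ := ih fun p hp => hT p (Finset.mem_insert_of_mem hp)
    obtain ⟨hqp, hqN⟩ := hT q (Finset.mem_insert_self q T)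
    have hnd : ∀ n ∈ U, ¬ q ∣ n := fun n hn hd => hq ((hU n hn).2 q hqp hd)
    refine ⟨(Finset.range K ×ˢ U).image fun x => q ^ x.1 * x.2, fun n hn => ?_, ?_⟩
    · obtain ⟨⟨k, m⟩, hkm, rfl⟩ := Finset.mem_image.1 hn
      rw [Finset.mem_product] at hkm
      refine ⟨mul_ne_zero (pow_ne_zero _ hqp.ne_zero) (hU m hkm.2).1, fun p hp hd => ?_⟩
      rcases hp.dvd_mul.1 hd with h1 | h1
      · rw [(Nat.prime_dvd_prime_iff_eq hp hqp).1 (hp.dvd_of_dvd_pow h1)]
        exact Finset.mem_insert_self q T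
      · exact Finset.mem_insert_of_mem ((hU m hkm.2).2 p hp h1)
    · rw [Finset.sum_image, Finset.sum_product, Finset.prod_insert hq, ← hsum, Finset.sum_mul_sum]
      · refine Finset.sum_congr rfl fun k _ => Finset.sum_congr rfl fun m hm => ?_
        simp only [qCoeff_pow_mul h hqp hqN (hnd m hm), norm_mul, mul_pow, Nat.cast_mul,
          Nat.cast_pow]
        rw [Real.mul_rpow (by positivity) (by positivity), ← Real.rpow_natCast (q : ℝ) k,
          ← Real.rpow_mul (Nat.cast_nonneg q), ← Real.rpow_natCast ((q : ℝ) ^ (-s)) k,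
          ← Real.rpow_mul (Nat.cast_nonneg q), mul_comm (k : ℝ) (-s)]
        ring
      · rintro ⟨k, m⟩ hkm ⟨k', m'⟩ hkm' (he : q ^ k * m = q ^ k' * m')
        rw [Finset.mem_coe, Finset.mem_product] at hkm hkm'
        have hk : k = k' := by
          have e1 := congrArg (fun n => n.factorization q) he
          simpa [Nat.factorization_mul (pow_ne_zero _ hqp.ne_zero) (hU m hkm.2).1,
            Nat.factorization_mul (pow_ne_zero _ hqp.ne_zero) (hU m' hkm'.2).1,
            hqp.factorization_pow, Nat.factorization_eq_zero_of_not_dvd (hnd m hkm.2),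
            Nat.factorization_eq_zero_of_not_dvd (hnd m' hkm'.2)] using e1
        subst hk
        rw [Prod.mk.injEq]
        exact ⟨rfl, mul_left_cancel₀ (pow_ne_zero _ hqp.ne_zero) he⟩

end Rankin

open Rankin in
/-- **The second moment bound.** -/
theorem rankinBound : RankinBound := by
  intro N _ ε f h
  obtain ⟨C, hC0, hC⟩ := sum_sq_le f
  have hone : Summable fun n : ℕ => (1 : ℝ) / (n : ℝ) ^ 2 :=
    Real.summable_one_div_nat_pow.2 one_lt_two
  refine ⟨Real.log (4 * C) + 3 * ∑' n : ℕ, (1 : ℝ) / (n : ℝ) ^ 2, fun s hs T hT => ?_⟩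
  set a : ℕ → ℂ := ModularFormClass.qCoeff f with ha
  have hsingle : ∀ n : ℕ, n ≠ 0 → ‖a n‖ ^ 2 ≤ C * n := fun n hn => by
    simpa using hC n (by positivity) {n} (by simp)
  have hp : ∀ p ∈ T, ∃ G : ℝ,
      HasSum (fun k => ‖a (p ^ k)‖ ^ 2 * ((p : ℝ) ^ (-s)) ^ k) G ∧
      Real.exp (‖a p‖ ^ 2 * (p : ℝ) ^ (-s) - 3 * ((p : ℝ) ^ (-s)) ^ 2) ≤ G := by
    intro p hpT
    obtain ⟨hpp, hpN⟩ := hT p hpT
    have hp2 : (2 : ℝ) ≤ p := by exact_mod_cast hpp.two_le
    have hX1 : (p : ℝ) ^ (-s) < (p : ℝ)⁻¹ := by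
      rw [← Real.rpow_neg_one]
      exact Real.rpow_lt_rpow_of_exponent_lt (by linarith) (by linarith [hs.1])
    refine euler_lower (b := fun k => a (p ^ k)) (e := ε (p : ZMod N)) (P := p) (C := C)
      (by simp only [pow_zero]; exact h.one) (by simp only [pow_one]; rfl) (qCoeff_rec h hpp hpN)
      (norm_eps ε hpp hpN) (by linarith) (fun k => ?_) (Real.rpow_pos_of_pos (by linarith) _)
      (hX1.le.trans (by rw [one_div]; exact inv_anti₀ two_pos hp2)) ?_
    · exact_mod_cast hsingle _ (pow_ne_zero k hpp.ne_zero)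
    · calc (p : ℝ) * (p : ℝ) ^ (-s) < (p : ℝ) * (p : ℝ)⁻¹ :=
            mul_lt_mul_of_pos_left hX1 (by linarith)
        _ = 1 := mul_inv_cancel₀ (by linarith)
  choose! G hG hGle using hp
  have hprod : ∏ p ∈ T, G p ≤ 4 * C / (s - 1) := by
    refine le_of_tendsto' (tendsto_finsetProd T fun p hp => (hG p hp).tendsto_sum_nat) fun K => ?_
    obtain ⟨U, hU, hsum⟩ := prod_le_sum h s K T hT
    rw [← hsum]
    exact dirichlet_le _ (fun n => by positivity) hC0.le hC hs U fun n hn => (hU n hn).1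
  have hexp : Real.exp (∑ p ∈ T, (‖a p‖ ^ 2 * (p : ℝ) ^ (-s) - 3 * ((p : ℝ) ^ (-s)) ^ 2)) ≤
      4 * C / (s - 1) := by
    rw [Real.exp_sum]
    exact (Finset.prod_le_prod (fun p _ => (Real.exp_pos _).le) hGle).trans hprod
  have hlog := (Real.le_log_iff_exp_le (by have := hs.1; positivity)).2 hexp
  rw [Finset.sum_sub_distrib, Real.log_div (by positivity) (by linarith [hs.1]), sub_le_iff_le_add,
    ← Finset.mul_sum] at hlog
  rw [show Real.log (1 / (s - 1)) = -Real.log (s - 1) by rw [one_div, Real.log_inv]]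
  have hsq : ∑ p ∈ T, ((p : ℝ) ^ (-s)) ^ 2 ≤ ∑' n : ℕ, (1 : ℝ) / (n : ℝ) ^ 2 := by
    refine (Finset.sum_le_sum fun p hpT => ?_).trans
      (hone.sum_le_tsum T fun n _ => by positivity)
    have hp2 : (1 : ℝ) ≤ p := by exact_mod_cast (hT p hpT).1.one_lt.le
    rw [one_div, ← inv_pow]
    refine pow_le_pow_left₀ (by positivity) ?_ 2
    rw [← Real.rpow_neg_one]
    exact Real.rpow_le_rpow_of_exponent_le hp2 (by linarith [hs.1])
  linarith

end FA.Weight1

end
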