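import Fermat.Agent.Weight1.GalDefs
import Fermat.Agent.NebLocal.Corrs

/-!
# `T_p` for `p` prime to the level on expansions

The representative outside the upper triangular ones is an element of `Γ₀(M)` times `[[p,0],[0,1]]`,
so the pullback is a product of translates and of a dilation of a diamond: `T_p` is rational and
commutes with the arithmetic action.
-/

set_option autoImplicit false
set_option linter.unusedSectionVars false
set_option linter.style.haveILetI false
set_option synthInstance.maxHeartbeats 200000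
set_option maxHeartbeats 1600000

noncomputable section

namespace FA.Weight1

open UpperHalfPlane hiding I
open Complex hiding Gamma
open ModularCurve FA.ModField FA.Level FA.NebLocal
open FA.HeckeH1 (gl gl_mul gl_coe MatZ GamH GamH_top Corr Tc RIdx rep rep_det ulHom ulHom_val
  bezout_eq)
open scoped MatrixGroups Manifold

local notation "Qb" => AlgebraicClosure ℚ
local notation "GQ" => AlgebraicClosure ℚ ≃ₐ[ℚ] AlgebraicClosure ℚ

variable (M : ℕ) [NeZero M] [Fact (1 < M)] (H : Subgroup (ZMod M)ˣ) (hH : (-1 : (ZMod M)ˣ) ∈ H)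
  (p : ℕ) [hp : Fact p.Prime] (hpM : ¬ p ∣ M)

/-- `T_p` with its matrices. -/
def iTc : ICorr (lvlH H hH) (lvlH H hH) where
  C := Tc M H p
  X := rep M p
  det_pos i := lt_of_lt_of_eq (Int.natCast_pos.2 hp.out.pos) (rep_det hp.out i).symm
  α_eq _ := rfl
  nonempty := ⟨⟨some ⟨0, hp.out.pos⟩, fun h => absurd h (by simp)⟩⟩

/-- The element of `SL₂(ℤ)` in the last representative. -/
def bezSL : SL(2, ℤ) :=
  ⟨!![Nat.gcdA p M, -Nat.gcdB p M; (M : ℤ), (p : ℤ)], by
    rw [Matrix.det_fin_two_of]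
    linear_combination bezout_eq hp.out hpM⟩

/-- The element of `Γ₀(M)` in the last representative. -/
def bezMat : GamH M (⊤ : Subgroup (ZMod M)ˣ) :=
  ⟨bezSL M p hpM, by rw [GamH_top, CongruenceSubgroup.Gamma0_mem]; simp [bezSL]⟩

/-- The diamond `⟨p⟩`. -/
def diaP : GamH M (⊤ : Subgroup (ZMod M)ˣ) := (bezMat M p hpM)⁻¹

theorem ulHom_diaP : (ulHom M (diaP M p hpM) : ZMod M) = (p : ZMod M) := by
  rw [ulHom_val, diaP, Subgroup.coe_inv, Matrix.SpecialLinearGroup.coe_inv]
  simp [bezMat, bezSL, Matrix.adjugate_fin_two]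

/-- The indices. -/
def ridxEquiv : RIdx M p ≃ Option (Fin p) :=
  Equiv.subtypeUnivEquiv fun _ _ => hpM

variable {R : Type*} [CommRing R]

/-- The product of the translates and of the dilation. -/
def serTc (μ : Rˣ) (s t : LaurentSeries R) : LaurentSeries R :=
  haveI : NeZero (p * p) := ⟨mul_ne_zero hp.out.ne_zero hp.out.ne_zero⟩
  (∏ j : Fin p, twist (μ ^ ((j : ℕ) : ℤ)) s) * qExpand R (p * p) t

omit [NeZero M] [Fact (1 < M)] in
theorem coeffMap_serTc {S : Type*} [CommRing S] (f : R →+* S) (μ : Rˣ) (s t : LaurentSeries R) :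
    coeffMap f (serTc p μ s t) =
      serTc p (Units.map f.toMonoidHom μ) (coeffMap f s) (coeffMap f t) := by
  haveI : NeZero (p * p) := ⟨mul_ne_zero hp.out.ne_zero hp.out.ne_zero⟩
  rw [serTc, serTc, map_mul, map_prod, coeffMap_qExpand]
  exact congrArg (· * _) (Finset.prod_congr rfl fun j _ => by rw [NebLocal.coeffMap_twist, map_zpow])

omit [NeZero M] [Fact (1 < M)] in
theorem serTc_mul (μ : Rˣ) (s s' t t' : LaurentSeries R) :
    serTc p μ (s * s') (t * t') = serTc p μ s t * serTc p μ s' t' := by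
  haveI : NeZero (p * p) := ⟨mul_ne_zero hp.out.ne_zero hp.out.ne_zero⟩
  simp only [serTc, map_mul, Finset.prod_mul_distrib]
  ring

theorem hasExp_pull_iTc [NeZero p] {f : ℍ → ℂ} {s t : LaurentSeries ℂ} (hs : HasExp (qp 1) f s)
    (ht : HasExp (qp 1) (fun z => f ((bezSL M p hpM) • z)) t) :
    HasExp (qp p) ((iTc M H hH p).pull f) (serTc p (zetaN p) s t) := by
  haveI : NeZero (p * p) := ⟨mul_ne_zero hp.out.ne_zero hp.out.ne_zero⟩
  have hfun : (iTc M H hH p).pull f = fun z =>
      (∏ j : Fin p, f (mob (gl (upMat 1 ((j : ℕ) : ℤ) p)) z)) *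
        f (bezSL M p hpM • mob (gl (upMat p 0 1)) z) := by
    funext z
    show ∏ i : RIdx M p, f (mob (gl (rep M p i)) z) = _
    rw [← Equiv.prod_comp (ridxEquiv M p hpM).symm, Fintype.prod_option, mul_comm]
    refine congrArg₂ (· * ·) (Finset.prod_congr rfl fun j _ => rfl) ?_
    have e : rep M p ((ridxEquiv M p hpM).symm none) = (bezSL M p hpM).1 * upMat p 0 1 := by
      show !![Nat.gcdA p M * p, -Nat.gcdB p M; (M : ℤ) * p, (p : ℤ)] = _
      simp [bezSL, upMat]
    rw [e, gl_mul (by rw [(bezSL M p hpM).2]; exact one_ne_zero)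
      (det_upMat_pos hp.out.ne_zero one_ne_zero 0).ne', mob_mul, gl_coe, mob_glQ]
  rw [hfun, serTc]
  refine (hasExp_prod (qp_ne_zero p) (f := fun (j : Fin p) z =>
    f (mob (gl (upMat 1 ((j : ℕ) : ℤ) p)) z)) Finset.univ fun j _ => ?_).mul (qp_ne_zero p)
      (g := fun z => f (bezSL M p hpM • mob (gl (upMat p 0 1)) z)) ?_ |>.congr
      (funext fun z => by simp only [Pi.mul_apply, Finset.prod_apply])
  · have h := hs.comp (U := qp p) (fun z => mob (gl (upMat 1 ((j : ℕ) : ℤ) p)) z) 1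
      (zetaN p ^ ((j : ℕ) : ℤ)) fun z => qp_upper_one (D := p) one_ne_zero ((j : ℕ) : ℤ) rfl z
    rwa [qExpand_one_apply] at h
  · have h := ht.comp (U := qp p) (fun z => mob (gl (upMat p 0 1)) z) (p * p) 1 fun z => by
      rw [qp_upper_one (D := 1) (X := upMat p 0 1) hp.out.ne_zero 0 rfl z, zpow_zero, Units.val_one, one_mul, one_mul,
        ← qp_pow_self p z, ← pow_mul]
    rwa [twist_one_apply] at h

variable [Algebra Qb ℂ]

theorem exists_series_iTc [NeZero p] (x : (lvlH H hH).alg Qb) :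
    ∃ r : LaurentSeries Qb,
      HasExp (qp 1) ((iTc M H hH p).pull ((lvlH H hH).funHom Qb x))
        (coeffMap (algebraMap Qb ℂ) r) ∧
      qExpand Qb p r = serTc p (muQ p) (x : LaurentSeries Qb)
        (diaRing M H hH (diaP M p hpM) Qb ((lvlH H hH).toFld Qb x) : LaurentSeries Qb) := by
  let g := diaP M p hpM
  obtain ⟨t, ht⟩ := iDia_rational M H hH g Qb x
  have ht' : (diaRing M H hH g Qb ((lvlH H hH).toFld Qb x) : LaurentSeries Qb) = t :=
    (iDia M H hH g).coe_cpull_toFld (iDia_rational M H hH g Qb) x ht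
  rw [iDia_pull] at ht
  have hg : ((g⁻¹ : GamH M ⊤) : SL(2, ℤ)) = bezSL M p hpM := by
    show ((((bezMat M p hpM)⁻¹)⁻¹ : GamH M ⊤) : SL(2, ℤ)) = _
    rw [inv_inv]; rfl
  rw [hg] at ht
  have h := hasExp_pull_iTc M H hH p hpM ((lvlH H hH).funHom_exp Qb x) ht
  rw [← map_muQ p] at h
  have h' : HasExp (qp p) ((iTc M H hH p).pull ((lvlH H hH).funHom Qb x))
      (coeffMap (algebraMap Qb ℂ) (serTc p (muQ p) (x : LaurentSeries Qb) t)) := by
    rw [coeffMap_serTc]; exact h
  set R := serTc p (muQ p) (x : LaurentSeries Qb) t with hR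
  obtain ⟨L', hL', hexp⟩ := exists_descent_exp (M := 1) (e := p) (by rw [one_mul]; exact h')
    (fun z => (iTc M H hH p).pull_invariant ((lvlH H hH).funHom_mem Qb x)
      ⟨_, Subgroup.zpow_mem _ (lvlH H hH).T_mem _⟩ z)
  have hcoeff : ∀ k : ℤ, L'.coeff k = algebraMap Qb ℂ (R.coeff ((p : ℤ) * k)) := fun k => by
    have h1 := congrArg (fun s : LaurentSeries ℂ => s.coeff ((p : ℤ) * k)) hL'
    simp only [coeffMap_coeff, qExpand_coeff_mul] at h1
    exact h1.symm
  let r : LaurentSeries Qb :=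
    HahnSeries.ofSuppBddBelow (fun k => R.coeff ((p : ℤ) * k))
      ⟨L'.order, fun k hk => by
        by_contra hlt
        push Not at hlt
        refine hk ((algebraMap Qb ℂ).injective ?_)
        rw [map_zero, ← hcoeff]
        exact HahnSeries.coeff_eq_zero_of_lt_order hlt⟩
  have hr : coeffMap (algebraMap Qb ℂ) r = L' := by
    ext k
    rw [coeffMap_coeff, hcoeff]
    rfl
  refine ⟨r, by rw [hr]; exact hexp, coeffMap_injective' (algebraMap Qb ℂ).injective ?_⟩
  rw [coeffMap_qExpand, hr, ← hL', hR, ht']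

include hpM in
theorem iTc_rational : (iTc M H hH p).Rational Qb := fun x => by
  haveI : NeZero p := ⟨hp.out.ne_zero⟩
  obtain ⟨r, hr, -⟩ := exists_series_iTc M H hH p hpM x
  exact ⟨r, hr⟩

/-- **The series of the pullback.** -/
theorem qExpand_cp_iTc [NeZero p] (f : (lvlH H hH).fld Qb) :
    qExpand Qb p ((iTc M H hH p).cpull (iTc_rational M H hH p hpM) f : LaurentSeries Qb) =
      serTc p (muQ p) (f : LaurentSeries Qb)
        (diaRing M H hH (diaP M p hpM) Qb f : LaurentSeries Qb) := by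
  let cp := (iTc M H hH p).cpull (iTc_rational M H hH p hpM)
  have key : ∀ x : (lvlH H hH).alg Qb, qExpand Qb p (cp ((lvlH H hH).toFld Qb x) : LaurentSeries Qb) =
      serTc p (muQ p) (x : LaurentSeries Qb)
        (diaRing M H hH (diaP M p hpM) Qb ((lvlH H hH).toFld Qb x) : LaurentSeries Qb) := fun x => by
    obtain ⟨r, hr, hr'⟩ := exists_series_iTc M H hH p hpM x
    rw [(iTc M H hH p).coe_cpull_toFld (iTc_rational M H hH p hpM) x hr, hr']
  obtain ⟨x, y, hy, hxy⟩ := (lvlH H hH).exists_fraction Qb f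
  have h1 : (cp f : LaurentSeries Qb) * (cp ((lvlH H hH).toFld Qb y) : LaurentSeries Qb) =
      (cp ((lvlH H hH).toFld Qb x) : LaurentSeries Qb) := by
    rw [← hxy, map_mul]; rfl
  have h2 := congrArg (qExpand Qb p) h1
  have hser : (f : LaurentSeries Qb) * (y : LaurentSeries Qb) = x := congrArg Subtype.val hxy
  have hdia : (diaRing M H hH (diaP M p hpM) Qb f : LaurentSeries Qb) *
      (diaRing M H hH (diaP M p hpM) Qb ((lvlH H hH).toFld Qb y) : LaurentSeries Qb) =
      (diaRing M H hH (diaP M p hpM) Qb ((lvlH H hH).toFld Qb x) : LaurentSeries Qb) := by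
    rw [← hxy, map_mul]; rfl
  rw [map_mul, key, key, ← hser, ← hdia, serTc_mul] at h2
  refine mul_right_cancel₀ ?_ h2
  haveI : NeZero (p * p) := ⟨mul_ne_zero hp.out.ne_zero hp.out.ne_zero⟩
  have hy' : (y : LaurentSeries Qb) ≠ 0 := fun h0 => hy (Subtype.ext h0)
  have hyd : (diaRing M H hH (diaP M p hpM) Qb ((lvlH H hH).toFld Qb y) : LaurentSeries Qb) ≠ 0 := fun h0 =>
    hy ((lvlH H hH).toFld_injective Qb ((RingHom.injective (diaRing M H hH (diaP M p hpM) Qb)
      ((Subtype.ext h0).trans (map_zero (diaRing M H hH (diaP M p hpM) Qb)).symm)).trans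
        (map_zero ((lvlH H hH).toFld Qb)).symm))
  rw [serTc]
  refine mul_ne_zero (Finset.prod_ne_zero_iff.2 fun j _ => ?_) ?_
  · rwa [Ne, map_eq_zero_iff _ (twist_injective _)]
  · rwa [Ne, map_eq_zero_iff _ (qExpand_injective (R := Qb) (p * p))]

include hpM in
/-- **`T_p` commutes with the arithmetic action.** -/
theorem galComm_iTc (σ : GQ) :
    GalComm σ (iTc M H hH p) (iTc M H hH p) (iTc_rational M H hH p hpM)
      (iTc_rational M H hH p hpM) := fun f => Subtype.ext (by
  haveI : NeZero p := ⟨hp.out.ne_zero⟩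
  haveI : NeZero (p * p) := ⟨mul_ne_zero hp.out.ne_zero hp.out.ne_zero⟩
  refine qExpand_injective (R := Qb) p ?_
  rw [qExpand_cp_iTc M H hH p hpM, coe_galF_smul, ← coeffMap_qExpand, qExpand_cp_iTc M H hH p hpM,
    coeffMap_serTc]
  have hd : coeffMap (σ : Qb →+* Qb) (diaRing M H hH (diaP M p hpM) Qb f : LaurentSeries Qb) =
      (diaRing M H hH (diaP M p hpM) Qb (galF (lvlH H hH) σ • f) : LaurentSeries Qb) :=
    congrArg Subtype.val (galComm_iDia M H hH (diaP M p hpM) σ f)
  rw [hd]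
  obtain ⟨c, hc⟩ := exists_int_galois_muQ p σ
  have hc0 : (c : ZMod p) ≠ 0 := galois_exponent_ne_zero hc
  rw [hc, serTc, serTc]
  refine congrArg (· * _) ?_
  let e : Fin p → Fin p := fun j => ⟨((c : ZMod p) * ((j : ℕ) : ZMod p)).val, ZMod.val_lt _⟩
  have he : Function.Bijective e := Finite.injective_iff_bijective.1 fun a b h => by
    have h1 := ZMod.val_injective p (congrArg Fin.val h)
    have h3 := congrArg ZMod.val (mul_left_cancel₀ hc0 h1)
    rw [ZMod.val_natCast_of_lt a.isLt, ZMod.val_natCast_of_lt b.isLt] at h3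
    exact Fin.ext h3
  refine Fintype.prod_equiv (Equiv.ofBijective e he) _ _ fun j => ?_
  show twist ((muQ p ^ c) ^ ((j : ℕ) : ℤ)) _ = twist (muQ p ^ (((e j : Fin p) : ℕ) : ℤ)) _
  refine congrArg (fun u => twist u _) ?_
  rw [← zpow_mul]
  obtain ⟨w, hw⟩ : (p : ℤ) ∣ (((e j : Fin p) : ℕ) : ℤ) - c * ((j : ℕ) : ℤ) := by
    rw [← ZMod.intCast_zmod_eq_zero_iff_dvd, Int.cast_sub, Int.cast_natCast, ZMod.natCast_zmod_val,
      Int.cast_mul, Int.cast_natCast, sub_self]
  rw [show (((e j : Fin p) : ℕ) : ℤ) = c * ((j : ℕ) : ℤ) + (p : ℤ) * w by linear_combination hw,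
    zpow_add, zpow_mul (muQ p) (p : ℤ), zpow_natCast,
    show muQ p ^ p = 1 from Units.ext (by
      rw [Units.val_pow_eq_pow_val, (muQ_prim p).pow_eq_one, Units.val_one]),
    one_zpow, mul_one])

/-- **The contract: Hecke correspondences commute with the arithmetic action.** -/
theorem heckeComm : HeckeComm := fun M _ _ _ _ p _ hpM _ _ _ h =>
  h.latC (galComm_iTc M (pmOne M) (neg_one_mem_pmOne M) p hpM _)

end FA.Weight1

end
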