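import Fermat.Agent.Weight1.RedOps
import Fermat.Agent.Weight1.HeckeTp
import Fermat.Agent.ModField.Congruence.Export

/-!
# The Eichler–Shimura relation for `±Γ₁(M)` at a prime not dividing the level

On expansions `T_p` reduces to `r ↦ r^φ (δ r)(T^p)`: the Frobenius of coefficients plus `p` times
the diamond after the inverse Frobenius.  Classes with equal reductions are equal modulo `n`.
-/

set_option autoImplicit false
set_option linter.style.haveILetI false
set_option linter.unusedSectionVars false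
set_option synthInstance.maxHeartbeats 400000
set_option maxHeartbeats 1600000

noncomputable section

namespace FA.Weight1

open ModularCurve AlgebraicCurve FA.ModField FA.Level FA.CurveRed IsLocalRing
open FA.JTorsion (cuspLat latTors_eq_zero_iff)
open FA.HeckeH1 (GamH Tc)
open FA.NebLocal (serRed serRed_red latC redPhi redPhi_eq redPhi_galRel mapTarget mapTarget_redCls
  exists_redCls iDia iDia_rational diaRing GalRel galComm_iDia exists_isKum galF muQ muQ_prim
  pi_zeta)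
open scoped MatrixGroups

local notation "Qb" => AlgebraicClosure ℚ
local notation "GQ" => AlgebraicClosure ℚ ≃ₐ[ℚ] AlgebraicClosure ℚ

variable [Algebra Qb ℂ] {k : Type} [Field k] [IsAlgClosed k] {A : ValuationSubring Qb} {M : ℕ}
  [NeZero M] [Fact (1 < M)] {π : A →+* k} (hπs : Function.Surjective π)
  (hπ0 : ∀ a : A, π a = 0 ↔ A.valuation a < 1) (hk : ∀ r : ℕ, r.Prime → r ∣ M → (r : k) ≠ 0)
  (hj : 2 ∣ M ∨ 3 ∣ M)

local notation "V₁" => lvlOne M

section dia

variable (γ : GamH M (⊤ : Subgroup (ZMod M)ˣ)) (n : ℕ) [NeZero n]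

/-- Reductions of diamond translates. -/
theorem redPhi_dia (x : cuspLat (V₁)) :
    redPhi (scaled_one hπs hπ0 hk hj) n
        (latC (V := V₁) (V' := V₁) (iDia M (pmOne M) (neg_one_mem_pmOne M) γ).C x) =
      mapTarget n (diaH hπs hπ0 hk hj γ) (diaH_const hπs hπ0 hk hj γ)
        (redPhi (scaled_one hπs hπ0 hk hj) n x) := by
  obtain ⟨f, hf⟩ := exists_isKum (L := Qb) (n := n) x
  obtain ⟨c, g, r, hc, he, hg, hr⟩ := exists_scaled (scaled_one hπs hπ0 hk hj) hf.1
  have h1 := hf.cpull (iDia M (pmOne M) (neg_one_mem_pmOne M) γ)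
    (iDia_rational M (pmOne M) (neg_one_mem_pmOne M) γ Qb)
  have he' : diaFld γ f = algebraMap Qb _ c * diaFld γ g := by rw [he, map_mul, diaFld_const]
  refine (redPhi_eq _ h1).trans ?_
  rw [redPhi_eq _ hf, redFn_eq n hc he hg hr, mapTarget_redCls n _ hr]
  exact redFn_eq n hc he' (red_diaH hπs hπ0 hk hj γ hg) ((_root_.map_ne_zero _).2 hr)

end dia

section frob

variable {p : ℕ} [hp : Fact p.Prime] [CharP k p] {σ : GQ} (hσ : InducesOn Qb π σ (frobenius k p))
  {φ' : k →+* k} (hσ' : InducesOn Qb π σ⁻¹ φ') (hφ : ∀ a : k, frobenius k p (φ' a) = a)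

/-- The substitution `T ↦ T^p` on the reduced field. -/
def expH : kH π M →+* kH π M :=
  haveI : NeZero p := ⟨hp.out.ne_zero⟩
  ((qExpand k p).comp (kH π M).val.toRingHom).codRestrict _ fun x => by
    have h := pow_char_eq_qExpand p (coeffMap φ' (x : LaurentSeries k))
    rw [coeffMap_coeffMap, show (frobenius k p).comp φ' = RingHom.id k from RingHom.ext hφ] at h
    have hx : qExpand k p (x : LaurentSeries k) = coeffMap φ' (x : LaurentSeries k) ^ p := by
      rw [h]; congr 1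
    show qExpand k p (x : LaurentSeries k) ∈ kH π M
    rw [hx]
    exact pow_mem (coeffMap_mem_kH hπs hπ0 hk hj hσ' x.2) p

theorem coe_expH [NeZero p] (x : kH π M) :
    (expH hπs hπ0 hk hj hσ' hφ x : LaurentSeries k) = qExpand k p (x : LaurentSeries k) := rfl

theorem expH_const (a : k) :
    expH hπs hπ0 hk hj hσ' hφ (algebraMap k (kH π M) a) ∈
      (algebraMap k (kH π M)).range := by
  haveI : NeZero p := ⟨hp.out.ne_zero⟩
  refine ⟨a, Subtype.ext ?_⟩
  show algebraMap k (LaurentSeries k) a = qExpand k p (algebraMap k (LaurentSeries k) a)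
  rw [algebraMap_laurentSeries_eq_single, qExpand_single, mul_zero]

theorem expH_mapH (r : kH π M) :
    expH hπs hπ0 hk hj hσ' hφ (mapH hπs hπ0 hk hj hσ r) = r ^ p := by
  haveI : NeZero p := ⟨hp.out.ne_zero⟩
  refine Subtype.ext ?_
  rw [coe_expH, coe_mapH, SubmonoidClass.coe_pow, pow_char_eq_qExpand p]

variable (n : ℕ) [NeZero n]

theorem mapTarget_exp_frob (x : RedTarget k (kH π M) n) :
    mapTarget n (expH hπs hπ0 hk hj hσ' hφ) (expH_const hπs hπ0 hk hj hσ' hφ)
        (mapTarget n (mapH hπs hπ0 hk hj hσ) (mapH_const hπs hπ0 hk hj hσ) x) = p • x := by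
  obtain ⟨r, hr, rfl⟩ := exists_redCls n x
  rw [mapTarget_redCls _ _ hr, mapTarget_redCls _ _ ((_root_.map_ne_zero _).2 hr), expH_mapH,
    redCls_pow_left n r hr]

variable (hpM : ¬ p ∣ M)

/-- The pullback of `T_p` on functions. -/
abbrev cpT : (V₁).fld Qb →*₀ (V₁).fld Qb :=
  (iTc M (pmOne M) (neg_one_mem_pmOne M) p).cpull
    (iTc_rational M (pmOne M) (neg_one_mem_pmOne M) p hpM)

omit [IsAlgClosed k] [CharP k p] in
theorem exists_cpT_const {c : Qb} (hc : c ≠ 0) :
    ∃ c' : Qb, c' ≠ 0 ∧ cpT hpM (algebraMap Qb ((V₁).fld Qb) c) = algebraMap Qb _ c' := by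
  haveI : NeZero p := ⟨hp.out.ne_zero⟩
  haveI : NeZero (p * p) := ⟨mul_ne_zero hp.out.ne_zero hp.out.ne_zero⟩
  refine ⟨c ^ p * c, mul_ne_zero (pow_ne_zero _ hc) hc,
    Subtype.ext (qExpand_injective (R := Qb) p ?_)⟩
  refine (qExpand_cp_iTc M (pmOne M) (neg_one_mem_pmOne M) p hpM
    (algebraMap Qb ((V₁).fld Qb) c)).trans ?_
  have e1 : ((algebraMap Qb ((V₁).fld Qb) c : (V₁).fld Qb) : LaurentSeries Qb) =
      HahnSeries.C c := FA.CurveRed.algebraMap_eq_C c
  have e2 : (diaFld (diaP M p hpM) (algebraMap Qb ((V₁).fld Qb) c) : LaurentSeries Qb) =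
      HahnSeries.C c := by rw [diaFld_const]; exact e1
  show serTc p (muQ p) _ (diaFld (diaP M p hpM) (algebraMap Qb ((V₁).fld Qb) c) : LaurentSeries Qb) =
    qExpand Qb p ((algebraMap Qb ((V₁).fld Qb) (c ^ p * c) : (V₁).fld Qb) : LaurentSeries Qb)
  rw [e2]
  show serTc p (muQ p) ((algebraMap Qb ((V₁).fld Qb) c : (V₁).fld Qb) : LaurentSeries Qb) _ = _
  rw [e1, show ((algebraMap Qb ((V₁).fld Qb) (c ^ p * c) : (V₁).fld Qb) : LaurentSeries Qb) =
    HahnSeries.C (c ^ p * c) from FA.CurveRed.algebraMap_eq_C _, serTc,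
    HahnSeries.C_apply, qExpand_single, mul_zero, HahnSeries.C_apply, qExpand_single, mul_zero,
    ← HahnSeries.C_apply, ← HahnSeries.C_apply, map_mul, map_pow]
  refine congrArg (· * _) ((Finset.prod_congr rfl fun j _ => ?_).trans
    (by rw [Finset.prod_const, Finset.card_univ, Fintype.card_fin]))
  ext m
  rw [twist_coeff, HahnSeries.C_apply, HahnSeries.coeff_single]
  split_ifs with hm
  · subst hm; simp
  · simp

/-- **`T_p` on reductions.** -/
theorem red_cpT [NeZero p] {g : (V₁).fld Qb} {r : kH π M}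
    (hg : (redOne hπs hπ0 hk hj).Red g r) :
    (redOne hπs hπ0 hk hj).Red (cpT hpM g) (mapH hπs hπ0 hk hj hσ r *
      expH hπs hπ0 hk hj hσ' hφ (diaH hπs hπ0 hk hj (diaP M p hpM) r)) := by
  haveI : NeZero (p * p) := ⟨mul_ne_zero hp.out.ne_zero hp.out.ne_zero⟩
  obtain ⟨Y, Y', -, -, hne, hgY, hrY⟩ := (serRed_red π hπs hπ0 _ _ _).1 hg
  obtain ⟨N, D, -, -, hD, hdN, hsN⟩ :=
    (serRed_red π hπs hπ0 _ _ _).1 (red_diaH hπs hπ0 hk hj (diaP M p hpM) hg)
  have hμ : ((muQ p : Qbˣ) : Qb) ∈ A := by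
    rw [← A.valuation_le_one_iff]
    refine le_of_eq ((pow_eq_one_iff_of_nonneg zero_le hp.out.ne_zero).1 ?_)
    rw [← map_pow, (muQ_prim p).pow_eq_one, map_one]
  have hμp : (⟨_, hμ⟩ : A) ^ p = 1 := Subtype.ext (muQ_prim p).pow_eq_one
  set μ : Aˣ := (IsUnit.of_pow_eq_one hμp hp.out.ne_zero).unit with hμdef
  have hμsub : Units.map (A.subtype : A →+* Qb).toMonoidHom μ = muQ p := Units.ext rfl
  have hμπ : Units.map π.toMonoidHom μ = 1 := Units.ext (pi_zeta (q := p) hμp)
  have hser : qExpand Qb p (cpT hpM g : LaurentSeries Qb) =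
      serTc p (muQ p) (g : LaurentSeries Qb) (diaFld (diaP M p hpM) g : LaurentSeries Qb) :=
    qExpand_cp_iTc M (pmOne M) (neg_one_mem_pmOne M) p hpM g
  have hred : ∀ s t : LaurentSeries k, serTc p (1 : kˣ) s t = s ^ p * qExpand k (p * p) t := by
    intro s t
    rw [serTc]
    simp only [one_zpow, twist_one_apply, Finset.prod_const, Finset.card_univ, Fintype.card_fin]
  obtain ⟨r', hr', hr'Y⟩ := red_of_quot hπs hπ0 hk hj p (f := cpT hpM g)
    (Y := serTc p μ Y N) (Y' := serTc p μ Y' D) (by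
      rw [coeffMap_serTc, hμπ, hred]
      exact mul_ne_zero (pow_ne_zero _ hne)
        fun h0 => hD (qExpand_injective (R := k) (p * p) (h0.trans (map_zero _).symm))) (by
      rw [coeffMap_serTc, coeffMap_serTc, hμsub, hser, ← serTc_mul, hgY, hdN])
  rw [coeffMap_serTc, coeffMap_serTc, hμπ, hred, hred, ← hrY, ← hsN] at hr'Y
  have hne2 : coeffMap π Y' ^ p * qExpand k (p * p) (coeffMap π D) ≠ 0 :=
    mul_ne_zero (pow_ne_zero _ hne)
      fun h0 => hD (qExpand_injective (R := k) (p * p) (h0.trans (map_zero _).symm))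
  have key : r' = mapH hπs hπ0 hk hj hσ r *
      expH hπs hπ0 hk hj hσ' hφ (diaH hπs hπ0 hk hj (diaP M p hpM) r) := by
    refine Subtype.ext (qExpand_injective (R := k) p (mul_right_cancel₀ hne2 ?_))
    rw [hr'Y, MulMemClass.coe_mul, map_mul (qExpand k p), coe_mapH, coe_expH,
      ← pow_char_eq_qExpand p, qExpand_qExpand, map_mul (qExpand k (p * p)), mul_pow]
    ring
  rw [← key]; exact hr'

/-- Reductions of `T_p` translates. -/
theorem redPhi_iTc (x : cuspLat (V₁)) :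
    redPhi (scaled_one hπs hπ0 hk hj) n
        (latC (V := V₁) (V' := V₁) (Tc M (pmOne M) p) x) =
      mapTarget n (mapH hπs hπ0 hk hj hσ) (mapH_const hπs hπ0 hk hj hσ)
          (redPhi (scaled_one hπs hπ0 hk hj) n x) +
        mapTarget n (expH hπs hπ0 hk hj hσ' hφ) (expH_const hπs hπ0 hk hj hσ' hφ)
          (mapTarget n (diaH hπs hπ0 hk hj (diaP M p hpM))
            (diaH_const hπs hπ0 hk hj (diaP M p hpM))
            (redPhi (scaled_one hπs hπ0 hk hj) n x)) := by
  haveI : NeZero p := ⟨hp.out.ne_zero⟩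
  obtain ⟨f, hf⟩ := exists_isKum (L := Qb) (n := n) x
  obtain ⟨c, g, r, hc, he, hg, hr⟩ := exists_scaled (scaled_one hπs hπ0 hk hj) hf.1
  have h1 := hf.cpull (iTc M (pmOne M) (neg_one_mem_pmOne M) p)
    (iTc_rational M (pmOne M) (neg_one_mem_pmOne M) p hpM)
  obtain ⟨c', hc', hcc⟩ := exists_cpT_const (M := M) hpM hc
  have he' : cpT hpM f = algebraMap Qb _ c' * cpT hpM g := by rw [he, map_mul, hcc]
  refine (redPhi_eq _ h1).trans ?_
  have hd0 : diaH hπs hπ0 hk hj (diaP M p hpM) r ≠ 0 := (_root_.map_ne_zero _).2 hr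
  have hm0 : mapH hπs hπ0 hk hj hσ r ≠ 0 := (_root_.map_ne_zero _).2 hr
  have he0 : expH hπs hπ0 hk hj hσ' hφ (diaH hπs hπ0 hk hj (diaP M p hpM) r) ≠ 0 :=
    (_root_.map_ne_zero _).2 hd0
  rw [redPhi_eq _ hf, redFn_eq n hc he hg hr, mapTarget_redCls n _ hr, mapTarget_redCls n _ hr,
    mapTarget_redCls n _ hd0]
  exact (redFn_eq n hc' he' (red_cpT hπs hπ0 hk hj hσ hσ' hφ hpM hg) (mul_ne_zero hm0 he0)).trans
    (redCls_mul n hm0 he0)

include hπs hπ0 hk hj hσ hσ' hφ in
/-- **The Eichler–Shimura relation on classes.** -/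
theorem frobenius_rel_classes (hn : (n : k) ≠ 0) (x y z : cuspLat (V₁))
    (hxz : GalRel (V₁) n σ x z) (hyx : GalRel (V₁) n σ y x) :
    ∃ w : cuspLat (V₁), latC (V := V₁) (V' := V₁) (Tc M (pmOne M) p) x =
      z + p • (latC (V := V₁) (V' := V₁)
        (iDia M (pmOne M) (neg_one_mem_pmOne M) (diaP M p hpM)).C y) + n • w := by
  set y' : cuspLat (V₁) := latC (V := V₁) (V' := V₁)
    (iDia M (pmOne M) (neg_one_mem_pmOne M) (diaP M p hpM)).C y
  set x' : cuspLat (V₁) := latC (V := V₁) (V' := V₁)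
    (iDia M (pmOne M) (neg_one_mem_pmOne M) (diaP M p hpM)).C x with hx'
  have hd : GalRel (V₁) n σ y' x' :=
    hyx.latC (galComm_iDia M (pmOne M) (neg_one_mem_pmOne M) (diaP M p hpM) σ)
  refine eq_of_redPhi_one hπs hπ0 hk hj hn ?_
  rw [redPhi_iTc hπs hπ0 hk hj hσ hσ' hφ n hpM, map_add, map_nsmul,
    ← redPhi_dia hπs hπ0 hk hj (diaP M p hpM) n x, ← hx']
  have e1 : redPhi (scaled_one hπs hπ0 hk hj) n z =
      mapTarget n (mapH hπs hπ0 hk hj hσ) (mapH_const hπs hπ0 hk hj hσ)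
        (redPhi (scaled_one hπs hπ0 hk hj) n x) :=
    redPhi_galRel (scaled_one hπs hπ0 hk hj) hσ (coe_mapH hπs hπ0 hk hj hσ)
      (mapH_const hπs hπ0 hk hj hσ) hxz
  have e2 : redPhi (scaled_one hπs hπ0 hk hj) n x' =
      mapTarget n (mapH hπs hπ0 hk hj hσ) (mapH_const hπs hπ0 hk hj hσ)
        (redPhi (scaled_one hπs hπ0 hk hj) n y') :=
    redPhi_galRel (scaled_one hπs hπ0 hk hj) hσ (coe_mapH hπs hπ0 hk hj hσ)
      (mapH_const hπs hπ0 hk hj hσ) hd
  rw [e1, e2]
  refine congrArg (HAdd.hAdd (mapTarget n (mapH hπs hπ0 hk hj hσ) (mapH_const hπs hπ0 hk hj hσ) (redPhi (scaled_one hπs hπ0 hk hj) n x))) ?_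
  exact mapTarget_exp_frob hπs hπ0 hk hj hσ hσ' hφ n _

end frob

section inertia

variable {σ : GQ} (hσ : InducesOn Qb π σ (RingHom.id k)) (n : ℕ) [NeZero n]

include hπs hπ0 hk hj hσ in
theorem galRel_self_of_inertia (hn : (n : k) ≠ 0) (x : cuspLat (V₁)) :
    GalRel (V₁) n σ x x := by
  obtain ⟨y, hy⟩ := FA.NebLocal.exists_galRel (n := n) σ x
  have h := redPhi_galRel (scaled_one hπs hπ0 hk hj) hσ (coe_mapH hπs hπ0 hk hj hσ)
    (mapH_const hπs hπ0 hk hj hσ) hy
  have hid : ∀ u, mapTarget n (mapH hπs hπ0 hk hj hσ) (mapH_const hπs hπ0 hk hj hσ) u = u :=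
    fun u => by
    obtain ⟨r, hr, rfl⟩ := exists_redCls n u
    rw [mapTarget_redCls _ _ hr]
    refine congrArg (redCls n) (Subtype.ext ?_)
    rw [coe_mapH]
    exact HahnSeries.ext (funext fun m => by rw [coeffMap_coeff]; rfl)
  obtain ⟨w, hw⟩ := eq_of_redPhi_one hπs hπ0 hk hj hn (h.trans (hid _))
  refine Eq.trans ?_ hy
  have h0 : JTorsion.latTors (V₁) Qb n (n • w) = 0 := latTors_eq_zero_iff.2 ⟨w, rfl⟩
  rw [hw, map_add, h0]
  exact congrArg Subtype.val (add_zero (JTorsion.latTors (V₁) Qb n x)).symm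

end inertia

/-- **The contract: the Frobenius relation.** -/
theorem frobeniusRel : FrobeniusRel := by
  intro M _ _ n _ hnM p _ hpM hj A hA
  haveI : CharP (ResidueField A) p := residueAt_charP hA
  haveI : IsAlgClosed (ResidueField A) := FA.Frob.residueField_isAlgClosed A
  haveI : ExpChar (ResidueField A) p := ExpChar.prime (Fact.out : p.Prime)
  haveI : PerfectRing (ResidueField A) p := PerfectField.toPerfectRing p
  have hk : ∀ r : ℕ, r.Prime → r ∣ M → (r : ResidueField A) ≠ 0 := fun r hr hrM h =>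
    hpM ((Nat.prime_dvd_prime_iff_eq Fact.out hr).1
      ((CharP.cast_eq_zero_iff (ResidueField A) p r).1 h) ▸ hrM)
  have hn : (n : ResidueField A) ≠ 0 := fun h =>
    hpM (((CharP.cast_eq_zero_iff (ResidueField A) p n).1 h).trans hnM)
  refine ⟨fun σ hσ x => galRel_self_of_inertia residue_surjective residueAt_eq_zero hk hj
    (inducesOn_inertia hσ) n hn x, fun σ hσ => ⟨diaP M p hpM, ulHom_diaP M p hpM, ?_⟩⟩
  have hσ' : InducesOn Qb (residue A) σ⁻¹
      ((frobeniusEquiv (ResidueField A) p).symm : ResidueField A →+* ResidueField A) := by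
    intro a
    let t : A.decompositionSubgroup ℚ := ⟨σ, hσ.mem_decompositionSubgroup⟩
    refine ⟨t⁻¹ • a, rfl, ?_⟩
    refine ((frobeniusEquiv (ResidueField A) p).symm_apply_eq.2 ?_).symm
    rw [frobeniusEquiv_apply, frobenius_def, IsLocalRing.ResidueField.residue_smul,
      ← hσ.smul_residue_eq, smul_inv_smul]
  exact fun x y z hxz hyx => frobenius_rel_classes residue_surjective residueAt_eq_zero hk hj
    (inducesOn_frobenius hσ) hσ' (fun a => frobenius_apply_frobeniusEquiv_symm _ p a) n hpM hn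
    x y z hxz hyx

end FA.Weight1

end
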