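import Fermat.Agent.Weight1.Residual
import Fermat.Agent.Weight1.Frobenius
import Fermat.Agent.JTorsion.Attach

/-!
# The residual representations of the eigen functionals of `±Γ₁(M)`
-/

set_option autoImplicit false

noncomputable section

namespace FA.Weight1

/-- The residual representations exist. -/
theorem residualAttached : ResidualAttached := by
  obtain ⟨hQ⟩ := FA.JTorsion.exists_algebra_qbar
  letI := hQ
  exact residualAttached_of heckeComm frobeniusRel

end FA.Weight1

end
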