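import Fermat.Agent.Weight1.ConnBase
import Fermat.Agent.Mazur.Moduli.LineFun

/-!
# Differences of abscissae of points of order `M`

`absDiff M c v` is the weight zero factor times `℘(v/M) - ℘(c v/M)`.  Its expansions at all cusps
are integral at the places prime to `M`, and modulo such a place the coefficient of `q⁻¹` at `∞`
determines the class of `±v` among the vectors with first entry zero.
-/

set_option autoImplicit false
set_option linter.style.haveILetI false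
set_option linter.unusedSectionVars false
set_option synthInstance.maxHeartbeats 400000
set_option maxHeartbeats 1600000

noncomputable section

namespace FA.Weight1

open UpperHalfPlane hiding I
open Complex hiding Gamma
open CongruenceSubgroup ModularCurve FA.ModField FA.Level
open FA.Mazur.Moduli (tauPair rowMul wFac mem_tauPair weierstrassP_scale wFac_smul weightPow
  mdiff_wFac hasExp_wFac mdiff_of_hasExp)
open FA.Mazur.Wp (xVal xCoeff xSer zPt latPair hasExp_xVal map_xCoeff xVal_congr tpi)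
open scoped MatrixGroups Manifold

variable {M : ℕ} [NeZero M]

theorem xVal_smul (v : ℤ × ℤ) (g : SL(2, ℤ)) (τ : ℍ) :
    xVal M v.1 v.2 (g • τ) =
      denom g τ ^ 2 * xVal M (rowMul v g).1 (rowMul v g).2 τ := by
  set c := denom g τ
  have hc : c ≠ 0 := denom_ne_zero g τ
  have hdet : g 0 0 * g 1 1 - g 0 1 * g 1 0 = 1 := by
    have := Matrix.SpecialLinearGroup.det_coe g
    rwa [Matrix.det_fin_two] at this
  have hcd : c = (g 1 0 : ℂ) * τ + g 1 1 := by simp [c, denom]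
  have hdetC : (g 0 0 : ℂ) * g 1 1 - g 0 1 * g 1 0 = 1 := by exact_mod_cast hdet
  have htau : ((g • τ : ℍ) : ℂ) * c = (g 0 0 : ℂ) * τ + g 0 1 := by
    rw [UpperHalfPlane.coe_specialLinearGroup_apply]
    simp only [eq_intCast, Complex.ofReal_intCast]
    rw [← hcd, div_mul_cancel₀ _ hc]
  have hL : ∀ l : ℂ, c * l ∈ (tauPair τ).lattice ↔ l ∈ (tauPair (g • τ)).lattice := by
    intro l
    rw [mem_tauPair, mem_tauPair]
    constructor
    · rintro ⟨m, n, h⟩
      refine ⟨m * g 1 1 - n * g 1 0, n * g 0 0 - m * g 0 1, mul_left_cancel₀ hc ?_⟩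
      push_cast
      linear_combination h + ((m : ℂ) * g 1 1 - n * g 1 0) * htau +
        ((n : ℂ) * g 0 0 - m * g 0 1) * hcd + (m * (τ : ℂ) + n) * hdetC
    · rintro ⟨m, n, h⟩
      refine ⟨m * g 0 0 + n * g 1 0, m * g 0 1 + n * g 1 1, ?_⟩
      push_cast
      rw [← h]
      linear_combination -(m : ℂ) * htau - (n : ℂ) * hcd
  have harg : zPt M (rowMul v g).1 (rowMul v g).2 τ = c * zPt M v.1 v.2 (g • τ) := by
    simp only [zPt, rowMul]
    push_cast
    rw [mul_div_assoc']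
    congr 1
    linear_combination -(v.1 : ℂ) * htau - (v.2 : ℂ) * hcd
  have hP := weierstrassP_scale hc hL (zPt M v.1 v.2 (g • τ))
  rw [xVal, xVal, show latPair τ = tauPair τ from rfl,
    show latPair (g • τ) = tauPair (g • τ) from rfl, harg, hP]
  field_simp

theorem xVal_neg (a b : ℤ) (τ : ℍ) : xVal M (-a) (-b) τ = xVal M a b τ := by
  rw [xVal, xVal, show zPt M (-a) (-b) τ = -zPt M a b τ by simp only [zPt]; push_cast; ring,
    PeriodPair.weierstrassP_neg]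

theorem xVal_congr_dvd {a b a' b' : ℤ} (h1 : (M : ℤ) ∣ a' - a) (h2 : (M : ℤ) ∣ b' - b) (τ : ℍ) :
    xVal M a' b' τ = xVal M a b τ := by
  obtain ⟨k, hk⟩ := h1
  obtain ⟨l, hl⟩ := h2
  rw [show a' = a + M * k by linarith, show b' = b + M * l by linarith, xVal_congr]

variable (M) in
/-- The weight zero difference of abscissae. -/
def absDiff (c : ℕ) (v : ℤ × ℤ) (τ : ℍ) : ℂ :=
  wFac τ * (xVal M v.1 v.2 τ - xVal M (c * v.1) (c * v.2) τ)

theorem absDiff_smul (c : ℕ) (v : ℤ × ℤ) (g : SL(2, ℤ)) (τ : ℍ) :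
    absDiff M c v (g • τ) = absDiff M c (rowMul v g) τ := by
  have hd : denom g τ ≠ 0 := denom_ne_zero g τ
  simp only [absDiff, wFac_smul]
  rw [xVal_smul v g τ, show xVal M ((c : ℤ) * v.1) ((c : ℤ) * v.2) (g • τ) =
    denom g τ ^ 2 * xVal M (rowMul ((c : ℤ) * v.1, (c : ℤ) * v.2) g).1
      (rowMul ((c : ℤ) * v.1, (c : ℤ) * v.2) g).2 τ from
    xVal_smul ((c : ℤ) * v.1, (c : ℤ) * v.2) g τ,
    show (rowMul ((c : ℤ) * v.1, (c : ℤ) * v.2) g).1 = c * (rowMul v g).1 by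
      simp only [rowMul]; ring,
    show (rowMul ((c : ℤ) * v.1, (c : ℤ) * v.2) g).2 = c * (rowMul v g).2 by
      simp only [rowMul]; ring]
  field_simp

theorem absDiff_congr (c : ℕ) {v v' : ℤ × ℤ}
    (h : ((M : ℤ) ∣ v'.1 - v.1 ∧ (M : ℤ) ∣ v'.2 - v.2) ∨
      ((M : ℤ) ∣ v'.1 + v.1 ∧ (M : ℤ) ∣ v'.2 + v.2)) :
    absDiff M c v' = absDiff M c v := by
  funext τ
  simp only [absDiff]
  rcases h with ⟨h1, h2⟩ | ⟨h1, h2⟩
  · rw [xVal_congr_dvd h1 h2, xVal_congr_dvd (a := c * v.1) (b := c * v.2) (a' := c * v'.1)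
      (b' := c * v'.2) (by rw [← mul_sub]; exact h1.mul_left _)
      (by rw [← mul_sub]; exact h2.mul_left _)]
  · have e1 : xVal M v'.1 v'.2 τ = xVal M v.1 v.2 τ :=
      (xVal_congr_dvd (a := -v.1) (b := -v.2) (by rwa [sub_neg_eq_add])
        (by rwa [sub_neg_eq_add]) τ).trans (xVal_neg _ _ τ)
    have e2 : xVal M (c * v'.1) (c * v'.2) τ = xVal M (c * v.1) (c * v.2) τ :=
      (xVal_congr_dvd (a := -((c : ℤ) * v.1)) (b := -((c : ℤ) * v.2))
        (by rw [sub_neg_eq_add, ← mul_add]; exact h1.mul_left _)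
        (by rw [sub_neg_eq_add, ← mul_add]; exact h2.mul_left _) τ).trans (xVal_neg _ _ τ)
    rw [e1, e2]

/-- `v` and `c v` are nonzero modulo `M`. -/
def Good (M c : ℕ) (v : ℤ × ℤ) : Prop :=
  ¬ ((M : ℤ) ∣ v.1 ∧ (M : ℤ) ∣ v.2) ∧ ¬ ((M : ℤ) ∣ c * v.1 ∧ (M : ℤ) ∣ c * v.2)

theorem Good.rowMul {c : ℕ} {v : ℤ × ℤ} (h : Good M c v) (g : SL(2, ℤ)) :
    Good M c (rowMul v g) := by
  have key : ∀ w : ℤ × ℤ, (M : ℤ) ∣ (FA.Mazur.Moduli.rowMul w g).1 →
      (M : ℤ) ∣ (FA.Mazur.Moduli.rowMul w g).2 → (M : ℤ) ∣ w.1 ∧ (M : ℤ) ∣ w.2 := by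
    intro w h1 h2
    have hdet : g 0 0 * g 1 1 - g 0 1 * g 1 0 = 1 := by
      have := Matrix.SpecialLinearGroup.det_coe g
      rwa [Matrix.det_fin_two] at this
    simp only [FA.Mazur.Moduli.rowMul] at h1 h2
    constructor
    · have := dvd_sub (h1.mul_left (g 1 1)) (h2.mul_left (g 1 0))
      rwa [show g 1 1 * (w.1 * g 0 0 + w.2 * g 1 0) - g 1 0 * (w.1 * g 0 1 + w.2 * g 1 1) = w.1 by
        linear_combination w.1 * hdet] at this
    · have := dvd_sub (h2.mul_left (g 0 0)) (h1.mul_left (g 0 1))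
      rwa [show g 0 0 * (w.1 * g 0 1 + w.2 * g 1 1) - g 0 1 * (w.1 * g 0 0 + w.2 * g 1 0) = w.2 by
        linear_combination w.2 * hdet] at this
  refine ⟨fun h' => h.1 (key v h'.1 h'.2), fun h' => h.2 (key (c * v.1, c * v.2) ?_ ?_)⟩
  · simp only [FA.Mazur.Moduli.rowMul] at h' ⊢
    simpa [mul_add, mul_assoc] using h'.1
  · simp only [FA.Mazur.Moduli.rowMul] at h' ⊢
    simpa [mul_add, mul_assoc] using h'.2

theorem Good.of_prime {j : ℕ} (hj : j.Prime) (hjM : j ∣ M) {v : ℤ × ℤ}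
    (hv : ¬ ((j : ℤ) ∣ v.1 ∧ (j : ℤ) ∣ v.2)) : Good M (M / j) v := by
  have hj' : (j : ℤ) ∣ (M : ℤ) := by exact_mod_cast hjM
  refine ⟨fun h => hv ⟨hj'.trans h.1, hj'.trans h.2⟩, fun h => hv ?_⟩
  have hM : (M : ℤ) = ((M / j : ℕ) : ℤ) * j := by exact_mod_cast (Nat.div_mul_cancel hjM).symm
  have hc : ((M / j : ℕ) : ℤ) ≠ 0 := by
    exact_mod_cast (Nat.div_pos (Nat.le_of_dvd (NeZero.pos M) hjM) hj.pos).ne'
  exact ⟨(mul_dvd_mul_iff_left hc).1 (hM ▸ h.1), (mul_dvd_mul_iff_left hc).1 (hM ▸ h.2)⟩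

/-! ### Integrality -/

variable {L : Type} [Field L] [CharZero L] [Algebra L ℂ] [IsAlgClosed L] {k : Type} [Field k]
  [IsAlgClosed k] {A : ValuationSubring L}

/-- The root of unity of `A`. -/
def zetaA (A : ValuationSubring L) (M : ℕ) [NeZero M] : Aˣ := (exists_zeta (A := A) (M := M)).choose

theorem valC_zetaA : valC A (zetaA A M) = (zetaN M : ℂ) :=
  (exists_zeta (A := A) (M := M)).choose_spec

theorem valC_zetaA_zpow (b : ℤ) : valC A ((zetaA A M ^ b : Aˣ) : A) = FA.Mazur.Wp.eta M b := by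
  have h : Units.map (valC A : A →* ℂ) (zetaA A M) = zetaN M := Units.ext valC_zetaA
  have h2 := congrArg Units.val (congrArg (· ^ b) h)
  simp only [← map_zpow] at h2
  refine h2.trans ?_
  rw [Units.val_zpow_eq_zpow_val, zetaN, Units.val_mk0, ← Complex.exp_int_mul, FA.Mazur.Wp.eta, tpi]
  congr 1
  ring

variable (π : A →+* k)

theorem pi_zetaA_zpow_ne_one (hk : (M : k) ≠ 0) {b : ℤ} (hb : ¬ (M : ℤ) ∣ b) :
    π ((zetaA A M ^ b : Aˣ) : A) ≠ 1 := by
  set x : A := ((zetaA A M ^ b : Aˣ) : A)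
  have hx1 : x ≠ 1 := fun h => hb (by
    have h2 := valC_zetaA_zpow (A := A) (M := M) b
    rw [show ((zetaA A M ^ b : Aˣ) : A) = 1 from h, map_one] at h2
    rw [← (zetaN_prim M).zpow_eq_one_iff_dvd, zetaN, Units.val_mk0, ← Complex.exp_int_mul]
    rw [FA.Mazur.Wp.eta, tpi] at h2
    rw [h2]
    congr 1
    ring)
  have hxM : x ^ M = 1 := by
    refine valC_injective A ?_
    rw [map_pow, valC_zetaA_zpow, map_one, FA.Mazur.Wp.eta, ← Complex.exp_nat_mul, tpi]
    rw [show (M : ℂ) * (2 * Real.pi * I * b / M) = (b : ℂ) * (2 * Real.pi * I) by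
      have : (M : ℂ) ≠ 0 := by exact_mod_cast NeZero.ne M
      field_simp]
    exact Complex.exp_int_mul_two_pi_mul_I b
  intro h1
  have h0 : (∑ i ∈ Finset.range M, x ^ i) * (x - 1) = 0 := by
    rw [geom_sum_mul, hxM, sub_self]
  have h2 := (mul_eq_zero.1 h0).resolve_right (sub_ne_zero.2 hx1)
  have h3 := congrArg π h2
  rw [map_sum, map_zero] at h3
  simp only [map_pow, h1, one_pow, Finset.sum_const, Finset.card_range, nsmul_eq_mul,
    mul_one] at h3
  exact hk h3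

variable (hπ0 : ∀ a : A, π a = 0 ↔ A.valuation a < 1)

include hπ0 in
theorem isUnit_of_pi_ne_zero {a : A} (h : π a ≠ 0) : IsUnit a :=
  (A.valuation_eq_one_iff a).2 (le_antisymm ((A.valuation_le_one_iff _).2 a.2)
    (le_of_not_gt fun hlt => h ((hπ0 a).2 hlt)))

/-- `η / (1 - η)²` of a root of unity. -/
def yVal {R : Type} [Field R] (η : R) : R := η / (1 - η) ^ 2

include hπ0 in
/-- The series of the difference. -/
theorem exists_diffSer (hk : (M : k) ≠ 0) (c : ℕ) {v : ℤ × ℤ} (hv : Good M c v) :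
    ∃ D : PowerSeries A,
      HasExp (qp M) (fun τ => xVal M v.1 v.2 τ - xVal M (c * v.1) (c * v.2) τ)
        (coeffMap (valC A) (HahnSeries.ofPowerSeries ℤ A D)) ∧
      ((M : ℤ) ∣ v.1 → π (PowerSeries.constantCoeff D) =
        yVal (π ((zetaA A M ^ v.2 : Aˣ) : A)) -
          yVal (π ((zetaA A M ^ ((c : ℤ) * v.2) : Aˣ) : A))) := by
  classical
  set ηA : A := ((zetaA A M ^ v.2 : Aˣ) : A) with hη
  set ηA' : A := ((zetaA A M ^ ((c : ℤ) * v.2) : Aˣ) : A) with hη'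
  have hunit : ∀ {b : ℤ}, ¬ (M : ℤ) ∣ b → IsUnit (1 - ((zetaA A M ^ b : Aˣ) : A)) := fun hb =>
    isUnit_of_pi_ne_zero π hπ0 (by
      rw [map_sub, map_one, sub_ne_zero]
      exact (pi_zetaA_zpow_ne_one π hk hb).symm)
  let cst : A := (if (M : ℤ) ∣ v.1 then ηA * Ring.inverse (1 - ηA) ^ 2 else 0) -
    if (M : ℤ) ∣ (c : ℤ) * v.1 then ηA' * Ring.inverse (1 - ηA') ^ 2 else 0
  let co : ℤ → A → A → ℕ → A := fun a η ηi N => ∑ x ∈ Nat.divisorsAntidiagonal (N + 1),
    (x.1 : A) * ((if (M : ℤ) ∣ (x.2 : ℤ) - a then η ^ x.1 else 0) +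
      (if (M : ℤ) ∣ (x.2 : ℤ) + a then ηi ^ x.1 else 0) -
      (if (M : ℤ) ∣ (x.2 : ℤ) then 2 else 0))
  let D : PowerSeries A := PowerSeries.mk fun N => match N with
    | 0 => cst
    | N + 1 => co v.1 ηA (((zetaA A M ^ v.2)⁻¹ : Aˣ) : A) N -
        co (c * v.1) ηA' (((zetaA A M ^ ((c : ℤ) * v.2))⁻¹ : Aˣ) : A) N
  have hinv : ∀ b : ℤ, valC A (((zetaA A M ^ b)⁻¹ : Aˣ) : A) = (FA.Mazur.Wp.eta M b)⁻¹ := fun b => by
    rw [← valC_zetaA_zpow (A := A)]
    refine eq_inv_of_mul_eq_one_left ?_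
    rw [← map_mul, ← Units.val_mul, inv_mul_cancel, Units.val_one, map_one]
  have hy : ∀ {b : ℤ}, ¬ (M : ℤ) ∣ b →
      valC A (((zetaA A M ^ b : Aˣ) : A) * Ring.inverse (1 - ((zetaA A M ^ b : Aˣ) : A)) ^ 2) =
        FA.Mazur.Wp.eta M b / (1 - FA.Mazur.Wp.eta M b) ^ 2 := fun {b} hb => by
    obtain ⟨u, hu⟩ := hunit hb
    rw [← hu, Ring.inverse_unit, map_mul, map_pow, valC_zetaA_zpow, div_eq_mul_inv, ← inv_pow]
    congr 2
    refine eq_inv_of_mul_eq_one_left ?_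
    rw [← valC_zetaA_zpow (A := A) (M := M) b, ← map_one (valC A), ← map_sub, ← hu, ← map_mul,
      Units.inv_mul]
  have hc1 : (M : ℤ) ∣ v.1 → ¬ (M : ℤ) ∣ v.2 := fun h h' => hv.1 ⟨h, h'⟩
  have hc2 : (M : ℤ) ∣ (c : ℤ) * v.1 → ¬ (M : ℤ) ∣ (c : ℤ) * v.2 := fun h h' => hv.2 ⟨h, h'⟩
  refine ⟨D, ?_, fun h => ?_⟩
  · have h1 := (hasExp_xVal (p := M) v.1 v.2 hv.1).sub
      (hasExp_xVal (p := M) ((c : ℤ) * v.1) ((c : ℤ) * v.2) hv.2)
    rw [← map_sub] at h1
    convert h1.congr (g := fun τ => xVal M v.1 v.2 τ - xVal M (c * v.1) (c * v.2) τ) rfl using 1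
    rw [coeffMap_ofPowerSeries]
    congr 1
    ext N
    rw [PowerSeries.coeff_map, map_sub, xSer, xSer, PowerSeries.coeff_mk, PowerSeries.coeff_mk,
      PowerSeries.coeff_mk]
    cases N with
    | zero =>
      simp only [cst, xCoeff, map_sub]
      rw [apply_ite (valC A), apply_ite (valC A), map_zero]
      split_ifs with h3 h4 h4 <;>
        first
        | (rw [hy (hc1 h3), hy (hc2 h4)]; ring)
        | (rw [hy (hc1 h3)]; ring)
        | (rw [hy (hc2 h4)]; ring)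
        | ring
    | succ N =>
      simp only [co, xCoeff, map_sub, map_sum, map_mul, map_natCast, map_add, apply_ite (valC A),
        map_pow, map_zero, map_ofNat, hinv]
      rw [hη, hη', valC_zetaA_zpow, valC_zetaA_zpow]
  · rw [← PowerSeries.coeff_zero_eq_constantCoeff_apply, PowerSeries.coeff_mk]
    simp only [cst, if_pos h, if_pos (h.mul_left (c : ℤ)), map_sub, map_mul, map_pow, yVal]
    have e : ∀ {b : ℤ}, ¬ (M : ℤ) ∣ b →
        π (Ring.inverse (1 - ((zetaA A M ^ b : Aˣ) : A))) =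
          (1 - π ((zetaA A M ^ b : Aˣ) : A))⁻¹ := fun {b} hb => by
      obtain ⟨u, hu⟩ := hunit hb
      refine eq_inv_of_mul_eq_one_left ?_
      rw [← map_one π, ← map_sub, ← hu, Ring.inverse_unit, ← map_mul, Units.inv_mul]
    rw [hη, hη', e (hc1 h), e (hc2 (h.mul_left _)), div_eq_mul_inv, div_eq_mul_inv, inv_pow,
      inv_pow]

include hπ0 in
/-- **Integrality and the leading coefficient.** -/
theorem exists_absI (hk : (M : k) ≠ 0) (c : ℕ) {v : ℤ × ℤ} (hv : Good M c v) :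
    ∃ F : intFun A M, (F : ℍ → ℂ) = absDiff M c v ∧
      ∀ g : SL(2, ℤ), (M : ℤ) ∣ (rowMul v g).1 → (redG M π g F).coeff (-(M : ℤ)) =
        -(yVal (π ((zetaA A M ^ (rowMul v g).2 : Aˣ) : A)) -
          yVal (π ((zetaA A M ^ ((c : ℤ) * (rowMul v g).2) : Aˣ) : A))) := by
  classical
  choose D hD hD0 using fun g : SL(2, ℤ) => exists_diffSer π hπ0 hk c (hv.rowMul g)
  set W : LaurentSeries A :=
    HahnSeries.single (-1 : ℤ) 1 *
      HahnSeries.ofPowerSeries ℤ A (weightPow.map (Int.castRingHom A))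
  have hW : HasExp (qp M) wFac (coeffMap (valC A) (qExpand A M W)) := by
    rw [coeffMap_qExpand, map_mul, coeffMap_single, map_one, coeffMap_ofPowerSeries,
      show (weightPow.map (Int.castRingHom A)).map (valC A) =
        weightPow.map (Int.castRingHom ℂ) by ext n; simp]
    exact hasExp_width hasExp_wFac
  have hser : ∀ g : SL(2, ℤ), HasExp (qp M) (fun z => absDiff M c v (g • z))
      (coeffMap (valC A) (qExpand A M W * HahnSeries.ofPowerSeries ℤ A (D g))) := fun g => by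
    rw [map_mul]
    exact (hW.mul (qp_ne_zero M) (hD g)).congr (funext fun z => (absDiff_smul c v g z).symm)
  have hinv : ∀ γ ∈ Gamma M, ∀ z, absDiff M c v (γ • z) = absDiff M c v z := by
    intro γ hγ z
    rw [absDiff_smul]
    refine congrFun (absDiff_congr c (Or.inl ?_)) z
    rw [Gamma_mem] at hγ
    obtain ⟨h00, h01, h10, h11⟩ := hγ
    constructor <;>
      · rw [← ZMod.intCast_zmod_eq_zero_iff_dvd]
        simp [rowMul, h00, h01, h10, h11]
  have hmd : MDiff (absDiff M c v) := mdiff_wFac.mul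
    ((mdiff_of_hasExp (hasExp_xVal (p := M) v.1 v.2 hv.1)).sub
      (mdiff_of_hasExp (hasExp_xVal (p := M) ((c : ℤ) * v.1) ((c : ℤ) * v.2) hv.2)))
  refine ⟨⟨_, hmd, hinv, fun g => ⟨_, hser g⟩⟩, rfl, fun g hg => ?_⟩
  show (coeffMap π (serAt _ g)).coeff _ = _
  rw [serAt_eq (hser g), coeffMap_coeff]
  have hW0 : FA.ModField.OrdGE (-(M : ℤ)) (qExpand A M W) := by
    intro i hi
    by_cases hdvd : (M : ℤ) ∣ i
    · obtain ⟨m, rfl⟩ := hdvd
      have hM : (0 : ℤ) < M := by exact_mod_cast NeZero.pos M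
      rw [qExpand_coeff_mul, show m = (m + 1) + (-1) by ring,
        HahnSeries.coeff_single_mul_add, ofPowerSeries_coeff_of_neg _ (by nlinarith), mul_zero]
    · exact qExpand_coeff_of_not_dvd M _ hdvd
  have hWc : (qExpand A M W).coeff (-(M : ℤ)) = -1 := by
    rw [show -(M : ℤ) = (M : ℤ) * (-1) by ring, qExpand_coeff_mul,
      show (-1 : ℤ) = 0 + (-1) by ring, HahnSeries.coeff_single_mul_add, one_mul,
      show (0 : ℤ) = ((0 : ℕ) : ℤ) by rfl, HahnSeries.ofPowerSeries_apply_coeff,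
      PowerSeries.coeff_map, PowerSeries.coeff_zero_eq_constantCoeff]
    simp [weightPow, FA.Mazur.Moduli.eisSix, ModularCurve.eisenstein4,
      ModularCurve.dedekindEtaUnitInv]
  have hD' : FA.ModField.OrdGE 0 (HahnSeries.ofPowerSeries ℤ A (D g)) := fun i hi =>
    ofPowerSeries_coeff_of_neg _ hi
  have hprod : (qExpand A M W * HahnSeries.ofPowerSeries ℤ A (D g)).coeff (-(M : ℤ)) =
      (qExpand A M W).coeff (-(M : ℤ)) * (HahnSeries.ofPowerSeries ℤ A (D g)).coeff 0 := by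
    rw [HahnSeries.coeff_mul]
    refine Finset.sum_eq_single (-(M : ℤ), 0) (fun x hx hne => ?_) (fun hn => ?_)
    · obtain ⟨-, -, h3⟩ := Finset.mem_antidiagonal.1 hx
      by_cases h1 : x.1 < -(M : ℤ)
      · rw [hW0 _ h1, zero_mul]
      · rcases eq_or_ne x.2 0 with h2 | h2
        · exact absurd (Prod.ext (by omega) h2) hne
        · rw [hD' _ (by omega), mul_zero]
    · simp only [Finset.mem_antidiagonal, HahnSeries.mem_support, add_zero, and_true,
        not_and_or, not_not] at hn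
      rcases hn with h | h <;> simp [h]
  rw [hprod, hWc, map_mul, map_neg, map_one, neg_one_mul,
    show (0 : ℤ) = ((0 : ℕ) : ℤ) by rfl, HahnSeries.ofPowerSeries_apply_coeff,
    PowerSeries.coeff_zero_eq_constantCoeff, hD0 g hg]

/-- The value determines the root of unity up to inversion. -/
theorem eq_or_eq_inv_of_yVal_eq {R : Type} [Field R] {x z : R} (hx : x ≠ 1) (hz : z ≠ 1)
    (h : yVal x = yVal z) : x = z ∨ x * z = 1 := by
  have h1 : (1 - x) ^ 2 ≠ 0 := pow_ne_zero 2 (sub_ne_zero.2 hx.symm)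
  have h2 : (1 - z) ^ 2 ≠ 0 := pow_ne_zero 2 (sub_ne_zero.2 hz.symm)
  rw [yVal, yVal, div_eq_div_iff h1 h2] at h
  have h3 : (x - z) * (1 - x * z) = 0 := by linear_combination h
  rcases mul_eq_zero.1 h3 with h4 | h4
  · exact Or.inl (sub_eq_zero.1 h4)
  · exact Or.inr (sub_eq_zero.1 h4).symm

theorem yVal_inv {R : Type} [Field R] {x : R} (hx : x ≠ 0) : yVal x⁻¹ = yVal x := by
  rw [yVal, yVal]
  rcases eq_or_ne x 1 with rfl | h1
  · simp
  · have : 1 - x ≠ 0 := sub_ne_zero.2 h1.symm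
    have : x - 1 ≠ 0 := sub_ne_zero.2 h1
    field_simp
    ring

end FA.Weight1

end
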