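import Fermat.Agent.CurveRed.ModularBase
import Fermat.Agent.Level.Gamma0
import Fermat.Agent.Level.Interp
import Fermat.Agent.Weight1.Defs
import Mathlib.Algebra.Group.Subgroup.Finite

/-!
# The `q`-expansion principle modulo a place prime to the level

On the ring of `Γ(M)`-invariant functions with integral expansions at every cusp the functions
vanishing modulo the place at `∞` vanish modulo it at every cusp.  For the `Γ₀(M)`-invariant ones
this is the degree `ψ(M)` downstairs; the product over `Γ₀(M)/Γ(M)` and prime avoidance show that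
the set of such `g` meets every `Γ₀(M)`-class, and it contains `T`, hence is all of `SL₂(ℤ)`.
-/

set_option autoImplicit false
set_option linter.style.haveILetI false
set_option linter.unusedSectionVars false
set_option synthInstance.maxHeartbeats 400000
set_option maxHeartbeats 1600000

noncomputable section

namespace FA.Weight1

open UpperHalfPlane hiding I
open Complex hiding Gamma
open CongruenceSubgroup ModularCurve FA.ModField FA.Level Polynomial
open scoped MatrixGroups Manifold

variable {L : Type} [Field L] [CharZero L] [Algebra L ℂ] [IsAlgClosed L] {k : Type} [Field k]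
  [IsAlgClosed k] (A : ValuationSubring L)

/-- The integers of the place inside `ℂ`. -/
def valC : A →+* ℂ := (algebraMap L ℂ).comp A.subtype

theorem valC_injective : Function.Injective (valC A) :=
  (algebraMap L ℂ).injective.comp A.subtype_injective

theorem coeffMap_valC (s : LaurentSeries A) :
    coeffMap (algebraMap L ℂ) (coeffMap (A.subtype : A →+* L) s) = coeffMap (valC A) s := by
  rw [coeffMap_coeffMap]; rfl

variable (M : ℕ) [NeZero M]

/-- Invariant under `Γ(M)` with integral expansions at every cusp. -/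
def intFun : Subring (ℍ → ℂ) where
  carrier := {f | MDiff f ∧ (∀ γ ∈ Gamma M, ∀ z, f (γ • z) = f z) ∧
    ∀ g : SL(2, ℤ), ∃ s : LaurentSeries A,
      HasExp (qp M) (fun z => f (g • z)) (coeffMap (valC A) s)}
  one_mem' := ⟨mdifferentiable_const, fun _ _ _ => rfl,
    fun _ => ⟨1, by rw [map_one]; exact hasExp_one⟩⟩
  zero_mem' := ⟨mdifferentiable_const, fun _ _ _ => rfl,
    fun _ => ⟨0, by rw [map_zero]; exact hasExp_zero⟩⟩
  add_mem' := by
    rintro f f' ⟨h1, h2, h3⟩ ⟨h1', h2', h3'⟩
    refine ⟨h1.add h1', fun γ hγ z => by simp only [Pi.add_apply, h2 γ hγ z, h2' γ hγ z],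
      fun g => ?_⟩
    obtain ⟨s, hs⟩ := h3 g
    obtain ⟨s', hs'⟩ := h3' g
    exact ⟨s + s', by rw [map_add]; exact hs.add hs'⟩
  mul_mem' := by
    rintro f f' ⟨h1, h2, h3⟩ ⟨h1', h2', h3'⟩
    refine ⟨h1.mul h1', fun γ hγ z => by simp only [Pi.mul_apply, h2 γ hγ z, h2' γ hγ z],
      fun g => ?_⟩
    obtain ⟨s, hs⟩ := h3 g
    obtain ⟨s', hs'⟩ := h3' g
    exact ⟨s * s', by rw [map_mul]; exact hs.mul (qp_ne_zero M) hs'⟩
  neg_mem' := by
    rintro f ⟨h1, h2, h3⟩
    refine ⟨h1.neg, fun γ hγ z => by simp only [Pi.neg_apply, h2 γ hγ z], fun g => ?_⟩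
    obtain ⟨s, hs⟩ := h3 g
    exact ⟨-s, by rw [map_neg]; exact hs.neg⟩

variable {A M}

/-- The series at `g`. -/
def serAt (f : intFun A M) (g : SL(2, ℤ)) : LaurentSeries A := (f.2.2.2 g).choose

theorem serAt_spec (f : intFun A M) (g : SL(2, ℤ)) :
    HasExp (qp M) (fun z => (f : ℍ → ℂ) (g • z)) (coeffMap (valC A) (serAt f g)) :=
  (f.2.2.2 g).choose_spec

theorem serAt_eq {f : intFun A M} {g : SL(2, ℤ)} {s : LaurentSeries A}
    (h : HasExp (qp M) (fun z => (f : ℍ → ℂ) (g • z)) (coeffMap (valC A) s)) : serAt f g = s :=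
  coeffMap_injective' (valC_injective A) ((serAt_spec f g).unique (covers_qp M) h)

variable (A M) in
/-- The series at `g`, as a homomorphism. -/
def serHom (g : SL(2, ℤ)) : intFun A M →+* LaurentSeries A where
  toFun f := serAt f g
  map_one' := serAt_eq (by rw [map_one]; exact hasExp_one)
  map_zero' := serAt_eq (by rw [map_zero]; exact hasExp_zero)
  map_add' f f' := serAt_eq (by rw [map_add]; exact (serAt_spec f g).add (serAt_spec f' g))
  map_mul' f f' := serAt_eq (by
    rw [map_mul]; exact (serAt_spec f g).mul (qp_ne_zero M) (serAt_spec f' g))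

theorem serHom_injective (g : SL(2, ℤ)) : Function.Injective (serHom A M g) := by
  rw [injective_iff_map_eq_zero]
  intro f hf
  have h := serAt_spec f g
  rw [show serAt f g = 0 from hf, map_zero] at h
  have h0 := h.fun_unique hasExp_zero
  refine Subtype.ext (funext fun z => ?_)
  simpa [smul_smul] using congrFun h0 (g⁻¹ • z)

variable (π : A →+* k)

variable (M) in
/-- The reduction at `g`. -/
def redG (g : SL(2, ℤ)) : intFun A M →+* LaurentSeries k :=
  (coeffMap π).comp (serHom A M g)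

/-- The translate. -/
def moveF (g : SL(2, ℤ)) (f : intFun A M) : intFun A M :=
  ⟨fun z => (f : ℍ → ℂ) (g • z), mdiff_comp_smul f.2.1 g, fun γ hγ z => by
    show (f : ℍ → ℂ) (g • γ • z) = _
    rw [smul_smul, show g * γ = (g * γ * g⁻¹) * g by group, mul_smul]
    haveI : (Gamma M).Normal := Gamma_normal M
    exact f.2.2.1 _ (Subgroup.Normal.conj_mem inferInstance γ hγ g) _,
    fun h => ⟨serAt f (g * h), by simpa [mul_smul] using serAt_spec f (g * h)⟩⟩

theorem redG_moveF (g h : SL(2, ℤ)) (f : intFun A M) :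
    redG M π h (moveF g f) = redG M π (g * h) f := by
  have e : serAt (moveF g f) h = serAt f (g * h) := serAt_eq (by
    show HasExp _ (fun z => (f : ℍ → ℂ) (g • h • z)) _
    simpa [mul_smul] using serAt_spec f (g * h))
  exact congrArg (coeffMap π) e

theorem redG_Gamma_mul {γ : SL(2, ℤ)} (hγ : γ ∈ Gamma M) (g : SL(2, ℤ)) (f : intFun A M) :
    redG M π (γ * g) f = redG M π g f := by
  have e : serAt f (γ * g) = serAt f g := serAt_eq ((serAt_spec f g).congr
    (funext fun z => by rw [mul_smul]; exact (f.2.2.1 γ hγ _).symm))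
  exact congrArg (coeffMap π) e

variable (M) in
/-- The `g` at which functions vanishing at `∞` vanish. -/
def stabP : Set SL(2, ℤ) := {g | ∀ f : intFun A M, redG M π 1 f = 0 → redG M π g f = 0}

theorem mul_mem_stabP {g h : SL(2, ℤ)} (hg : g ∈ stabP M π) (hh : h ∈ stabP M π) :
    g * h ∈ stabP M π := fun f hf => by
  rw [← redG_moveF]
  exact hh _ (by rw [redG_moveF, mul_one]; exact hg f hf)

theorem Gamma_le_stabP {γ : SL(2, ℤ)} (hγ : γ ∈ Gamma M) : γ ∈ stabP M π := fun f hf => by
  rw [← mul_one γ, redG_Gamma_mul π hγ]; exact hf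

theorem pow_mem_stabP {g : SL(2, ℤ)} (hg : g ∈ stabP M π) (n : ℕ) : g ^ n ∈ stabP M π := by
  induction n with
  | zero => rw [pow_zero]; exact Gamma_le_stabP π (one_mem _)
  | succ n ih => rw [pow_succ]; exact mul_mem_stabP π ih hg

theorem inv_mem_stabP {g : SL(2, ℤ)} (hg : g ∈ stabP M π) : g⁻¹ ∈ stabP M π := by
  haveI : (Gamma M).Normal := Gamma_normal M
  haveI : Finite (SL(2, ℤ) ⧸ Gamma M) := Subgroup.finite_quotient_of_finiteIndex
  obtain ⟨n, hn, hpow⟩ :=
    isOfFinOrder_iff_pow_eq_one.1 (isOfFinOrder_of_finite (g : SL(2, ℤ) ⧸ Gamma M))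
  rw [← QuotientGroup.mk_pow, QuotientGroup.eq_one_iff] at hpow
  obtain ⟨m, rfl⟩ := Nat.exists_eq_succ_of_ne_zero hn.ne'
  rw [show g⁻¹ = g ^ m * (g ^ (m + 1))⁻¹ by
    rw [pow_succ' g m, mul_inv_rev, mul_inv_cancel_left]]
  exact mul_mem_stabP π (pow_mem_stabP π hg m) (Gamma_le_stabP π (inv_mem hpow))

variable (M) in
/-- `stabP` as a subgroup. -/
def stabGrp : Subgroup SL(2, ℤ) where
  carrier := stabP M π
  one_mem' := Gamma_le_stabP π (one_mem _)
  mul_mem' := mul_mem_stabP π
  inv_mem' := inv_mem_stabP π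

/-- A primitive root of unity of `A` lying over `zetaN M`. -/
theorem exists_zeta : ∃ ζ : Aˣ, valC A ζ = (zetaN M : ℂ) := by
  have h1 : (zetaN M : ℂ) ^ M = 1 := (zetaN_prim M).pow_eq_one
  obtain ⟨x, hx⟩ : ∃ x : L, algebraMap L ℂ x = (zetaN M : ℂ) := by
    have hint : IsIntegral L (zetaN M : ℂ) :=
      IsIntegral.of_pow (NeZero.pos M) (by rw [h1]; exact isIntegral_one)
    exact minpoly.degree_eq_one_iff.1 (IsAlgClosed.degree_eq_one_of_irreducible L
      (minpoly.irreducible hint))
  have hxM : x ^ M = 1 := (algebraMap L ℂ).injective (by rw [map_pow, hx, h1, map_one])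
  have hv : A.valuation x = 1 := by
    have := congrArg A.valuation hxM
    rw [map_pow, map_one] at this
    exact (pow_eq_one_iff_of_nonneg zero_le' (NeZero.ne M)).1 this
  refine ⟨(((A.valuation_eq_one_iff ⟨x, (A.valuation_le_one_iff x).1 hv.le⟩).2 hv)).unit, ?_⟩
  exact hx

theorem T_mem_stabP :
    ModularGroup.T ∈ stabP M π := by
  obtain ⟨ζ, hζ⟩ := exists_zeta (A := A) (M := M)
  intro f hf
  have h1 : serAt f ModularGroup.T = twist ζ (serAt f 1) := by
    refine serAt_eq ?_
    have h := (serAt_spec f 1).comp (U := qp M) (fun z => ModularGroup.T • z) 1 (zetaN M)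
      (fun z => by rw [pow_one, qp_T_smul])
    rw [qExpand_one_apply] at h
    convert h using 1
    · funext z; simp
    · ext n
      rw [coeffMap_coeff, twist_coeff, twist_coeff, coeffMap_coeff, map_mul,
        Units.val_zpow_eq_zpow_val]
      congr 1
      rw [← hζ]
      exact ((congrArg Units.val (map_zpow (Units.map (valC A : A →* ℂ)) ζ n)).trans
        (Units.val_zpow_eq_zpow_val _ _))
  ext n
  have hn := congrArg (fun s : LaurentSeries k => s.coeff n) hf
  simp only [redG, RingHom.comp_apply, coeffMap_coeff, HahnSeries.coeff_zero] at hn ⊢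
  rw [show serHom A M ModularGroup.T f = serAt f ModularGroup.T from rfl, h1, twist_coeff, map_mul,
    show π ((serAt f 1).coeff n) = 0 from hn, mul_zero]

/-- The step from `Γ₀(M)` to everything. -/
theorem stabGrp_eq_top
    (hbase : ∀ f : intFun A M, (∀ γ ∈ Gamma0 M, ∀ z, (f : ℍ → ℂ) (γ • z) = (f : ℍ → ℂ) z) →
      redG M π 1 f = 0 → ∀ g, redG M π g f = 0) :
    stabGrp M π = ⊤ := by
  classical
  haveI : (Gamma M).Normal := Gamma_normal M
  set K : Subgroup (Gamma0 M) := (Gamma M).subgroupOf (Gamma0 M)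
  haveI : Finite (SL(2, ℤ) ⧸ Gamma M) := Subgroup.finite_quotient_of_finiteIndex
  haveI : Finite (Gamma0 M ⧸ K) := Subgroup.finite_quotient_of_finiteIndex
  haveI := Fintype.ofFinite (Gamma0 M ⧸ K)
  -- every class of `Γ₀(M)` meets the stabiliser
  have hmeet : ∀ g : SL(2, ℤ), ∃ b ∈ Gamma0 M, b * g ∈ stabGrp M π := by
    intro g
    let N : intFun A M → intFun A M := fun f =>
      ∏ x : Gamma0 M ⧸ K, moveF ((Quotient.out x : Gamma0 M) : SL(2, ℤ)) f
    have hout : ∀ (f : intFun A M) (u : Gamma0 M) (z : ℍ),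
        (f : ℍ → ℂ) (((Quotient.out (u : Gamma0 M ⧸ K) : Gamma0 M) : SL(2, ℤ)) • z) =
          (f : ℍ → ℂ) ((u : SL(2, ℤ)) • z) := by
      intro f u z
      obtain ⟨h, hh⟩ := QuotientGroup.mk_out_eq_mul K u
      rw [show Quotient.out (u : Gamma0 M ⧸ K) = u * h from hh, Subgroup.coe_mul,
        show ((u : SL(2, ℤ)) * (h : Gamma0 M)) =
          ((u : SL(2, ℤ)) * (h : Gamma0 M) * (u : SL(2, ℤ))⁻¹) * u by group, mul_smul]
      exact f.2.2.1 _ (Subgroup.Normal.conj_mem inferInstance _ h.2 _) _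
    have hNinv : ∀ f, ∀ γ ∈ Gamma0 M, ∀ z, (N f : ℍ → ℂ) (γ • z) = (N f : ℍ → ℂ) z := by
      intro f γ hγ z
      simp only [N, SubmonoidClass.coe_finsetProd, Finset.prod_apply]
      refine Fintype.prod_equiv (Equiv.mulRight ((⟨γ, hγ⟩ : Gamma0 M) : Gamma0 M ⧸ K)) _ _
        fun x => ?_
      induction x using QuotientGroup.induction_on with
      | H u =>
        show (f : ℍ → ℂ) (_ • γ • z) = (f : ℍ → ℂ) (_ • z)
        simp only [Equiv.coe_mulRight, ← QuotientGroup.mk_mul]
        rw [hout, hout, Subgroup.coe_mul, mul_smul]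
    let Q : Gamma0 M ⧸ K → Ideal (intFun A M) := fun x =>
      RingHom.ker (redG M π (((Quotient.out x : Gamma0 M) : SL(2, ℤ)) * g))
    have hsub : (RingHom.ker (redG M π 1) : Set (intFun A M)) ⊆
        ⋃ x ∈ (↑(Finset.univ : Finset (Gamma0 M ⧸ K)) : Set (Gamma0 M ⧸ K)), Q x := by
      intro f hf
      have h0 : redG M π 1 (N f) = 0 := by
        simp only [N, map_prod, redG_moveF]
        refine Finset.prod_eq_zero (Finset.mem_univ ((1 : Gamma0 M) : Gamma0 M ⧸ K)) ?_
        obtain ⟨h, hh⟩ := QuotientGroup.mk_out_eq_mul K 1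
        rw [show Quotient.out ((1 : Gamma0 M) : Gamma0 M ⧸ K) = 1 * h from hh, one_mul,
          redG_Gamma_mul π (γ := ((h : Gamma0 M) : SL(2, ℤ))) h.2]
        exact hf
      have h1 := hbase _ (hNinv f) h0 g
      simp only [N, map_prod, redG_moveF] at h1
      obtain ⟨x, -, hx⟩ := Finset.prod_eq_zero_iff.1 h1
      exact Set.mem_biUnion (Finset.mem_univ x) hx
    obtain ⟨x, -, hx⟩ := (Ideal.subset_union_prime (((1 : Gamma0 M) : Gamma0 M ⧸ K)) ((1 : Gamma0 M) : Gamma0 M ⧸ K)
      (fun _ _ _ _ => RingHom.ker_isPrime _)).1 hsub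
    exact ⟨_, (Quotient.out x : Gamma0 M).2, fun f hf => hx hf⟩
  -- all conjugates of `T`
  have hconj : ∀ g : SL(2, ℤ), g * ModularGroup.T * g⁻¹ ∈ stabGrp M π := by
    intro g
    obtain ⟨b, hb, hd⟩ := hmeet g⁻¹
    set d := b * g⁻¹
    have e : g * ModularGroup.T * g⁻¹ = d⁻¹ * (b * ModularGroup.T * b⁻¹) * d := by
      simp only [d]; group
    rw [e]
    refine mul_mem (mul_mem (inv_mem hd) ?_) hd
    set n : ℤ := b.1 0 0 ^ 2
    rw [show b * ModularGroup.T * b⁻¹ =
      ModularGroup.T ^ n * ((ModularGroup.T ^ n)⁻¹ * (b * ModularGroup.T * b⁻¹)) by group]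
    refine mul_mem (zpow_mem (T_mem_stabP π) n) (Gamma_le_stabP π ?_)
    rw [Gamma0_mem] at hb
    have hdet : (b.1 0 0 : ZMod M) * (b.1 1 1 : ZMod M) = 1 := by
      have := congrArg (fun x : ℤ => (x : ZMod M)) b.2
      simp only [Matrix.det_fin_two, Int.cast_sub, Int.cast_mul, Int.cast_one] at this
      rwa [hb, mul_zero, sub_zero] at this
    rw [Gamma_mem, ← zpow_neg]
    simp only [Matrix.SpecialLinearGroup.coe_mul, ModularGroup.coe_T_zpow,
      Matrix.SpecialLinearGroup.coe_inv, Matrix.adjugate_fin_two, ModularGroup.coe_T, n]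
    simp [Matrix.mul_apply, Fin.sum_univ_two, hb]
    refine ⟨?_, ?_, ?_⟩ <;> grind
  rw [eq_top_iff, ← SpecialLinearGroup.SL2Z_generators, Subgroup.closure_le]
  have hT : ModularGroup.T ∈ stabGrp M π := T_mem_stabP π
  rintro _ (rfl | rfl)
  · have hL := inv_mem (hconj ModularGroup.S)
    rw [show (ModularGroup.S * ModularGroup.T * ModularGroup.S⁻¹)⁻¹ =
      ModularGroup.S * ModularGroup.T⁻¹ * ModularGroup.S⁻¹ by group] at hL
    have e : ModularGroup.S = ModularGroup.T⁻¹ *
        (ModularGroup.S * ModularGroup.T⁻¹ * ModularGroup.S⁻¹) * ModularGroup.T⁻¹ := by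
      apply Matrix.SpecialLinearGroup.ext
      simp [ModularGroup.S, ModularGroup.T, Matrix.mul_apply, Fin.sum_univ_two]
    show ModularGroup.S ∈ stabGrp M π
    rw [e]
    exact mul_mem (mul_mem (inv_mem hT) hL) (inv_mem hT)
  · exact hT

end FA.Weight1

end
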