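import Fermat.Agent.Weight1.Conn
import Fermat.Agent.ModField.Semistable.FrobSeries

/-!
# The `q`-expansion principle for `Γ₀(M)` and for `Γ(M)`

The monomials in `j(p^i z)` reduce to `ψ(M)` series independent over `k(j)`; a function invariant
under `Γ₀(M)` with integral expansions at all cusps is linearly dependent on them over `L(j)`,
so when it vanishes modulo the place at `∞` it does so at every cusp.
-/

set_option autoImplicit false
set_option linter.style.haveILetI false
set_option linter.unusedSectionVars false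
set_option synthInstance.maxHeartbeats 400000
set_option maxHeartbeats 1600000

noncomputable section

namespace FA.Weight1

open UpperHalfPlane hiding I
open Complex hiding Gamma
open CongruenceSubgroup ModularCurve FA.ModField FA.Level Polynomial FA.Curve
  FA.CurveRed.Modular
open scoped MatrixGroups Manifold

variable {L : Type} [Field L] [CharZero L] [Algebra L ℂ] [IsAlgClosed L] {k : Type} [Field k]
  [IsAlgClosed k] {A : ValuationSubring L} {M : ℕ} [NeZero M]

theorem qp_self_pow (z : ℍ) : qp M z ^ M = qp 1 z := qp_pow_self M z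

/-- From `qp 1` to `qp M`. -/
theorem hasExp_width {f : ℍ → ℂ} {s : LaurentSeries ℂ} (h : HasExp (qp 1) f s) :
    HasExp (qp M) f (qExpand ℂ M s) := by
  have h1 := h.comp (U := qp M) id M 1 fun z => by simp [qp_pow_self]
  rwa [twist_one_apply] at h1

/-- An invariant function has a series in `q` over `A`. -/
theorem exists_qSeries (f : intFun A M)
    (hT : ∀ z, (f : ℍ → ℂ) (ModularGroup.T • z) = (f : ℍ → ℂ) z) :
    ∃ Y : LaurentSeries A, HasExp (qp 1) (f : ℍ → ℂ) (coeffMap (valC A) Y) ∧
      serAt f 1 = qExpand A M Y := by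
  set s := serAt f 1
  have hs : HasExp (qp M) (f : ℍ → ℂ) (coeffMap (valC A) s) := by simpa using serAt_spec f 1
  have h1 := hs.comp (U := qp M) (fun z => ModularGroup.T • z) 1 (zetaN M)
    (fun z => by rw [pow_one, qp_T_smul])
  rw [qExpand_one_apply, show (f : ℍ → ℂ) ∘ (fun z => ModularGroup.T • z) = (f : ℍ → ℂ) from
    funext hT] at h1
  have htw := h1.unique (covers_qp M) hs
  have hzero : ∀ n : ℤ, ¬ (M : ℤ) ∣ n → s.coeff n = 0 := by
    intro n hn
    have h2 := congrArg (fun t : LaurentSeries ℂ => t.coeff n) htw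
    simp only [twist_coeff, coeffMap_coeff, Units.val_zpow_eq_zpow_val] at h2
    by_contra h0
    refine hn (((zetaN_prim M).zpow_eq_one_iff_dvd n).1 ?_)
    have h3 : valC A (s.coeff n) ≠ 0 := fun h3 => h0 (valC_injective A (h3.trans (map_zero _).symm))
    exact mul_right_cancel₀ h3 (h2.trans (one_mul _).symm)
  obtain ⟨g, hg⟩ : ∃ g : LaurentSeries ℂ, qExpand ℂ M g = coeffMap (valC A) s := by
    let g : LaurentSeries ℂ :=
      { coeff := fun n => (coeffMap (valC A) s).coeff ((M : ℤ) * n)
        isPWO_support' := Set.IsWF.isPWO (BddBelow.isWF ⟨(coeffMap (valC A) s).order ⊓ 0, fun n hn => by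
          have h2 := HahnSeries.order_le_of_coeff_ne_zero (Function.mem_support.1 hn)
          have hM : (1 : ℤ) ≤ M := by exact_mod_cast NeZero.pos M
          by_contra hlt
          push Not at hlt
          have hn0 : n < 0 := lt_of_lt_of_le hlt inf_le_right
          have h3 : n < (coeffMap (valC A) s).order := lt_of_lt_of_le hlt inf_le_left
          nlinarith⟩) }
    refine ⟨g, HahnSeries.ext (funext fun n => ?_)⟩
    by_cases hn : (M : ℤ) ∣ n
    · obtain ⟨m, rfl⟩ := hn
      rw [qExpand_coeff_mul]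
    · rw [qExpand_coeff_of_not_dvd M _ hn, coeffMap_coeff, hzero n hn, map_zero]
  obtain ⟨Y, hY, hYs⟩ := exists_qExpand_of_coeffMap M (valC_injective A) hg.symm
  refine ⟨Y, fun z => ?_, hYs.symm⟩
  rw [hY]
  have h2 := hs z
  rw [← hg] at h2
  have hinj : Function.Injective (fun n : ℤ => (M : ℤ) * n) :=
    mul_right_injective₀ (by exact_mod_cast NeZero.ne M)
  refine ((hinj.hasSum_iff fun n hn => ?_).2 h2).congr_fun fun n => ?_
  · rw [qExpand_coeff_of_not_dvd, zero_mul]
    rintro ⟨m, rfl⟩
    exact hn ⟨m, rfl⟩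
  · simp only [Function.comp_apply, qExpand_coeff_mul, zpow_mul, zpow_natCast, qp_pow_self]

theorem mem_fullC_of_invariant [Algebra ℚ L] (f : intFun A M)
    (hinv : ∀ γ ∈ Gamma0 M, ∀ z, (f : ℍ → ℂ) (γ • z) = (f : ℍ → ℂ) z)
    {Y : LaurentSeries A} (hY : HasExp (qp 1) (f : ℍ → ℂ) (coeffMap (valC A) Y)) :
    coeffMap (A.subtype : A →+* L) Y ∈ modularFunctionFieldFullC L M := by
  rw [← lvlGamma0_fld M L]
  exact (lvlGamma0 M).mem_fld_of_modFuns (R := (f : ℍ → ℂ))
    ⟨f.2.1, hinv, ⟨_, hY⟩, fun g => ⟨_, serAt_spec f g⟩⟩ _ (by rwa [coeffMap_valC])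

/-- A constant. -/
def constF : A →+* intFun A M where
  toFun a := ⟨fun _ => valC A a, mdifferentiable_const, fun _ _ _ => rfl,
    fun _ => ⟨HahnSeries.C a, by rw [coeffMap_C]; exact hasExp_C _⟩⟩
  map_one' := Subtype.ext (funext fun _ => map_one _)
  map_zero' := Subtype.ext (funext fun _ => map_zero _)
  map_add' a b := Subtype.ext (funext fun _ => map_add (valC A) a b)
  map_mul' a b := Subtype.ext (funext fun _ => map_mul (valC A) a b)

theorem serAt_constF (a : A) (g : SL(2, ℤ)) :
    serAt (constF (M := M) a) g = HahnSeries.C a :=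
  serAt_eq (by rw [coeffMap_C]; exact hasExp_C _)

variable (A M) in
/-- `j` among the integral functions. -/
def jI : intFun A M :=
  ⟨jfun, mdiff_jfun, fun γ _ z => jfun_smul γ z, fun g => ⟨qExpand A M (jqModC A), by
    rw [coeffMap_qExpand, coeffMap_jqModC]
    exact (hasExp_width hasExp_jfun).congr (funext fun z => (jfun_smul g z).symm)⟩⟩

theorem serAt_jI (g : SL(2, ℤ)) : serAt (jI A M) g = qExpand A M (jqModC A) :=
  serAt_eq (by
    rw [coeffMap_qExpand, coeffMap_jqModC]
    exact (hasExp_width hasExp_jfun).congr (funext fun z => (jfun_smul g z).symm))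

variable (π : A →+* k)

theorem redG_constF (a : A) (g : SL(2, ℤ)) :
    redG M π g (constF a) = HahnSeries.C (π a) := by
  show coeffMap π (serAt (constF a) g) = _
  rw [serAt_constF, coeffMap_C]

theorem redG_jI (g : SL(2, ℤ)) : redG M π g (jI A M) = qExpand k M (jqModC k) := by
  show coeffMap π (serAt (jI A M) g) = _
  rw [serAt_jI, coeffMap_qExpand, coeffMap_jqModC]

variable (hπ0 : ∀ a : A, π a = 0 ↔ A.valuation a < 1)

/-- `j(d z)` among the integral functions, `d ∣ M`. -/
theorem exists_scaleI (hζ : ∃ ζ : Aˣ, valC A ζ = (zetaN M : ℂ)) (d : ℕ) [NeZero d] (hd : d ∣ M) :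
    ∃ F : intFun A M, (F : ℍ → ℂ) = fun z => jfun (scaleH d z) := by
  obtain ⟨h1, h2, -, -⟩ := scale_mem_modFuns M d hd
  refine ⟨⟨_, h1, fun γ hγ z => h2 γ ?_ z, fun g => ?_⟩, rfl⟩
  · rw [Gamma_mem] at hγ
    rw [Gamma0_mem]
    exact hγ.2.2.1
  obtain ⟨a, δ, b, ha, haδ, -, hw⟩ := exists_upper d g
  obtain ⟨e, he⟩ := hd
  obtain ⟨ζ, hζ⟩ := hζ
  have he0 : e ≠ 0 := fun h => NeZero.ne M (by rw [he, h, mul_zero])
  haveI : NeZero (a * a * e) := ⟨Nat.mul_ne_zero (Nat.mul_ne_zero ha.ne' ha.ne') he0⟩
  choose w hwc hwj using hw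
  refine ⟨qExpand A (a * a * e) (twist (ζ ^ (b * (a * e : ℕ))) (jqModC A)), ?_⟩
  have hc : coeffMap (valC A) (qExpand A (a * a * e) (twist (ζ ^ (b * (a * e : ℕ))) (jqModC A))) =
      qExpand ℂ (a * a * e) (twist (zetaN M ^ (b * (a * e : ℕ))) (jqModC ℂ)) := by
    rw [coeffMap_qExpand]
    congr 1
    ext n
    rw [coeffMap_coeff, twist_coeff, twist_coeff, map_mul, ← coeffMap_coeff, coeffMap_jqModC]
    congr 1
    have hz : Units.map (valC A : A →* ℂ) ζ = zetaN M := Units.ext hζ
    rw [← hz, ← map_zpow, ← map_zpow]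
    rfl
  rw [hc]
  have h := hasExp_jfun.comp (U := qp M) w (a * a * e) (zetaN M ^ (b * (a * e : ℕ))) ?_
  · exact h.congr (funext fun z => (hwj z).symm)
  intro z
  rw [qp_eq, qp_eq, Units.val_zpow_eq_zpow_val, zetaN, Units.val_mk0, ← Complex.exp_int_mul,
    ← Complex.exp_nat_mul, ← Complex.exp_add, hwc]
  congr 1
  have hM : (M : ℂ) = (a : ℂ) * δ * e := by exact_mod_cast he.trans (by rw [haδ])
  have hδne : (δ : ℂ) ≠ 0 := by
    intro h
    have : δ = 0 := by exact_mod_cast h
    rw [this, mul_zero] at haδ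
    exact NeZero.ne d haδ.symm
  have hane : (a : ℂ) ≠ 0 := by exact_mod_cast ha.ne'
  have hene : (e : ℂ) ≠ 0 := by exact_mod_cast he0
  push_cast
  rw [hM]
  field_simp
  ring

include hπ0 in
/-- **The base case.** -/
theorem redG_eq_zero_Gamma0 [Algebra ℚ L] (hk : ∀ r : ℕ, r.Prime → r ∣ M → (r : k) ≠ 0)
    (f : intFun A M) (hinv : ∀ γ ∈ Gamma0 M, ∀ z, (f : ℍ → ℂ) (γ • z) = (f : ℍ → ℂ) z)
    (h0 : redG M π 1 f = 0) (g : SL(2, ℤ)) : redG M π g f = 0 := by
  classical
  have hζ := exists_zeta (A := A) (M := M)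
  have hTmem : ModularGroup.T ∈ Gamma0 M := by rw [Gamma0_mem]; simp [ModularGroup.T]
  obtain ⟨w, hw, hli⟩ := exists_indep (k := k) M hk
  -- lifts
  have hlift : ∀ i, ∃ F : intFun A M,
      (∀ γ ∈ Gamma0 M, ∀ z, (F : ℍ → ℂ) (γ • z) = (F : ℍ → ℂ) z) ∧
        redG M π 1 F = qExpand k M (w i) := by
    intro i
    generalize hx : w i = x
    have hxmem : x ∈ Submonoid.closure (ppGens k M) := hx ▸ hw i
    clear hx
    induction hxmem using Submonoid.closure_induction with
    | mem x hx =>
      obtain ⟨r, e, hne, -, hd, rfl⟩ := hx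
      haveI := hne
      obtain ⟨F, hF⟩ := exists_scaleI hζ (r ^ e) hd
      refine ⟨F, fun γ hγ z => by rw [hF]; exact scale_smul_Gamma0 M _ hd hγ z, ?_⟩
      have e1 : serAt F 1 = qExpand A M (qExpand A (r ^ e) (jqModC A)) := serAt_eq (by
        rw [coeffMap_qExpand, coeffMap_qExpand, coeffMap_jqModC]
        refine (hasExp_width (hasExp_scale (r ^ e))).congr (funext fun z => ?_)
        rw [hF, one_smul])
      show coeffMap π (serAt F 1) = _
      rw [e1, coeffMap_qExpand, coeffMap_qExpand, coeffMap_jqModC]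
    | one => exact ⟨1, fun _ _ _ => rfl, by rw [map_one, map_one]⟩
    | mul x y _ _ hx hy =>
      obtain ⟨F, hF, hF'⟩ := hx
      obtain ⟨G, hG, hG'⟩ := hy
      exact ⟨F * G, fun γ hγ z => by
        simp only [Subring.coe_mul, Pi.mul_apply, hF γ hγ z, hG γ hγ z],
        by rw [map_mul, map_mul, hF', hG']⟩
  choose F hFinv hFred using hlift
  -- the family `f, F i`
  let v : Option (Fin (dedekindPsi M)) → intFun A M := fun o => o.elim f F
  have hvinv : ∀ o, ∀ γ ∈ Gamma0 M, ∀ z, (v o : ℍ → ℂ) (γ • z) = (v o : ℍ → ℂ) z := by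
    rintro (_ | i)
    exacts [hinv, hFinv i]
  choose Y hYexp hYser using fun o => exists_qSeries (v o) fun z => hvinv o _ hTmem z
  set E := modularFunctionFieldFullC L M
  let y : Option (Fin (dedekindPsi M)) → E := fun o =>
    ⟨_, mem_fullC_of_invariant (v o) (hvinv o) (hYexp o)⟩
  set K := IntermediateField.adjoin L {jElem L M}
  haveI : FiniteDimensional K E :=
    (FA.CurveRed.isFunctionField_fullC L M).finiteDimensional jElem_transcendental
  have hdep : ¬ LinearIndependent K y := fun h => by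
    have := h.fintype_card_le_finrank
    rw [finrank_up, Fintype.card_option, Fintype.card_fin] at this
    omega
  obtain ⟨c, hc, o₀, ho₀⟩ := Fintype.not_linearIndependent_iff.1 hdep
  have hfrac : ∀ o, ∃ r s : Polynomial L, s ≠ 0 ∧
      ((c o : K) : E) * aeval (jElem L M) s =
        aeval (jElem L M) r := by
    intro o
    obtain ⟨r, s, hrs⟩ := (IntermediateField.mem_adjoin_simple_iff L _).1 (c o).2
    by_cases h : aeval (jElem L M) s = 0
    · exact ⟨0, 1, one_ne_zero, by rw [hrs, h, div_zero, zero_mul, map_zero]⟩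
    · exact ⟨r, s, fun hs => h (by rw [hs, map_zero]), by rw [hrs, div_mul_cancel₀ _ h]⟩
  choose r s hs hrs using hfrac
  let P : Option (Fin (dedekindPsi M)) → Polynomial L := fun o =>
    r o * ∏ o' ∈ Finset.univ.erase o, s o'
  have hP : ∑ o, aeval (jElem L M) (P o) * y o = 0 := by
    have e : ∀ o, aeval (jElem L M) (P o) * y o =
        aeval (jElem L M) (∏ o', s o') * (c o • y o) := by
      intro o
      rw [IntermediateField.smul_def, smul_eq_mul, ← Finset.mul_prod_erase _ _ (Finset.mem_univ o)]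
      simp only [P, map_mul]
      rw [← hrs o]
      ring
    rw [Finset.sum_congr rfl fun o _ => e o, ← Finset.mul_sum, hc, mul_zero]
  have hP0 : P o₀ ≠ 0 := by
    refine mul_ne_zero (fun hr => ho₀ (Subtype.ext ?_))
      (Finset.prod_ne_zero_iff.2 fun o _ => hs o)
    have h := hrs o₀
    rw [hr, map_zero, mul_eq_zero] at h
    exact h.resolve_right fun h' =>
      hs o₀ (transcendental_iff.1 jElem_transcendental _ h')
  -- scale
  set D := Finset.univ.sup fun o => (P o).natDegree
  obtain ⟨⟨o₁, n₁⟩, hmax0, hmax⟩ := FA.CurveRed.ConstRed.exists_max_coeff A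
    (fun x : Option (Fin (dedekindPsi M)) × Fin (D + 1) => (P x.1).coeff x.2)
    ⟨⟨o₀, ⟨(P o₀).natDegree, Nat.lt_succ_of_le
      (Finset.le_sup (f := fun o => (P o).natDegree) (Finset.mem_univ o₀))⟩⟩,
      leadingCoeff_ne_zero.2 hP0⟩
  set c₁ := (P o₁).coeff n₁
  let Q : Option (Fin (dedekindPsi M)) → Polynomial A := fun o =>
    ∑ n : Fin (D + 1), monomial (n : ℕ) (⟨_, hmax (o, n)⟩ : A)
  have hQ : ∀ o, Polynomial.C c₁ * (Q o).map A.subtype = P o := by
    intro o
    ext n
    simp only [Q, coeff_C_mul, coeff_map, finsetSum_coeff, coeff_monomial]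
    by_cases hn : n < D + 1
    · rw [Finset.sum_eq_single ⟨n, hn⟩ (fun i _ hi => if_neg fun he => hi (Fin.ext he))
        (fun h' => absurd (Finset.mem_univ _) h'), if_pos rfl]
      exact mul_div_cancel₀ _ hmax0
    · rw [Finset.sum_eq_zero fun i _ => if_neg fun he => hn (by rw [← he]; exact i.2), map_zero,
        mul_zero, Polynomial.coeff_eq_zero_of_natDegree_lt]
      exact lt_of_le_of_lt (Finset.le_sup (f := fun o => (P o).natDegree) (Finset.mem_univ o))
        (by omega)
  have hQ1 : (Q o₁).map π ≠ 0 := fun h => by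
    have h1 := congrArg (fun q : Polynomial k => q.coeff (n₁ : ℕ)) h
    simp only [Q, coeff_map, finsetSum_coeff, coeff_monomial, Polynomial.coeff_zero] at h1
    rw [Finset.sum_eq_single n₁ (fun i _ hi => if_neg fun he => hi (Fin.ext he))
      (fun h' => absurd (Finset.mem_univ _) h'), if_pos rfl, hπ0] at h1
    simp [c₁, div_self hmax0] at h1
  -- the relation in `intFun`
  let Z : intFun A M := ∑ o, (Q o).eval₂ constF (jI A M) * v o
  have hev : ∀ (q : Polynomial A) (g : SL(2, ℤ)),
      redG M π g (q.eval₂ constF (jI A M)) =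
        qExpand k M ((q.map π).eval₂ HahnSeries.C (jqModC k)) := by
    intro q g
    rw [hom_eval₂, redG_jI, hom_eval₂, eval₂_map]
    congr 1
    refine RingHom.ext fun a => ?_
    simp only [RingHom.comp_apply, redG_constF]
    exact (qExpand_C M (π a)).symm
  have hZ0 : Z = 0 := by
    refine serHom_injective 1 ?_
    rw [map_zero, map_sum]
    have hser : ∀ o, serHom A M 1 ((Q o).eval₂ constF (jI A M) * v o) =
        qExpand A M ((Q o).eval₂ HahnSeries.C (jqModC A) * Y o) := by
      intro o
      rw [map_mul, map_mul, hom_eval₂, hom_eval₂,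
        show serHom A M 1 (jI A M) = _ from serAt_jI 1, show serHom A M 1 (v o) = _ from hYser o]
      congr 2
      refine RingHom.ext fun a => ?_
      show serAt (constF a) 1 = qExpand A M (HahnSeries.C a)
      rw [serAt_constF, qExpand_C]
    rw [Finset.sum_congr rfl fun o _ => hser o, ← map_sum]
    have hsum : ∑ o, (Q o).eval₂ HahnSeries.C (jqModC A) * Y o = 0 := by
      refine coeffMap_injective' A.subtype_injective ?_
      rw [map_zero, map_sum]
      have hc0 : (HahnSeries.C c₁ : LaurentSeries L) ≠ 0 := by simpa using hmax0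
      refine mul_left_cancel₀ hc0 ?_
      rw [mul_zero, Finset.mul_sum]
      refine Eq.trans (Finset.sum_congr rfl fun o _ => ?_)
        ((map_sum E.val _ _).symm.trans ((congrArg E.val hP).trans (map_zero _)))
      rw [map_mul (coeffMap _), hom_eval₂, coeffMap_jqModC, map_mul E.val, ← aeval_algHom_apply,
        ← hQ o, map_mul, aeval_C, ← mul_assoc, FA.CurveRed.algebraMap_eq_C]
      congr 1
      congr 1
      rw [show (E.val (jElem L M) : LaurentSeries L) = jqModC L from rfl, aeval_def, eval₂_map]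
      congr 1
      refine RingHom.ext fun a => ?_
      show coeffMap _ (HahnSeries.C a) = algebraMap L (LaurentSeries L) (a : L)
      rw [coeffMap_C, FA.CurveRed.algebraMap_eq_C]
      rfl
    rw [hsum, map_zero]
  have hred : ∀ g, ∑ o, qExpand k M (((Q o).map π).eval₂ HahnSeries.C (jqModC k)) *
      redG M π g (v o) = 0 := fun g => by
    have h := congrArg (redG M π g) hZ0
    simp only [Z, map_sum, map_mul, hev, map_zero] at h
    exact h
  have hbase : ∀ q : Polynomial k, q.eval₂ HahnSeries.C (jqModC k) ∈ baseJ k := fun q => by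
    induction q using Polynomial.induction_on' with
    | add a b ha hb => rw [eval₂_add]; exact add_mem ha hb
    | monomial n a =>
      rw [eval₂_monomial]
      refine mul_mem ?_ (pow_mem (IntermediateField.mem_adjoin_simple_self k _) n)
      rw [← FA.CurveRed.algebraMap_eq_C]
      exact IntermediateField.algebraMap_mem _ a
  have htr : ∀ q : Polynomial k, q.eval₂ HahnSeries.C (jqModC k) = 0 → q = 0 := fun q hq => by
    refine transcendental_iff.1 (FA.CurveRed.jBar_transcendental k M) q (Subtype.ext ?_)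
    rw [← IntermediateField.coe_val, ← aeval_algHom_apply, aeval_def]
    rw [show algebraMap k (LaurentSeries k) = HahnSeries.C from
      RingHom.ext fun a => FA.CurveRed.algebraMap_eq_C a]
    exact hq
  -- at infinity
  have hinf := hred 1
  rw [Fintype.sum_option] at hinf
  simp only [v, Option.elim, h0, mul_zero, zero_add, hFred, ← map_mul, ← map_sum] at hinf
  have hinf' : ∑ i, ((Q (some i)).map π).eval₂ HahnSeries.C (jqModC k) * w i = 0 := by
    exact (map_eq_zero_iff (qExpand k M) (RingHom.injective (qExpand k M))).1 hinf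
  let cc : Fin (dedekindPsi M) → baseJ k := fun i =>
    ⟨((Q (some i)).map π).eval₂ HahnSeries.C (jqModC k), hbase _⟩
  have hcc : ∑ i, cc i • w i = 0 := by
    refine (Finset.sum_congr rfl fun i _ => ?_).trans hinf'
    rw [IntermediateField.smul_def, smul_eq_mul]
  have hall := Fintype.linearIndependent_iff.1 hli cc hcc
  have hwQ : ∀ i, (Q (some i)).map π = 0 := fun i => htr _ (congrArg Subtype.val (hall i))
  have hQnone : (Q none).map π ≠ 0 := by
    rcases o₁ with _ | i
    · exact hQ1
    · exact absurd (hwQ i) hQ1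
  have hfin := hred g
  rw [Fintype.sum_option] at hfin
  simp only [v, Option.elim, hwQ, eval₂_zero, map_zero, zero_mul, Finset.sum_const_zero,
    add_zero, mul_eq_zero, map_eq_zero] at hfin
  exact hfin.resolve_left fun h => hQnone (htr _ h)

include hπ0 in
/-- **The `q`-expansion principle.** -/
theorem redG_eq_zero [Algebra ℚ L] (hk : ∀ r : ℕ, r.Prime → r ∣ M → (r : k) ≠ 0)
    {f : intFun A M} (h0 : redG M π 1 f = 0) (g : SL(2, ℤ)) : redG M π g f = 0 := by
  have h := stabGrp_eq_top π fun F hF hF0 g => redG_eq_zero_Gamma0 π hπ0 hk F hF hF0 g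
  have hg : g ∈ stabGrp M π := h ▸ Subgroup.mem_top g
  exact hg f h0

end FA.Weight1

end
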