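import Fermat.Agent.Weight1.Abscissa
import Fermat.Agent.NebLocal.LvlH

/-!
# The degree of the reduced field of `±Γ₁(M)` over the line of `j`

`kH` is generated by the reductions of `j`, `j(M z)` and a difference of abscissae; the monomials
in the last two separate the cosets of `±Γ₁(M)` after reduction at all cusps, so `kH` has degree
at least the index and contains the reductions of all integral series of the field of the level.
-/

set_option autoImplicit false
set_option linter.style.haveILetI false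
set_option linter.unusedSectionVars false
set_option synthInstance.maxHeartbeats 400000
set_option maxHeartbeats 1600000

noncomputable section

namespace FA.Weight1

open UpperHalfPlane hiding I
open Complex hiding Gamma
open CongruenceSubgroup ModularCurve FA.ModField FA.Level Polynomial
open FA.Mazur.Moduli (rowMul)
open FA.HeckeH1 (GamH ulHom ulHom_val mem_GamH_iff GamH_top GamH_le_top)
open FA.NebLocal (lvlH)
open scoped MatrixGroups Manifold

variable {L : Type} [Field L] [CharZero L] [Algebra ℚ L] [Algebra L ℂ] [IsAlgClosed L] {k : Type}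
  [Field k] [IsAlgClosed k] {A : ValuationSubring L} (π : A →+* k)

/-- Characteristics prime to the level. -/
theorem natCast_level_ne_zero {M : ℕ} [NeZero M]
    (hk : ∀ r : ℕ, r.Prime → r ∣ M → (r : k) ≠ 0) : (M : k) ≠ 0 := fun h => by
  obtain ⟨p, hp⟩ := CharP.exists k
  have hd := (CharP.cast_eq_zero_iff k p M).1 h
  rcases CharP.char_is_prime_or_zero k p with hpp | rfl
  · exact hk p hpp hd (CharP.cast_eq_zero k p)
  · exact NeZero.ne M (zero_dvd_iff.1 hd)

/-! ### Relations with integral coefficients -/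

/-- More series than the degree satisfy a relation over `A[j]` with nonzero reduction. -/
theorem exists_scaled_relation (V : Lvl) (hπ0 : ∀ a : A, π a = 0 ↔ A.valuation a < 1) {ι : Type}
    [Fintype ι] (hι : Fintype.card V.Cos < Fintype.card ι) (Y : ι → LaurentSeries A)
    (hY : ∀ i, coeffMap (A.subtype : A →+* L) (Y i) ∈ V.fld L) :
    ∃ Q : ι → Polynomial A, (∃ i, (Q i).map π ≠ 0) ∧
      ∑ i, (Q i).eval₂ HahnSeries.C (jqModC A) * Y i = 0 := by
  classical
  set E := V.fld L
  let y : ι → E := fun i => ⟨_, hY i⟩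
  haveI : FiniteDimensional (V.jFld L) E := V.finite_jFld L
  have hdep : ¬ LinearIndependent (V.jFld L) y := fun h => by
    have := h.fintype_card_le_finrank
    rw [V.finrank_jFld L] at this
    omega
  obtain ⟨c, hc, o₀, ho₀⟩ := Fintype.not_linearIndependent_iff.1 hdep
  have hfrac : ∀ o, ∃ r s : Polynomial L, s ≠ 0 ∧
      ((c o : V.jFld L) : E) * aeval (V.jF L) s = aeval (V.jF L) r := by
    intro o
    obtain ⟨r, s, hrs⟩ := (IntermediateField.mem_adjoin_simple_iff L _).1 (c o).2
    by_cases h : aeval (V.jF L) s = 0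
    · exact ⟨0, 1, one_ne_zero, by rw [hrs, h, div_zero, zero_mul, map_zero]⟩
    · exact ⟨r, s, fun hs => h (by rw [hs, map_zero]), by rw [hrs, div_mul_cancel₀ _ h]⟩
  choose r s hs hrs using hfrac
  let P : ι → Polynomial L := fun o => r o * ∏ o' ∈ Finset.univ.erase o, s o'
  have hP : ∑ o, aeval (V.jF L) (P o) * y o = 0 := by
    have e : ∀ o, aeval (V.jF L) (P o) * y o = aeval (V.jF L) (∏ o', s o') * (c o • y o) := by
      intro o
      rw [IntermediateField.smul_def, smul_eq_mul, ← Finset.mul_prod_erase _ _ (Finset.mem_univ o)]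
      simp only [P, map_mul]
      rw [← hrs o]
      ring
    rw [Finset.sum_congr rfl fun o _ => e o, ← Finset.mul_sum, hc, mul_zero]
  have hP0 : P o₀ ≠ 0 := by
    refine mul_ne_zero (fun hr => ho₀ (Subtype.ext ?_))
      (Finset.prod_ne_zero_iff.2 fun o _ => hs o)
    have h := hrs o₀
    rw [hr, map_zero, mul_eq_zero] at h
    exact h.resolve_right fun h' => hs o₀ (transcendental_iff.1 (V.jF_transcendental L) _ h')
  set D := Finset.univ.sup fun o => (P o).natDegree
  obtain ⟨⟨o₁, n₁⟩, hmax0, hmax⟩ := FA.CurveRed.ConstRed.exists_max_coeff A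
    (fun x : ι × Fin (D + 1) => (P x.1).coeff x.2)
    ⟨⟨o₀, ⟨(P o₀).natDegree, Nat.lt_succ_of_le
      (Finset.le_sup (f := fun o => (P o).natDegree) (Finset.mem_univ o₀))⟩⟩,
      leadingCoeff_ne_zero.2 hP0⟩
  set c₁ := (P o₁).coeff n₁
  let Q : ι → Polynomial A := fun o =>
    ∑ n : Fin (D + 1), monomial (n : ℕ) (⟨_, hmax (o, n)⟩ : A)
  have hQ : ∀ o, Polynomial.C c₁ * (Q o).map A.subtype = P o := by
    intro o
    ext n
    simp only [Q, coeff_C_mul, coeff_map, finsetSum_coeff, coeff_monomial]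
    by_cases hn : n < D + 1
    · rw [Finset.sum_eq_single ⟨n, hn⟩ (fun i _ hi => if_neg fun he => hi (Fin.ext he))
        (fun h' => absurd (Finset.mem_univ _) h'), if_pos rfl]
      exact mul_div_cancel₀ _ hmax0
    · rw [Finset.sum_eq_zero fun i _ => if_neg fun he => hn (by rw [← he]; exact i.2), map_zero,
        mul_zero, Polynomial.coeff_eq_zero_of_natDegree_lt]
      exact lt_of_le_of_lt (Finset.le_sup (f := fun o => (P o).natDegree) (Finset.mem_univ o))
        (by omega)
  refine ⟨Q, ⟨o₁, fun h => ?_⟩, ?_⟩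
  · have h1 := congrArg (fun q : Polynomial k => q.coeff (n₁ : ℕ)) h
    simp only [Q, coeff_map, finsetSum_coeff, coeff_monomial, Polynomial.coeff_zero] at h1
    rw [Finset.sum_eq_single n₁ (fun i _ hi => if_neg fun he => hi (Fin.ext he))
      (fun h' => absurd (Finset.mem_univ _) h'), if_pos rfl, hπ0] at h1
    simp [c₁, div_self hmax0] at h1
  · refine coeffMap_injective' A.subtype_injective ?_
    rw [map_zero, map_sum]
    have hc0 : (HahnSeries.C c₁ : LaurentSeries L) ≠ 0 := by simpa using hmax0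
    refine mul_left_cancel₀ hc0 ?_
    rw [mul_zero, Finset.mul_sum]
    refine Eq.trans (Finset.sum_congr rfl fun o _ => ?_)
      ((map_sum E.val _ _).symm.trans ((congrArg E.val hP).trans (map_zero _)))
    rw [map_mul (coeffMap _), hom_eval₂, coeffMap_jqModC, map_mul E.val, ← aeval_algHom_apply,
      ← hQ o, map_mul, aeval_C, ← mul_assoc, FA.CurveRed.algebraMap_eq_C]
    congr 1
    congr 1
    rw [show (E.val (V.jF L) : LaurentSeries L) = jqModC L from V.coe_jA L, aeval_def, eval₂_map]
    congr 1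
    refine RingHom.ext fun a => ?_
    show coeffMap _ (HahnSeries.C a) = algebraMap L (LaurentSeries L) (a : L)
    rw [coeffMap_C, FA.CurveRed.algebraMap_eq_C]
    rfl

/-- Reducing a relation. -/
theorem map_relation {ι : Type} [Fintype ι] {Q : ι → Polynomial A} {Y : ι → LaurentSeries A}
    (h : ∑ i, (Q i).eval₂ HahnSeries.C (jqModC A) * Y i = 0) :
    ∑ i, ((Q i).map π).eval₂ HahnSeries.C (jqModC k) * coeffMap π (Y i) = 0 := by
  have h2 := congrArg (coeffMap π) h
  rw [map_sum, map_zero] at h2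
  refine (Finset.sum_congr rfl fun i _ => ?_).trans h2
  rw [map_mul, hom_eval₂, coeffMap_jqModC, eval₂_map]
  congr 2
  exact RingHom.ext fun a => (coeffMap_C _ a).symm

/-! ### The two generators -/

variable (M : ℕ) [NeZero M]

/-- The auxiliary prime. -/
def auxJ : ℕ := if 2 ∣ M then 2 else 3

theorem auxJ_prime : (auxJ M).Prime := by
  unfold auxJ; split_ifs; exacts [Nat.prime_two, Nat.prime_three]

theorem auxJ_dvd (hj : 2 ∣ M ∨ 3 ∣ M) : auxJ M ∣ M := by
  unfold auxJ; split_ifs with h; exacts [h, hj.resolve_left h]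

theorem auxJ_unit {d : ℤ} (hd : ¬ (auxJ M : ℤ) ∣ d) :
    (auxJ M : ℤ) ∣ d - 1 ∨ (auxJ M : ℤ) ∣ d + 1 := by
  unfold auxJ at hd ⊢; split_ifs at hd ⊢ <;> omega

theorem good_vec (hj : 2 ∣ M ∨ 3 ∣ M) : Good M (M / auxJ M) (0, 1) :=
  Good.of_prime (auxJ_prime M) (auxJ_dvd M hj) fun h =>
    (auxJ_prime M).one_lt.ne' (by exact_mod_cast Int.eq_one_of_dvd_one (by positivity) h.2)

/-- The difference of abscissae used. -/
def bFun : ℍ → ℂ := absDiff M (M / auxJ M) (0, 1)

theorem bFun_inv {g : SL(2, ℤ)} (h10 : (M : ℤ) ∣ g 1 0)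
    (h11 : (M : ℤ) ∣ g 1 1 - 1 ∨ (M : ℤ) ∣ g 1 1 + 1) (z : ℍ) : bFun M (g • z) = bFun M z := by
  rw [bFun, absDiff_smul]
  refine congrFun (absDiff_congr _ ?_) z
  rcases h11 with h | h
  · exact Or.inl ⟨by simpa [rowMul] using h10, by simpa [rowMul] using h⟩
  · exact Or.inr ⟨by simpa [rowMul] using h10, by simpa [rowMul] using h⟩

variable {M}

theorem exists_aI : ∃ F : intFun A M, (F : ℍ → ℂ) = fun z => jfun (scaleH M z) :=
  exists_scaleI exists_zeta M dvd_rfl

variable (M) in
/-- `j(M z)` among the integral functions. -/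
def aI : intFun A M := (exists_aI (A := A) (M := M)).choose

theorem coe_aI : ((aI M : intFun A M) : ℍ → ℂ) = fun z => jfun (scaleH M z) :=
  (exists_aI (A := A) (M := M)).choose_spec

/-- At `∞`. -/
theorem serAt_aI_one : serAt (aI M : intFun A M) 1 = qExpand A M (qExpand A M (jqModC A)) :=
  serAt_eq (by
    rw [coeffMap_qExpand, coeffMap_qExpand, coeffMap_jqModC]
    refine (hasExp_width (hasExp_scale M)).congr (funext fun z => ?_)
    rw [coe_aI, one_smul])

/-- The stabiliser of the reduction of `j(M z)`. -/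
theorem dvd_of_redG_aI (g : SL(2, ℤ))
    (h : redG M π g (aI M) = redG M π 1 (aI M)) : (M : ℤ) ∣ g 1 0 := by
  obtain ⟨a, e, hne, c, he, haM, hac, hexp⟩ := exists_coset_exp M M dvd_rfl g
  have h1 : coeffMap (valC A) (serAt (aI M : intFun A M) g) =
      qExpand ℂ e (twist c (jqModC ℂ)) := by
    refine (serAt_spec (aI M) g).unique (covers_qp M) ?_
    simp only [coe_aI]
    exact hexp
  have hc := congrArg (fun s : LaurentSeries k => s.coeff ((M : ℤ) * ((M : ℤ) * -1))) h
  simp only [redG, RingHom.comp_apply, coeffMap_coeff] at hc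
  rw [show serHom A M 1 (aI M) = _ from serAt_aI_one, qExpand_coeff_mul, qExpand_coeff_mul] at hc
  rw [Nat.div_self (NeZero.pos M), mul_one] at he
  by_contra hnot
  have hlt : a < M := lt_of_le_of_ne (Nat.le_of_dvd (NeZero.pos M) haM)
    fun h => hnot (h ▸ hac)
  have h0 : (serAt (aI M : intFun A M) g).coeff ((M : ℤ) * ((M : ℤ) * -1)) = 0 := by
    refine valC_injective A ?_
    rw [map_zero, ← coeffMap_coeff, h1]
    refine HahnSeries.coeff_eq_zero_of_lt_order ?_
    rw [order_qExpand_twist_jq, he]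
    have : a * a < M * M := Nat.mul_self_lt_mul_self hlt
    have : ((a * a : ℕ) : ℤ) < ((M * M : ℕ) : ℤ) := by exact_mod_cast this
    push_cast at this ⊢
    linarith
  rw [show serHom A M g (aI M) = serAt (aI M : intFun A M) g from rfl, h0, map_zero,
    jqModC_coeff_neg_one, map_one] at hc
  exact zero_ne_one hc

section gens

variable (hπ0 : ∀ a : A, π a = 0 ↔ A.valuation a < 1) (hk : ∀ r : ℕ, r.Prime → r ∣ M → (r : k) ≠ 0)
  (hj : 2 ∣ M ∨ 3 ∣ M)

include hπ0 hk hj

theorem exists_bI : ∃ F : intFun A M, (F : ℍ → ℂ) = bFun M ∧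
    ∀ g : SL(2, ℤ), (M : ℤ) ∣ g 1 0 → (redG M π g F).coeff (-(M : ℤ)) =
      -(yVal (π ((zetaA A M ^ (g 1 1) : Aˣ) : A)) -
        yVal (π ((zetaA A M ^ (((M / auxJ M : ℕ) : ℤ) * g 1 1) : Aˣ) : A))) := by
  obtain ⟨F, hF, hco⟩ := exists_absI π hπ0 (natCast_level_ne_zero hk) (M / auxJ M) (good_vec M hj)
  refine ⟨F, hF, fun g hg => ?_⟩
  have := hco g (by simpa [rowMul] using hg)
  simpa [rowMul] using this

/-- The difference of abscissae among the integral functions. -/
def bI : intFun A M := (exists_bI π hπ0 hk hj).choose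

theorem coe_bI : ((bI π hπ0 hk hj : intFun A M) : ℍ → ℂ) = bFun M :=
  (exists_bI π hπ0 hk hj).choose_spec.1

/-- **The reductions of the generators separate the cosets.** -/
theorem sep_gens [Fact (1 < M)] (g : SL(2, ℤ))
    (ha : redG M π g (aI M) = redG M π 1 (aI M))
    (hb : redG M π g (bI π hπ0 hk hj) = redG M π 1 (bI π hπ0 hk hj)) :
    g ∈ GamH M (pmOne M) := by
  have h10 := dvd_of_redG_aI π g ha
  have hco := (exists_bI π hπ0 hk hj).choose_spec.2
  have hb' := congrArg (fun s : LaurentSeries k => s.coeff (-(M : ℤ))) hb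
  have e1 : ((1 : SL(2, ℤ)) 1 1 : ℤ) = 1 := by simp
  rw [show bI π hπ0 hk hj = (exists_bI π hπ0 hk hj).choose from rfl, hco g h10,
    hco 1 (by simp), e1, mul_one, neg_inj] at hb'
  set c : ℕ := M / auxJ M
  set d := g 1 1
  have hdet : g 0 0 * d - g 0 1 * g 1 0 = 1 := by
    have := Matrix.SpecialLinearGroup.det_coe g
    rwa [Matrix.det_fin_two] at this
  have hdj : ¬ (auxJ M : ℤ) ∣ d := fun hd => by
    have h2 : (auxJ M : ℤ) ∣ g 0 0 * d - g 0 1 * g 1 0 :=
      dvd_sub (hd.mul_left _) ((((Int.natCast_dvd_natCast.2 (auxJ_dvd M hj))).trans h10).mul_left _)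
    rw [hdet] at h2
    exact (auxJ_prime M).one_lt.ne' (by exact_mod_cast Int.eq_one_of_dvd_one (by positivity) h2)
  have hperiod : ∀ a b : ℤ, (M : ℤ) ∣ a - b → zetaA A M ^ a = zetaA A M ^ b := fun a b h => by
    refine Units.ext (valC_injective A ?_)
    rw [valC_zetaA_zpow, valC_zetaA_zpow]
    obtain ⟨l, hl⟩ := h
    rw [show a = b + M * l by linarith, FA.Mazur.Wp.eta_add_mul]
  have hcM : (c : ℤ) * auxJ M = M := by exact_mod_cast Nat.div_mul_cancel (auxJ_dvd M hj)
  have hcd : yVal (π ((zetaA A M ^ ((c : ℤ) * d) : Aˣ) : A)) =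
      yVal (π ((zetaA A M ^ (c : ℤ) : Aˣ) : A)) := by
    rcases auxJ_unit M hdj with h | h
    · rw [hperiod ((c : ℤ) * d) c (by
        rw [← mul_sub_one]; exact hcM ▸ mul_dvd_mul_left _ h)]
    · rw [hperiod ((c : ℤ) * d) (-(c : ℤ)) (by
        rw [sub_neg_eq_add, ← mul_add_one]; exact hcM ▸ mul_dvd_mul_left _ h), zpow_neg,
        map_units_inv, yVal_inv]
      exact ((Units.map (π : A →* k) (zetaA A M ^ (c : ℤ))).ne_zero)
  rw [hcd, sub_left_inj, zpow_one] at hb'
  have hMk := natCast_level_ne_zero hk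
  have hM1 : ¬ (M : ℤ) ∣ 1 := fun h => by
    have := Int.eq_one_of_dvd_one (by positivity) h
    have := (inferInstance : Fact (1 < M)).out
    omega
  have hne1 : π ((zetaA A M : Aˣ) : A) ≠ 1 := by
    simpa using pi_zetaA_zpow_ne_one π hMk hM1
  have hd0 : ¬ (M : ℤ) ∣ d := fun hd => hdj ((Int.natCast_dvd_natCast.2 (auxJ_dvd M hj)).trans hd)
  have hd1 : (M : ℤ) ∣ d - 1 ∨ (M : ℤ) ∣ d + 1 := by
    rcases eq_or_eq_inv_of_yVal_eq (pi_zetaA_zpow_ne_one π hMk hd0) hne1 hb' with h | h
    · left
      by_contra hcon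
      refine pi_zetaA_zpow_ne_one π (A := A) hMk hcon ?_
      rw [zpow_sub, zpow_one, Units.val_mul, map_mul, h, ← map_mul, ← Units.val_mul,
        mul_inv_cancel, Units.val_one, map_one]
    · right
      by_contra hcon
      refine pi_zetaA_zpow_ne_one π (A := A) hMk hcon ?_
      rw [zpow_add, zpow_one, Units.val_mul, map_mul, h]
  have hg : g ∈ GamH M (⊤ : Subgroup (ZMod M)ˣ) := by
    rw [GamH_top, Gamma0_mem, ZMod.intCast_zmod_eq_zero_iff_dvd]; exact h10
  rw [mem_GamH_iff ⟨g, hg⟩]
  have h1 : (ulHom M ⟨g, hg⟩ : ZMod M) * (d : ZMod M) = 1 := by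
    rw [ulHom_val]
    have := congrArg (fun x : ℤ => (x : ZMod M)) hdet
    simp only [Int.cast_sub, Int.cast_mul, Int.cast_one] at this
    rwa [(ZMod.intCast_zmod_eq_zero_iff_dvd _ _).2 h10, mul_zero, sub_zero] at this
  rcases hd1 with h | h
  · have h' : (d : ZMod M) = 1 := by
      rw [← sub_eq_zero, ← Int.cast_one, ← Int.cast_sub, ZMod.intCast_zmod_eq_zero_iff_dvd]
      exact h
    rw [h', mul_one] at h1
    rw [Units.ext (h1.trans Units.val_one.symm)]
    exact one_mem _
  · have h' : (d : ZMod M) = -1 := by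
      rw [eq_neg_iff_add_eq_zero, ← Int.cast_one, ← Int.cast_add,
        ZMod.intCast_zmod_eq_zero_iff_dvd]
      exact h
    rw [h', mul_neg, mul_one, neg_eq_iff_eq_neg] at h1
    rw [show ulHom M ⟨g, hg⟩ = -1 from Units.ext (by rw [h1]; simp)]
    exact neg_one_mem_pmOne M

end gens

variable [Fact (1 < M)]

theorem aI_mem {γ : SL(2, ℤ)} (hγ : γ ∈ (lvlOne M).grp) (z : ℍ) :
    ((aI M : intFun A M) : ℍ → ℂ) (γ • z) = ((aI M : intFun A M) : ℍ → ℂ) z := by
  rw [coe_aI]
  refine scale_smul_Gamma0 M M dvd_rfl ?_ z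
  rw [← GamH_top]
  exact GamH_le_top hγ

theorem bFun_mem {γ : SL(2, ℤ)} (hγ : γ ∈ (lvlOne M).grp) (z : ℍ) :
    bFun M (γ • z) = bFun M z := by
  have hγ' : γ ∈ GamH M (pmOne M) := hγ
  have hu := (mem_GamH_iff ⟨γ, GamH_le_top hγ'⟩).1 hγ'
  have h10 : (M : ℤ) ∣ γ 1 0 := by
    have := GamH_le_top hγ'
    rw [GamH_top, Gamma0_mem, ZMod.intCast_zmod_eq_zero_iff_dvd] at this
    exact this
  have hpm : ulHom M ⟨γ, GamH_le_top hγ'⟩ = 1 ∨ ulHom M ⟨γ, GamH_le_top hγ'⟩ = -1 := by
    obtain ⟨n, hn⟩ := Subgroup.mem_zpowers_iff.1 hu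
    rcases Int.even_or_odd n with he | ho
    · left; rw [← hn, he.neg_one_zpow]
    · right; rw [← hn, ho.neg_one_zpow]
  have h1 : ((γ 0 0 : ℤ) : ZMod M) * ((γ 1 1 : ℤ) : ZMod M) = 1 := by
    have := congrArg (fun x : ℤ => (x : ZMod M)) γ.2
    simp only [Matrix.det_fin_two, Int.cast_sub, Int.cast_mul, Int.cast_one] at this
    rwa [(ZMod.intCast_zmod_eq_zero_iff_dvd _ _).2 h10, mul_zero, sub_zero] at this
  refine bFun_inv M h10 ?_ z
  rw [← ulHom_val ⟨γ, GamH_le_top hγ'⟩] at h1
  rcases hpm with h | h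
  · left
    rw [h, Units.val_one, one_mul] at h1
    rw [← ZMod.intCast_zmod_eq_zero_iff_dvd, Int.cast_sub, Int.cast_one, h1, sub_self]
  · right
    rw [h, Units.val_neg, Units.val_one, neg_one_mul] at h1
    rw [← ZMod.intCast_zmod_eq_zero_iff_dvd, Int.cast_add, Int.cast_one, ← h1, add_neg_cancel]

theorem mem_fld_of_intFun (f : intFun A M)
    (hinv : ∀ γ ∈ (lvlOne M).grp, ∀ z, (f : ℍ → ℂ) (γ • z) = (f : ℍ → ℂ) z)
    {Y : LaurentSeries A} (hY : HasExp (qp 1) (f : ℍ → ℂ) (coeffMap (valC A) Y)) :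
    coeffMap (A.subtype : A →+* L) Y ∈ (lvlOne M).fld L :=
  (lvlOne M).mem_fld_of_modFuns (R := (f : ℍ → ℂ))
    ⟨f.2.1, hinv, ⟨_, hY⟩, fun g => ⟨_, serAt_spec f g⟩⟩ _ (by rwa [coeffMap_valC])

variable (M) in
/-- The reduced field of `±Γ₁(M)`. -/
def kH : IntermediateField k (LaurentSeries k) :=
  IntermediateField.adjoin k ({jqModC k, qExpand k M (jqModC k)} ∪
    {x | ∃ Y : LaurentSeries A,
      HasExp (qp 1) (bFun M) (coeffMap (valC A) Y) ∧ x = coeffMap π Y})

theorem jqModC_mem_kH : jqModC k ∈ kH π M :=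
  IntermediateField.subset_adjoin k _ (Or.inl (Or.inl rfl))

variable (M) in
/-- `j` in the reduced field. -/
def jH : kH π M := ⟨jqModC k, jqModC_mem_kH π⟩

theorem eval₂_mem_kH (q : Polynomial k) : q.eval₂ HahnSeries.C (jqModC k) ∈ kH π M := by
  induction q using Polynomial.induction_on' with
  | add a b ha hb => rw [eval₂_add]; exact add_mem ha hb
  | monomial n a =>
    rw [eval₂_monomial]
    refine mul_mem ?_ (pow_mem (jqModC_mem_kH π) n)
    rw [← FA.CurveRed.algebraMap_eq_C]
    exact IntermediateField.algebraMap_mem _ a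

theorem coe_aeval_jH (q : Polynomial k) :
    ((aeval (jH π M) q : kH π M) : LaurentSeries k) = q.eval₂ HahnSeries.C (jqModC k) := by
  rw [← IntermediateField.coe_val, ← aeval_algHom_apply, aeval_def]
  congr 1
  exact RingHom.ext fun a => FA.CurveRed.algebraMap_eq_C a

theorem jH_transcendental : Transcendental k (jH π M) := by
  rw [transcendental_iff]
  intro q hq
  have h := congrArg Subtype.val hq
  refine transcendental_iff.1 (FA.CurveRed.jBar_transcendental k M) q (Subtype.ext ?_)
  rw [← IntermediateField.coe_val, ← aeval_algHom_apply]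
  rw [coe_aeval_jH] at h
  rw [aeval_def, show algebraMap k (LaurentSeries k) = HahnSeries.C from
    RingHom.ext fun a => FA.CurveRed.algebraMap_eq_C a]
  exact h

theorem aeval_mem_adjoin_jH (q : Polynomial k) :
    aeval (jH π M) q ∈ IntermediateField.adjoin k {jH π M} :=
  IntermediateField.algebra_adjoin_le_adjoin k _ (aeval_mem_adjoin_singleton k _)

section degree

variable (hπs : Function.Surjective π) (hπ0 : ∀ a : A, π a = 0 ↔ A.valuation a < 1)
  (hk : ∀ r : ℕ, r.Prime → r ∣ M → (r : k) ≠ 0) (hj : 2 ∣ M ∨ 3 ∣ M)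

include hπs hπ0 hk hj

/-- The monomials. -/
theorem exists_indep_monomials : ∃ (Y : (lvlOne M).Cos → LaurentSeries A)
    (w : (lvlOne M).Cos → kH π M),
    (∀ i, coeffMap (A.subtype : A →+* L) (Y i) ∈ (lvlOne M).fld L) ∧
      (∀ i, coeffMap π (Y i) = w i) ∧
      (∀ i, ∃ F : intFun A M, (∀ γ ∈ (lvlOne M).grp, ∀ z,
          (F : ℍ → ℂ) (γ • z) = (F : ℍ → ℂ) z) ∧
        HasExp (qp 1) (F : ℍ → ℂ) (coeffMap (valC A) (Y i))) ∧
      LinearIndependent (IntermediateField.adjoin k {jH π M}) w := by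
  classical
  set V := lvlOne M
  set G : Fin 2 → intFun A M := ![aI M, bI π hπ0 hk hj]
  have hGinv : ∀ i, ∀ γ ∈ V.grp, ∀ z, (G i : ℍ → ℂ) (γ • z) = (G i : ℍ → ℂ) z := by
    intro i γ hγ z
    fin_cases i
    · exact aI_mem hγ z
    · show ((bI π hπ0 hk hj : intFun A M) : ℍ → ℂ) _ = ((bI π hπ0 hk hj : intFun A M) : ℍ → ℂ) z
      rw [coe_bI]
      exact bFun_mem hγ z
  let mon : ℕ × ℕ → intFun A M := fun x => G 0 ^ x.1 * G 1 ^ x.2
  let χ : V.Cos → (Multiplicative (ℕ × ℕ) →* LaurentSeries k) := fun i =>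
    { toFun := fun x => redG M π (Quotient.out i)⁻¹ (mon (Multiplicative.toAdd x))
      map_one' := by simp [mon]
      map_mul' := fun x y => by
        simp only [mon, toAdd_mul, Prod.fst_add, Prod.snd_add, pow_add, map_mul]
        ring }
  have hχ : Function.Injective χ := by
    intro i i' h
    have hG : ∀ l, redG M π (Quotient.out i)⁻¹ (G l) = redG M π (Quotient.out i')⁻¹ (G l) := by
      intro l
      fin_cases l
      · simpa [χ, mon] using DFunLike.congr_fun h (Multiplicative.ofAdd (1, 0))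
      · simpa [χ, mon] using DFunLike.congr_fun h (Multiplicative.ofAdd (0, 1))
    have hq : ∀ l, redG M π ((Quotient.out i)⁻¹ * Quotient.out i') (G l) = redG M π 1 (G l) := by
      intro l
      set x := moveF (Quotient.out i)⁻¹ (G l) - moveF (Quotient.out i')⁻¹ (G l)
      have h0 : redG M π 1 x = 0 := by
        simp only [x, map_sub, redG_moveF, mul_one, hG l, sub_self]
      have h1 := redG_eq_zero π hπ0 hk h0 (Quotient.out i')
      simp only [x, map_sub, redG_moveF, inv_mul_cancel, sub_eq_zero] at h1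
      exact h1
    have hmem : (Quotient.out i)⁻¹ * Quotient.out i' ∈ V.grp :=
      sep_gens π hπ0 hk hj _ (hq 0) (hq 1)
    rw [← Quotient.out_eq i, ← Quotient.out_eq i']
    exact QuotientGroup.eq.2 hmem
  have hli : LinearIndependent (LaurentSeries k)
      fun i => (χ i : Multiplicative (ℕ × ℕ) → LaurentSeries k) :=
    (linearIndependent_monoidHom _ _).comp χ hχ
  set ev : Multiplicative (ℕ × ℕ) → V.Cos → LaurentSeries k := fun x i => χ i x
  have hspan : Submodule.span (LaurentSeries k) (Set.range ev) = ⊤ := by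
    by_contra hne
    obtain ⟨φ, hφ, hle⟩ := Submodule.exists_le_ker_of_lt_top _ (lt_top_iff_ne_top.2 hne)
    refine hφ (LinearMap.pi_ext' fun i => LinearMap.ext_ring ?_)
    have hall := Fintype.linearIndependent_iff.1 hli (fun i => φ (Pi.single i 1)) (funext fun x => by
      have h1 : φ (ev x) = 0 := hle (Submodule.subset_span ⟨x, rfl⟩)
      rw [pi_eq_sum_univ' (ev x), map_sum] at h1
      simp only [map_smul, smul_eq_mul] at h1
      rw [Finset.sum_apply, Pi.zero_apply]
      simp only [Pi.smul_apply, smul_eq_mul]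
      rw [← h1]
      exact Finset.sum_congr rfl fun i _ => mul_comm _ _) i
    simpa using hall
  obtain ⟨t, htsub, htspan, htli⟩ := exists_linearIndependent (LaurentSeries k) (Set.range ev)
  haveI : Finite t := htli.finite
  haveI := Fintype.ofFinite t
  let b₀ : Module.Basis t (LaurentSeries k) (V.Cos → LaurentSeries k) := Module.Basis.mk htli (by
    rw [Subtype.range_coe, htspan, hspan])
  let e : V.Cos ≃ t := (Pi.basisFun (LaurentSeries k) V.Cos).indexEquiv b₀
  choose x hx using fun i => htsub (e i).2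
  have hevli : LinearIndependent (LaurentSeries k) fun i => ev (x i) := by
    have : (fun i => ev (x i)) = fun i => ((e i : t) : V.Cos → LaurentSeries k) := funext hx
    rw [this]
    exact htli.comp e e.injective
  -- the series
  have hmoninv : ∀ y, ∀ γ ∈ V.grp, ∀ z, (mon y : ℍ → ℂ) (γ • z) = (mon y : ℍ → ℂ) z := by
    intro y γ hγ z
    simp only [mon, Subring.coe_mul, SubmonoidClass.coe_pow, Pi.mul_apply, Pi.pow_apply,
      hGinv 0 γ hγ z, hGinv 1 γ hγ z]
  let F : V.Cos → intFun A M := fun i => mon (Multiplicative.toAdd (x i))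
  choose Ya hYa hYa' using exists_qSeries (G 0) (fun z => hGinv 0 _ V.T_mem z)
  obtain ⟨Yb, hYb, hYb'⟩ := exists_qSeries (G 1) (fun z => hGinv 1 _ V.T_mem z)
  let Y : V.Cos → LaurentSeries A := fun i =>
    Ya ^ (Multiplicative.toAdd (x i)).1 * Yb ^ (Multiplicative.toAdd (x i)).2
  have hYexp : ∀ i, HasExp (qp 1) (F i : ℍ → ℂ) (coeffMap (valC A) (Y i)) := fun i => by
    simp only [F, mon, Y, Subring.coe_mul, SubmonoidClass.coe_pow, map_mul, map_pow]
    exact (hYa.pow (qp_ne_zero 1) _).mul (qp_ne_zero 1) (hYb.pow (qp_ne_zero 1) _)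
  have hYser : ∀ i, serAt (F i) 1 = qExpand A M (Y i) := fun i => by
    show serHom A M 1 (F i) = _
    simp only [F, mon, Y, map_mul, map_pow]
    rw [show serHom A M 1 (G 0) = _ from hYa', show serHom A M 1 (G 1) = _ from hYb']
  have hπa : coeffMap π Ya ∈ kH π M := by
    have h2 : qExpand A M Ya = qExpand A M (qExpand A M (jqModC A)) := by
      rw [← hYa']; exact serAt_aI_one
    have h3 := congrArg (coeffMap π) h2
    rw [coeffMap_qExpand, coeffMap_qExpand, coeffMap_qExpand, coeffMap_jqModC] at h3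
    rw [RingHom.injective (qExpand k M) h3]
    exact IntermediateField.subset_adjoin k _ (Or.inl (Or.inr rfl))
  have hπb : coeffMap π Yb ∈ kH π M := by
    have hYb2 : HasExp (qp 1) (bFun M) (coeffMap (valC A) Yb) := by
      rw [← coe_bI π hπ0 hk hj]; exact hYb
    exact IntermediateField.subset_adjoin k _ (Or.inr ⟨Yb, hYb2, rfl⟩)
  have hmem : ∀ i, coeffMap π (Y i) ∈ kH π M := fun i => by
    simp only [Y, map_mul, map_pow]
    exact mul_mem (pow_mem hπa _) (pow_mem hπb _)
  refine ⟨Y, fun i => ⟨_, hmem i⟩, fun i => mem_fld_of_intFun (F i) (hmoninv _) (hYexp i),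
    fun _ => rfl, fun i => ⟨F i, hmoninv _, hYexp i⟩, ?_⟩
  rw [Fintype.linearIndependent_iff]
  intro c hc
  have hfrac : ∀ o, ∃ r s : Polynomial k, s ≠ 0 ∧
      ((c o : IntermediateField.adjoin k {jH π M}) : kH π M) * aeval (jH π M) s =
        aeval (jH π M) r := by
    intro o
    obtain ⟨r, s, hrs⟩ := (IntermediateField.mem_adjoin_simple_iff k _).1 (c o).2
    by_cases h : aeval (jH π M) s = 0
    · exact ⟨0, 1, one_ne_zero, by rw [hrs, h, div_zero, zero_mul, map_zero]⟩
    · exact ⟨r, s, fun hs => h (by rw [hs, map_zero]), by rw [hrs, div_mul_cancel₀ _ h]⟩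
  choose r s hs hrs using hfrac
  let P : V.Cos → Polynomial k := fun o => r o * ∏ o' ∈ Finset.univ.erase o, s o'
  have hP : ∑ o, (P o).eval₂ HahnSeries.C (jqModC k) * coeffMap π (Y o) = 0 := by
    have e1 : ∀ o, aeval (jH π M) (P o) * (⟨_, hmem o⟩ : kH π M) =
        aeval (jH π M) (∏ o', s o') * (c o • (⟨_, hmem o⟩ : kH π M)) := by
      intro o
      rw [IntermediateField.smul_def, smul_eq_mul, ← Finset.mul_prod_erase _ _ (Finset.mem_univ o)]
      simp only [P, map_mul]
      rw [← hrs o]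
      ring
    have h2 : ∑ o, aeval (jH π M) (P o) * (⟨_, hmem o⟩ : kH π M) = 0 := by
      rw [Finset.sum_congr rfl fun o _ => e1 o, ← Finset.mul_sum, hc, mul_zero]
    have h3 := congrArg (fun y : kH π M => (y : LaurentSeries k)) h2
    simp only [AddSubmonoidClass.coe_finsetSum, MulMemClass.coe_mul, coe_aeval_jH,
      ZeroMemClass.coe_zero] at h3
    exact h3
  choose lift hlift using hπs
  let Q : V.Cos → Polynomial A := fun o =>
    ∑ n ∈ (P o).support, monomial n (lift ((P o).coeff n))
  have hQ : ∀ o, (Q o).map π = P o := fun o => by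
    simp only [Q, Polynomial.map_sum, map_monomial, hlift]
    exact ((P o).as_sum_support).symm
  let Z : intFun A M := ∑ o, (Q o).eval₂ constF (jI A M) * F o
  have hev : ∀ (q : Polynomial A) (g : SL(2, ℤ)),
      redG M π g (q.eval₂ constF (jI A M)) =
        qExpand k M ((q.map π).eval₂ HahnSeries.C (jqModC k)) := by
    intro q g
    rw [hom_eval₂, redG_jI, hom_eval₂, eval₂_map]
    congr 1
    refine RingHom.ext fun a => ?_
    simp only [RingHom.comp_apply, redG_constF]
    exact (qExpand_C M (π a)).symm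
  have hZ : redG M π 1 Z = 0 := by
    have e2 : ∀ o, redG M π 1 ((Q o).eval₂ constF (jI A M) * F o) =
        qExpand k M ((P o).eval₂ HahnSeries.C (jqModC k) * coeffMap π (Y o)) := fun o => by
      rw [map_mul (redG M π 1), map_mul (qExpand k M), hev, hQ]
      congr 1
      show coeffMap π (serAt (F o) 1) = _
      rw [hYser, coeffMap_qExpand]
    rw [map_sum, Finset.sum_congr rfl fun o _ => e2 o, ← map_sum, hP, map_zero]
  let a : V.Cos → LaurentSeries k := fun o => qExpand k M ((P o).eval₂ HahnSeries.C (jqModC k))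
  have ha : ∑ o, a o • ev (x o) = 0 := by
    funext i
    have h := redG_eq_zero π hπ0 hk hZ (Quotient.out i)⁻¹
    rw [map_sum] at h
    rw [Finset.sum_apply, Pi.zero_apply, ← h]
    refine Finset.sum_congr rfl fun o _ => ?_
    rw [map_mul, hev, hQ]
    rfl
  intro o
  have ho := Fintype.linearIndependent_iff.1 hevli a ha o
  have hPo : P o = 0 := transcendental_iff.1 (jH_transcendental π (M := M)) _ (Subtype.ext (by
    rw [coe_aeval_jH]
    exact (map_eq_zero (qExpand k M)).1 ho))
  have hr : r o = 0 := (mul_eq_zero.1 hPo).resolve_right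
    (Finset.prod_ne_zero_iff.2 fun o' _ => hs o')
  refine Subtype.ext ?_
  have h := hrs o
  rw [hr, map_zero, mul_eq_zero] at h
  exact h.resolve_right fun h' => hs o (transcendental_iff.1 (jH_transcendental π (M := M)) _ h')

/-- `kH` is finite over `k(j)`. -/
theorem finite_kH : FiniteDimensional (IntermediateField.adjoin k {jH π M}) (kH π M) := by
  classical
  set K := IntermediateField.adjoin k {jH π M}
  have halg : ∀ (x : kH π M) (Y : LaurentSeries A),
      coeffMap (A.subtype : A →+* L) Y ∈ (lvlOne M).fld L →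
      coeffMap π Y = (x : LaurentSeries k) → IsIntegral K x := by
    intro x Y hY hx
    set n := Fintype.card (lvlOne M).Cos
    obtain ⟨Q, ⟨i₁, hi₁⟩, hrel⟩ := exists_scaled_relation π (lvlOne M) hπ0
      (ι := Fin (n + 1)) (by simp [n]) (fun i => Y ^ (i : ℕ))
      (fun i => by rw [map_pow]; exact pow_mem hY _)
    have hred := map_relation π hrel
    refine isAlgebraic_iff_isIntegral.1 ⟨∑ i : Fin (n + 1), monomial (i : ℕ)
      (⟨aeval (jH π M) ((Q i).map π), aeval_mem_adjoin_jH π _⟩ : K), fun h => ?_, ?_⟩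
    · have h1 := congrArg (fun q : Polynomial K => q.coeff (i₁ : ℕ)) h
      simp only [finsetSum_coeff, coeff_monomial, Polynomial.coeff_zero] at h1
      rw [Finset.sum_eq_single i₁ (fun i _ hi => if_neg fun he => hi (Fin.ext he))
        (fun h' => absurd (Finset.mem_univ _) h'), if_pos rfl] at h1
      exact hi₁ (transcendental_iff.1 (jH_transcendental π (M := M)) _ (congrArg Subtype.val h1))
    · refine Subtype.ext ?_
      rw [map_sum, AddSubmonoidClass.coe_finsetSum, ZeroMemClass.coe_zero, ← hred]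
      refine Finset.sum_congr rfl fun i _ => ?_
      rw [aeval_monomial, MulMemClass.coe_mul, SubmonoidClass.coe_pow, map_pow, hx]
      congr 1
      exact coe_aeval_jH π _
  have hgen : ∀ x : kH π M, (x : LaurentSeries k) ∈ ({jqModC k, qExpand k M (jqModC k)} ∪
      {x | ∃ Y : LaurentSeries A, HasExp (qp 1) (bFun M) (coeffMap (valC A) Y) ∧
        x = coeffMap π Y} : Set (LaurentSeries k)) → IsIntegral K x := by
    rintro x ((hx | hx) | ⟨Y, hY, hx⟩)
    · refine halg x (jqModC A) ?_ (by rw [coeffMap_jqModC]; exact hx.symm)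
      rw [coeffMap_jqModC, ← (lvlOne M).coe_jF]
      exact ((lvlOne M).jF L).2
    · refine halg x (qExpand A M (jqModC A)) ?_ ?_
      · refine mem_fld_of_intFun (aI M) (fun γ hγ z => aI_mem hγ z) ?_
        rw [coeffMap_qExpand, coeffMap_jqModC, coe_aI]
        exact hasExp_scale M
      · rw [coeffMap_qExpand, coeffMap_jqModC]; exact hx.symm
    · refine halg x Y (mem_fld_of_intFun (bI π hπ0 hk hj) (fun γ hγ z => ?_) ?_) hx.symm
      · rw [coe_bI]; exact bFun_mem hγ z
      · rw [coe_bI]; exact hY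
  set S : Set (kH π M) := {x | (x : LaurentSeries k) ∈ ({jqModC k, qExpand k M (jqModC k)} ∪
      {x | ∃ Y : LaurentSeries A, HasExp (qp 1) (bFun M) (coeffMap (valC A) Y) ∧
        x = coeffMap π Y} : Set (LaurentSeries k))} with hS
  have hfin : S.Finite := by
    refine Set.Finite.preimage Subtype.val_injective.injOn ((Set.toFinite _).union ?_)
    refine Set.Subsingleton.finite ?_
    rintro _ ⟨Y, hY, rfl⟩ _ ⟨Y', hY', rfl⟩
    rw [coeffMap_injective' (valC_injective A) (hY.unique (covers_qp 1) hY')]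
  haveI : Finite S := hfin
  haveI : FiniteDimensional K (IntermediateField.adjoin K S) :=
    IntermediateField.finiteDimensional_adjoin fun x hx => hgen x hx
  have htop : IntermediateField.adjoin K S = ⊤ := by
    refine IntermediateField.restrictScalars_injective k ?_
    rw [IntermediateField.restrictScalars_top, eq_top_iff]
    have h1 : IntermediateField.adjoin k S = ⊤ := by
      refine IntermediateField.map_injective (kH π M).val ?_
      rw [IntermediateField.adjoin_map, ← AlgHom.fieldRange_eq_map,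
        IntermediateField.fieldRange_val]
      refine le_antisymm (IntermediateField.adjoin_le_iff.2 ?_) (IntermediateField.adjoin_le_iff.2
        fun y hy => IntermediateField.subset_adjoin k _
          ⟨⟨y, IntermediateField.subset_adjoin k _ hy⟩, hy, rfl⟩)
      rintro _ ⟨y, -, rfl⟩
      exact y.2
    rw [← h1]
    exact IntermediateField.adjoin_le_iff.2 fun y hy => IntermediateField.subset_adjoin K S hy
  exact FiniteDimensional.of_finrank_pos (by
    rw [← IntermediateField.finrank_top', ← htop]; exact Module.finrank_pos)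

/-- **The degree downstairs.** -/
theorem card_le_finrank_kH : Fintype.card (lvlOne M).Cos ≤
    Module.finrank (IntermediateField.adjoin k {jH π M}) (kH π M) := by
  haveI := finite_kH π hπs hπ0 hk hj
  obtain ⟨Y, w, -, -, -, hli⟩ := exists_indep_monomials π hπs hπ0 hk hj
  exact hli.fintype_card_le_finrank

/-- **Integral series of the field of the level reduce into `kH`.** -/
theorem down_kH (y : LaurentSeries A)
    (hy : coeffMap (A.subtype : A →+* L) y ∈ (lvlOne M).fld L) : coeffMap π y ∈ kH π M := by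
  classical
  obtain ⟨Y, w, hY, hw, -, hli⟩ := exists_indep_monomials π hπs hπ0 hk hj
  obtain ⟨Q, hQne, hrel⟩ := exists_scaled_relation π (lvlOne M) hπ0
    (ι := Option (lvlOne M).Cos) (by simp) (fun o => o.elim y Y)
    (fun o => by cases o; exacts [hy, hY _])
  have hred := map_relation π hrel
  rw [Fintype.sum_option] at hred
  simp only [Option.elim, hw] at hred
  have hQ0 : (Q none).map π ≠ 0 := by
    intro h0
    rw [h0, eval₂_zero, zero_mul, zero_add] at hred
    have hc : ∑ i, (⟨aeval (jH π M) ((Q (some i)).map π), aeval_mem_adjoin_jH π _⟩ :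
        IntermediateField.adjoin k {jH π M}) • w i = 0 := by
      refine Subtype.ext ?_
      rw [AddSubmonoidClass.coe_finsetSum, ZeroMemClass.coe_zero, ← hred]
      refine Finset.sum_congr rfl fun i _ => ?_
      rw [IntermediateField.smul_def, smul_eq_mul, MulMemClass.coe_mul, coe_aeval_jH]
    obtain ⟨o₁, h₁⟩ := hQne
    rcases o₁ with _ | i
    · exact h₁ h0
    · exact h₁ (transcendental_iff.1 (jH_transcendental π (M := M)) _
        (congrArg Subtype.val (Fintype.linearIndependent_iff.1 hli _ hc i)))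
  have h1 : ((Q none).map π).eval₂ HahnSeries.C (jqModC k) ≠ 0 := fun h =>
    hQ0 (transcendental_iff.1 (jH_transcendental π (M := M)) _ (Subtype.ext (by
      rw [coe_aeval_jH]; exact h)))
  rw [add_eq_zero_iff_eq_neg] at hred
  have h2 : coeffMap π y = (((Q none).map π).eval₂ HahnSeries.C (jqModC k))⁻¹ *
      -∑ i, ((Q (some i)).map π).eval₂ HahnSeries.C (jqModC k) * (w i : LaurentSeries k) := by
    rw [← hred, inv_mul_cancel_left₀ h1]
  rw [h2]
  exact mul_mem (inv_mem (eval₂_mem_kH π _))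
    (neg_mem (sum_mem fun i _ => mul_mem (eval₂_mem_kH π _) (w i).2))

end degree

end FA.Weight1

end
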