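import Fermat.Agent.ExtVanish.Euler
import Mathlib.NumberTheory.DirichletCharacter.Basic
import Mathlib.NumberTheory.DirichletCharacter.Bounds
import Mathlib.RingTheory.Norm.Basic

/-!
# Even characters of norms of ideals

For an even Dirichlet character `ψ` modulo a prime `m` which is not trivial on the norms of the
ideals of a number field, the series `∑ ψ(N I) N(I)^(-s)` is bounded near `s = 1`.
-/

set_option autoImplicit false
set_option linter.style.haveILetI false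

noncomputable section

open NumberField NumberField.mixedEmbedding IsDedekindDomain Module Filter Topology Ideal FA.Ext
open scoped nonZeroDivisors Classical

namespace FA.Weight1

variable {K : Type*} [Field K] [NumberField K] {m : ℕ} [Fact m.Prime]
variable (ψ : DirichletCharacter ℂ m)

/-- `ψ` of the norm of an ideal. -/
def normVal (I : Ideal (𝓞 K)) : ℂ := ψ ((absNorm I : ℕ) : ZMod m)

theorem normVal_mul (I J : Ideal (𝓞 K)) : normVal ψ (I * J) = normVal ψ I * normVal ψ J := by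
  simp [normVal]

theorem norm_normVal_le (I : Ideal (𝓞 K)) : ‖normVal ψ I‖ ≤ 1 := ψ.norm_le_one _

/-- `I ↦ ψ(N I) N(I)^(-s)`. -/
def normHom (s : ℝ) : (Ideal (𝓞 K))⁰ →* ℂ where
  toFun I := normVal ψ I.1 * (zN s I : ℂ)
  map_one' := by simp [normVal, zN]
  map_mul' I J := by rw [Submonoid.coe_mul, normVal_mul, zN_mul]; push_cast; ring

theorem normHom_apply (s : ℝ) (I : (Ideal (𝓞 K))⁰) :
    normHom ψ s I = normVal ψ I.1 * (zN s I : ℂ) := rfl

theorem norm_normHom_le (s : ℝ) (I : (Ideal (𝓞 K))⁰) : ‖normHom ψ s I‖ ≤ zN s I := by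
  rw [normHom_apply, norm_mul, Complex.norm_real, Real.norm_of_nonneg (zN_nonneg s I)]
  exact mul_le_of_le_one_left (zN_nonneg s I) (norm_normVal_le ψ _)

variable (K m) in
/-- The reduction of the regular representation. -/
def normRed : 𝓞 K →+* Matrix (Module.Free.ChooseBasisIndex ℤ (𝓞 K))
    (Module.Free.ChooseBasisIndex ℤ (𝓞 K)) (ZMod m) :=
  (Int.castRingHom (ZMod m)).mapMatrix.comp
    (Algebra.leftMulMatrix (Module.Free.chooseBasis ℤ (𝓞 K))).toRingHom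

variable (m) in
theorem intCast_norm_eq (x : 𝓞 K) :
    ((Algebra.norm ℤ x : ℤ) : ZMod m) = (normRed K m x).det := by
  rw [Algebra.norm_eq_matrix_det (Module.Free.chooseBasis ℤ (𝓞 K))]
  exact (Int.castRingHom (ZMod m)).map_det _

theorem normVal_span (hψ : ψ (-1) = 1) (x : 𝓞 K) :
    normVal ψ (Ideal.span {x}) = ψ ((Algebra.norm ℤ x : ℤ) : ZMod m) := by
  rw [normVal, Ideal.absNorm_span_singleton]
  rcases Int.natAbs_eq (Algebra.norm ℤ x) with h | h
  · conv_rhs => rw [h]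
    rw [Int.cast_natCast]
  · conv_rhs => rw [h]
    rw [Int.cast_neg, Int.cast_natCast]
    conv_rhs => rw [neg_eq_neg_one_mul]
    rw [map_mul, hψ, one_mul]

theorem normVal_congr (hψ : ψ (-1) = 1) {x y : 𝓞 K} (h : x - y ∈ Ideal.span {(m : 𝓞 K)}) :
    normVal ψ (Ideal.span {x}) = normVal ψ (Ideal.span {y}) := by
  rw [normVal_span ψ hψ, normVal_span ψ hψ, intCast_norm_eq, intCast_norm_eq]
  obtain ⟨z, hz⟩ := Ideal.mem_span_singleton.mp h
  have : normRed K m x - normRed K m y = 0 := by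
    rw [← map_sub, hz, map_mul, map_natCast]
    have : ((m : ℕ) : Matrix (Module.Free.ChooseBasisIndex ℤ (𝓞 K))
        (Module.Free.ChooseBasisIndex ℤ (𝓞 K)) (ZMod m)) = 0 := by
      rw [← Matrix.diagonal_natCast, ZMod.natCast_self, Matrix.diagonal_zero]
    rw [this, zero_mul]
  rw [sub_eq_zero.mp this]

variable (K m) in
theorem span_natCast_ne_bot : Ideal.span {(m : 𝓞 K)} ≠ ⊥ := by
  rw [Ne, Ideal.span_singleton_eq_bot]
  exact_mod_cast (Fact.out : m.Prime).ne_zero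

variable (m) in
/-- Every class contains an ideal prime to `m`. -/
theorem exists_coprime_class (C : ClassGroup (𝓞 K)) :
    ∃ J : (Ideal (𝓞 K))⁰, ClassGroup.mk0 J = C⁻¹ ∧ J.1 ⊔ Ideal.span {(m : 𝓞 K)} = ⊤ := by
  obtain ⟨J₀, hJ₀⟩ := ClassGroup.mk0_surjective C
  have hJ0 : J₀.1 ≠ 0 := nonZeroDivisors.coe_ne_zero J₀
  set P := Ideal.span {(m : 𝓞 K)}
  have hP : P ≠ ⊥ := span_natCast_ne_bot K m
  obtain ⟨y, hy⟩ := IsDedekindDomain.exists_sup_span_eq (I := P * J₀.1) (J := J₀.1)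
    (Ideal.mul_le_inf.trans inf_le_right) (mul_ne_zero hP hJ0)
  have hyJ : Ideal.span {y} ≤ J₀.1 := le_sup_right.trans_eq hy
  obtain ⟨J, hJ⟩ := Ideal.dvd_iff_le.mpr hyJ
  have hyne : y ≠ 0 := by
    rintro rfl
    rw [Ideal.span_singleton_eq_bot.mpr rfl, sup_bot_eq] at hy
    have hP1 : P = 1 := mul_right_cancel₀ hJ0 (hy.trans (one_mul _).symm)
    have h1 := congrArg absNorm hP1
    rw [map_one, Ideal.absNorm_span_singleton, show (m : 𝓞 K) = algebraMap ℤ (𝓞 K) m by simp,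
      Algebra.norm_algebraMap, Int.natAbs_pow, Int.natAbs_natCast, pow_eq_one_iff_left
        (Module.finrank_pos (R := ℤ) (M := 𝓞 K)).ne'] at h1
    exact (Fact.out : m.Prime).ne_one h1
  have hJne : J ≠ 0 := fun h => hyne (Ideal.span_singleton_eq_bot.mp (by rw [hJ, h, mul_zero]; rfl))
  refine ⟨⟨J, mem_nonZeroDivisors_iff_ne_zero.mpr hJne⟩, ?_, ?_⟩
  · refine eq_inv_of_mul_eq_one_right ?_
    rw [← hJ₀, ← map_mul]
    exact (ClassGroup.mk0_eq_one_iff (SetLike.coe_mem (J₀ * ⟨J, mem_nonZeroDivisors_iff_ne_zero.mpr hJne⟩))).mpr ⟨y, hJ.symm⟩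
  · refine mul_left_cancel₀ hJ0 ?_
    rw [Ideal.mul_sup, ← hJ, ← Ideal.one_eq_top, mul_one, mul_comm, sup_comm]
    exact hy

theorem normVal_ne_zero_of_sup {J : (Ideal (𝓞 K))⁰}
    (h : J.1 ⊔ Ideal.span {(m : 𝓞 K)} = ⊤) : normVal ψ J.1 ≠ 0 := by
  refine (IsUnit.map ψ ?_).ne_zero
  rw [ZMod.isUnit_iff_coprime]
  refine ((Fact.out : m.Prime).coprime_iff_not_dvd.mpr ?_).symm
  intro hdvd
  have : Finite (𝓞 K ⧸ J.1) :=
    Ideal.finiteQuotientOfFreeOfNeBot J.1 (nonZeroDivisors.coe_ne_zero J)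
  have : Fintype (𝓞 K ⧸ J.1) := Fintype.ofFinite _
  rw [Ideal.absNorm_apply, Submodule.cardQuot_apply, Nat.card_eq_fintype_card] at hdvd
  obtain ⟨z, hz⟩ := exists_prime_addOrderOf_dvd_card m hdvd
  obtain ⟨u, hu, v, hv, huv⟩ := Submodule.mem_sup.mp ((Ideal.eq_top_iff_one _).mp h)
  obtain ⟨w, rfl⟩ := Ideal.mem_span_singleton.mp hv
  have h1 := congrArg (Ideal.Quotient.mk J.1) huv
  rw [map_add, Ideal.Quotient.eq_zero_iff_mem.mpr hu, zero_add, map_mul, map_natCast, map_one] at h1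
  have h2 : (m : 𝓞 K ⧸ J.1) * z = 0 := by
    rw [← nsmul_eq_mul, ← hz, addOrderOf_nsmul_eq_zero]
  have h3 : z = 0 := by
    calc z = ((m : 𝓞 K ⧸ J.1) * Ideal.Quotient.mk J.1 w) * z := by rw [h1, one_mul]
      _ = Ideal.Quotient.mk J.1 w * ((m : 𝓞 K ⧸ J.1) * z) := by ring
      _ = 0 := by rw [h2, mul_zero]
  rw [h3, addOrderOf_zero] at hz
  exact (Fact.out : m.Prime).ne_one hz.symm

/-- The series of a class. -/
def classSum (C : ClassGroup (𝓞 K)) (s : ℝ) : ℂ :=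
  ∑' I : {I : (Ideal (𝓞 K))⁰ // ClassGroup.mk0 I = C}, normHom ψ s I.1

/-- The weighted form of the sum over an ideal. -/
theorem classSum_key {C : ClassGroup (𝓞 K)} {J : (Ideal (𝓞 K))⁰}
    (hJ : ClassGroup.mk0 J = C⁻¹) {s : ℝ} (hs : s ∈ Set.Ioc (1 : ℝ) 2) :
    ∑' x : J.1, normVal ψ (Ideal.span {(x : 𝓞 K)}) * (iterm s (x : 𝓞 K) : ℂ) =
      Units.torsionOrder K * (zN s J : ℂ) * normVal ψ J.1 * classSum ψ C s := by
  set S := {I : (Ideal (𝓞 K))⁰ // ClassGroup.mk0 I = C}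
  have hp : ∀ I : S, ∃ g : 𝓞 K, g ≠ 0 ∧
      ((J * I.1 : (Ideal (𝓞 K))⁰) : Ideal (𝓞 K)) = Ideal.span {g} := by
    intro I
    have h1 : ClassGroup.mk0 (J * I.1) = 1 := by rw [map_mul, hJ, I.2, inv_mul_cancel]
    obtain ⟨g, hg⟩ := (ClassGroup.mk0_eq_one_iff (SetLike.coe_mem (J * I.1))).mp h1
    exact ⟨g, fun h => nonZeroDivisors.coe_ne_zero (J * I.1) (hg.trans (by rw [h]; simp)), hg⟩
  choose g hg0 hg using hp
  have hgJ : ∀ I : S, g I ∈ J.1 := fun I => by
    have : g I ∈ ((J * I.1 : (Ideal (𝓞 K))⁰) : Ideal (𝓞 K)) := by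
      rw [hg I]; exact Ideal.mem_span_singleton_self _
    rw [Submonoid.coe_mul] at this
    exact (Ideal.mul_le_inf this).1
  let e : S × (𝓞 K)ˣ → J.1 := fun Iu =>
    ⟨(Iu.2 : 𝓞 K) * g Iu.1, J.1.mul_mem_left _ (hgJ Iu.1)⟩
  have he : Function.Injective e := by
    rintro ⟨I, u⟩ ⟨I', u'⟩ h
    have h' : (u : 𝓞 K) * g I = u' * g I' := congrArg Subtype.val h
    obtain rfl : I = I' := by
      have h3 : ((J * I.1 : (Ideal (𝓞 K))⁰) : Ideal (𝓞 K)) = ↑(J * I'.1) := by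
        rw [hg I, hg I', ← Ideal.span_singleton_mul_left_unit u.isUnit, h',
          Ideal.span_singleton_mul_left_unit u'.isUnit]
      exact Subtype.ext (mul_left_cancel (Subtype.ext h3))
    rw [mul_right_cancel₀ (hg0 I) h' |> Units.ext]
  set F : J.1 → ℂ := fun x => normVal ψ (Ideal.span {(x : 𝓞 K)}) * (iterm s (x : 𝓞 K) : ℂ)
  have hsupp : Function.support F ⊆ Set.range e := by
    intro x hx
    have hx0 : (x : 𝓞 K) ≠ 0 := fun h => hx (by simp [F, h, iterm_zero])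
    obtain ⟨I, hI⟩ := Ideal.dvd_iff_le.mpr ((Ideal.span_singleton_le_iff_mem _).mpr x.2)
    have hspan : Ideal.span {(x : 𝓞 K)} ≠ 0 := by simpa using hx0
    have hI0 : I ≠ 0 := fun h => hspan (by rw [hI, h, mul_zero])
    let I' : (Ideal (𝓞 K))⁰ := ⟨I, mem_nonZeroDivisors_iff_ne_zero.mpr hI0⟩
    have hC : ClassGroup.mk0 I' = C := by
      have : ClassGroup.mk0 (J * I') = 1 :=
        (ClassGroup.mk0_eq_one_iff (SetLike.coe_mem (J * I'))).mpr ⟨(x : 𝓞 K), hI.symm⟩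
      rw [map_mul, hJ, inv_mul_eq_one] at this
      exact this.symm
    obtain ⟨u, hu⟩ := Ideal.span_singleton_eq_span_singleton.mp
      ((hg ⟨I', hC⟩).symm.trans hI.symm)
    exact ⟨(⟨I', hC⟩, u), Subtype.ext (by simpa [e, mul_comm] using hu)⟩
  have hF : Summable fun x : J.1 => ‖F x‖ := by
    refine Summable.of_nonneg_of_le (fun _ => norm_nonneg _) (fun x => ?_)
      ((summable_iterm hs).comp_injective Subtype.val_injective)
    rw [norm_mul, Complex.norm_real, Real.norm_of_nonneg (iterm_nonneg _ _)]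
    exact mul_le_of_le_one_left (iterm_nonneg _ _) (norm_normVal_le ψ _)
  have hsum : Summable fun Iu => F (e Iu) := hF.of_norm.comp_injective he
  have hterm : ∀ I : S, ∑' u : (𝓞 K)ˣ, F (e (I, u)) =
      Units.torsionOrder K * (zN s J : ℂ) * normVal ψ J.1 * normHom ψ s I.1 := by
    intro I
    have hn : mixedEmbedding.norm (intEmb K (g I)) ≠ 0 := by
      rw [norm_intEmb, Nat.cast_ne_zero, Ne, absNorm_eq_zero_iff, Ideal.span_singleton_eq_bot]
      exact hg0 I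
    have h1 : ∀ u : (𝓞 K)ˣ, F (e (I, u)) = normVal ψ ((J * I.1 : (Ideal (𝓞 K))⁰) : Ideal (𝓞 K)) *
        ((weight (u • intEmb K (g I)) * zN s (J * I.1) : ℝ) : ℂ) := by
      intro u
      simp only [F, e]
      rw [Ideal.span_singleton_mul_left_unit u.isUnit, ← hg I, iterm, wterm, norm_intEmb, zN,
        Ideal.span_singleton_mul_left_unit u.isUnit (g I), ← hg I]
      simp [intEmb, unitSMul_smul]
    simp only [h1]
    rw [tsum_mul_left, ← Complex.ofReal_tsum, tsum_mul_right, tsum_weight_unit_smul _ hn, zN_mul,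
      Submonoid.coe_mul, normVal_mul, normHom_apply]
    push_cast
    ring
  rw [← he.tsum_eq hsupp, hsum.tsum_prod, classSum]
  simp only [hterm]
  exact tsum_mul_left

variable (K) in
/-- The sum of `ψ(N x)` over the residues modulo `m`. -/
def resSum [Fintype (𝓞 K ⧸ Ideal.span {(m : 𝓞 K)})] : ℂ :=
  ∑ t : 𝓞 K ⧸ Ideal.span {(m : 𝓞 K)}, normVal ψ (Ideal.span {Quotient.out t})

variable [Fintype (𝓞 K ⧸ Ideal.span {(m : 𝓞 K)})]

theorem exists_class_bound (hψ : ψ (-1) = 1) {C : ClassGroup (𝓞 K)} {J : (Ideal (𝓞 K))⁰}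
    (hJ : ClassGroup.mk0 J = C⁻¹) (hJm : J.1 ⊔ Ideal.span {(m : 𝓞 K)} = ⊤) :
    ∃ B : ℝ, ∀ s ∈ Set.Ioc (1 : ℝ) 2,
      ‖(Units.torsionOrder K : ℂ) * (normVal ψ J.1 * classSum ψ C s) -
        resSum K ψ * (((∑' x : 𝓞 K, iterm s x) / absNorm (Ideal.span {(m : 𝓞 K)}) : ℝ) : ℂ)‖ ≤ B := by
  -- representatives in `J`
  obtain ⟨j, hj, k, hk, hjk⟩ := Submodule.mem_sup.mp ((Ideal.eq_top_iff_one _).mp hJm)
  let r : (𝓞 K ⧸ Ideal.span {(m : 𝓞 K)}) → 𝓞 K := fun t => Quotient.out t * j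
  have hrJ : ∀ t, r t ∈ J.1 := fun t => J.1.mul_mem_left _ hj
  have hrP : ∀ t, r t - Quotient.out t ∈ (Ideal.span {(m : 𝓞 K)}) := fun t => by
    have : r t - Quotient.out t = -(Quotient.out t * k) := by
      simp only [r]; linear_combination (Quotient.out t : 𝓞 K) * hjk
    rw [this]
    exact (Ideal.span {(m : 𝓞 K)}).neg_mem ((Ideal.span {(m : 𝓞 K)}).mul_mem_left _ hk)
  have hmk : ∀ t : (𝓞 K ⧸ Ideal.span {(m : 𝓞 K)}), Ideal.Quotient.mk (Ideal.span {(m : 𝓞 K)}) (r t) = t := fun t =>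
    (Ideal.Quotient.eq.mpr (hrP t)).trans (Quotient.out_eq t)
  have hJ'0 : J.1 * (Ideal.span {(m : 𝓞 K)}) ∈ (Ideal (𝓞 K))⁰ :=
    mem_nonZeroDivisors_iff_ne_zero.mpr
      (mul_ne_zero (nonZeroDivisors.coe_ne_zero J) (span_natCast_ne_bot K m))
  set J' : Ideal (𝓞 K) := J.1 * (Ideal.span {(m : 𝓞 K)})
  have hJ' : J' = J.1 ⊓ (Ideal.span {(m : 𝓞 K)}) := Ideal.mul_eq_inf_of_coprime hJm
  choose B hB using fun t : (𝓞 K ⧸ Ideal.span {(m : 𝓞 K)}) => exists_coset_bound (r t) J'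
  obtain ⟨B', hB'⟩ := exists_latticeSum_bound ⟨J', hJ'0⟩
  obtain ⟨A, hA⟩ := exists_sub_one_mul_idealZeta_le K
  set τ : ℝ := (Units.torsionOrder K : ℝ)
  set N : ℝ := (absNorm J.1 : ℝ) with hN
  set Mn : ℝ := (absNorm (Ideal.span {(m : 𝓞 K)}) : ℝ) with hMn
  have hN1 : 1 ≤ N := one_le_absNorm J
  have hMn1 : 1 ≤ Mn := one_le_absNorm ⟨(Ideal.span {(m : 𝓞 K)}), mem_nonZeroDivisors_iff_ne_zero.mpr
    (span_natCast_ne_bot K m)⟩
  refine ⟨(N - 1) * (τ * A) + N * ∑ t, B t + ‖resSum K ψ‖ * B', fun s hs => ?_⟩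
  let e : (𝓞 K ⧸ Ideal.span {(m : 𝓞 K)}) × J' → J.1 := fun ty => ⟨r ty.1 + (ty.2 : 𝓞 K),
    J.1.add_mem (hrJ _) ((hJ'.le.trans inf_le_left) ty.2.2)⟩
  have he : Function.Bijective e := by
    constructor
    · rintro ⟨t, y⟩ ⟨t', y'⟩ h
      have h' : r t + (y : 𝓞 K) = r t' + (y' : 𝓞 K) := congrArg Subtype.val h
      have hy : ∀ z : J', Ideal.Quotient.mk (Ideal.span {(m : 𝓞 K)}) (z : 𝓞 K) = 0 := fun z =>
        Ideal.Quotient.eq_zero_iff_mem.mpr ((hJ'.le.trans inf_le_right) z.2)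
      obtain rfl : t = t' := by
        have := congrArg (Ideal.Quotient.mk (Ideal.span {(m : 𝓞 K)})) h'
        simpa [hmk, hy] using this
      simpa using h'
    · intro x
      refine ⟨⟨Ideal.Quotient.mk (Ideal.span {(m : 𝓞 K)}) x, ⟨(x : 𝓞 K) - r (Ideal.Quotient.mk (Ideal.span {(m : 𝓞 K)}) x), ?_⟩⟩, ?_⟩
      · rw [hJ']
        refine ⟨J.1.sub_mem x.2 (hrJ _), ?_⟩
        show _ ∈ (Ideal.span {(m : 𝓞 K)})
        rw [← Ideal.Quotient.eq_zero_iff_mem, map_sub, hmk, sub_self]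
      · exact Subtype.ext (by simp [e])
  set F : J.1 → ℂ := fun x => normVal ψ (Ideal.span {(x : 𝓞 K)}) * (iterm s (x : 𝓞 K) : ℂ)
  have hF : Summable F := by
    refine Summable.of_norm_bounded ((summable_iterm hs).comp_injective Subtype.val_injective)
      fun x => ?_
    rw [norm_mul, Complex.norm_real, Real.norm_of_nonneg (iterm_nonneg _ _)]
    exact mul_le_of_le_one_left (iterm_nonneg _ _) (norm_normVal_le ψ _)
  have hval : ∀ (t : (𝓞 K ⧸ Ideal.span {(m : 𝓞 K)})) (y : J'), normVal ψ (Ideal.span {(e (t, y) : 𝓞 K)}) =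
      normVal ψ (Ideal.span {Quotient.out t}) := fun t y => by
    refine normVal_congr ψ hψ ?_
    rw [show (e (t, y) : 𝓞 K) - Quotient.out t = (r t - Quotient.out t) + (y : 𝓞 K) by
      simp only [e]; ring]
    exact (Ideal.span {(m : 𝓞 K)}).add_mem (hrP t) ((hJ'.le.trans inf_le_right) y.2)
  have hsplit : ∑' x, F x = ∑ t : (𝓞 K ⧸ Ideal.span {(m : 𝓞 K)}), normVal ψ (Ideal.span {Quotient.out t}) *
      ((∑' y : J', iterm s (r t + (y : 𝓞 K)) : ℝ) : ℂ) := by
    rw [← (Equiv.ofBijective e he).tsum_eq F]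
    simp only [Equiv.ofBijective_apply]
    have hFe : Summable fun c => F (e c) := hF.comp_injective he.1
    rw [hFe.tsum_prod, tsum_fintype]
    refine Finset.sum_congr rfl fun t _ => ?_
    rw [Complex.ofReal_tsum, ← tsum_mul_left]
    refine tsum_congr fun y => ?_
    simp only [F, hval]
    rfl
  have hkey := classSum_key ψ hJ hs
  rw [show (∑' x : J.1, normVal ψ (Ideal.span {(x : 𝓞 K)}) * (iterm s (x : 𝓞 K) : ℂ)) =
    ∑' x, F x from rfl, hsplit] at hkey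
  set T := ∑' x : 𝓞 K, iterm s x
  set sr := fun t : (𝓞 K ⧸ Ideal.span {(m : 𝓞 K)}) => ∑' y : J', iterm s (r t + (y : 𝓞 K))
  set v := normVal ψ J.1
  set L := classSum ψ C s
  set lat := latticeSum J' s
  -- the coset sums
  have h1 : ‖(N : ℂ) * (∑ t : (𝓞 K ⧸ Ideal.span {(m : 𝓞 K)}), normVal ψ (Ideal.span {Quotient.out t}) * (sr t : ℂ)) -
      resSum K ψ * ((N * lat : ℝ) : ℂ)‖ ≤ N * ∑ t, B t := by
    have hid : (N : ℂ) * (∑ t : (𝓞 K ⧸ Ideal.span {(m : 𝓞 K)}), normVal ψ (Ideal.span {Quotient.out t}) * (sr t : ℂ)) -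
        resSum K ψ * ((N * lat : ℝ) : ℂ) =
        (N : ℂ) * ∑ t : (𝓞 K ⧸ Ideal.span {(m : 𝓞 K)}), normVal ψ (Ideal.span {Quotient.out t}) * ((sr t - lat : ℝ) : ℂ) := by
      simp only [resSum]
      push_cast
      simp only [mul_sub, Finset.sum_sub_distrib, ← Finset.sum_mul]
      ring
    rw [hid, norm_mul, Complex.norm_real, Real.norm_of_nonneg (by linarith)]
    refine mul_le_mul_of_nonneg_left ((norm_sum_le _ _).trans (Finset.sum_le_sum fun t _ => ?_))
      (by linarith)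
    rw [norm_mul, Complex.norm_real, Real.norm_eq_abs]
    exact (mul_le_of_le_one_left (abs_nonneg _) (norm_normVal_le ψ _)).trans (hB t s hs)
  -- the lattice of `J'`
  have h2 : ‖resSum K ψ * ((N * lat : ℝ) : ℂ) - resSum K ψ * ((T / Mn : ℝ) : ℂ)‖ ≤
      ‖resSum K ψ‖ * B' := by
    rw [← mul_sub, norm_mul, ← Complex.ofReal_sub, Complex.norm_real, Real.norm_eq_abs]
    refine mul_le_mul_of_nonneg_left ?_ (norm_nonneg _)
    have hb := hB' s hs
    rw [show (absNorm J' : ℝ) = N * Mn by simp [J', hN, hMn], abs_sub_comm] at hb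
    rw [show N * lat - T / Mn = (N * Mn * lat - T) / Mn by field_simp, abs_div,
      abs_of_pos (zero_lt_one.trans_le hMn1), div_le_iff₀ (zero_lt_one.trans_le hMn1)]
    exact hb.trans (le_mul_of_one_le_right ((abs_nonneg _).trans hb) hMn1)
  -- `N^(1-s)` against `1`
  have hpow : (N : ℂ) * ((τ : ℂ) * (zN s J : ℂ) * v * L) =
      ((N ^ (1 - s) : ℝ) : ℂ) * ((τ : ℂ) * (v * L)) := by
    rw [zN, ← hN, sub_eq_add_neg, Real.rpow_add (by linarith), Real.rpow_one]
    push_cast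
    ring
  have hL : ‖L‖ ≤ idealZeta K s := by
    refine le_trans ?_ (classZeta_le_idealZeta C hs.1)
    exact tsum_of_norm_bounded ((summable_zN hs.1).comp_injective Subtype.val_injective).hasSum
      fun I => norm_normHom_le ψ s I.1
  have h3 : ‖(τ : ℂ) * (v * L) - ((N ^ (1 - s) : ℝ) : ℂ) * ((τ : ℂ) * (v * L))‖ ≤
      (N - 1) * (τ * A) := by
    have hs1 : 0 ≤ s - 1 := by linarith [hs.1]
    have hb : N ^ (s - 1) ≤ 1 + (s - 1) * (N - 1) := by
      have h := rpow_one_add_le_one_add_mul_self (s := N - 1) (by linarith) hs1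
        (by linarith [hs.2] : s - 1 ≤ 1)
      simpa using h
    have hlow : N ^ (1 - s) ≤ 1 := Real.rpow_le_one_of_one_le_of_nonpos hN1 (by linarith)
    have hgap1 : 1 - N ^ (1 - s) ≤ (s - 1) * (N - 1) := by
      have hmul : N ^ (1 - s) * N ^ (s - 1) = 1 := by
        rw [← Real.rpow_add (by linarith)]; ring_nf; exact Real.rpow_zero N
      have h0 : 0 ≤ N ^ (1 - s) := Real.rpow_nonneg (by linarith) _
      nlinarith [mul_le_mul_of_nonneg_left hb h0, mul_le_mul_of_nonneg_right hlow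
        (mul_nonneg hs1 (by linarith : (0:ℝ) ≤ N - 1))]
    rw [← one_sub_mul, norm_mul, ← Complex.ofReal_one, ← Complex.ofReal_sub, Complex.norm_real,
      Real.norm_of_nonneg (by linarith), norm_mul, Complex.norm_real,
      Real.norm_of_nonneg (show (0 : ℝ) ≤ τ from Nat.cast_nonneg _), norm_mul]
    calc (1 - N ^ (1 - s)) * (τ * (‖v‖ * ‖L‖)) ≤ (s - 1) * (N - 1) * (τ * (1 * idealZeta K s)) :=
          mul_le_mul hgap1 (mul_le_mul_of_nonneg_left
            (mul_le_mul (norm_normVal_le ψ _) hL (norm_nonneg _) zero_le_one)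
            (Nat.cast_nonneg _))
            (mul_nonneg (Nat.cast_nonneg _) (mul_nonneg (norm_nonneg _) (norm_nonneg _)))
            (mul_nonneg hs1 (sub_nonneg.mpr hN1))
      _ = (N - 1) * (τ * ((s - 1) * idealZeta K s)) := by ring
      _ ≤ _ := by
          have := hA s hs
          have : 0 ≤ N - 1 := by linarith
          gcongr
  rw [hkey] at h1
  rw [show ((Units.torsionOrder K : ℕ) : ℂ) = (τ : ℂ) by simp [τ]] at h1 ⊢
  rw [hpow] at h1
  refine (norm_sub_le_norm_sub_add_norm_sub _ _ _).trans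
    (add_le_add ((norm_sub_le_norm_sub_add_norm_sub _ _ _).trans (add_le_add h3 h1)) h2)

theorem resSum_mul_sum_eq_zero (hψ : ψ (-1) = 1)
    (h : ∃ I : (Ideal (𝓞 K))⁰, normVal ψ I.1 ≠ 0 ∧ normVal ψ I.1 ≠ 1)
    (J : ClassGroup (𝓞 K) → (Ideal (𝓞 K))⁰) (hJ : ∀ C, ClassGroup.mk0 (J C) = C⁻¹)
    (hJm : ∀ C, (J C).1 ⊔ Ideal.span {(m : 𝓞 K)} = ⊤) :
    resSum K ψ * ∑ C : ClassGroup (𝓞 K), (normVal ψ (J C).1)⁻¹ = 0 := by
  by_cases hc : ∃ c : 𝓞 K, normVal ψ (Ideal.span {c}) ≠ 0 ∧ normVal ψ (Ideal.span {c}) ≠ 1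
  · obtain ⟨c, hc0, hc1⟩ := hc
    let φ : 𝓞 K ⧸ (Ideal.span {(m : 𝓞 K)}) → 𝓞 K ⧸ (Ideal.span {(m : 𝓞 K)}) := fun t => Ideal.Quotient.mk (Ideal.span {(m : 𝓞 K)}) c * t
    have hinj : Function.Injective φ := by
      intro a b hab
      have hu : IsUnit ((absNorm (Ideal.span {c}) : ℕ) : ZMod m) :=
        isUnit_iff_ne_zero.mpr fun h0 => hc0 (by rw [normVal, h0, MulChar.map_zero])
      obtain ⟨i, hi⟩ := Ideal.mem_span_singleton.mp (Ideal.absNorm_mem (Ideal.span {c}))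
      set d := absNorm (Ideal.span {c})
      have hco : Nat.Coprime d m := (ZMod.isUnit_iff_coprime d m).mp hu
      obtain ⟨u, w, huw⟩ := Int.isCoprime_iff_nat_coprime.mpr
        (show Nat.Coprime (d : ℤ).natAbs (m : ℤ).natAbs by simpa using hco)
      have hone : (u : 𝓞 K ⧸ (Ideal.span {(m : 𝓞 K)})) * (Ideal.Quotient.mk (Ideal.span {(m : 𝓞 K)}) i * Ideal.Quotient.mk (Ideal.span {(m : 𝓞 K)}) c) = 1 := by
        have hm0 : ((m : ℕ) : 𝓞 K ⧸ (Ideal.span {(m : 𝓞 K)})) = 0 := by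
          rw [← map_natCast (Ideal.Quotient.mk (Ideal.span {(m : 𝓞 K)}))]
          exact Ideal.Quotient.eq_zero_iff_mem.mpr (Ideal.mem_span_singleton_self _)
        have h1 := congrArg (Int.cast : ℤ → 𝓞 K ⧸ (Ideal.span {(m : 𝓞 K)})) huw
        push_cast at h1
        rw [hm0, mul_zero, add_zero, ← map_natCast (Ideal.Quotient.mk (Ideal.span {(m : 𝓞 K)})), hi, map_mul] at h1
        rw [mul_comm (Ideal.Quotient.mk (Ideal.span {(m : 𝓞 K)}) i)]
        exact h1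
      calc a = (u : 𝓞 K ⧸ (Ideal.span {(m : 𝓞 K)})) * (Ideal.Quotient.mk (Ideal.span {(m : 𝓞 K)}) i * φ a) := by
            simp only [φ]; linear_combination -a * hone
        _ = (u : 𝓞 K ⧸ (Ideal.span {(m : 𝓞 K)})) * (Ideal.Quotient.mk (Ideal.span {(m : 𝓞 K)}) i * φ b) := by rw [hab]
        _ = b := by simp only [φ]; linear_combination b * hone
    have hS : normVal ψ (Ideal.span {c}) * resSum K ψ = resSum K ψ := by
      rw [resSum, Finset.mul_sum]
      refine Fintype.sum_bijective φ (Finite.injective_iff_bijective.mp hinj) _ _ fun t => ?_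
      rw [← normVal_mul, Ideal.span_singleton_mul_span_singleton]
      refine normVal_congr ψ hψ (Ideal.Quotient.eq.mp ?_)
      rw [map_mul, Ideal.Quotient.mk_out, Ideal.Quotient.mk_out]
    rw [(mul_eq_zero.mp (by rw [sub_mul, one_mul, hS, sub_self] :
      (normVal ψ (Ideal.span {c}) - 1) * resSum K ψ = 0)).resolve_left (sub_ne_zero.mpr hc1),
      zero_mul]
  · push Not at hc
    -- the value depends only on the class
    have hprin : ∀ (A B : (Ideal (𝓞 K))⁰), ClassGroup.mk0 A * ClassGroup.mk0 B = 1 →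
        normVal ψ A.1 ≠ 0 → normVal ψ B.1 ≠ 0 → normVal ψ A.1 * normVal ψ B.1 = 1 := by
      intro A B hAB hA hB
      rw [← map_mul] at hAB
      obtain ⟨c, hc'⟩ := (ClassGroup.mk0_eq_one_iff (SetLike.coe_mem (A * B))).mp hAB
      rw [← normVal_mul, ← Submonoid.coe_mul]
      have := hc c
      rw [← show ((A * B : (Ideal (𝓞 K))⁰) : Ideal (𝓞 K)) = Ideal.span {c} from hc',
        Submonoid.coe_mul, normVal_mul] at this
      rw [Submonoid.coe_mul, normVal_mul]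
      exact this (mul_ne_zero hA hB)
    obtain ⟨I₀, hI0, hI1⟩ := h
    have hJ0 : ∀ C, normVal ψ (J C).1 ≠ 0 := fun C => normVal_ne_zero_of_sup ψ (hJm C)
    set C₀ := ClassGroup.mk0 I₀
    have hshift : ∀ C, normVal ψ I₀.1 * (normVal ψ (J C).1)⁻¹ = (normVal ψ (J (C₀ * C)).1)⁻¹ := by
      intro C
      have h1 := hprin (J (C₀ * C)) (I₀ * J C⁻¹) (by
        rw [hJ, map_mul, hJ, inv_inv, inv_mul_eq_one]) (hJ0 _) (by
        rw [Submonoid.coe_mul, normVal_mul]; exact mul_ne_zero hI0 (hJ0 _))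
      have h2 := hprin (J C) (J C⁻¹) (by rw [hJ, hJ, inv_inv, inv_mul_cancel]) (hJ0 _) (hJ0 _)
      rw [Submonoid.coe_mul, normVal_mul] at h1
      rw [← eq_inv_of_mul_eq_one_right h1, ← eq_inv_of_mul_eq_one_right h2]
    have hsum : normVal ψ I₀.1 * ∑ C, (normVal ψ (J C).1)⁻¹ = ∑ C, (normVal ψ (J C).1)⁻¹ := by
      rw [Finset.mul_sum]
      exact Fintype.sum_equiv (Equiv.mulLeft C₀) _ _ fun C => hshift C
    rw [(mul_eq_zero.mp (by rw [sub_mul, one_mul, hsum, sub_self] :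
      (normVal ψ I₀.1 - 1) * ∑ C, (normVal ψ (J C).1)⁻¹ = 0)).resolve_left (sub_ne_zero.mpr hI1),
      mul_zero]

end FA.Weight1

namespace FA.Weight1

variable {K : Type*} [Field K] [NumberField K] {m : ℕ} [Fact m.Prime]
variable (ψ : DirichletCharacter ℂ m)

theorem exists_norm_tsum_normHom_le (hψ : ψ (-1) = 1)
    (h : ∃ I : (Ideal (𝓞 K))⁰, normVal ψ I.1 ≠ 0 ∧ normVal ψ I.1 ≠ 1) :
    ∃ B : ℝ, ∀ s ∈ Set.Ioc (1 : ℝ) 2, ‖∑' I, normHom (K := K) ψ s I‖ ≤ B := by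
  have : Finite (𝓞 K ⧸ Ideal.span {(m : 𝓞 K)}) :=
    Ideal.finiteQuotientOfFreeOfNeBot _ (span_natCast_ne_bot K m)
  let _ : Fintype (𝓞 K ⧸ Ideal.span {(m : 𝓞 K)}) := Fintype.ofFinite _
  choose J hJ hJm using exists_coprime_class (K := K) m
  choose B hB using fun C => exists_class_bound ψ hψ (hJ C) (hJm C)
  have hτ : (0 : ℝ) < Units.torsionOrder K := Nat.cast_pos.mpr (Units.torsionOrder_pos K)
  refine ⟨(∑ C, ‖(normVal ψ (J C).1)⁻¹‖ * B C) / Units.torsionOrder K, fun s hs => ?_⟩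
  have hsum : Summable (normHom (K := K) ψ s) :=
    Summable.of_norm_bounded (summable_zN hs.1) (norm_normHom_le ψ s)
  have h' : Summable fun c => normHom ψ s
      ((Equiv.sigmaFiberEquiv (ClassGroup.mk0 (R := 𝓞 K))) c) :=
    (Equiv.sigmaFiberEquiv _).summable_iff.mpr hsum
  have hL : ∑' I, normHom (K := K) ψ s I = ∑ C : ClassGroup (𝓞 K), classSum ψ C s := by
    rw [← (Equiv.sigmaFiberEquiv (ClassGroup.mk0 (R := 𝓞 K))).tsum_eq,
      Summable.tsum_sigma h', tsum_fintype]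
    rfl
  set T : ℂ := (((∑' x : 𝓞 K, iterm s x) / absNorm (Ideal.span {(m : 𝓞 K)}) : ℝ) : ℂ)
  set τ : ℂ := (Units.torsionOrder K : ℂ)
  have hid : τ * ∑' I, normHom (K := K) ψ s I = ∑ C : ClassGroup (𝓞 K), (normVal ψ (J C).1)⁻¹ *
      (τ * (normVal ψ (J C).1 * classSum ψ C s) - resSum K ψ * T) := by
    rw [hL, Finset.mul_sum]
    simp only [mul_sub, Finset.sum_sub_distrib]
    rw [← Finset.sum_mul (a := resSum K ψ * T), ← mul_assoc _ (resSum K ψ) T,
      mul_comm _ (resSum K ψ), resSum_mul_sum_eq_zero ψ hψ h J hJ hJm, zero_mul, sub_zero]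
    refine Finset.sum_congr rfl fun C _ => ?_
    field_simp [normVal_ne_zero_of_sup ψ (hJm C)]
  rw [le_div_iff₀' hτ]
  calc (Units.torsionOrder K : ℝ) * ‖∑' I, normHom (K := K) ψ s I‖
      = ‖τ * ∑' I, normHom (K := K) ψ s I‖ := by rw [norm_mul, Complex.norm_natCast]
    _ ≤ _ := by
        rw [hid]
        refine (norm_sum_le _ _).trans (Finset.sum_le_sum fun C _ => ?_)
        rw [norm_mul]
        exact mul_le_mul_of_nonneg_left (hB C s hs) (norm_nonneg _)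

/-- The sum over primes of the real parts is bounded above. -/
theorem exists_re_sum_le (hψ : ψ (-1) = 1)
    (h : ∃ I : (Ideal (𝓞 K))⁰, normVal ψ I.1 ≠ 0 ∧ normVal ψ I.1 ≠ 1) :
    ∃ B : ℝ, ∀ s ∈ Set.Ioc (1 : ℝ) 2,
      ∀ᶠ V : Finset (HeightOneSpectrum (𝓞 K)) in atTop,
        (∑ v ∈ V, normHom ψ s (primeIdeal v)).re ≤ B := by
  obtain ⟨B, hB⟩ := exists_norm_tsum_normHom_le (K := K) ψ hψ h
  refine ⟨Real.log (max B 0 + 1) + idealZeta K 2, fun s hs => ?_⟩
  have hlt : ∀ v : HeightOneSpectrum (𝓞 K), ‖normHom ψ s (primeIdeal v)‖ < 1 := fun v => by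
    linarith [norm_normHom_le ψ s (primeIdeal v), zN_primeIdeal_le_half hs.1.le v]
  have hsum : Summable fun I => ‖normHom (K := K) ψ s I‖ :=
    Summable.of_nonneg_of_le (fun _ => norm_nonneg _) (norm_normHom_le ψ s) (summable_zN hs.1)
  have hev := (tendsto_eulerProduct _ hsum hlt).norm.eventually
    (eventually_le_nhds (show ‖∑' I, normHom (K := K) ψ s I‖ < max B 0 + 1 by
      linarith [hB s hs, le_max_left B 0]))
  filter_upwards [hev] with V hV
  set z : HeightOneSpectrum (𝓞 K) → ℂ := fun v => normHom ψ s (primeIdeal v)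
  have h1 : ∀ v, Real.exp ((z v).re - ‖z v‖ ^ 2 / 2) ≤ ‖(1 - z v)⁻¹‖ := fun v => by
    have hpos : 0 < ‖1 - z v‖ := by
      have := norm_sub_norm_le 1 (z v)
      rw [norm_one] at this
      linarith [hlt v]
    rw [norm_inv, le_inv_comm₀ (Real.exp_pos _) hpos, ← Real.exp_neg]
    refine le_of_pow_le_pow_left₀ two_ne_zero (Real.exp_pos _).le ?_
    rw [← Real.exp_nat_mul, Complex.sq_norm]
    refine le_trans ?_ (Real.add_one_le_exp _)
    rw [Complex.sq_norm]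
    simp [Complex.normSq_apply]
    ring_nf
    exact le_rfl
  have h2 : Real.exp (∑ v ∈ V, ((z v).re - ‖z v‖ ^ 2 / 2)) ≤ max B 0 + 1 := by
    rw [Real.exp_sum]
    refine (Finset.prod_le_prod (fun v _ => (Real.exp_pos _).le) fun v _ => h1 v).trans ?_
    rw [← norm_prod]
    exact hV
  rw [← Real.le_log_iff_exp_le (by positivity), Finset.sum_sub_distrib, ← Complex.re_sum] at h2
  have h3 : ∑ v ∈ V, ‖z v‖ ^ 2 / 2 ≤ idealZeta K 2 := by
    calc ∑ v ∈ V, ‖z v‖ ^ 2 / 2 ≤ ∑ v ∈ V, zN 2 (primeIdeal v) :=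
          Finset.sum_le_sum fun v _ => by
            have hN : (1 : ℝ) ≤ absNorm v.asIdeal := one_le_absNorm (primeIdeal v)
            have hz := norm_normHom_le ψ s (primeIdeal v)
            refine ((half_le_self (sq_nonneg _)).trans
              (pow_le_pow_left₀ (norm_nonneg _) hz 2)).trans ?_
            rw [zN_primeIdeal, zN_primeIdeal, ← Real.rpow_natCast, ← Real.rpow_mul (by positivity)]
            exact Real.rpow_le_rpow_of_exponent_le hN (by push_cast; linarith [hs.1])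
      _ = ∑ I ∈ V.image primeIdeal, zN 2 I := by
            rw [Finset.sum_image fun v _ w _ h => HeightOneSpectrum.ext (congrArg Subtype.val h)]
      _ ≤ _ := (summable_zN one_lt_two).sum_le_tsum _ fun I _ => zN_nonneg _ _
  linarith

end FA.Weight1

end
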