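import Fermat.Agent.Weight1.Teich
import Fermat.Agent.Weight1.Coeff

/-!
# The weight one Eisenstein series of level `ℓ` congruent to a constant at a place over `ℓ`
-/

set_option autoImplicit false
set_option linter.style.haveILetI false

noncomputable section

namespace FA.Weight1

open UpperHalfPlane ModularForm CongruenceSubgroup
open scoped MatrixGroups Manifold

local notation "ZB" => integralClosure ℤ ℂ

variable {ℓ : ℕ} [Fact ℓ.Prime] (φ : DirichletCharacter ℂ ℓ)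

/-- A value of a character as an algebraic integer. -/
def valZB {N : ℕ} [NeZero N] (χ : DirichletCharacter ℂ N) (x : ZMod N) : ZB :=
  ⟨χ x, isIntegral_mulChar χ x⟩

/-- `2ℓ ∑ φ(a) G_a`. -/
def eisFun : ℍ → ℂ := (2 * (ℓ : ℂ)) • ∑ a : ZMod ℓ, φ a • FA.Eis.Gfun ℓ a

/-- Its series. -/
def eisSerZ : PowerSeries ZB := PowerSeries.mk fun n =>
  if n = 0 then ∑ a : ZMod ℓ, valZB φ a * ((if a = 0 then 0 else 2 * (a.val : ℤ) - ℓ : ℤ) : ZB)
  else (ℓ : ZB) * (2 * ∑ a : ZMod ℓ, valZB φ a * ((FA.Eis.cG ℓ a n : ℤ) : ZB))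

theorem hasQ_eisFun :
    FA.Eis.HasQ 1 (eisFun φ) ((eisSerZ φ).map (integralClosure ℤ ℂ).toSubring.subtype) := by
  have h := (FA.Eis.HasQ.sum Finset.univ fun (a : ZMod ℓ) _ =>
    (FA.Eis.hasQ_Gfun (q := ℓ) a).smul (φ a)).smul (2 * (ℓ : ℂ))
  change FA.Eis.HasQ 1 (eisFun φ) _ at h
  convert h using 1
  ext n
  rw [PowerSeries.coeff_map, eisSerZ, PowerSeries.coeff_mk, PowerSeries.coeff_smul, map_sum,
    smul_eq_mul, Finset.mul_sum]
  have hℓ : (ℓ : ℂ) ≠ 0 := Nat.cast_ne_zero.2 (Fact.out : ℓ.Prime).ne_zero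
  split_ifs with hn
  · subst hn
    simp only [map_sum, Finset.mul_sum]
    refine Finset.sum_congr rfl fun a _ => ?_
    rw [PowerSeries.coeff_smul, FA.Eis.GSer, PowerSeries.coeff_mk, if_pos rfl, smul_eq_mul,
      map_mul, map_intCast, FA.Eis.saw]
    show φ a * _ = _
    split_ifs
    · simp
    · push_cast; field_simp
  · simp only [map_sum, Finset.mul_sum]
    refine Finset.sum_congr rfl fun a _ => ?_
    rw [PowerSeries.coeff_smul, FA.Eis.GSer, PowerSeries.coeff_mk, if_neg hn, smul_eq_mul,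
      map_mul, map_mul, map_mul, map_natCast, map_ofNat, map_intCast]
    show (ℓ : ℂ) * (2 * (φ a * _)) = _
    ring

theorem slash_eisFun {γ : SL(2, ℤ)} (hγ : γ ∈ Gamma0 ℓ) :
    eisFun φ ∣[(1 : ℤ)] γ = φ ((γ 1 1 : ℤ) : ZMod ℓ) • eisFun φ := by
  have hc : (ℓ : ℤ) ∣ γ 1 0 := (ZMod.intCast_zmod_eq_zero_iff_dvd _ _).1 (Gamma0_mem.1 hγ)
  have had : (γ.1 0 0 : ZMod ℓ) * (γ.1 1 1 : ZMod ℓ) = 1 := by
    have hd := congrArg (fun x : ℤ => (x : ZMod ℓ)) γ.2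
    simp only [Matrix.det_fin_two, Int.cast_sub, Int.cast_mul, Int.cast_one] at hd
    rwa [Gamma0_mem.1 hγ, mul_zero, sub_zero] at hd
  let u : (ZMod ℓ)ˣ := Units.mkOfMulEqOne _ _ had
  rw [eisFun, SL_smul_slash, SlashAction.sum_slash, smul_comm (φ _), Finset.smul_sum (r := φ _)]
  congr 1
  refine Fintype.sum_equiv (Units.mulLeft u) _ _ fun a => ?_
  rw [SL_smul_slash, FA.Eis.Gfun_slash_of_mem a hc, smul_smul, ← map_mul]
  show φ a • FA.Eis.Gfun ℓ ((γ.1 0 0 : ZMod ℓ) * a) = _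
  congr 2
  show a = (γ.1 1 1 : ZMod ℓ) * ((γ.1 0 0 : ZMod ℓ) * a)
  linear_combination (-a) * had

theorem bdd_eisFun : FA.Eis.BddAllCusps 1 (eisFun φ) :=
  (FA.Eis.BddAllCusps.sum _ fun a _ => (FA.Eis.bdd_Gfun a).smul (φ a)).smul _

/-- Modulo the place the series is the constant `-2`. -/
theorem map_eisSerZ (𝔪 : Ideal ZB) [𝔪.IsMaximal] (hm : (ℓ : ZB) ∈ 𝔪)
    (hφ : ∀ x : ZMod ℓ, x ≠ 0 →
      Ideal.Quotient.mk 𝔪 (⟨φ x, isIntegral_mulChar φ x⟩ : ZB) * (x.val : ZB ⧸ 𝔪) = 1) :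
    (eisSerZ φ).map (Ideal.Quotient.mk 𝔪) = PowerSeries.C (-2 : ZB ⧸ 𝔪) := by
  haveI := charP_quot (Fact.out : ℓ.Prime) 𝔪 hm
  have hℓ0 : ((ℓ : ℕ) : ZB ⧸ 𝔪) = 0 := CharP.cast_eq_zero _ _
  ext n
  rw [PowerSeries.coeff_map, eisSerZ, PowerSeries.coeff_mk, PowerSeries.coeff_C]
  split_ifs with hn
  · rw [map_sum]
    have h1 : ∀ a : ZMod ℓ, Ideal.Quotient.mk 𝔪
        (valZB φ a * ((if a = 0 then 0 else 2 * (a.val : ℤ) - ℓ : ℤ) : ZB)) =
          if a = 0 then (0 : ZB ⧸ 𝔪) else 2 := fun a => by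
      split_ifs with ha
      · simp
      · have h := hφ a ha
        simp only [map_mul, Int.cast_sub, Int.cast_mul, Int.cast_ofNat,
          Int.cast_natCast, map_sub, map_ofNat, map_natCast, hℓ0, sub_zero]
        linear_combination (norm := (simp only [valZB]; ring)) (2 : ZB ⧸ 𝔪) * h
    rw [Finset.sum_congr rfl fun a _ => h1 a, Finset.sum_ite, Finset.sum_const_zero, zero_add,
      Finset.sum_const, Finset.filter_ne', Finset.card_erase_of_mem (Finset.mem_univ _),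
      Finset.card_univ, ZMod.card, nsmul_eq_mul, Nat.cast_sub (Fact.out : ℓ.Prime).one_le, hℓ0]
    ring
  · rw [map_mul, map_natCast, hℓ0, zero_mul]

end FA.Weight1

end
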