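import Fermat.Agent.Weight1.Defs
import Fermat.Agent.NebLocal.Dia
import Fermat.Agent.NebLocal.Galois

/-!
# The Galois module of the lattice of `±Γ₁(M)`: the interfaces

`HeckeComm`: the Hecke correspondences of primes not dividing `M` commute with the arithmetic
action.  `FrobeniusRel`: at a prime `p` not dividing `M` inertia is trivial on the lattice modulo
`ℓ` and a Frobenius element satisfies `T_p = σ + p ⟨p⟩ σ⁻¹`.
-/

set_option autoImplicit false
set_option linter.unusedSectionVars false

noncomputable section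

namespace FA.Weight1

open CongruenceSubgroup FA.Level
open FA.JTorsion (cuspLat)
open FA.HeckeH1 (GamH Tc ulHom)
open FA.NebLocal (latC iDia GalRel)
open scoped MatrixGroups

local notation "Qb" => AlgebraicClosure ℚ
local notation "GQ" => AlgebraicClosure ℚ ≃ₐ[ℚ] AlgebraicClosure ℚ

variable [Algebra Qb ℂ]

/-- The Hecke correspondences commute with the arithmetic action. -/
def HeckeComm : Prop :=
  ∀ (M : ℕ) [NeZero M] [Fact (1 < M)] (n : ℕ) [NeZero n] (p : ℕ) [Fact p.Prime], ¬ p ∣ M →
    ∀ (σ : GQ) (x y : cuspLat (lvlOne M)), GalRel (lvlOne M) n σ x y →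
      GalRel (lvlOne M) n σ (latC (V := lvlOne M) (V' := lvlOne M) (Tc M (pmOne M) p) x)
        (latC (V := lvlOne M) (V' := lvlOne M) (Tc M (pmOne M) p) y)

/-- The Eichler–Shimura relation; `2` or `3` divides the level to give a chart. -/
def FrobeniusRel : Prop :=
  ∀ (M : ℕ) [NeZero M] [Fact (1 < M)] (n : ℕ) [NeZero n], n ∣ M →
    ∀ (p : ℕ) [Fact p.Prime], ¬ p ∣ M → (2 ∣ M ∨ 3 ∣ M) →
      ∀ A : ValuationSubring Qb, A.LiesOverPrime p →
        (∀ σ ∈ A.inertiaSubgroupIn ℚ, ∀ x : cuspLat (lvlOne M), GalRel (lvlOne M) n σ x x) ∧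
        ∀ σ : GQ, A.IsFrobeniusAt σ p →
          ∃ γ : GamH M (⊤ : Subgroup (ZMod M)ˣ), (ulHom M γ : ZMod M) = (p : ZMod M) ∧
            ∀ x y z : cuspLat (lvlOne M), GalRel (lvlOne M) n σ x z →
              GalRel (lvlOne M) n σ y x → ∃ w : cuspLat (lvlOne M),
                latC (V := lvlOne M) (V' := lvlOne M) (Tc M (pmOne M) p) x =
                  z + p • (latC (V := lvlOne M) (V' := lvlOne M)
                    (iDia M (pmOne M) (neg_one_mem_pmOne M) γ).C y) + n • w

end FA.Weight1

end
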