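import Fermat.Agent.Weight1.ConnDeg
import Fermat.Agent.NebLocal.RedClass
import Fermat.Agent.CurveRed.Modular
import Fermat.Agent.CurveRed.Spl
import Fermat.Agent.CurveRed.Torsion

/-!
# Good reduction of `±Γ₁(M)` at a prime not dividing `M`

The reduction of series has the chart `j`; the Hauptmodul relation at the prime `2` or `3`
dividing the level bounds the genus, so torsion prime to the characteristic injects.
-/

set_option autoImplicit false
set_option linter.style.haveILetI false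
set_option linter.unusedSectionVars false
set_option synthInstance.maxHeartbeats 400000
set_option maxHeartbeats 1600000

noncomputable section

namespace FA.Weight1

open UpperHalfPlane hiding I
open CongruenceSubgroup ModularCurve AlgebraicCurve FA.ModField FA.Level FA.Curve FA.CurveRed
  IntermediateField Polynomial
open FA.HeckeH1 (GamH GamH_top GamH_le_top)
open FA.NebLocal (serRed serRed_red serRed_series scaled_serRed redPhi redPhi_eq)
open scoped MatrixGroups

variable {L : Type} [Field L] [CharZero L] [Algebra ℚ L] [Algebra L ℂ] [IsAlgClosed L] {k : Type}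
  [Field k] [IsAlgClosed k] {A : ValuationSubring L} {M : ℕ} [NeZero M] [Fact (1 < M)]
  {π : A →+* k} (hπs : Function.Surjective π) (hπ0 : ∀ a : A, π a = 0 ↔ A.valuation a < 1)
  (hk : ∀ r : ℕ, r.Prime → r ∣ M → (r : k) ≠ 0) (hj : 2 ∣ M ∨ 3 ∣ M)

include hπs hπ0 hk hj in
theorem down_one : ∀ Y : LaurentSeries A,
    coeffMap (A.subtype : A →+* L) Y ∈ (lvlOne M).fld L → coeffMap π Y ∈ kH π M :=
  fun Y hY => down_kH π hπs hπ0 hk hj Y hY

/-- The reduction of the field of `±Γ₁(M)`. -/
def redOne : ConstRed L ((lvlOne M).fld L) k (kH π M) A :=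
  serRed π hπs hπ0 ((lvlOne M).fld L) (kH π M) (down_one hπs hπ0 hk hj)

theorem red_ser (Y : LaurentSeries A) {f : (lvlOne M).fld L} {r : kH π M}
    (hf : coeffMap (A.subtype : A →+* L) Y = f) (hr : coeffMap π Y = r) :
    (redOne hπs hπ0 hk hj).Red f r := by
  have hY : coeffMap (A.subtype : A →+* L) Y ∈ (lvlOne M).fld L := hf ▸ f.2
  have h := serRed_series π hπs hπ0 ((lvlOne M).fld L) (kH π M) (down_one hπs hπ0 hk hj) hY
  have e1 : (⟨_, hY⟩ : (lvlOne M).fld L) = f := Subtype.ext hf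
  have e2 : (⟨_, down_one hπs hπ0 hk hj Y hY⟩ : kH π M) = r := Subtype.ext hr
  rw [e1, e2] at h
  exact h

theorem red_jOne : (redOne hπs hπ0 hk hj).Red ((lvlOne M).jF L) (jH π M) :=
  red_ser hπs hπ0 hk hj (jqModC A) (by rw [coeffMap_jqModC, Lvl.coe_jF])
    (by rw [coeffMap_jqModC]; rfl)

include hπs hπ0 hk hj in
theorem gen_one : IntermediateField.adjoin k
    {r | ∃ f, (redOne hπs hπ0 hk hj).Red f r} = ⊤ := by
  refine IntermediateField.map_injective (kH π M).val ?_
  rw [IntermediateField.adjoin_map, ← AlgHom.fieldRange_eq_map, fieldRange_val]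
  refine le_antisymm (adjoin_le_iff.2 (by rintro _ ⟨r, -, rfl⟩; exact r.2)) ?_
  refine adjoin_le_iff.2 ?_
  have hser : ∀ Y : LaurentSeries A, coeffMap (A.subtype : A →+* L) Y ∈ (lvlOne M).fld L →
      coeffMap π Y ∈ IntermediateField.adjoin k
        ((kH π M).val '' {r | ∃ f, (redOne hπs hπ0 hk hj).Red f r}) := fun Y hY =>
    IntermediateField.subset_adjoin _ _
      ⟨⟨_, down_one hπs hπ0 hk hj Y hY⟩, ⟨_, serRed_series π hπs hπ0 _ _ _ hY⟩, rfl⟩
  rintro x ((hx | hx) | ⟨Y, hY, hx⟩)
  · rw [hx, ← coeffMap_jqModC π]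
    refine hser _ ?_
    rw [coeffMap_jqModC, ← (lvlOne M).coe_jF]
    exact ((lvlOne M).jF L).2
  · rw [hx, ← coeffMap_jqModC π, ← coeffMap_qExpand]
    refine hser _ (mem_fld_of_intFun (aI M) (fun γ hγ z => aI_mem hγ z) ?_)
    rw [coeffMap_qExpand, coeffMap_jqModC, coe_aI]
    exact hasExp_scale M
  · rw [hx]
    refine hser _ (mem_fld_of_intFun (bI π hπ0 hk hj) (fun γ hγ z => ?_) ?_)
    · rw [coe_bI]; exact bFun_mem hγ z
    · rw [coe_bI]; exact hY

include hπs hπ0 hk hj in
theorem isFunctionField_kH : IsFunctionField k (kH π M) :=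
  ⟨jH π M, jH_transcendental π, finite_kH π hπs hπ0 hk hj⟩

/-- The chart `j`. -/
theorem chart_one : (redOne hπs hπ0 hk hj).Chart ((lvlOne M).jF L) (jH π M) where
  red_x := red_jOne hπs hπ0 hk hj
  trans := jH_transcendental π
  degree_le := ((lvlOne M).finrank_jFld L).le.trans (card_le_finrank_kH π hπs hπ0 hk hj)
  gen := gen_one hπs hπ0 hk hj

theorem scaled_one : (redOne hπs hπ0 hk hj).Scaled :=
  (chart_one hπs hπ0 hk hj).scaled ((lvlOne M).isFunctionField L)
    (isFunctionField_kH hπs hπ0 hk hj)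

/-! ### The genus -/

section ram

theorem ord_le_fam {V : Lvl} {a : L}
    (E : EmbFamily L (V.fld L) ℂ (V.jFld L) (V.jF L - algebraMap L (V.fld L) a) V.Cos)
    (v : Place L (V.fld L)) (hv : 0 < v.ord (V.jF L - algebraMap L (V.fld L) a)) :
    v.ord (V.jF L - algebraMap L (V.fld L) a) ≤ E.m := by
  obtain ⟨i, rfl⟩ := E.pl_surjective v hv
  rw [← E.ram_cast i]
  exact_mod_cast Nat.le_of_dvd E.hm ⟨_, ((mul_comm _ _).trans (E.scale_toNat_mul_ram i)).symm⟩

theorem ord_jF_sub_le [DecidableEq L] (V : Lvl) (a : L) (v : Place L (V.fld L))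
    (hv : 0 < v.ord (V.jF L - algebraMap L (V.fld L) a)) :
    v.ord (V.jF L - algebraMap L (V.fld L) a) ≤
      ((if a = 0 then 3 else if a = 1728 then 2 else 1 : ℕ) : ℤ) := by
  split_ifs with h0 h1
  · subst h0
    obtain ⟨g, hg⟩ : ∃ g : SL(2, ℤ), g = ModularGroup.S * ModularGroup.T := ⟨_, rfl⟩
    exact ord_le_fam (V.pointFam L 0 rho (by rw [jfun_rho, map_zero]) g (hg ▸ ST_smul_rho) 3
      (by norm_num) order_jLocal_rho (rotUnit_rho hg)) v hv
  · subst h1
    exact ord_le_fam (V.pointFam L 1728 UpperHalfPlane.I (by rw [jfun_I, map_ofNat]) ModularGroup.S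
      S_smul_I 2 (by norm_num) order_jLocal_I rotUnit_I) v hv
  · obtain ⟨τ, hτ⟩ := exists_jfun_eq (algebraMap L ℂ a)
    have hj0 : jfun τ ≠ 0 := by rw [hτ]; exact (_root_.map_ne_zero _).2 h0
    have hj1 : jfun τ ≠ 1728 := by
      rw [hτ, ← map_ofNat (algebraMap L ℂ) 1728]
      exact fun h => h1 ((algebraMap L ℂ).injective h)
    exact ord_le_fam (V.pointFam L a τ hτ 1 (one_smul _ τ) 1 one_pos
      (order_jLocal_general hj0 hj1) (rotUnit_one τ)) v hv

end ram

/-- A function of `Γ₀(p)` is one of `±Γ₁(M)` for `p ∣ M`. -/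
theorem modFuns_le {p : ℕ} [NeZero p] (hp : p ∣ M) {s : ℍ → ℂ} (hs : s ∈ modFuns p) :
    s ∈ (lvlOne M).mf := by
  obtain ⟨h1, h2, h3, h4⟩ := hs
  refine ⟨h1, fun γ hγ => h2 γ ?_, h3, fun γ => ?_⟩
  · have h : γ ∈ Gamma0 M := by rw [← GamH_top]; exact GamH_le_top (hγ : γ ∈ GamH M (pmOne M))
    rw [Gamma0_mem, ZMod.intCast_zmod_eq_zero_iff_dvd] at h ⊢
    exact (Int.natCast_dvd_natCast.2 hp).trans h
  · obtain ⟨s', hs'⟩ := h4 γ
    obtain ⟨e, he⟩ := hp
    haveI : NeZero e := ⟨fun h => NeZero.ne M (by rw [he, h, mul_zero])⟩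
    refine ⟨_, hs'.comp (U := qp M) id e 1 fun z => ?_⟩
    rw [Units.val_one, one_mul, id_eq, qp_eq, qp_eq, ← Complex.exp_nat_mul, he]
    congr 1
    have h1 : (p : ℂ) ≠ 0 := Nat.cast_ne_zero.2 (NeZero.ne p)
    have h2 : (e : ℂ) ≠ 0 := Nat.cast_ne_zero.2 (NeZero.ne e)
    push_cast
    field_simp

theorem transcendental_ser {R : Type} [Field R] [IsAlgClosed R]
    {F : IntermediateField R (LaurentSeries R)} (x : F)
    (h : (x : LaurentSeries R).coeff (-1) = 1) : Transcendental R x := by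
  refine transcendental_of_not_const fun c hc => ?_
  have h1 : (x : LaurentSeries R) = algebraMap R (LaurentSeries R) c := congrArg Subtype.val hc
  rw [h1, algebraMap_laurentSeries_eq_single, HahnSeries.coeff_single_of_ne (by norm_num)] at h
  exact zero_ne_one h

theorem coe_aeval_ser {R : Type} [Field R] {F : IntermediateField R (LaurentSeries R)} (P : R[X])
    (x : F) {s : LaurentSeries R} (hx : (x : LaurentSeries R) = s) :
    ((aeval x P : F) : LaurentSeries R) = P.eval₂ HahnSeries.C s := by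
  rw [← hx, ← IntermediateField.coe_val, ← Polynomial.aeval_algHom_apply, aeval_def]
  congr 1
  exact RingHom.ext fun r => by
    rw [algebraMap_laurentSeries_eq_single, ← HahnSeries.C_apply]

open FA.CurveRed.Modular FA.CurveRed.Haupt in
include hπs hπ0 hk hj in
theorem genus_one_of_haupt (p : ℕ) [NeZero p] (hp : p ∣ M) {s : ℍ → ℂ} {S : PowerSeries ℤ}
    (hS : PowerSeries.constantCoeff S = 1) (hmem : s ∈ modFuns p)
    (hexp : HasExp (qp 1) s (sSer ℂ S)) (P : ℤ[X]) (hrel : ∀ (R : Type) [CommRing R],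
      jqModC R * sSer R S ^ p = (P.map (Int.castRingHom R)).eval₂ HahnSeries.C (sSer R S))
    (hPm : P.Monic) (hPd : P.natDegree = p + 1) (hP0 : (P.coeff 0 : k) ≠ 0) (b : ℤ)
    (hb : (b : k) ≠ 0)
    (hroot0 : ∀ c : L, c ≠ b → (P.map (Int.castRingHom L)).eval c = 0 →
      (X - Polynomial.C c) ^ 3 ∣ P.map (Int.castRingHom L))
    (hroot1 : ∀ c : L, c ≠ b →
      (P.map (Int.castRingHom L) - Polynomial.C 1728 * X ^ p).eval c = 0 →
      (X - Polynomial.C c) ^ 2 ∣ P.map (Int.castRingHom L) - Polynomial.C 1728 * X ^ p) :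
    genus L ((lvlOne M).fld L) ≤ genus k (kH π M) := by
  classical
  set V := lvlOne M
  have hF := V.isFunctionField L
  have hkF := isFunctionField_kH hπs hπ0 hk hj
  have hup : sSer L S ∈ V.fld L :=
    V.mem_fld_of_modFuns (R := s) (modFuns_le hp hmem) _ (by rwa [coeffMap_sSer])
  have hdown : sSer k S ∈ kH π M := by
    have h := down_one hπs hπ0 hk hj (sSer A S) (by rwa [coeffMap_sSer])
    rwa [coeffMap_sSer] at h
  set x : V.fld L := ⟨_, hup⟩
  set xb : kH π M := ⟨_, hdown⟩
  have hx : Transcendental L x := transcendental_ser x (sSer_coeff_neg_one hS)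
  have hxb : Transcendental k xb := transcendental_ser xb (sSer_coeff_neg_one hS)
  have hr : (redOne hπs hπ0 hk hj).Red x xb :=
    red_ser hπs hπ0 hk hj (sSer A S) (coeffMap_sSer _ S) (coeffMap_sSer π S)
  have hrelL : V.jF L * x ^ p = aeval x (P.map (Int.castRingHom L)) := by
    apply Subtype.ext
    rw [coe_aeval_ser _ x rfl, MulMemClass.coe_mul, SubmonoidClass.coe_pow, Lvl.coe_jF]
    exact hrel L
  have hrelk : jH π M * xb ^ p = aeval xb (P.map (Int.castRingHom k)) := by
    apply Subtype.ext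
    rw [coe_aeval_ser _ xb rfl]
    exact hrel k
  have hP0L : (P.map (Int.castRingHom L)).coeff 0 ≠ 0 := by
    rw [coeff_map, eq_intCast, Int.cast_ne_zero]
    intro h
    rw [h, Int.cast_zero] at hP0
    exact hP0 rfl
  have hchart : (redOne hπs hπ0 hk hj).Chart x xb := by
    refine ⟨hr, hxb, ?_, gen_one hπs hπ0 hk hj⟩
    have h1 := finrank_of_relation hF hx (V.jF_transcendental L) (hPm.map _)
      (by rw [hPm.natDegree_map, hPd]) hP0L hrelL
    have h2 := finrank_of_relation hkF hxb (jH_transcendental π) (hPm.map _)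
      (by rw [hPm.natDegree_map, hPd]) (by rwa [coeff_map]) hrelk
    have h3 := card_le_finrank_kH π hπs hπ0 hk hj
    rw [← V.finrank_jFld L, h2, h1] at h3
    exact Nat.le_of_mul_le_mul_left h3 (Nat.succ_pos p)
  haveI : Algebra.IsSeparable L⟮x⟯ (V.fld L) := by
    haveI := hF.finiteDimensional hx
    haveI : CharZero L⟮x⟯ := charZero_of_injective_algebraMap (algebraMap L L⟮x⟯).injective
    exact Algebra.IsAlgebraic.isSeparable_of_perfectField
  haveI : Algebra.IsSeparable k⟮xb⟯ (kH π M) := by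
    haveI := hkF.finiteDimensional hxb
    exact isSeparable_of_theta _ xb (theta_ne_zero_of_coeff (sSer_coeff_neg_one hS))
  have hb0 : (b : A) ≠ 0 := fun h => hb (by rw [← map_intCast π, h, map_zero])
  refine hchart.genus_le_of_branch hF hkF {0, (b : A)}
    (by rw [Finset.card_pair hb0.symm]) ?_ ?_
  · intro u hu w hw huw
    have hπC : (redOne hπs hπ0 hk hj).π = π := rfl
    rw [hπC] at huw
    simp only [Finset.coe_insert, Finset.coe_singleton, Set.mem_insert_iff,
      Set.mem_singleton_iff] at hu hw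
    rcases hu with rfl | rfl <;> rcases hw with rfl | rfl
    · rfl
    · rw [map_zero, map_intCast] at huw; exact absurd huw.symm hb
    · rw [map_zero, map_intCast] at huw; exact absurd huw hb
    · rfl
  · intro v c hc hord
    by_contra hno
    push Not at hno
    have hc0 : c ≠ 0 := by simpa using hno 0 (Finset.mem_insert_self _ _)
    have hcb : c ≠ (b : L) := by
      simpa using hno (b : A) (Finset.mem_insert_of_mem (Finset.mem_singleton_self _))
    set a := (P.map (Int.castRingHom L)).eval c / c ^ p with ha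
    set e : ℕ := if a = 0 then 3 else if a = 1728 then 2 else 1 with he
    have hne : P.map (Int.castRingHom L) - Polynomial.C a * X ^ p ≠ 0 := by
      intro h
      have h1 := congrArg (fun q : L[X] => q.coeff (p + 1)) h
      simp only [Polynomial.coeff_sub, coeff_C_mul, coeff_X_pow, coeff_map,
        Polynomial.coeff_zero] at h1
      rw [← hPd, hPm.coeff_natDegree, map_one, if_neg (by omega)] at h1
      simp at h1
    have hzero : (P.map (Int.castRingHom L) - Polynomial.C a * X ^ p).eval c = 0 := by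
      simp [ha, div_mul_cancel₀ _ (pow_ne_zero p hc0)]
    have hdvd : (X - Polynomial.C c) ^ e ∣
        P.map (Int.castRingHom L) - Polynomial.C a * X ^ p := by
      rw [he]
      split_ifs with h0 h1
      · rw [h0, map_zero, zero_mul, sub_zero] at hzero ⊢
        exact hroot0 c hcb hzero
      · rw [h1] at hzero ⊢
        exact hroot1 c hcb hzero
      · rw [pow_one]
        exact Polynomial.dvd_iff_isRoot.2 hzero
    refine hord (ord_sub_le_one hF hx (e := e) ?_ hc hc0 hdvd hne hrelL (ord_jF_sub_le V a v))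
    rw [he]
    split_ifs <;> norm_num

open FA.CurveRed.Modular FA.CurveRed.Haupt in
include hπs hπ0 hk hj in
/-- **Good reduction: the genus does not drop.** -/
theorem genus_one : genus L ((lvlOne M).fld L) ≤ genus k (kH π M) := by
  by_cases h2 : 2 ∣ M
  · haveI : Fact (Nat.Prime 2) := ⟨Nat.prime_two⟩
    have hk2 : (2 : k) ≠ 0 := by exact_mod_cast hk 2 Nat.prime_two h2
    refine genus_one_of_haupt hπs hπ0 hk hj 2 h2 constantCoeff_haupt2 isHaupt_two.mem
      isHaupt_two.exp relPoly2 (isHaupt_two.relation relPoly2 ordGE_relPoly2) relPoly2_monic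
      relPoly2_natDegree ?_ (-64) ?_ (fun c => relPoly2_root0 c) (fun c => relPoly2_root1 c)
    · rw [relPoly2_coeff_zero, Int.cast_pow, Int.cast_ofNat]
      exact pow_ne_zero _ hk2
    · rw [show (((-64 : ℤ)) : k) = -(2 : k) ^ 6 by norm_num]
      exact neg_ne_zero.2 (pow_ne_zero _ hk2)
  · have h3 := hj.resolve_left h2
    haveI : Fact (Nat.Prime 3) := ⟨Nat.prime_three⟩
    have hk3 : (3 : k) ≠ 0 := by exact_mod_cast hk 3 Nat.prime_three h3
    refine genus_one_of_haupt hπs hπ0 hk hj 3 h3 constantCoeff_haupt3 isHaupt_three.mem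
      isHaupt_three.exp relPoly3 (isHaupt_three.relation relPoly3 ordGE_relPoly3) relPoly3_monic
      relPoly3_natDegree ?_ (-27) ?_ (fun c => relPoly3_root0 c) (fun c => relPoly3_root1 c)
    · rw [relPoly3_coeff_zero, Int.cast_pow, Int.cast_ofNat]
      exact pow_ne_zero _ hk3
    · rw [show (((-27 : ℤ)) : k) = -(3 : k) ^ 3 by norm_num]
      exact neg_ne_zero.2 (pow_ne_zero _ hk3)

/-- The reduction with its map of places. -/
def placeRed : Reduction L ((lvlOne M).fld L) k (kH π M) A where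
  π := π
  π_surjective := hπs
  π_eq_zero := hπ0
  G := (redOne hπs hπ0 hk hj).G
  algebraMap_mem := (redOne hπs hπ0 hk hj).algebraMap_mem
  red := (redOne hπs hπ0 hk hj).red
  red_algebraMap := (redOne hπs hπ0 hk hj).red_algebraMap
  exists_scale f hf := by
    obtain ⟨c, g, r, -, he, hg, hr⟩ := exists_scaled (scaled_one hπs hπ0 hk hj) hf
    exact ⟨c, ⟨g, hg.1⟩, he, by rw [hg.2]; exact hr⟩
  spl := ((chart_one hπs hπ0 hk hj).exists_spl ((lvlOne M).isFunctionField L)
    (isFunctionField_kH hπs hπ0 hk hj) (genus_one hπs hπ0 hk hj)).choose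
  div_red g hg D hD :=
    ((chart_one hπs hπ0 hk hj).exists_spl ((lvlOne M).isFunctionField L)
      (isFunctionField_kH hπs hπ0 hk hj) (genus_one hπs hπ0 hk hj)).choose_spec g _ ⟨g.2, rfl⟩ hg D
      hD
  exists_nonconst := ⟨⟨_, (red_jOne hπs hπ0 hk hj).1⟩, by
    rw [(red_jOne hπs hπ0 hk hj).2]; exact jH_transcendental π⟩

/-! ### Torsion prime to the characteristic injects -/

section lattice

local notation "Qb" => AlgebraicClosure ℚ

variable [Algebra Qb ℂ] {A : ValuationSubring Qb} {π : A →+* k} (hπs : Function.Surjective π)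
  (hπ0 : ∀ a : A, π a = 0 ↔ A.valuation a < 1) (hk : ∀ r : ℕ, r.Prime → r ∣ M → (r : k) ≠ 0)
  (hj : 2 ∣ M ∨ 3 ∣ M)

theorem redPhi_one_eq_zero {n : ℕ} [NeZero n] (hn : (n : k) ≠ 0)
    {x : JTorsion.cuspLat (lvlOne M)} (h : redPhi (scaled_one hπs hπ0 hk hj) n x = 0) :
    ∃ y : JTorsion.cuspLat (lvlOne M), x = n • y := by
  obtain ⟨f, hf⟩ := NebLocal.exists_isKum (L := Qb) (n := n) x
  obtain ⟨D, hD, hfD⟩ := hf.exists_divisor
  set R := placeRed hπs hπ0 hk hj
  obtain ⟨c, g, r, hc, he, hg, hr⟩ := exists_scaled (scaled_one hπs hπ0 hk hj) hf.1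
  rw [redPhi_eq _ hf, redFn_eq n hc he hg hr, redCls_eq_zero_iff n hr] at h
  obtain ⟨a, w, ha, hrw⟩ := h
  have hw : w ≠ 0 := fun h0 => hr (by rw [hrw, h0, zero_pow (NeZero.ne n), mul_zero])
  have hg0 : g ≠ 0 := hg.ne_zero hr
  have hdiv : ∀ P : Place Qb ((lvlOne M).fld Qb),
      (n • (D : Divisor Qb ((lvlOne M).fld Qb))) P = P.ord g := fun P => by
    rw [Finsupp.smul_apply, nsmul_eq_mul, hfD P, he,
      P.ord_mul ((_root_.map_ne_zero _).2 hc) hg0, place_ord_algebraMap, zero_add]
  have hred : (R.push (D : Divisor Qb ((lvlOne M).fld Qb))).IsPrincipal := by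
    refine ⟨w, hw, fun Q => ?_⟩
    obtain ⟨hgm, hgr⟩ := hg
    have h1 := R.div_red ⟨g, hgm⟩ (fun h0 => hr (hgr.symm.trans h0)) _
      hdiv Q
    rw [show R.red ⟨g, hgm⟩ = r from hgr, hrw,
      Q.ord_mul ((_root_.map_ne_zero _).2 ha) (pow_ne_zero _ hw), place_ord_algebraMap,
      zero_add, place_ord_pow, ← Finsupp.mapDomain.addMonoidHom_apply, map_nsmul,
      Finsupp.mapDomain.addMonoidHom_apply, Finsupp.smul_apply, nsmul_eq_mul] at h1
    exact mul_left_cancel₀ (Nat.cast_ne_zero.2 (NeZero.ne n)) h1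
  have hval : A.valuation (n : Qb) = 1 := by
    have h1 : ¬ A.valuation ((n : A) : Qb) < 1 := fun h => hn (by rwa [← hπ0, map_natCast] at h)
    push_cast at h1
    have h2 := A.valuation_le_one (n : A)
    push_cast at h2
    exact le_antisymm h2 (not_lt.1 h1)
  have hD0 := Reduction.isPrincipal_of_push_isPrincipal (R := R) ((lvlOne M).isFunctionField Qb)
    (isFunctionField_kH hπs hπ0 hk hj) (genus_one hπs hπ0 hk hj) (NeZero.ne n) hval
    D.2 ⟨g, hg0, hdiv⟩ hred
  refine (FA.JTorsion.latTors_eq_zero_iff (L := Qb) (n := n)).1 (Subtype.ext ?_)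
  refine hD.symm.trans ((QuotientAddGroup.eq_zero_iff _).2 ?_)
  rw [AddSubgroup.mem_addSubgroupOf]
  exact hD0

/-- Classes with equal reductions differ by a multiple. -/
theorem eq_of_redPhi_one {n : ℕ} [NeZero n] (hn : (n : k) ≠ 0)
    {x y : JTorsion.cuspLat (lvlOne M)}
    (h : redPhi (scaled_one hπs hπ0 hk hj) n x = redPhi (scaled_one hπs hπ0 hk hj) n y) :
    ∃ z : JTorsion.cuspLat (lvlOne M), x = y + n • z := by
  obtain ⟨z, hz⟩ := redPhi_one_eq_zero hπs hπ0 hk hj hn
    (x := x - y) (by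
      rw [map_sub, h]
      exact sub_self (redPhi (scaled_one hπs hπ0 hk hj) n y))
  exact ⟨z, by rw [← hz, add_sub_cancel]⟩

end lattice

end FA.Weight1

end
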