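import Fermat.Agent.Weight1.Forms
import Fermat.Agent.Period.Primitive
import Fermat.Agent.NebLocal.Dia

/-!
# Periods on `Γ_H(M)` and the Hecke ring of the lattice acting on cusp forms of weight two

The periods are injective, land in `ℂ ⊗ cuspLat` and intertwine the correspondences; hence the
ring generated by Hecke correspondences and diamonds on the lattice acts on the forms.
-/

set_option autoImplicit false
set_option linter.unusedSectionVars false
set_option linter.style.haveILetI false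

noncomputable section

namespace FA.Weight1

open UpperHalfPlane ModularForm CongruenceSubgroup Filter FA.Period FA.Level
open FA.HeckeH1 (GamH Tc glQ gl toR RIdx rep ulHom Hom1 hv dia conjGam MatZ)
open FA.JTorsion (cuspLat KillsCusps CuspQuot cuspProj exists_factor_cuspProj killsCusps_cuspProj)
open FA.NebLocal (lvlH latC iDia coe_latC iDia_act)
open scoped MatrixGroups Manifold Topology

theorem mR_smul_eq (X : MatZ) (z : ℍ) : mR X • z = toR (gl X) • z := rfl

/-- Composition of a primitive with an integral matrix. -/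
theorem isPrimitive_comp_mR {F g : ℍ → ℂ} (hF : IsPrimitive F g) {X : MatZ} (hX : 0 < X.det) :
    IsPrimitive (fun τ => F (mR X • τ)) (g ∣[(2 : ℤ)] mR X) := by
  intro τ
  have hdet : 0 < ((mR X : GL (Fin 2) ℝ) : Matrix (Fin 2) (Fin 2) ℝ).det := by
    rw [← Matrix.GeneralLinearGroup.val_det_apply, det_mR hX.ne']; exact_mod_cast hX
  have h1 : HasDerivAt (fun z : ℂ => ((mR X • ofComplex z : ℍ) : ℂ))
      ((((mR X : GL (Fin 2) ℝ) : Matrix (Fin 2) (Fin 2) ℝ).det : ℂ) /
        denom (mR X) τ ^ 2) (τ : ℂ) :=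
    (hasStrictDerivAt_smul hdet τ).hasDerivAt
  have h3 : HasDerivAt (F ∘ ofComplex) (g (mR X • τ))
      ((fun z : ℂ => ((mR X • ofComplex z : ℍ) : ℂ)) (τ : ℂ)) := by
    simp only [ofComplex_apply]
    exact hF (mR X • τ)
  have h4 := h3.comp (τ : ℂ) h1
  have hfun : ((fun τ : ℍ => F (mR X • τ)) ∘ ofComplex)
      = (F ∘ ofComplex) ∘ fun z : ℂ => ((mR X • ofComplex z : ℍ) : ℂ) := by
    funext z
    simp [Function.comp_def]
  rw [hfun]
  convert! h4 using 1
  rw [ModularForm.slash_apply, σ_mR hX, ← Matrix.GeneralLinearGroup.val_det_apply, det_mR hX.ne',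
    abs_of_pos (by exact_mod_cast hX)]
  simp [zpow_neg, div_eq_mul_inv, mul_assoc, zpow_ofNat]

variable {M : ℕ} [NeZero M] {H : Subgroup (ZMod M)ˣ}

/-- The weight two space. -/
abbrev S2 (M : ℕ) (H : Subgroup (ZMod M)ˣ) := space (GamH M H) 2

theorem periodic_slash_space {w : ℤ} {f : ℍ → ℂ} (hf : f ∈ space (GamH M H) w) (δ : SL(2, ℤ)) :
    Function.Periodic ((f ∣[w] δ) ∘ ofComplex) ((M : ℤ) : ℝ) := by
  intro z
  have hmem : δ * ModularGroup.T ^ (M : ℤ) * δ⁻¹ ∈ GamH M H := by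
    refine FA.HeckeH1.Gamma_le_GamH ((Gamma_normal M).conj_mem _ ?_ δ)
    rw [Gamma_mem, ModularGroup.coe_T_zpow]
    simp
  have h : (f ∣[w] δ) ∣[w] (ModularGroup.T ^ (M : ℤ)) = f ∣[w] δ := by
    rw [← SlashAction.slash_mul,
      show δ * ModularGroup.T ^ (M : ℤ) = (δ * ModularGroup.T ^ (M : ℤ) * δ⁻¹) * δ by group,
      SlashAction.slash_mul, hf.1 _ hmem]
  by_cases hz : 0 < z.im
  · have hz1 : 0 < (z + ((M : ℤ) : ℝ)).im := by simpa using hz
    simp only [Function.comp_apply, ofComplex_apply_of_im_pos hz, ofComplex_apply_of_im_pos hz1]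
    have h2 := congrFun h ⟨z, hz⟩
    rw [SL_slash_apply, modular_T_zpow_smul] at h2
    have hd : denom ((ModularGroup.T ^ (M : ℤ) : SL(2, ℤ)) : GL (Fin 2) ℝ) (⟨z, hz⟩ : ℍ) = 1 := by
      show (((ModularGroup.T ^ (M : ℤ) : SL(2, ℤ)).1 1 0 : ℤ) : ℝ) * z
        + (((ModularGroup.T ^ (M : ℤ) : SL(2, ℤ)).1 1 1 : ℤ) : ℝ) = (1 : ℂ)
      rw [ModularGroup.coe_T_zpow]
      simp
    rw [hd, one_zpow, mul_one] at h2
    rw [← h2]
    refine congrArg _ (UpperHalfPlane.ext ?_)
    simp [add_comm]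
  · have hz1 : (z + ((M : ℤ) : ℝ)).im ≤ 0 := by simpa using hz
    simp only [Function.comp_apply, ofComplex_apply_of_im_nonpos hz1,
      ofComplex_apply_of_im_nonpos (not_lt.mp hz)]

theorem exists_primitive_S2 (F : S2 M H) : ∃ P : ℍ → ℂ, IsPrimitive P (F : ℍ → ℂ) := by
  have hQ := isQFun_of_space T_mem_GamH' F.2
  obtain ⟨P, hP, -⟩ := exists_primitive one_pos hQ.periodic hQ.mdiff (by simpa using F.2.2.2 1)
  exact ⟨P, hP⟩

theorem exists_tendsto_cusp {F : S2 M H} {P : ℍ → ℂ} (hP : IsPrimitive P (F : ℍ → ℂ))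
    (δ : SL(2, ℤ)) : ∃ L : ℂ, Tendsto (fun w : ℍ => P (δ • w)) atImInfty (𝓝 L) := by
  obtain ⟨G, hG, hG0⟩ := exists_primitive (g := (F : ℍ → ℂ) ∣[(2 : ℤ)] δ)
    (h := ((M : ℤ) : ℝ)) (by exact_mod_cast Nat.pos_of_ne_zero (NeZero.ne M))
    (periodic_slash_space F.2 δ) (F.2.2.1.slash 2 _) (F.2.2.2 δ)
  obtain ⟨c, hc⟩ := (hP.comp_smul δ).exists_eq_add hG
  exact ⟨0 + c, (hG0.add_const c).congr fun w => (hc w).symm⟩

/-- A chosen primitive. -/
def prim (F : S2 M H) : ℍ → ℂ := (exists_primitive_S2 F).choose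

theorem isPrimitive_prim (F : S2 M H) : IsPrimitive (prim F) (F : ℍ → ℂ) :=
  (exists_primitive_S2 F).choose_spec

theorem period_const {F : S2 M H} {P : ℍ → ℂ} (hP : IsPrimitive P (F : ℍ → ℂ))
    (γ : GamH M H) : ∃ c : ℂ, ∀ z : ℍ, P ((γ : SL(2, ℤ)) • z) = P z + c := by
  have h := hP.comp_smul (γ : SL(2, ℤ))
  rw [F.2.1 _ γ.2] at h
  exact h.exists_eq_add hP

/-- The period homomorphism of a form. -/
def perHom (F : S2 M H) : Hom1 (GamH M H) ℂ :=
  AddMonoidHom.mk' (fun γ => prim F (((Additive.toMul γ : GamH M H) : SL(2, ℤ)) • UpperHalfPlane.I) -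
      prim F UpperHalfPlane.I) fun γ δ => by
    obtain ⟨c, hc⟩ := period_const (isPrimitive_prim F) γ.toMul
    rw [toMul_add, Subgroup.coe_mul, mul_smul, hc, hc]
    ring

theorem perHom_apply (F : S2 M H) {P : ℍ → ℂ} (hP : IsPrimitive P (F : ℍ → ℂ)) (γ : GamH M H)
    (z : ℍ) : hv (perHom F) γ = P ((γ : SL(2, ℤ)) • z) - P z := by
  obtain ⟨c, hc⟩ := (isPrimitive_prim F).exists_eq_add hP
  obtain ⟨e, he⟩ := period_const hP γ
  show prim F ((γ : SL(2, ℤ)) • UpperHalfPlane.I) - prim F UpperHalfPlane.I = _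
  rw [hc, hc, he, he]
  ring

/-- The periods. -/
def per (M : ℕ) [NeZero M] (H : Subgroup (ZMod M)ˣ) : S2 M H →ₗ[ℂ] Hom1 (GamH M H) ℂ where
  toFun := perHom
  map_add' F G := AddMonoidHom.ext fun γ => by
    show hv _ γ.toMul = hv (perHom F) γ.toMul + hv (perHom G) γ.toMul
    rw [perHom_apply (F + G) ((isPrimitive_prim F).add (isPrimitive_prim G)) γ.toMul UpperHalfPlane.I,
      perHom_apply F (isPrimitive_prim F) γ.toMul UpperHalfPlane.I,
      perHom_apply G (isPrimitive_prim G) γ.toMul UpperHalfPlane.I, Pi.add_apply, Pi.add_apply]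
    ring
  map_smul' c F := AddMonoidHom.ext fun γ => by
    show hv _ γ.toMul = c • hv (perHom F) γ.toMul
    rw [perHom_apply (c • F) ((isPrimitive_prim F).const_smul c) γ.toMul UpperHalfPlane.I,
      perHom_apply F (isPrimitive_prim F) γ.toMul UpperHalfPlane.I, Pi.smul_apply, Pi.smul_apply]
    simp only [smul_eq_mul]
    ring

theorem per_apply (F : S2 M H) {P : ℍ → ℂ} (hP : IsPrimitive P (F : ℍ → ℂ)) (γ : GamH M H)
    (z : ℍ) : hv (per M H F) γ = P ((γ : SL(2, ℤ)) • z) - P z := perHom_apply F hP γ z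

/-- The periods are injective. -/
theorem per_injective : Function.Injective (per M H) := by
  rw [injective_iff_map_eq_zero]
  intro F hF
  obtain ⟨P, hP⟩ := exists_primitive_S2 F
  have hinv : ∀ γ ∈ GamH M H, ∀ τ : ℍ, P (γ • τ) = P τ := fun γ hγ τ => by
    have h := per_apply F hP ⟨γ, hγ⟩ τ
    rw [hF] at h
    exact sub_eq_zero.1 h.symm
  let mf : ModularForm ((GamH M H).map (Matrix.SpecialLinearGroup.mapGL ℝ)) 0 :=
    { toFun := P
      slash_action_eq' := by
        rintro _ ⟨γ, hγ, rfl⟩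
        funext τ
        show (P ∣[(0 : ℤ)] γ) τ = P τ
        rw [SL_slash_apply, hinv γ hγ τ]
        simp
      holo' := hP.mdiff
      bdd_at_cusps' := fun hc => by
        rw [Subgroup.IsArithmetic.isCusp_iff_isCusp_SL2Z] at hc
        refine (OnePoint.isBoundedAt_iff_forall_SL2Z hc).mpr fun δ _ => ?_
        obtain ⟨L, hL⟩ := exists_tendsto_cusp hP δ
        have hfun : P ∣[(0 : ℤ)] δ = fun w => P (δ • w) := by
          funext w; simp [SL_slash_apply]
        rw [hfun]
        exact hL.isBigO_one ℝ }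
  obtain ⟨c, hc⟩ := ModularForm.eq_const_of_weight_zero mf
  exact Subtype.ext (hP.eq_zero_of_const (c := c) fun τ => congrFun hc τ)

/-! ### Intertwining -/

/-- The periods intertwine the Hecke operators. -/
theorem per_opH {ℓ : ℕ} [Fact ℓ.Prime] (F : S2 M H) :
    per M H (opH M H 2 ℓ F) = (Tc M H ℓ).act (per M H F) := by
  have hℓ : ℓ.Prime := Fact.out
  have hP := isPrimitive_prim F
  have hG : IsPrimitive (fun z => ∑ i : RIdx M ℓ, prim F (mR (rep M ℓ i) • z))
      (opH M H 2 ℓ F : ℍ → ℂ) := by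
    intro τ
    rw [coe_opH, opFun, Finset.sum_apply]
    have hfun : ((fun z => ∑ i : RIdx M ℓ, prim F (mR (rep M ℓ i) • z)) ∘ ofComplex) =
        fun w => ∑ i : RIdx M ℓ, ((fun z => prim F (mR (rep M ℓ i) • z)) ∘ ofComplex) w := rfl
    rw [hfun]
    exact HasDerivAt.fun_sum fun i _ => isPrimitive_comp_mR hP (rep_det_pos hℓ i) τ
  refine AddMonoidHom.ext fun γ => ?_
  show hv _ γ.toMul = hv _ γ.toMul
  generalize γ.toMul = γ
  rw [per_apply _ hG γ UpperHalfPlane.I, FA.HeckeH1.Corr.act_apply]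
  have key : ∀ i : RIdx M ℓ, hv (per M H F) ((Tc M H ℓ).fac γ i) =
      prim F (mR (rep M ℓ i) • (γ : SL(2, ℤ)) • UpperHalfPlane.I) -
        prim F (mR (rep M ℓ ((Tc M H ℓ).perm γ i)) • UpperHalfPlane.I) := fun i => by
    have h := (Tc M H ℓ).fac_spec γ i
    change gl (rep M ℓ i) * _ = glQ _ * gl (rep M ℓ _) at h
    rw [mR_smul_eq, mR_smul_eq, ← FA.HeckeH1.toR_glQ_smul (γ : SL(2, ℤ)), ← mul_smul, ← map_mul, h,
      map_mul, mul_smul, FA.HeckeH1.toR_glQ_smul]
    exact per_apply F hP _ _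
  refine Eq.trans ?_ (Fintype.sum_congr _ _ key).symm
  rw [Finset.sum_sub_distrib]
  exact congrArg (_ - ·) (Equiv.sum_comp ((Tc M H ℓ).perm γ)
    (fun i : RIdx M ℓ => prim F (mR (rep M ℓ i) • UpperHalfPlane.I))).symm

/-- The diamond of an element of `Γ₀(M)` on forms. -/
def diaF (M : ℕ) (H : Subgroup (ZMod M)ˣ) (k : ℤ) (g : GamH M (⊤ : Subgroup (ZMod M)ˣ)) :
    space (GamH M H) k →ₗ[ℂ] space (GamH M H) k where
  toFun f := ⟨(f : ℍ → ℂ) ∣[k] ((g⁻¹ : GamH M ⊤) : SL(2, ℤ)), slash_top_mem f.2 g⁻¹⟩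
  map_add' f f' := Subtype.ext (SlashAction.add_slash _ _ _ _)
  map_smul' c f := Subtype.ext (by simp [SL_smul_slash])

theorem coe_diaF {k : ℤ} (g : GamH M (⊤ : Subgroup (ZMod M)ˣ)) (f : space (GamH M H) k) :
    (diaF M H k g f : ℍ → ℂ) = (f : ℍ → ℂ) ∣[k] ((g⁻¹ : GamH M ⊤) : SL(2, ℤ)) := rfl

/-- The periods intertwine the diamonds. -/
theorem per_diaF (g : GamH M (⊤ : Subgroup (ZMod M)ˣ)) (F : S2 M H) :
    per M H (diaF M H 2 g F) = dia M H ℂ g (per M H F) := by
  refine AddMonoidHom.ext fun δ => ?_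
  show hv _ δ.toMul = hv _ δ.toMul
  generalize δ.toMul = δ
  have hP := isPrimitive_prim F
  have hG : IsPrimitive (fun z => prim F (((g⁻¹ : GamH M ⊤) : SL(2, ℤ)) • z))
      (diaF M H 2 g F : ℍ → ℂ) := hP.comp_smul _
  rw [per_apply _ hG δ UpperHalfPlane.I, FA.HeckeH1.dia_apply,
    per_apply F hP _ (((g⁻¹ : GamH M ⊤) : SL(2, ℤ)) • UpperHalfPlane.I)]
  simp only [conjGam, MonoidHom.coe_mk, OneHom.coe_mk, ← mul_smul]
  congr 2
  congr 1
  group

/-! ### The span of the lattice -/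

variable [Fact (1 < M)] (hH : (-1 : (ZMod M)ˣ) ∈ H)

/-- A lattice element with complex values. -/
def toC (φ : cuspLat (lvlH H hH)) : Hom1 (GamH M H) ℂ :=
  (Int.castAddHom ℂ).comp (φ : Additive (lvlH H hH).grp →+ ℤ)

theorem toC_add (φ ψ : cuspLat (lvlH H hH)) : toC hH (φ + ψ) = toC hH φ + toC hH ψ :=
  AddMonoidHom.comp_add _ _ _

theorem act_toC (C : FA.HeckeH1.Corr (GamH M H) (GamH M H)) (φ : cuspLat (lvlH H hH)) :
    C.act (toC hH φ) = toC hH (latC (V := lvlH H hH) (V' := lvlH H hH) C φ) :=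
  C.act_comp_hom (Int.castAddHom ℂ) (φ : Additive (lvlH H hH).grp →+ ℤ)

theorem killsCusps_le_span {c : Hom1 (GamH M H) ℂ} (hc : KillsCusps (lvlH H hH) c) :
    c ∈ Submodule.span ℂ (Set.range (toC hH)) := by
  classical
  obtain ⟨c', hc'⟩ := exists_factor_cuspProj (lvlH H hH) hc
  let T := Submodule.torsion ℤ (CuspQuot (lvlH H hH))
  haveI : Finite T := Module.finite_of_fg_torsion (M := T) Submodule.torsion_isTorsion
  haveI : Module.Free ℤ (CuspQuot (lvlH H hH) ⧸ T) := Module.free_of_finite_type_torsion_free'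
  obtain ⟨s, hs⟩ := Module.projective_lifting_property T.mkQ LinearMap.id T.mkQ_surjective
  let b := Module.Free.chooseBasis ℤ (CuspQuot (lvlH H hH) ⧸ T)
  haveI := Fintype.ofFinite (Module.Free.ChooseBasisIndex ℤ (CuspQuot (lvlH H hH) ⧸ T))
  let e : Module.Free.ChooseBasisIndex ℤ (CuspQuot (lvlH H hH) ⧸ T) → cuspLat (lvlH H hH) :=
    fun i => ⟨((b.coord i).comp T.mkQ).toAddMonoidHom.comp (cuspProj (lvlH H hH)), fun δ => by
      show b.coord i (T.mkQ (cuspProj (lvlH H hH) _)) = 0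
      rw [killsCusps_cuspProj (lvlH H hH) δ, map_zero, map_zero]⟩
  have hφeq : c = ∑ i, c' (s (b i)) • toC hH (e i) := by
    refine AddMonoidHom.ext fun (g : Additive (GamH M H)) => ?_
    rw [AddMonoidHom.finsetSum_apply]
    set q := cuspProj (lvlH H hH) g
    have hT : ∀ t ∈ T, c' t = 0 := fun t ht => by
      have h1 : (Nat.card T) • t = 0 :=
        congrArg Subtype.val (card_nsmul_eq_zero' (x := (⟨t, ht⟩ : T)))
      have h2 : (Nat.card T) • c' t = 0 := by rw [← map_nsmul, h1, map_zero]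
      rw [nsmul_eq_mul] at h2
      exact (mul_eq_zero.1 h2).resolve_left (Nat.cast_ne_zero.2 Nat.card_pos.ne')
    have h3 : c' (s (T.mkQ q)) = c' q := by
      rw [← sub_eq_zero, ← map_sub]
      refine hT _ ?_
      rw [← Submodule.Quotient.mk_eq_zero, ← Submodule.mkQ_apply, map_sub, sub_eq_zero]
      exact LinearMap.congr_fun hs _
    calc c g = c' q := (hc' g).symm
      _ = c' (s (T.mkQ q)) := h3.symm
      _ = c' (s (∑ i, b.repr (T.mkQ q) i • b i)) := by rw [b.sum_repr]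
      _ = ∑ i, (c' (s (b i)) • toC hH (e i)) g := by
        rw [map_sum, map_sum]
        refine Finset.sum_congr rfl fun i _ => ?_
        rw [map_zsmul, map_zsmul, zsmul_eq_mul, mul_comm]
        rfl
  rw [hφeq]
  exact Submodule.sum_mem _ fun i _ => Submodule.smul_mem _ _ (Submodule.subset_span ⟨e i, rfl⟩)

theorem killsCusps_per (F : S2 M H) :
    KillsCusps (lvlH H hH) (per M H F) := fun δ => by
  have hP := isPrimitive_prim F
  obtain ⟨L, hL⟩ := exists_tendsto_cusp hP δ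
  set γ : GamH M H := ⟨_, (lvlH H hH).conj_T_pow_mem δ⟩
  have hmove : ∀ w : ℍ, (γ : SL(2, ℤ)) • (δ • w) = δ • (ModularGroup.T ^ (M : ℤ) • w) := fun w => by
    show (δ * ModularGroup.T ^ (M : ℤ) * δ⁻¹) • (δ • w) = _
    rw [← mul_smul, inv_mul_cancel_right, mul_smul]
  have hT : Tendsto (fun w : ℍ => ModularGroup.T ^ (M : ℤ) • w) atImInfty atImInfty := by
    simp only [modular_T_zpow_smul]
    refine tendsto_comap_iff.mpr ?_
    simpa [Function.comp_def, atImInfty] using
      (tendsto_comap : Tendsto UpperHalfPlane.im (comap UpperHalfPlane.im atTop) atTop)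
  have h1 : Tendsto (fun _ : ℍ => hv (per M H F) γ) atImInfty (𝓝 (L - L)) := by
    refine ((hL.comp hT).sub hL).congr fun w => ?_
    rw [per_apply F hP γ (δ • w), hmove]
    rfl
  rw [sub_self] at h1
  exact tendsto_const_nhds_iff.mp h1

theorem per_mem_span (F : S2 M H) : per M H F ∈ Submodule.span ℂ (Set.range (toC hH)) :=
  killsCusps_le_span hH (killsCusps_per hH F)

/-! ### Compatible pairs -/

/-- A pair of an endomorphism of the lattice and one of the forms, compatible with the periods. -/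
def Compat (x : AddMonoid.End (cuspLat (lvlH H hH)) × Module.End ℂ (S2 M H)) : Prop :=
  ∀ (F : S2 M H) (r : cuspLat (lvlH H hH) →₀ ℂ), (r.sum fun φ a => a • toC hH φ) = per M H F →
    (r.sum fun φ a => a • toC hH (x.1 φ)) = per M H (x.2 F)

/-- The compatible pairs form a subring. -/
def compatRing : Subring (AddMonoid.End (cuspLat (lvlH H hH)) × Module.End ℂ (S2 M H)) where
  carrier := {x | Compat hH x}
  one_mem' := fun F r h => h
  mul_mem' {x y} hx hy := fun F r h => by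
    have h' : ((r.mapDomain y.1).sum fun φ a => a • toC hH φ) = per M H (y.2 F) := by
      rw [Finsupp.sum_mapDomain_index (h := fun φ a => a • toC hH φ) (fun _ => zero_smul ℂ _)
        (fun _ a b => add_smul a b _)]
      exact hy F r h
    have h2 := hx (y.2 F) (r.mapDomain y.1) h'
    rw [Finsupp.sum_mapDomain_index (h := fun φ a => a • toC hH (x.1 φ))
      (fun _ => zero_smul ℂ _) (fun _ a b => add_smul a b _)] at h2
    exact h2
  zero_mem' := fun F r _ => by
    show (r.sum fun φ a => a • toC hH (0 : cuspLat (lvlH H hH))) = per M H 0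
    rw [map_zero, show toC hH (0 : cuspLat (lvlH H hH)) = 0 from AddMonoidHom.comp_zero _]
    simp [Finsupp.sum]
  add_mem' {x y} hx hy := fun F r h => by
    show (r.sum fun φ a => a • toC hH (x.1 φ + y.1 φ)) = per M H (x.2 F + y.2 F)
    simp only [toC_add, smul_add, Finsupp.sum_add, hx F r h, hy F r h, map_add]
  neg_mem' {x} hx := fun F r h => by
    show (r.sum fun φ a => a • toC hH (-(x.1 φ))) = per M H (-(x.2 F))
    have hneg : ∀ φ, toC hH (-φ) = -toC hH φ := fun φ => AddMonoidHom.comp_neg _ _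
    simp only [hneg, smul_neg, map_neg, ← hx F r h, Finsupp.sum, Finset.sum_neg_distrib]

/-- A compatible pair is determined by its action on the lattice. -/
theorem eq_zero_of_compat {x : AddMonoid.End (cuspLat (lvlH H hH)) × Module.End ℂ (S2 M H)}
    (hx : Compat hH x) (h : x.1 = 0) : x = 0 := by
  refine Prod.ext h (LinearMap.ext fun F => ?_)
  obtain ⟨r, hr⟩ := Finsupp.mem_span_range_iff_exists_finsupp.1 (per_mem_span hH F)
  have h1 := hx F r hr
  rw [h] at h1
  refine per_injective ?_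
  rw [← h1]
  have : ∀ φ : cuspLat (lvlH H hH), (0 : AddMonoid.End (cuspLat (lvlH H hH))) φ = 0 := fun _ => rfl
  simp [this, show toC hH (0 : cuspLat (lvlH H hH)) = 0 from AddMonoidHom.comp_zero _]

/-- The pair of a Hecke correspondence. -/
def genT (ℓ : ℕ) [Fact ℓ.Prime] : AddMonoid.End (cuspLat (lvlH H hH)) × Module.End ℂ (S2 M H) :=
  (latC (V := lvlH H hH) (V' := lvlH H hH) (Tc M H ℓ), opH M H 2 ℓ)

/-- The pair of a diamond. -/
def genD (g : GamH M (⊤ : Subgroup (ZMod M)ˣ)) :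
    AddMonoid.End (cuspLat (lvlH H hH)) × Module.End ℂ (S2 M H) :=
  (latC (iDia M H hH g).C, diaF M H 2 g)

theorem compat_of_act {u : AddMonoid.End (cuspLat (lvlH H hH))} {w : Module.End ℂ (S2 M H)}
    (A : Hom1 (GamH M H) ℂ →+ Hom1 (GamH M H) ℂ) (hA : ∀ (a : ℂ) z, A (a • z) = a • A z)
    (hu : ∀ φ, A (toC hH φ) = toC hH (u φ)) (hw : ∀ F, per M H (w F) = A (per M H F)) :
    (u, w) ∈ compatRing hH := fun F r h => by
  rw [hw, ← h, map_finsuppSum]
  exact Finsupp.sum_congr fun φ _ => by rw [hA, hu]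

theorem genT_mem (ℓ : ℕ) [Fact ℓ.Prime] : genT hH ℓ ∈ compatRing hH :=
  compat_of_act hH ((Tc M H ℓ).act) (fun a z => (Tc M H ℓ).act_smul a z)
    (fun φ => act_toC hH _ φ) fun F => per_opH F

theorem genD_mem (g : GamH M (⊤ : Subgroup (ZMod M)ˣ)) : genD hH g ∈ compatRing hH :=
  compat_of_act hH ((iDia M H hH g).C.act) (fun a z => (iDia M H hH g).C.act_smul a z)
    (fun φ => act_toC hH _ φ) fun F => by
      rw [per_diaF]; exact (iDia_act M H hH g _).symm

/-- The forgetful map to the endomorphisms of the lattice is injective on compatible pairs. -/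
theorem compat_fst_injective :
    Function.Injective fun x : compatRing hH => x.1.1 := fun x y h => by
  have h0 := eq_zero_of_compat hH (x - y).2 (by
    show x.1.1 - y.1.1 = 0
    rw [show x.1.1 = y.1.1 from h, sub_self])
  exact Subtype.ext (sub_eq_zero.1 h0)

instance compatRing_finite : Module.Finite ℤ (compatRing hH) := by
  haveI := (FA.JTorsion.cuspLat_free_finite (lvlH H hH)).1
  haveI := (FA.JTorsion.cuspLat_free_finite (lvlH H hH)).2
  let j₀ : compatRing hH →+ (cuspLat (lvlH H hH) →ₗ[ℤ] cuspLat (lvlH H hH)) :=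
    AddMonoidHom.mk' (fun x : compatRing hH => (x.1.1).toIntLinearMap) fun _ _ => rfl
  let j : compatRing hH →ₗ[ℤ] (cuspLat (lvlH H hH) →ₗ[ℤ] cuspLat (lvlH H hH)) :=
    { toFun := j₀
      map_add' := map_add j₀
      map_smul' := fun n x => map_intCast_smul j₀ ℤ ℤ n x }
  refine Module.Finite.of_injective j fun x y h => compat_fst_injective hH ?_
  exact AddMonoidHom.ext fun φ => LinearMap.congr_fun h φ

end FA.Weight1

end
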