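import Fermat.Agent.Weight1.Depletion
import Fermat.Agent.Weight1.Periods
import Fermat.Agent.JTorsion.ResidualAbs

/-!
# The ring of elements acting by scalars on a series modulo a place

`F = f' E` has weight two; the Hecke elements multiplying the series of `F` modulo the place by a
scalar form a ring with a character, and a functional on the lattice follows by faithfulness.
-/

set_option autoImplicit false
set_option linter.unusedSectionVars false
set_option linter.style.haveILetI false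

noncomputable section

namespace FA.Weight1

open UpperHalfPlane ModularForm CongruenceSubgroup FA.Period
open FA.HeckeH1 (GamH ulHom ulHom_val)
open FA.JTorsion (cuspLat exists_functional_of_faithful)
open scoped MatrixGroups

local notation "ZB" => integralClosure ℤ ℂ
local notation "incl" => Subring.subtype (Subalgebra.toSubring (integralClosure ℤ ℂ))

variable {M : ℕ} [NeZero M] [Fact (1 < M)] (ξ : ZMod M →* ZB) (𝔪 : Ideal ZB)
  (Abar : PowerSeries (ZB ⧸ 𝔪))

/-- Forms of character `ξ` with integral series congruent to `t` times the given one. -/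
def GoodMod (G : S2 M (pmOne M)) (t : ZB ⧸ 𝔪) : Prop :=
  (∀ g : GamH M (⊤ : Subgroup (ZMod M)ˣ),
      diaF M (pmOne M) 2 g G = (ξ (ulHom M g : ZMod M) : ℂ) • G) ∧
    ∃ P : PowerSeries ZB, qExp (G : ℍ → ℂ) = P.map incl ∧
      P.map (Ideal.Quotient.mk 𝔪) = t • Abar

/-- An element of the Hecke ring acting by the scalar `κ` modulo the place. -/
def ActsBy (x : AddMonoid.End (cuspLat (lvlOne M)) × Module.End ℂ (S2 M (pmOne M)))
    (κ : ZB ⧸ 𝔪) : Prop :=
  ∀ G t, GoodMod ξ 𝔪 Abar G t → GoodMod ξ 𝔪 Abar (x.2 G) (κ * t)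

theorem actsBy_zero : ActsBy ξ 𝔪 Abar 0 0 := fun G t _ => by
  refine ⟨fun g => ?_, 0, ?_, by rw [map_zero, zero_mul]; exact (zero_smul (ZB ⧸ 𝔪) Abar).symm⟩
  · show diaF M (pmOne M) 2 g 0 = _
    rw [map_zero]
    exact (smul_zero _).symm
  · show qExp ((0 : ℍ → ℂ)) = _
    rw [map_zero]
    exact qExpansion_zero 1

theorem actsBy_add {x y : AddMonoid.End (cuspLat (lvlOne M)) × Module.End ℂ (S2 M (pmOne M))}
    {a b : ZB ⧸ 𝔪} (ha : ActsBy ξ 𝔪 Abar x a) (hb : ActsBy ξ 𝔪 Abar y b) :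
    ActsBy ξ 𝔪 Abar (x + y) (a + b) := fun G t h => by
  obtain ⟨h1, P, hP, hP'⟩ := ha G t h
  obtain ⟨h2, Q, hQ, hQ'⟩ := hb G t h
  refine ⟨fun g => ?_, P + Q, ?_, ?_⟩
  · show diaF M (pmOne M) 2 g (x.2 G + y.2 G) = _ • (x.2 G + y.2 G)
    rw [map_add, h1 g, h2 g, smul_add]
  · show qExp ((x.2 G : ℍ → ℂ) + (y.2 G : ℍ → ℂ)) = _
    rw [(isQFun_of_space T_mem_GamH' (x.2 G).2).qExp_add (isQFun_of_space T_mem_GamH' (y.2 G).2),
      hP, hQ, map_add]
  · rw [map_add, hP', hQ', add_mul, add_smul]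

/-- The elements acting by scalars modulo the place. -/
def scalarRing : Subring (AddMonoid.End (cuspLat (lvlOne M)) × Module.End ℂ (S2 M (pmOne M))) where
  carrier := {x | x ∈ compatRing (neg_one_mem_pmOne M) ∧ ∃ κ, ActsBy ξ 𝔪 Abar x κ}
  one_mem' := ⟨(compatRing _).one_mem, 1, fun G t h => by rw [one_mul]; exact h⟩
  mul_mem' {x y} hx hy := by
    obtain ⟨hxm, a, ha⟩ := hx
    obtain ⟨hym, b, hb⟩ := hy
    exact ⟨(compatRing _).mul_mem hxm hym, a * b, fun G t h => by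
      rw [mul_assoc]; exact ha _ _ (hb G t h)⟩
  zero_mem' := ⟨(compatRing _).zero_mem, 0, actsBy_zero ξ 𝔪 Abar⟩
  add_mem' {x y} hx hy := by
    obtain ⟨hxm, a, ha⟩ := hx
    obtain ⟨hym, b, hb⟩ := hy
    exact ⟨(compatRing _).add_mem hxm hym, a + b, actsBy_add ξ 𝔪 Abar ha hb⟩
  neg_mem' {x} hx := by
    obtain ⟨hxm, a, ha⟩ := hx
    refine ⟨(compatRing _).neg_mem hxm, -a, fun G t h => ?_⟩
    obtain ⟨h1, P, hP, hP'⟩ := ha G t h
    refine ⟨fun g => ?_, -P, ?_, ?_⟩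
    · show diaF M (pmOne M) 2 g (-(x.2 G)) = _ • -(x.2 G)
      rw [map_neg, h1 g, smul_neg]
    · have hQ := isQFun_of_space T_mem_GamH' (x.2 G).2
      show qExp (-(x.2 G : ℍ → ℂ)) = _
      rw [← neg_one_smul ℂ (x.2 G : ℍ → ℂ), hQ.qExp_smul, hP, neg_one_smul, map_neg]
    · rw [map_neg, hP']
      exact (neg_smul (a * t) Abar).symm.trans (congrArg (· • Abar) (by ring))

instance scalarRing_finite : Module.Finite ℤ (scalarRing ξ 𝔪 Abar) := by
  let f : scalarRing ξ 𝔪 Abar → compatRing (neg_one_mem_pmOne M) := fun x => ⟨x.1, x.2.1⟩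
  let j₀ : scalarRing ξ 𝔪 Abar →+ compatRing (neg_one_mem_pmOne M) :=
    { toFun := f, map_zero' := rfl, map_add' := fun _ _ => rfl }
  let j : scalarRing ξ 𝔪 Abar →ₗ[ℤ] compatRing (neg_one_mem_pmOne M) :=
    { toFun := j₀
      map_add' := j₀.map_add
      map_smul' := fun n x => map_intCast_smul j₀ ℤ ℤ n x }
  haveI : IsNoetherian ℤ (compatRing (neg_one_mem_pmOne M)) :=
    isNoetherian_of_isNoetherianRing_of_finite ℤ (compatRing (neg_one_mem_pmOne M))
  exact Module.Finite.of_injective j fun x y h => Subtype.ext (congrArg (fun z => (Subtype.val z)) h :)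

theorem actsBy_genD (g : GamH M (⊤ : Subgroup (ZMod M)ˣ)) :
    ActsBy ξ 𝔪 Abar (genD (neg_one_mem_pmOne M) g)
      (Ideal.Quotient.mk 𝔪 (ξ (ulHom M g : ZMod M))) := by
  rintro G t ⟨h1, P, hP, hP'⟩
  have h0 : (genD (neg_one_mem_pmOne M) g).2 G = (ξ (ulHom M g : ZMod M) : ℂ) • G := h1 g
  rw [h0]
  refine ⟨fun g' => ?_, PowerSeries.C (ξ (ulHom M g : ZMod M)) * P, ?_, ?_⟩
  · rw [map_smul, h1 g', smul_comm]
  · rw [SetLike.val_smul, (isQFun_of_space T_mem_GamH' G.2).qExp_smul, hP, map_mul,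
      PowerSeries.map_C, PowerSeries.smul_eq_C_mul]
    rfl
  · rw [map_mul, hP', PowerSeries.map_C, ← PowerSeries.smul_eq_C_mul, smul_smul]

theorem actsBy_genT (p : ℕ) [Fact p.Prime] (hpM : ¬ p ∣ M) (κ : ZB ⧸ 𝔪)
    (hrec : ∀ n, Abar.coeff (n * p) + (p : ZB ⧸ 𝔪) * Ideal.Quotient.mk 𝔪 (ξ (p : ZMod M)) *
      (if p ∣ n then Abar.coeff (n / p) else 0) = κ * Abar.coeff n) :
    ActsBy ξ 𝔪 Abar (genT (neg_one_mem_pmOne M) p) κ := by
  rintro G t ⟨h1, P, hP, hP'⟩
  have hu : ((ulHom M ((pGam Fact.out hpM)⁻¹) : (ZMod M)ˣ) : ZMod M) = (p : ZMod M) := by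
    rw [ulHom_val, Subgroup.coe_inv, Matrix.SpecialLinearGroup.coe_inv]
    simp [pGam, Matrix.adjugate_fin_two]
  refine ⟨fun g => ?_, PowerSeries.mk fun n => P.coeff (n * p) +
    (p : ZB) * ξ (p : ZMod M) * (if p ∣ n then P.coeff (n / p) else 0), ?_, ?_⟩
  · refine per_injective ?_
    show per M (pmOne M) (diaF M (pmOne M) 2 g (opH M (pmOne M) 2 p G)) =
      per M (pmOne M) ((ξ (ulHom M g : ZMod M) : ℂ) • opH M (pmOne M) 2 p G)
    rw [per_diaF, per_opH, map_smul, per_opH, ← FA.HeckeH1.Tc_dia, ← per_diaF, h1 g, map_smul,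
      FA.HeckeH1.Corr.act_smul]
  · ext n
    show qcL M (pmOne M) 2 (opH M (pmOne M) 2 p G) n = _
    rw [qcL_opH, dif_neg hpM, h1, hu, map_smul, Pi.smul_apply, qcL_apply, qcL_apply, hP,
      PowerSeries.coeff_map, PowerSeries.coeff_map, PowerSeries.coeff_map, PowerSeries.coeff_mk,
      map_add, map_mul, map_mul, map_natCast incl, apply_ite incl, map_zero incl]
    norm_num [smul_eq_mul, mul_assoc]
    rfl
  · have hc : ∀ m, Ideal.Quotient.mk 𝔪 (P.coeff m) = t * Abar.coeff m := fun m => by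
      rw [← PowerSeries.coeff_map, hP', PowerSeries.coeff_smul, smul_eq_mul]
    ext n
    rw [PowerSeries.coeff_map, PowerSeries.coeff_mk, PowerSeries.coeff_smul, smul_eq_mul, map_add,
      map_mul, map_mul, map_natCast (Ideal.Quotient.mk 𝔪), apply_ite (Ideal.Quotient.mk 𝔪),
      map_zero (Ideal.Quotient.mk 𝔪), hc]
    rw [mul_comm κ t, mul_assoc t, ← hrec n]
    split_ifs
    · rw [hc]; ring
    · ring

end FA.Weight1

end
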