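import Fermat.Agent.Weight1.CoeffRing
import Fermat.Agent.Weight1.Depletion
import Fermat.Agent.Weight1.EisMod
import Fermat.Agent.Weight1.ScalarRing

/-!
# The form of weight two congruent to a weight one form modulo a place
-/

set_option autoImplicit false
set_option linter.unusedSectionVars false
set_option linter.style.haveILetI false

noncomputable section

namespace FA.Weight1

open UpperHalfPlane ModularForm CongruenceSubgroup FA.Period
open FA.HeckeH1 (GamH ulHom ulHom_val)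
open scoped MatrixGroups

local notation "ZB" => integralClosure ℤ ℂ
local notation "incl" => Subring.subtype (Subalgebra.toSubring (integralClosure ℤ ℂ))

theorem coe_valZB {N : ℕ} [NeZero N] (χ : DirichletCharacter ℂ N) (x : ZMod N) :
    ((valZB χ x : ZB) : ℂ) = χ x := rfl

variable {N : ℕ} [NeZero N] {ε : DirichletCharacter ℂ N} {f : CuspForm (Gamma1 N) 1}

/-- The coefficients outside the primes of the level are integral. -/
theorem depleted_int (hf : IsEigen N ε f) {s : Finset ℕ}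
    (hsN : ∀ p : ℕ, p.Prime → p ∣ N → p ∈ s) {g₀ : ℍ → ℂ}
    (hg₀c : ∀ n, (qExp g₀).coeff n = if ∀ p ∈ s, ¬ p ∣ n then (qExp f).coeff n else 0) :
    ∀ n : ℕ, ∃ a : ZB, (a : ℂ) = (qExp g₀).coeff n := by
  obtain ⟨K, -, hK⟩ := coeffRing N ε f hf
  intro n
  rw [hg₀c]
  by_cases hn : ∀ p ∈ s, ¬ p ∣ n
  · rw [if_pos hn]
    induction n using Nat.strong_induction_on with
    | _ n ih =>
      rcases eq_or_ne n 0 with rfl | hn0
      · refine ⟨0, ?_⟩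
        show (0 : ℂ) = _
        exact (qcL_zero (⟨⇑f, coe_mem_space f⟩ : space (GamH N ⊥) 1)).symm
      rcases eq_or_ne n 1 with rfl | hne
      · exact ⟨1, hf.one.symm⟩
      obtain ⟨p, hp, k, rfl⟩ := Nat.exists_prime_and_dvd hne
      have hpN : ¬ p ∣ N := fun h => hn p (hsN p hp h) (dvd_mul_right p k)
      have hk : k < p * k :=
        lt_mul_of_one_lt_left (Nat.pos_of_ne_zero fun h => hn0 (by rw [h, mul_zero])) hp.one_lt
      have hk' : ∀ r ∈ s, ¬ r ∣ k := fun r hr h => hn r hr (h.mul_left p)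
      obtain ⟨b, hb⟩ := ih k hk hk'
      have hrel := hf.rel p hp hpN k
      by_cases hd : p ∣ k
      · obtain ⟨b', hb'⟩ := ih (k / p) ((Nat.div_le_self k p).trans_lt hk)
          fun r hr h => hk' r hr (h.trans (Nat.div_dvd_of_dvd hd))
        refine ⟨⟨_, (hK p hp hpN).1⟩ * b - valZB ε (p : ZMod N) * b', ?_⟩
        rw [if_pos hd] at hrel
        show ModularFormClass.qCoeff f p * (b : ℂ) - ε (p : ZMod N) * (b' : ℂ) =
          ModularFormClass.qCoeff f (p * k)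
        rw [hb, hb']
        change ModularFormClass.qCoeff f p * ModularFormClass.qCoeff f k -
          ε (p : ZMod N) * ModularFormClass.qCoeff f (k / p) = _
        linear_combination -hrel
      · refine ⟨⟨_, (hK p hp hpN).1⟩ * b, ?_⟩
        rw [if_neg hd, mul_zero, add_zero] at hrel
        show ModularFormClass.qCoeff f p * (b : ℂ) = _
        rw [hb]
        exact hrel.symm
  · rw [if_neg hn]; exact ⟨0, rfl⟩

/-- The Hecke relations of the depleted series. -/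
theorem depleted_rel (hf : IsEigen N ε f) {s : Finset ℕ} (hsp : ∀ p ∈ s, p.Prime) {g₀ : ℍ → ℂ}
    (hg₀c : ∀ n, (qExp g₀).coeff n = if ∀ p ∈ s, ¬ p ∣ n then (qExp f).coeff n else 0)
    {aZ : ℕ → ZB} (haZ : ∀ n, (aZ n : ℂ) = (qExp g₀).coeff n)
    {p : ℕ} (hp : p.Prime) (hpN : ¬ p ∣ N) (hps : p ∉ s) (n : ℕ) :
    aZ (n * p) + valZB ε (p : ZMod N) * (if p ∣ n then aZ (n / p) else 0) = aZ p * aZ n := by
  have hpre : ∀ r ∈ s, ¬ r ∣ p := fun r hr h =>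
    hps ((Nat.prime_dvd_prime_iff_eq (hsp r hr) hp).1 h ▸ hr)
  refine Subtype.ext ?_
  show (aZ (n * p) : ℂ) + ε (p : ZMod N) * ((if p ∣ n then aZ (n / p) else 0 : ZB) : ℂ) =
    (aZ p : ℂ) * (aZ n : ℂ)
  rw [haZ, haZ, haZ, hg₀c, hg₀c, hg₀c, if_pos hpre]
  by_cases hn : ∀ r ∈ s, ¬ r ∣ n
  · have hnp : ∀ r ∈ s, ¬ r ∣ n * p := fun r hr h =>
      ((hsp r hr).dvd_mul.1 h).elim (hn r hr) (hpre r hr)
    rw [if_pos hn, if_pos hnp]
    have hrel := hf.rel p hp hpN n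
    simp only [ModularFormClass.qCoeff] at hrel
    rw [mul_comm p n] at hrel
    by_cases hd : p ∣ n
    · rw [if_pos hd, haZ, hg₀c, if_pos fun r hr h => hn r hr (h.trans (Nat.div_dvd_of_dvd hd))]
      rw [if_pos hd] at hrel
      exact hrel
    · rw [if_neg hd]
      rw [if_neg hd] at hrel
      exact hrel
  · push Not at hn
    obtain ⟨r, hr, hrn⟩ := hn
    have h1 : ¬ ∀ r ∈ s, ¬ r ∣ n := fun h => h r hr hrn
    have h2 : ¬ ∀ r ∈ s, ¬ r ∣ n * p := fun h => h r hr (hrn.mul_right p)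
    rw [if_neg h1, if_neg h2, mul_zero, zero_add]
    by_cases hd : p ∣ n
    · have h3 : ¬ ∀ r ∈ s, ¬ r ∣ n / p := fun h => by
        refine h r hr ?_
        have hco : r.Coprime p :=
          (Nat.coprime_primes (hsp r hr) hp).2 fun e => hpre r hr (e ▸ dvd_rfl)
        refine hco.dvd_of_dvd_mul_left ?_
        rwa [Nat.mul_div_cancel' hd]
      rw [if_pos hd, haZ, hg₀c, if_neg h3, mul_zero]
    · rw [if_neg hd]; simp

variable {ℓ : ℕ} [Fact ℓ.Prime] {L : ℕ}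

/-- The character `ε φ` at a multiple of both levels. -/
def xiMod (ε : DirichletCharacter ℂ N) (φ : DirichletCharacter ℂ ℓ) (hN : N ∣ L) (hℓ : ℓ ∣ L) :
    ZMod L →* ZB where
  toFun x := valZB ε (ZMod.castHom hN (ZMod N) x) * valZB φ (ZMod.castHom hℓ (ZMod ℓ) x)
  map_one' := Subtype.ext (by simp only [Subalgebra.coe_mul, coe_valZB, map_one, mul_one,
    Subalgebra.coe_one])
  map_mul' x y := Subtype.ext (by simp only [Subalgebra.coe_mul, coe_valZB, map_mul]; ring)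

theorem coe_xiMod (φ : DirichletCharacter ℂ ℓ) (hN : N ∣ L) (hℓ : ℓ ∣ L) (x : ZMod L) :
    (xiMod ε φ hN hℓ x : ℂ) = ε (ZMod.castHom hN (ZMod N) x) * φ (ZMod.castHom hℓ (ZMod ℓ) x) :=
  rfl

variable {𝔪 : Ideal ZB} [𝔪.IsMaximal] {φ : DirichletCharacter ℂ ℓ}

theorem natCast_mul_xiMod (hm : (ℓ : ZB) ∈ 𝔪)
    (hφ : ∀ x : ZMod ℓ, x ≠ 0 →
      Ideal.Quotient.mk 𝔪 (⟨φ x, isIntegral_mulChar φ x⟩ : ZB) * (x.val : ZB ⧸ 𝔪) = 1)
    (hN : N ∣ L) (hℓL : ℓ ∣ L) {p : ℕ} (hp : p.Prime) (hpL : ¬ p ∣ L) :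
    (p : ZB ⧸ 𝔪) * Ideal.Quotient.mk 𝔪 (xiMod ε φ hN hℓL (p : ZMod L)) =
      Ideal.Quotient.mk 𝔪 (valZB ε (p : ZMod N)) := by
  have hℓ : ℓ.Prime := Fact.out
  haveI := charP_quot hℓ 𝔪 hm
  show _ * Ideal.Quotient.mk 𝔪 (valZB ε (ZMod.castHom hN (ZMod N) (p : ZMod L)) *
    valZB φ (ZMod.castHom hℓL (ZMod ℓ) (p : ZMod L))) = _
  rw [map_natCast, map_natCast, map_mul, mul_left_comm]
  have hpℓ : (p : ZMod ℓ) ≠ 0 := by
    rw [Ne, ZMod.natCast_eq_zero_iff]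
    exact fun h => hpL (((Nat.prime_dvd_prime_iff_eq hℓ hp).1 h) ▸ hℓL)
  have hpv : ((p : ℕ) : ZB ⧸ 𝔪) = ((p : ZMod ℓ).val : ZB ⧸ 𝔪) := by
    rw [ZMod.val_natCast, CharP.natCast_eq_natCast' (ZB ⧸ 𝔪) ℓ (Nat.mod_modEq p ℓ).symm]
  rw [hpv, mul_comm ((p : ZMod ℓ).val : ZB ⧸ 𝔪)]
  erw [hφ _ hpℓ]
  rw [mul_one]

variable [NeZero L] [Fact (1 < L)]

/-- The product with the Eisenstein series. -/
theorem exists_goodMod (hm : (ℓ : ZB) ∈ 𝔪)
    (hφ : ∀ x : ZMod ℓ, x ≠ 0 →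
      Ideal.Quotient.mk 𝔪 (⟨φ x, isIntegral_mulChar φ x⟩ : ZB) * (x.val : ZB ⧸ 𝔪) = 1)
    {L₀ : ℕ} {g₀ : ℍ → ℂ} (hg₀ : IsIso ε L₀ g₀) (hL : L₀ ∣ L) (hN : N ∣ L) (hℓL : ℓ ∣ L)
    {A : PowerSeries ZB} (hA : qExp g₀ = A.map incl) :
    ∃ Fs : S2 L (pmOne L),
      GoodMod (xiMod ε φ hN hℓL) 𝔪 (A.map (Ideal.Quotient.mk 𝔪)) Fs (-2) := by
  have hle : ∀ {γ : SL(2, ℤ)} {D : ℕ}, γ ∈ Gamma0 L → D ∣ L → γ ∈ Gamma0 D := fun h hD => by
    rw [Gamma0_mem, ZMod.intCast_zmod_eq_zero_iff_dvd] at h ⊢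
    exact (Int.natCast_dvd_natCast.2 hD).trans h
  have hinvE : ∀ γ ∈ GamH L (⊥ : Subgroup (ZMod L)ˣ),
      eisFun φ ∣[(1 : ℤ)] γ = eisFun φ := fun γ hγ => by
    have h1 := GamH_bot_anti hℓL hγ
    have h0 : γ ∈ Gamma0 ℓ := FA.HeckeH1.GamH_le_Gamma0 h1
    rw [slash_eisFun φ h0]
    obtain ⟨-, -, u, hu, hua⟩ := h1
    rw [Subgroup.mem_bot] at hu
    subst hu
    have had := det_cast_mul h0
    rw [← hua, Units.val_one, one_mul] at had
    rw [had, map_one, one_smul]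
  have hF2 : g₀ * eisFun φ ∈ space (GamH L (pmOne L)) 2 := by
    refine space_bot_le_pmOne _ ?_
    have h := mul_mem_space (space_anti (GamH_bot_anti hL) hg₀.mem) hinvE
      ((hasQ_eisFun φ).mdiff one_pos) (bdd_eisFun φ)
    rwa [one_add_one_eq_two] at h
  refine ⟨⟨_, hF2⟩, fun g => ?_, A * eisSerZ φ, ?_, ?_⟩
  · refine Subtype.ext ?_
    show (g₀ * eisFun φ) ∣[(2 : ℤ)] ((g⁻¹ : GamH L ⊤) : SL(2, ℤ)) = _ • (g₀ * eisFun φ)
    set γ := ((g⁻¹ : GamH L ⊤) : SL(2, ℤ)) with hγdef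
    have hd : ((γ.1 1 1 : ℤ) : ZMod L) = (ulHom L g : ZMod L) := by
      rw [ulHom_val, hγdef, Subgroup.coe_inv, Matrix.SpecialLinearGroup.coe_inv]
      simp [Matrix.adjugate_fin_two]
    have h0 : γ ∈ Gamma0 L := FA.HeckeH1.GamH_le_Gamma0 (g⁻¹).2
    rw [show (2 : ℤ) = 1 + 1 by norm_num, mul_slash_SL2,
      hg₀.rule γ (hle h0 hL), slash_eisFun φ (hle h0 hℓL), smul_mul_smul_comm]
    congr 1
    rw [coe_xiMod, ← hd, map_intCast (ZMod.castHom hN (ZMod N)),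
      map_intCast (ZMod.castHom hℓL (ZMod ℓ))]
  · show qExp (g₀ * eisFun φ) = _
    have hEQ : IsQFun (eisFun φ) := ⟨(hasQ_eisFun φ).periodic one_pos,
      (hasQ_eisFun φ).mdiff one_pos, (hasQ_eisFun φ).bdd one_pos⟩
    rw [(isQFun_of_space T_mem_GamH' hg₀.mem).qExp_mul hEQ, map_mul, hA]
    exact congrArg (A.map incl * ·) ((hasQ_eisFun φ).qExpansion_eq one_pos)
  · rw [map_mul, map_eisSerZ φ 𝔪 hm hφ, mul_comm, PowerSeries.smul_eq_C_mul]

end FA.Weight1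

end
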