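import Fermat.Agent.S48
import Fermat.Agent.GalCoh.KummerUnits
import Fermat.Agent.Deform.Frobenius
import Mathlib.LinearAlgebra.Matrix.Charpoly.Eigs
import Mathlib.Analysis.Complex.Polynomial.Basic
import Mathlib.NumberTheory.ArithmeticFunction.Misc

/-!
# The Ramanujan–Petersson bound in weight one

The representation of Deligne and Serre has finite image, so the roots of the Hecke polynomial at
`p ∤ N` are roots of unity: `‖a_p‖ ≤ 2` and `‖a_n‖ ≤ d(n)` for `n` prime to `N`.
-/

set_option autoImplicit false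

noncomputable section

open CongruenceSubgroup Matrix
open scoped MatrixGroups

namespace FA.Weight1

/-- The trace and determinant of a matrix of finite order come from two roots of unity. -/
theorem exists_unit_roots_of_pow_eq_one {A : Matrix (Fin 2) (Fin 2) ℂ} {m : ℕ} (hm : 0 < m)
    (hA : A ^ m = 1) :
    ∃ α β : ℂ, ‖α‖ = 1 ∧ ‖β‖ = 1 ∧ A.trace = α + β ∧ A.det = α * β := by
  have hcard : A.charpoly.roots.card = 2 := by
    rw [← (IsAlgClosed.splits A.charpoly).natDegree_eq_card_roots, Matrix.charpoly_natDegree_eq_dim,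
      Fintype.card_fin]
  obtain ⟨α, β, h⟩ := Multiset.card_eq_two.mp hcard
  have hroot : ∀ z ∈ A.charpoly.roots, ‖z‖ = 1 := fun z hz => by
    have hs : z ∈ spectrum ℂ A :=
      Matrix.mem_spectrum_iff_isRoot_charpoly.mpr (Polynomial.isRoot_of_mem_roots hz)
    have hp := spectrum.pow_mem_pow A m hs
    rw [hA, spectrum.one_eq] at hp
    have h1 : z ^ m = 1 := by simpa using hp
    exact Complex.norm_eq_one_of_pow_eq_one h1 hm.ne'
  refine ⟨α, β, hroot α (by simp [h]), hroot β (by simp [h]), ?_, ?_⟩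
  · rw [Matrix.trace_eq_sum_roots_charpoly, h]; simp
  · rw [Matrix.det_eq_prod_roots_charpoly, h]; simp

variable {N : ℕ} [NeZero N] {ε : DirichletCharacter ℂ N} {f : CuspForm (Gamma1 N) 1}

/-- The roots of the Hecke polynomial at `p ∤ N` are roots of unity. -/
theorem exists_unit_satake (h : IsEigen N ε f) {p : ℕ} (hp : p.Prime) (hpN : ¬ p ∣ N) :
    ∃ α β : ℂ, ‖α‖ = 1 ∧ ‖β‖ = 1 ∧ ModularFormClass.qCoeff f p = α + β ∧
      ε (p : ZMod N) = α * β := by
  obtain ⟨ρ, hfin, -, hρ⟩ := Fermat.Agent.S48.result N ε f h.one h.rel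
  have := Fact.mk hp
  obtain ⟨σ, hσ⟩ := FA.Deform.exists_isFrobeniusAt hp (FA.GalCoh.liesOverPrime_padicPlace p)
  obtain ⟨e1, e2⟩ := (hρ p hp hpN _ (FA.GalCoh.liesOverPrime_padicPlace p)).2 σ hσ
  obtain ⟨m, hm, hpow⟩ := exists_pow_eq_one_of_finite_level hfin σ
  obtain ⟨α, β, hα, hβ, ht, hd⟩ := exists_unit_roots_of_pow_eq_one hm
    (A := ((ρ σ : GL (Fin 2) ℂ) : Matrix (Fin 2) (Fin 2) ℂ))
    (by rw [← Units.val_pow_eq_pow_val, hpow, Units.val_one])
  exact ⟨α, β, hα, hβ, e1.symm.trans ht, e2.symm.trans hd⟩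

/-- The coefficient at a prime power is a sum of `r + 1` numbers of absolute value one. -/
theorem qCoeff_prime_pow (h : IsEigen N ε f) {p : ℕ} (hp : p.Prime) (hpN : ¬ p ∣ N) {α β : ℂ}
    (ha : ModularFormClass.qCoeff f p = α + β) (he : ε (p : ZMod N) = α * β) (r : ℕ) :
    ModularFormClass.qCoeff f (p ^ r) = ∑ i ∈ Finset.range (r + 1), α ^ i * β ^ (r - i) := by
  have hs : ∀ s : ℕ, ∑ i ∈ Finset.range (s + 2), α ^ i * β ^ (s + 1 - i) =
      β * ∑ i ∈ Finset.range (s + 1), α ^ i * β ^ (s - i) + α ^ (s + 1) := fun s => by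
    rw [Finset.sum_range_succ _ (s + 1), Nat.sub_self, pow_zero, mul_one, Finset.mul_sum]
    congr 1
    refine Finset.sum_congr rfl fun i hi => ?_
    rw [Finset.mem_range] at hi
    rw [show s + 1 - i = s - i + 1 by omega, pow_succ]
    ring
  induction r using Nat.twoStepInduction with
  | zero => simp [h.one]
  | one => rw [pow_one, ha, Finset.sum_range_succ, Finset.sum_range_one]; ring
  | more r ih₀ ih₁ =>
    have hr := h.rel p hp hpN (p ^ (r + 1))
    rw [if_pos (dvd_pow_self p (Nat.succ_ne_zero r)), ← pow_succ',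
      show p ^ (r + 1) / p = p ^ r by rw [pow_succ, Nat.mul_div_cancel _ hp.pos], ha, he] at hr
    rw [eq_sub_of_add_eq hr, ih₀, ih₁, hs (r + 1), hs r]
    ring

/-- The coefficients are multiplicative at `p ∤ N`. -/
theorem qCoeff_prime_pow_mul (h : IsEigen N ε f) {p : ℕ} (hp : p.Prime) (hpN : ¬ p ∣ N) {m : ℕ}
    (hm : ¬ p ∣ m) (r : ℕ) :
    ModularFormClass.qCoeff f (p ^ r * m) =
      ModularFormClass.qCoeff f (p ^ r) * ModularFormClass.qCoeff f m := by
  induction r using Nat.twoStepInduction with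
  | zero => simp [h.one]
  | one =>
    have := h.rel p hp hpN m
    rw [if_neg hm, mul_zero, add_zero] at this
    rw [pow_one, this]
  | more r ih₀ ih₁ =>
    have h1 := h.rel p hp hpN (p ^ (r + 1) * m)
    have h2 := h.rel p hp hpN (p ^ (r + 1))
    have hd : p ∣ p ^ (r + 1) := dvd_pow_self p (Nat.succ_ne_zero r)
    rw [if_pos hd, ← pow_succ',
      show p ^ (r + 1) / p = p ^ r by rw [pow_succ, Nat.mul_div_cancel _ hp.pos]] at h2
    rw [if_pos (hd.mul_right m), ← mul_assoc, ← pow_succ',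
      show p ^ (r + 1) * m / p = p ^ r * m by
        rw [pow_succ', mul_assoc, Nat.mul_div_cancel_left _ hp.pos], ih₀, ih₁] at h1
    linear_combination h1 - ModularFormClass.qCoeff f m * h2

theorem norm_qCoeff_le_card_divisors (h : IsEigen N ε f) :
    ∀ {n : ℕ}, n.Coprime N → ‖ModularFormClass.qCoeff f n‖ ≤ n.divisors.card := by
  intro n
  induction n using Nat.recOnPrimePow with
  | zero =>
    intro hn
    obtain rfl : N = 1 := by simpa [Nat.Coprime] using hn
    rw [ModularFormClass.qCoeff, CuspFormClass.qExpansion_coeff_zero f one_pos (by simp)]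
    simp
  | one => simp [h.one]
  | prime_pow_mul m p r hp hpm hr ih =>
    intro hn
    have hpN : ¬ p ∣ N := fun hd => hp.ne_one (Nat.eq_one_of_dvd_coprimes hn
      ((dvd_pow_self p hr.ne').mul_right m) hd)
    obtain ⟨α, β, hα, hβ, ha, he⟩ := exists_unit_satake h hp hpN
    have hb : ‖ModularFormClass.qCoeff f (p ^ r)‖ ≤ r + 1 := by
      rw [qCoeff_prime_pow h hp hpN ha he r]
      refine (norm_sum_le _ _).trans ?_
      simp [hα, hβ]
    rw [qCoeff_prime_pow_mul h hp hpN hpm r, norm_mul,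
      (Nat.Coprime.pow_left r (hp.coprime_iff_not_dvd.mpr hpm)).card_divisors_mul,
      Nat.divisors_prime_pow hp r, Finset.card_map, Finset.card_range, Nat.cast_mul]
    push_cast
    exact mul_le_mul hb (ih (hn.coprime_dvd_left (dvd_mul_left m _))) (norm_nonneg _) (by positivity)

end FA.Weight1

namespace FA.Summary

variable (N : ℕ) [NeZero N] (ε : DirichletCharacter ℂ N) (f : CuspForm (Gamma1 N) 1)

/-- **Ramanujan–Petersson in weight one**: a normalised Hecke eigen cusp form of weight one on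
`Γ₁(N)` with character `ε` has `‖a_p‖ ≤ 2` at every prime `p ∤ N`. -/
theorem ramanujan_petersson_weight_one (hf₁ : (UpperHalfPlane.qExpansion 1 f).coeff 1 = 1)
    (hT : ∀ p : ℕ, p.Prime → ¬ p ∣ N → ∀ n : ℕ,
      (UpperHalfPlane.qExpansion 1 f).coeff (p * n) +
          ε (p : ZMod N) * (if p ∣ n then (UpperHalfPlane.qExpansion 1 f).coeff (n / p) else 0) =
        (UpperHalfPlane.qExpansion 1 f).coeff p * (UpperHalfPlane.qExpansion 1 f).coeff n)
    {p : ℕ} (hp : p.Prime) (hpN : ¬ p ∣ N) :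
    ‖(UpperHalfPlane.qExpansion 1 f).coeff p‖ ≤ 2 := by
  obtain ⟨α, β, hα, hβ, ha, -⟩ := FA.Weight1.exists_unit_satake (f := f) ⟨hf₁, hT⟩ hp hpN
  calc ‖(UpperHalfPlane.qExpansion 1 f).coeff p‖ = ‖α + β‖ := congrArg _ ha
    _ ≤ ‖α‖ + ‖β‖ := norm_add_le _ _
    _ = 2 := by rw [hα, hβ]; norm_num

/-- **`‖a_n‖ ≤ d(n)`** for `n` prime to the level. -/
theorem ramanujan_petersson_weight_one_divisors
    (hf₁ : (UpperHalfPlane.qExpansion 1 f).coeff 1 = 1)
    (hT : ∀ p : ℕ, p.Prime → ¬ p ∣ N → ∀ n : ℕ,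
      (UpperHalfPlane.qExpansion 1 f).coeff (p * n) +
          ε (p : ZMod N) * (if p ∣ n then (UpperHalfPlane.qExpansion 1 f).coeff (n / p) else 0) =
        (UpperHalfPlane.qExpansion 1 f).coeff p * (UpperHalfPlane.qExpansion 1 f).coeff n)
    {n : ℕ} (hn : n.Coprime N) :
    ‖(UpperHalfPlane.qExpansion 1 f).coeff n‖ ≤ n.divisors.card :=
  FA.Weight1.norm_qCoeff_le_card_divisors (f := f) ⟨hf₁, hT⟩ hn

end FA.Summary

end
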