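import Fermat.Agent.Weight1.GoodRed
import Fermat.Agent.NebLocal.Dia

/-!
# Semilinear maps and diamonds on the reduced field of `±Γ₁(M)`

A function which is a quotient of integral series reduces; the arithmetic automorphisms which
stabilise the place act on the reduced field through the coefficients; the diamonds descend.
-/

set_option autoImplicit false
set_option linter.style.haveILetI false
set_option linter.unusedSectionVars false
set_option synthInstance.maxHeartbeats 400000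
set_option maxHeartbeats 1600000

noncomputable section

namespace FA.Weight1

open UpperHalfPlane hiding I
open CongruenceSubgroup ModularCurve AlgebraicCurve FA.ModField FA.Level FA.Curve FA.CurveRed
  IntermediateField Polynomial
open FA.HeckeH1 (GamH ulHom conjGam)
open FA.NebLocal (mob mob_glQ serRed serRed_red serRed_series iDia iDia_mer iDia_pull iDia_rational diaRing
  galF coe_galF_smul)
open scoped MatrixGroups

local notation "Qb" => AlgebraicClosure ℚ
local notation "GQ" => AlgebraicClosure ℚ ≃ₐ[ℚ] AlgebraicClosure ℚ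

variable [Algebra Qb ℂ] {k : Type} [Field k] [IsAlgClosed k] {A : ValuationSubring Qb} {M : ℕ}
  [NeZero M] [Fact (1 < M)] {π : A →+* k} (hπs : Function.Surjective π)
  (hπ0 : ∀ a : A, π a = 0 ↔ A.valuation a < 1) (hk : ∀ r : ℕ, r.Prime → r ∣ M → (r : k) ≠ 0)
  (hj : 2 ∣ M ∨ 3 ∣ M)

local notation "V₁" => lvlOne M
local notation "ιA" => coeffMap (A.subtype : A →+* Qb)
local notation "ρA" => coeffMap π

/-- **A quotient of integral series reduces**, also after a substitution `T ↦ T^e`. -/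
theorem red_of_quot (e : ℕ) [NeZero e] {f : (V₁).fld Qb} {Y Y' : LaurentSeries A}
    (hY' : ρA Y' ≠ 0) (h : qExpand Qb e (f : LaurentSeries Qb) * ιA Y' = ιA Y) :
    ∃ r : kH π M, (redOne hπs hπ0 hk hj).Red f r ∧
      qExpand k e (r : LaurentSeries k) * ρA Y' = ρA Y := by
  rcases eq_or_ne f 0 with rfl | hf
  · refine ⟨0, ConstRed.red_zero, ?_⟩
    rw [ZeroMemClass.coe_zero, map_zero, zero_mul] at h
    have hY : Y = 0 := coeffMap_injective' A.subtype_injective (h.symm.trans (map_zero _).symm)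
    rw [hY, ZeroMemClass.coe_zero, map_zero, zero_mul, map_zero]
  obtain ⟨c, g, s, hc, he, hg, hs⟩ := exists_scaled (scaled_one hπs hπ0 hk hj) hf
  obtain ⟨N, D, -, -, hD, hgN, hsN⟩ := (serRed_red π hπs hπ0 _ _ _).1 hg
  have hN : ρA N ≠ 0 := by
    rw [← hsN]; exact mul_ne_zero (fun h0 => hs (Subtype.ext h0)) hD
  have h1 : algebraMap Qb (LaurentSeries Qb) c * (ιA (qExpand A e N) * ιA Y') =
      ιA Y * ιA (qExpand A e D) := by
    rw [coeffMap_qExpand, coeffMap_qExpand, ← hgN, ← h, he, MulMemClass.coe_mul, map_mul, map_mul,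
      show qExpand Qb e ((algebraMap Qb ((V₁).fld Qb) c : (V₁).fld Qb) : LaurentSeries Qb) =
        algebraMap Qb (LaurentSeries Qb) c by
        show qExpand Qb e (algebraMap Qb (LaurentSeries Qb) c) = _
        rw [algebraMap_laurentSeries_eq_single, qExpand_single, mul_zero]]
    ring
  have hD' : ρA (qExpand A e D) ≠ 0 := by
    rw [coeffMap_qExpand]
    exact fun h0 => hD (qExpand_injective (R := k) e (h0.trans (map_zero _).symm))
  have hN' : ρA (qExpand A e N) ≠ 0 := by
    rw [coeffMap_qExpand]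
    exact fun h0 => hN (qExpand_injective (R := k) e (h0.trans (map_zero _).symm))
  by_cases hcA : c ∈ A
  · refine ⟨algebraMap k (kH π M) (π ⟨c, hcA⟩) * s, ?_, ?_⟩
    · rw [he]; exact (ConstRed.red_const (C := redOne hπs hπ0 hk hj) ⟨c, hcA⟩).mul hg
    have h2 : HahnSeries.C (⟨c, hcA⟩ : A) * (qExpand A e N * Y') = Y * qExpand A e D := by
      refine coeffMap_injective' A.subtype_injective ?_
      rw [map_mul, map_mul, map_mul, coeffMap_C, ← FA.CurveRed.algebraMap_eq_C]
      exact h1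
    have h3 := congrArg ρA h2
    rw [map_mul, map_mul, map_mul, coeffMap_C, coeffMap_qExpand π e N, ← hsN,
      map_mul (qExpand k e)] at h3
    refine mul_right_cancel₀ hD' ?_
    rw [MulMemClass.coe_mul, map_mul (qExpand k e), coeffMap_qExpand π e D]
    rw [coeffMap_qExpand π e D] at h3
    show qExpand k e (algebraMap k (LaurentSeries k) (π ⟨c, hcA⟩)) * _ * _ * _ = _
    rw [algebraMap_laurentSeries_eq_single, qExpand_single, mul_zero, ← HahnSeries.C_apply, ← h3]
    ring
  · exfalso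
    have hci : c⁻¹ ∈ A := (A.mem_or_inv_mem c).resolve_left hcA
    have hπc : π ⟨c⁻¹, hci⟩ = 0 := by
      rw [hπ0]
      show A.valuation c⁻¹ < 1
      rw [map_inv₀]
      exact inv_lt_one_of_one_lt₀ (lt_of_not_ge fun h => hcA ((A.valuation_le_one_iff c).1 h))
    have h2 : qExpand A e N * Y' = HahnSeries.C (⟨c⁻¹, hci⟩ : A) * (Y * qExpand A e D) := by
      refine coeffMap_injective' A.subtype_injective ?_
      rw [map_mul ιA, map_mul ιA (HahnSeries.C _), map_mul ιA Y, coeffMap_C, ← h1,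
        FA.CurveRed.algebraMap_eq_C, ← mul_assoc, ← map_mul HahnSeries.C]
      show _ = HahnSeries.C (c⁻¹ * c) * _
      rw [inv_mul_cancel₀ hc, map_one, one_mul]
    have h3 := congrArg ρA h2
    rw [map_mul, map_mul, coeffMap_C, hπc, map_zero, zero_mul] at h3
    exact mul_ne_zero hN' hY' h3

/-- A function with reduction `0` is a small multiple of a reduced one. -/
theorem exists_small_of_red_zero {f : (V₁).fld Qb} (hf0 : f ≠ 0)
    (hf : (redOne hπs hπ0 hk hj).Red f 0) :
    ∃ (c : A) (g : (V₁).fld Qb) (s : kH π M), π c = 0 ∧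
      f = algebraMap Qb _ (c : Qb) * g ∧ (redOne hπs hπ0 hk hj).Red g s := by
  obtain ⟨c, g, s, hc, he, hg, hs⟩ := exists_scaled (scaled_one hπs hπ0 hk hj) hf0
  by_cases hcA : c ∈ A
  · have h1 := ((ConstRed.red_const (C := redOne hπs hπ0 hk hj) ⟨c, hcA⟩).mul hg).unique (he ▸ hf)
    refine ⟨⟨c, hcA⟩, g, s, ?_, he, hg⟩
    exact (_root_.map_eq_zero (algebraMap k (kH π M))).1 ((mul_eq_zero.1 h1).resolve_right hs)
  · exfalso
    have hci : c⁻¹ ∈ A := (A.mem_or_inv_mem c).resolve_left hcA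
    have h1 := (ConstRed.red_const (C := redOne hπs hπ0 hk hj) ⟨c⁻¹, hci⟩).mul hf
    rw [mul_zero] at h1
    have h2 : algebraMap Qb ((V₁).fld Qb) ((⟨c⁻¹, hci⟩ : A) : Qb) * f = g := by
      rw [he, ← mul_assoc, ← map_mul]
      show algebraMap Qb _ (c⁻¹ * c) * g = g
      rw [inv_mul_cancel₀ hc, map_one, one_mul]
    rw [h2] at h1
    exact hs (hg.unique h1)

include hπs hπ0 hk hj in
/-- Every element of the reduced field is a reduction. -/
theorem exists_lift_kH (r : kH π M) : ∃ f, (redOne hπs hπ0 hk hj).Red f r := by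
  have hr : r ∈ IntermediateField.adjoin k {r | ∃ f, (redOne hπs hπ0 hk hj).Red f r} := by
    rw [gen_one hπs hπ0 hk hj]; trivial
  induction hr using IntermediateField.adjoin_induction with
  | mem y hy => exact hy
  | algebraMap a =>
    obtain ⟨b, rfl⟩ := hπs a
    exact ⟨_, ConstRed.red_const (C := redOne hπs hπ0 hk hj) b⟩
  | add y z _ _ hy hz =>
    obtain ⟨f, hf⟩ := hy
    obtain ⟨g, hg⟩ := hz
    exact ⟨f + g, hf.add hg⟩
  | inv y _ hy =>
    rcases eq_or_ne y 0 with rfl | hy0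
    · exact ⟨0, by rw [inv_zero]; exact ConstRed.red_zero⟩
    obtain ⟨f, hf, hfy⟩ := hy
    obtain ⟨h1, h2⟩ := (redOne hπs hπ0 hk hj).red_inv ⟨f, hf⟩ (by rw [hfy]; exact hy0)
    exact ⟨f⁻¹, h1, h2.trans (by rw [hfy])⟩
  | mul y z _ _ hy hz =>
    obtain ⟨f, hf⟩ := hy
    obtain ⟨g, hg⟩ := hz
    exact ⟨f * g, hf.mul hg⟩

/-! ### The arithmetic automorphisms -/

variable {σ : GQ} {φ : k →+* k}

include hπs hπ0 hk hj in
theorem coeffMap_mem_kH (hσ : InducesOn Qb π σ φ) {x : LaurentSeries k} (hx : x ∈ kH π M) :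
    coeffMap φ x ∈ kH π M := by
  obtain ⟨f, hf⟩ := exists_lift_kH hπs hπ0 hk hj ⟨x, hx⟩
  obtain ⟨Y, Y', hY, hY', hne, -, hr⟩ := (serRed_red π hπs hπ0 _ _ _).1 hf
  choose b hb hbπ using hσ
  let sA : A →+* A :=
    { toFun := b
      map_one' := Subtype.ext (by rw [hb]; exact map_one σ)
      map_mul' := fun x y => Subtype.ext (by
        rw [MulMemClass.coe_mul, hb, hb, hb]; exact map_mul σ _ _)
      map_zero' := Subtype.ext (by rw [hb]; exact map_zero σ)
      map_add' := fun x y => Subtype.ext (by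
        rw [AddMemClass.coe_add, hb, hb, hb]; exact map_add σ _ _) }
  have key : ∀ Z : LaurentSeries A, ιA Z ∈ (V₁).fld Qb → coeffMap φ (ρA Z) ∈ kH π M := by
    intro Z hZ
    have e2 : ρA (coeffMap sA Z) = coeffMap φ (ρA Z) := by
      rw [coeffMap_coeffMap, coeffMap_coeffMap]
      exact coeffMap_congr (RingHom.ext fun a => hbπ a) _
    rw [← e2]
    refine down_kH π hπs hπ0 hk hj _ ?_
    have e1 : ιA (coeffMap sA Z) = coeffMap (σ : Qb →+* Qb) (ιA Z) := by
      rw [coeffMap_coeffMap, coeffMap_coeffMap]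
      exact coeffMap_congr (RingHom.ext fun a => hb a) _
    rw [e1, ← coe_galF_smul σ ⟨_, hZ⟩]
    exact (galF (V₁) σ • (⟨_, hZ⟩ : (V₁).fld Qb)).2
  have h2 := congrArg (coeffMap φ) hr
  rw [map_mul] at h2
  have hne' : coeffMap φ (ρA Y') ≠ 0 := fun h0 =>
    hne (coeffMap_injective' φ.injective (h0.trans (map_zero _).symm))
  show coeffMap φ ((⟨x, hx⟩ : kH π M) : LaurentSeries k) ∈ kH π M
  rw [eq_div_iff hne' |>.2 h2]
  exact div_mem (key _ hY) (key _ hY')

/-- The action on the reduced field. -/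
def mapH (hσ : InducesOn Qb π σ φ) : kH π M →+* kH π M :=
  ((coeffMap φ).comp (kH π M).val.toRingHom).codRestrict _ fun x =>
    coeffMap_mem_kH hπs hπ0 hk hj hσ x.2

theorem coe_mapH (hσ : InducesOn Qb π σ φ) (x : kH π M) :
    (mapH hπs hπ0 hk hj hσ x : LaurentSeries k) = coeffMap φ (x : LaurentSeries k) := rfl

theorem mapH_const (hσ : InducesOn Qb π σ φ) (a : k) :
    mapH hπs hπ0 hk hj hσ (algebraMap k (kH π M) a) ∈ (algebraMap k (kH π M)).range :=
  ⟨φ a, Subtype.ext (by
    show algebraMap k (LaurentSeries k) (φ a) = coeffMap φ (algebraMap k (LaurentSeries k) a)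
    rw [algebraMap_laurentSeries_eq_single, algebraMap_laurentSeries_eq_single, coeffMap_single])⟩

/-! ### The diamonds -/

variable (γ : GamH M (⊤ : Subgroup (ZMod M)ˣ))

/-- The diamond on functions. -/
abbrev diaFld : (V₁).fld Qb →+* (V₁).fld Qb :=
  diaRing M (pmOne M) (neg_one_mem_pmOne M) γ Qb

theorem diaFld_const (c : Qb) : diaFld γ (algebraMap Qb ((V₁).fld Qb) c) = algebraMap Qb _ c :=
  NebLocal.theta_inj (by
    refine ((iDia M (pmOne M) (neg_one_mem_pmOne M) γ).theta_cpull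
      (iDia_rational M (pmOne M) (neg_one_mem_pmOne M) γ Qb) _).trans ?_
    rw [iDia_mer]
    exact ((congrArg _ (theta_algebraMap c)).trans (merComp_merC _ _)).trans
      (theta_algebraMap c).symm)

/-- The diamond on the series of an integral function. -/
theorem diaFld_series (F : intFun A M) (hinv : ∀ δ ∈ (V₁).grp, ∀ z,
      (F : ℍ → ℂ) (δ • z) = (F : ℍ → ℂ) z) {Y : LaurentSeries A}
    (hY : HasExp (qp 1) (F : ℍ → ℂ) (coeffMap (valC A) Y)) (hmem : ιA Y ∈ (V₁).fld Qb) :
    ∃ Z : LaurentSeries A, HasExp (qp 1)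
        (fun z => (F : ℍ → ℂ) (((γ⁻¹ : GamH M ⊤) : SL(2, ℤ)) • z)) (coeffMap (valC A) Z) ∧
      (diaFld γ ⟨ιA Y, hmem⟩ : LaurentSeries Qb) = ιA Z := by
  set g : SL(2, ℤ) := ((γ⁻¹ : GamH M ⊤) : SL(2, ℤ))
  have hmove : ∀ δ ∈ (V₁).grp, ∀ z,
      (moveF g F : ℍ → ℂ) (δ • z) = (moveF g F : ℍ → ℂ) z := by
    intro δ hδ z
    show (F : ℍ → ℂ) (g • δ • z) = (F : ℍ → ℂ) (g • z)
    have hc := (conjGam M (pmOne M) γ⁻¹ ⟨δ, hδ⟩).2
    rw [show g • δ • z = (g * δ * g⁻¹) • g • z by rw [smul_smul, smul_smul, inv_mul_cancel_right]]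
    exact hinv _ (show _ ∈ GamH M (pmOne M) by simpa [conjGam, g] using hc) _
  obtain ⟨Z, hZ, -⟩ := exists_qSeries (moveF g F) (fun z => hmove _ (V₁).T_mem z)
  refine ⟨Z, hZ, ?_⟩
  have hFmem : (F : ℍ → ℂ) ∈ (V₁).mf := ⟨F.2.1, hinv, ⟨_, hY⟩, fun h => ⟨_, serAt_spec F h⟩⟩
  have hGmem : (moveF g F : ℍ → ℂ) ∈ (V₁).mf :=
    ⟨(moveF g F).2.1, hmove, ⟨_, hZ⟩, fun h => ⟨_, serAt_spec (moveF g F) h⟩⟩
  have hZmem : ιA Z ∈ (V₁).fld Qb := mem_fld_of_intFun (moveF g F) hmove hZ
  refine congrArg Subtype.val (NebLocal.theta_inj (x := diaFld γ ⟨ιA Y, hmem⟩)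
    (y := ⟨ιA Z, hZmem⟩) ?_)
  refine ((iDia M (pmOne M) (neg_one_mem_pmOne M) γ).theta_cpull
      (iDia_rational M (pmOne M) (neg_one_mem_pmOne M) γ Qb) _).trans ?_
  rw [iDia_mer]
  refine (congrArg _ (theta_eq_of_series (R := ⟨_, F.2.1⟩) hFmem
    (by rw [coeffMap_valC]; exact hY))).trans (Eq.trans ?_
      (theta_eq_of_series (R := ⟨_, (moveF g F).2.1⟩) hGmem
        (by rw [coeffMap_valC]; exact hZ)).symm)
  rw [merComp_toMer]
  refine congrArg toMer (Subtype.ext (funext fun z => ?_))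
  show (F : ℍ → ℂ) (mob (FA.HeckeH1.gl g.1) z) = _
  rw [FA.HeckeH1.gl_coe, mob_glQ]
  rfl

include A in
/-- The diamond fixes `j`. -/
theorem diaFld_j : diaFld γ ((V₁).jF Qb) = (V₁).jF Qb := by
  have hj1 : HasExp (qp 1) ((jI A M : intFun A M) : ℍ → ℂ) (coeffMap (valC A) (jqModC A)) := by
    rw [coeffMap_jqModC]; exact hasExp_jfun
  have hmem : ιA (jqModC A) ∈ (V₁).fld Qb := by
    rw [coeffMap_jqModC, ← (V₁).coe_jF]; exact ((V₁).jF Qb).2
  obtain ⟨Z, hZ, he⟩ := diaFld_series γ (jI A M) (fun δ _ z => jfun_smul δ z) hj1 hmem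
  have hjF : (⟨_, hmem⟩ : (V₁).fld Qb) = (V₁).jF Qb :=
    Subtype.ext (by rw [(V₁).coe_jF]; exact coeffMap_jqModC _)
  have hZ' : coeffMap (valC A) Z = coeffMap (valC A) (jqModC A) :=
    (hZ.congr (funext fun z => jfun_smul _ z)).unique (covers_qp 1) hj1
  rw [coeffMap_injective' (valC_injective A) hZ', hjF] at he
  refine Subtype.ext ?_
  rw [he, coeffMap_jqModC, (V₁).coe_jF]

include A in
theorem diaFld_aeval (P : Polynomial Qb) :
    diaFld γ (aeval ((V₁).jF Qb) P) = aeval ((V₁).jF Qb) P := by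
  induction P using Polynomial.induction_on' with
  | add a b ha hb => rw [map_add, map_add, ha, hb]
  | monomial n c => rw [aeval_monomial, map_mul, map_pow, diaFld_const, diaFld_j (A := A)]

theorem iota_eval₂ (P : Polynomial A) :
    ιA (P.eval₂ HahnSeries.C (jqModC A)) =
      ((aeval ((V₁).jF Qb) (P.map A.subtype) : (V₁).fld Qb) : LaurentSeries Qb) := by
  rw [hom_eval₂, coeffMap_jqModC, ← IntermediateField.coe_val, ← aeval_algHom_apply, aeval_def,
    eval₂_map, IntermediateField.coe_val, (V₁).coe_jF]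
  congr 1
  exact RingHom.ext fun a => by
    rw [RingHom.comp_apply, RingHom.comp_apply, coeffMap_C, FA.CurveRed.algebraMap_eq_C]

include hπs hπ0 hk hj in
/-- **The diamonds respect integrality.** -/
theorem exists_red_diaFld {f : (V₁).fld Qb} {r : kH π M} (hf : (redOne hπs hπ0 hk hj).Red f r) :
    ∃ r' : kH π M, (redOne hπs hπ0 hk hj).Red (diaFld γ f) r' := by
  classical
  obtain ⟨Y₀, Y', hY₀, hY', hne, hfY, -⟩ := (serRed_red π hπs hπ0 _ _ _).1 hf
  obtain ⟨Y, w, hY, hw, hF, hli⟩ := exists_indep_monomials π hπs hπ0 hk hj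
  obtain ⟨Q, hQne, hrel⟩ := exists_scaled_relation π (V₁) hπ0
    (ι := Option (V₁).Cos) (by simp) (fun o => o.elim Y₀ fun i => Y' * Y i)
    (fun o => by cases o; exacts [hY₀, by rw [Option.elim, map_mul]; exact mul_mem hY' (hY _)])
  have hred := map_relation π hrel
  rw [Fintype.sum_option] at hred
  simp only [Option.elim, map_mul, hw] at hred
  have hQ0 : (Q none).map π ≠ 0 := by
    intro h0
    rw [h0, eval₂_zero, zero_mul, zero_add] at hred
    have hc : ∑ i, (⟨aeval (jH π M) ((Q (some i)).map π), aeval_mem_adjoin_jH π _⟩ :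
        IntermediateField.adjoin k {jH π M}) • w i = 0 := by
      refine Subtype.ext ?_
      rw [AddSubmonoidClass.coe_finsetSum, ZeroMemClass.coe_zero]
      refine mul_left_cancel₀ hne ?_
      rw [mul_zero, Finset.mul_sum, ← hred]
      refine Finset.sum_congr rfl fun i _ => ?_
      rw [IntermediateField.smul_def, smul_eq_mul, MulMemClass.coe_mul, coe_aeval_jH]
      ring
    obtain ⟨o₁, h₁⟩ := hQne
    rcases o₁ with _ | i
    · exact h₁ h0
    · exact h₁ (transcendental_iff.1 (jH_transcendental π (M := M)) _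
        (congrArg Subtype.val (Fintype.linearIndependent_iff.1 hli _ hc i)))
  have hY'0 : ιA Y' ≠ 0 := fun h0 => hne (by
    rw [(map_eq_zero_iff _ (coeffMap_injective' A.subtype_injective)).1 h0, map_zero])
  -- the relation in the field
  have hfield : aeval ((V₁).jF Qb) ((Q none).map A.subtype) * f +
      ∑ i, aeval ((V₁).jF Qb) ((Q (some i)).map A.subtype) *
        (⟨_, hY i⟩ : (V₁).fld Qb) = 0 := by
    refine Subtype.ext (mul_left_cancel₀ hY'0 ?_)
    have h := congrArg ιA hrel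
    rw [map_sum, Fintype.sum_option, map_zero] at h
    simp only [Option.elim, map_mul, iota_eval₂ (M := M)] at h
    rw [← hfY] at h
    rw [ZeroMemClass.coe_zero, mul_zero, ← h, AddMemClass.coe_add, MulMemClass.coe_mul,
      AddSubmonoidClass.coe_finsetSum, mul_add, Finset.mul_sum]
    refine congrArg₂ (· + ·) (by ring) (Finset.sum_congr rfl fun i _ => ?_)
    rw [MulMemClass.coe_mul]
    ring
  choose F hFinv hFexp using hF
  choose Z _ hZ using fun i => diaFld_series γ (F i) (hFinv i) (hFexp i) (hY i)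
  have h := congrArg (fun x : (V₁).fld Qb => (x : LaurentSeries Qb)) (congrArg (diaFld γ) hfield)
  simp only [map_add, map_sum, map_mul, diaFld_aeval (A := A), map_zero, AddMemClass.coe_add,
    MulMemClass.coe_mul, AddSubmonoidClass.coe_finsetSum, ← iota_eval₂, hZ,
    ZeroMemClass.coe_zero] at h
  obtain ⟨r', hr', -⟩ := red_of_quot hπs hπ0 hk hj 1 (f := diaFld γ f)
    (Y := -∑ i, (Q (some i)).eval₂ HahnSeries.C (jqModC A) * Z i)
    (Y' := (Q none).eval₂ HahnSeries.C (jqModC A)) (by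
      rw [hom_eval₂, coeffMap_jqModC]
      intro h0
      refine hQ0 (transcendental_iff.1 (jH_transcendental π (M := M)) _ (Subtype.ext ?_))
      rw [coe_aeval_jH, eval₂_map, ZeroMemClass.coe_zero, ← h0]
      congr 1
      exact RingHom.ext fun a => by rw [RingHom.comp_apply, RingHom.comp_apply, coeffMap_C]) (by
      rw [qExpand_one_apply, map_neg, map_sum]
      simp only [map_mul]
      rw [← add_eq_zero_iff_eq_neg, ← h]
      ring)
  exact ⟨r', hr'⟩

include hπs hπ0 hk hj in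
theorem red_diaFld_zero {f : (V₁).fld Qb} (hf : (redOne hπs hπ0 hk hj).Red f 0) :
    (redOne hπs hπ0 hk hj).Red (diaFld γ f) 0 := by
  rcases eq_or_ne f 0 with rfl | hf0
  · rw [map_zero]; exact ConstRed.red_zero
  obtain ⟨c, g, s, hc, he, hg⟩ := exists_small_of_red_zero hπs hπ0 hk hj hf0 hf
  obtain ⟨s', hs'⟩ := exists_red_diaFld hπs hπ0 hk hj γ hg
  have h := (ConstRed.red_const (C := redOne hπs hπ0 hk hj) c).mul hs'
  rw [show (redOne hπs hπ0 hk hj).π c = π c from rfl, hc, map_zero, zero_mul] at h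
  rw [he, map_mul, diaFld_const]
  exact h

include hπs hπ0 hk hj in
theorem existsUnique_diaH (r : kH π M) : ∃! r' : kH π M, ∀ f,
    (redOne hπs hπ0 hk hj).Red f r → (redOne hπs hπ0 hk hj).Red (diaFld γ f) r' := by
  obtain ⟨f₀, hf₀⟩ := exists_lift_kH hπs hπ0 hk hj r
  obtain ⟨r', hr'⟩ := exists_red_diaFld hπs hπ0 hk hj γ hf₀
  refine ⟨r', fun f hf => ?_, fun s hs => (hs f₀ hf₀).unique hr'⟩
  have h0 := hf.sub hf₀
  rw [sub_self] at h0
  have h1 := (red_diaFld_zero hπs hπ0 hk hj γ h0).add hr'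
  rwa [← map_add, sub_add_cancel, zero_add] at h1

/-- The diamond on the reduced field. -/
def diaH : kH π M →+* kH π M where
  toFun r := (existsUnique_diaH hπs hπ0 hk hj γ r).choose
  map_one' := by
    have h := (existsUnique_diaH hπs hπ0 hk hj γ 1).choose_spec.1 1 ConstRed.red_one
    rw [map_one] at h
    exact h.unique ConstRed.red_one
  map_zero' := by
    have h := (existsUnique_diaH hπs hπ0 hk hj γ 0).choose_spec.1 0 ConstRed.red_zero
    rw [map_zero] at h
    exact h.unique ConstRed.red_zero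
  map_mul' x y := by
    obtain ⟨f, hf⟩ := exists_lift_kH hπs hπ0 hk hj x
    obtain ⟨g, hg⟩ := exists_lift_kH hπs hπ0 hk hj y
    have h := (existsUnique_diaH hπs hπ0 hk hj γ _).choose_spec.1 _ (hf.mul hg)
    rw [map_mul] at h
    exact h.unique (((existsUnique_diaH hπs hπ0 hk hj γ x).choose_spec.1 f hf).mul
      ((existsUnique_diaH hπs hπ0 hk hj γ y).choose_spec.1 g hg))
  map_add' x y := by
    obtain ⟨f, hf⟩ := exists_lift_kH hπs hπ0 hk hj x
    obtain ⟨g, hg⟩ := exists_lift_kH hπs hπ0 hk hj y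
    have h := (existsUnique_diaH hπs hπ0 hk hj γ _).choose_spec.1 _ (hf.add hg)
    rw [map_add] at h
    exact h.unique (((existsUnique_diaH hπs hπ0 hk hj γ x).choose_spec.1 f hf).add
      ((existsUnique_diaH hπs hπ0 hk hj γ y).choose_spec.1 g hg))

/-- **The diamond intertwines the reduction.** -/
theorem red_diaH {f : (V₁).fld Qb} {r : kH π M} (hf : (redOne hπs hπ0 hk hj).Red f r) :
    (redOne hπs hπ0 hk hj).Red (diaFld γ f) (diaH hπs hπ0 hk hj γ r) :=
  (existsUnique_diaH hπs hπ0 hk hj γ r).choose_spec.1 f hf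

theorem diaH_const (a : k) :
    diaH hπs hπ0 hk hj γ (algebraMap k (kH π M) a) ∈ (algebraMap k (kH π M)).range := by
  obtain ⟨b, rfl⟩ := hπs a
  have h := red_diaH hπs hπ0 hk hj γ (ConstRed.red_const (C := redOne hπs hπ0 hk hj) b)
  rw [diaFld_const] at h
  exact ⟨π b, (h.unique (ConstRed.red_const (C := redOne hπs hπ0 hk hj) b)).symm⟩

end FA.Weight1

end
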