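import Fermat.Agent.JTorsion.TwoDim
import Fermat.Agent.Density.Places
import Mathlib.RingTheory.TensorProduct.Finite
import Mathlib.LinearAlgebra.TensorProduct.Tower

/-!
# A two-dimensional representation from a Galois module with eigen relations

The operators `T i` commute with the action; the quotient of `k ⊗ Q` by the images of `T i - a i`
is nonzero as soon as a functional has the eigenvalues `a i`, and carries the quadratic relation
of the Frobenius elements.
-/

set_option autoImplicit false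
set_option linter.unusedSectionVars false
set_option linter.style.haveILetI false

noncomputable section

namespace FA.Weight1

open FA.JTorsion (Scal exists_twoDim')
open scoped TensorProduct

local notation "Qb" => AlgebraicClosure ℚ
local notation "GQ" => AlgebraicClosure ℚ ≃ₐ[ℚ] AlgebraicClosure ℚ

variable {k : Type} [Field k] {Q : Type} [AddCommGroup Q] [Module ℤ Q]
  (G : GQ →* Module.End ℤ Q) {ι : Type} (T : ι → Module.End ℤ Q) (a : ι → k)

/-- The relations `T i = a i`. -/
def eigenRel : Submodule k (k ⊗[ℤ] Q) :=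
  Submodule.span k {w | ∃ i v, ((T i).baseChange k - a i • 1 : Module.End k _) v = w}

variable {G T a}

theorem eigenRel_stable (hH : ∀ i σ, (G σ).comp (T i) = (T i).comp (G σ)) (σ : GQ) :
    eigenRel T a ≤ (eigenRel T a).comap ((G σ).baseChange k) := by
  refine Submodule.span_le.2 ?_
  rintro _ ⟨i, v, rfl⟩
  refine Submodule.mem_comap.2 (Submodule.subset_span ⟨i, (G σ).baseChange k v, ?_⟩)
  simp only [LinearMap.sub_apply, LinearMap.smul_apply, Module.End.one_apply, map_sub, map_smul]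
  rw [← LinearMap.comp_apply, ← LinearMap.baseChange_comp, ← hH i σ, LinearMap.baseChange_comp,
    LinearMap.comp_apply]

theorem eigenRel_ne_top {g : Q →ₗ[ℤ] k} (hg0 : g ≠ 0) (hg : ∀ i x, g (T i x) = a i * g x) :
    eigenRel T a ≠ ⊤ := by
  let F : k ⊗[ℤ] Q →ₗ[k] k := LinearMap.liftBaseChange k g
  have hF : ∀ (b : k) x, F (b ⊗ₜ x) = b * g x := fun b x => by
    rw [LinearMap.liftBaseChange_tmul]; rfl
  have key : ∀ i v, F (((T i).baseChange k - a i • 1 : Module.End k _) v) = 0 := by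
    intro i v
    induction v with
    | zero => simp only [map_zero]
    | add x y hx hy => simp only [map_add, hx, hy, add_zero]
    | tmul b x =>
      simp only [LinearMap.sub_apply, LinearMap.smul_apply, Module.End.one_apply, map_sub, map_smul,
        LinearMap.baseChange_tmul, hF, hg, smul_eq_mul]
      ring
  have hle : eigenRel T a ≤ LinearMap.ker F :=
    Submodule.span_le.2 (by rintro _ ⟨i, v, rfl⟩; exact key i v)
  intro htop
  obtain ⟨x, hx⟩ : ∃ x, g x ≠ 0 := by
    by_contra h; push Not at h; exact hg0 (LinearMap.ext h)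
  have h1 : F ((1 : k) ⊗ₜ x) = 0 := hle (htop.ge Submodule.mem_top)
  rw [hF, one_mul] at h1
  exact hx h1

variable (a) in
/-- The Galois action on the quotient. -/
def rhoEigen (hH : ∀ i σ, (G σ).comp (T i) = (T i).comp (G σ)) :
    GQ →* Module.End k ((k ⊗[ℤ] Q) ⧸ eigenRel T a) where
  toFun σ := (eigenRel T a).mapQ _ ((G σ).baseChange k) (eigenRel_stable hH σ)
  map_one' := Submodule.linearMap_qext _ (LinearMap.ext fun v => by
    show Submodule.Quotient.mk ((G 1).baseChange k v) = Submodule.Quotient.mk v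
    rw [map_one, Module.End.one_eq_id, LinearMap.baseChange_id, LinearMap.id_apply])
  map_mul' σ τ := Submodule.linearMap_qext _ (LinearMap.ext fun v => by
    show Submodule.Quotient.mk ((G (σ * τ)).baseChange k v) =
      Submodule.Quotient.mk ((G σ).baseChange k ((G τ).baseChange k v))
    rw [map_mul, Module.End.mul_eq_comp, LinearMap.baseChange_comp, LinearMap.comp_apply])

theorem rhoEigen_eq_one (hH : ∀ i σ, (G σ).comp (T i) = (T i).comp (G σ)) {σ : GQ}
    (h : G σ = 1) : rhoEigen a hH σ = 1 :=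
  Submodule.linearMap_qext _ (LinearMap.ext fun v => by
    show Submodule.Quotient.mk ((G σ).baseChange k v) = Submodule.Quotient.mk v
    rw [h, Module.End.one_eq_id, LinearMap.baseChange_id, LinearMap.id_apply])

/-- The quadratic relation of a Frobenius element. -/
theorem rhoEigen_frobenius (hH : ∀ i σ, (G σ).comp (T i) = (T i).comp (G σ)) (i j : ι) (p : ℕ)
    {σ : GQ} (hrel : ∀ q, T i q = G σ q + p • T j (G σ⁻¹ q)) :
    rhoEigen a hH σ + ((p : k) * a j) • rhoEigen a hH σ⁻¹ = a i • 1 := by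
  refine Submodule.linearMap_qext _ (TensorProduct.AlgebraTensorModule.ext fun b q => ?_)
  let π := (eigenRel T a).mkQ
  have hc : ∀ i x, π (b ⊗ₜ T i x) = a i • π (b ⊗ₜ x) := fun i x => by
    rw [← map_smul]
    exact (Submodule.Quotient.eq _).2 (Submodule.subset_span ⟨i, b ⊗ₜ x, rfl⟩)
  show π ((G σ).baseChange k (b ⊗ₜ q)) + ((p : k) * a j) • π ((G σ⁻¹).baseChange k (b ⊗ₜ q)) =
    a i • π (b ⊗ₜ q)
  rw [LinearMap.baseChange_tmul, LinearMap.baseChange_tmul, ← hc, hrel, TensorProduct.tmul_add,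
    map_add, TensorProduct.tmul_smul, map_nsmul, hc, ← Nat.cast_smul_eq_nsmul k, smul_smul]

/-- The representation of a Galois module with eigen relations. -/
theorem exists_rep_of_eigen [IsAlgClosed k] [Module.Finite ℤ Q]
    (hH : ∀ i σ, (G σ).comp (T i) = (T i).comp (G σ)) {g : Q →ₗ[ℤ] k} (hg0 : g ≠ 0)
    (hg : ∀ i x, g (T i x) = a i * g x) (χ : GQ →* kˣ)
    (hfield : ∃ L : IntermediateField ℚ Qb, FiniteDimensional ℚ L ∧
      ∀ σ : GQ, (∀ x ∈ L, σ x = x) → G σ = 1 ∧ χ σ = 1)
    (bad : Finset ℕ) (t : ℕ → k)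
    (hrel : ∀ p : ℕ, p.Prime → p ∉ bad → ∀ A : ValuationSubring Qb, A.LiesOverPrime p →
      ∀ σ : GQ, A.IsFrobeniusAt σ p → ∃ i j, a i = t p ∧ (χ σ : k) = (p : k) * a j ∧
        ∀ q, T i q = G σ q + p • T j (G σ⁻¹ q)) :
    ∃ r : GQ →* GL (Fin 2) k,
      (∀ σ, G σ = 1 → χ σ = 1 → r σ = 1) ∧ (∀ σ, (r σ).val.det = (χ σ : k)) ∧
      ∀ p : ℕ, p.Prime → p ∉ bad → ∀ A : ValuationSubring Qb, A.LiesOverPrime p →
        ∀ σ : GQ, A.IsFrobeniusAt σ p → (r σ).val.trace = t p := by
  classical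
  haveI : Nontrivial ((k ⊗[ℤ] Q) ⧸ eigenRel T a) :=
    Submodule.Quotient.nontrivial_iff.2 (eigenRel_ne_top hg0 hg)
  let ρ := rhoEigen a hH
  have hfrob : ∀ p : ℕ, p.Prime → p ∉ bad → ∀ A : ValuationSubring Qb, A.LiesOverPrime p →
      ∀ σ : GQ, A.IsFrobeniusAt σ p → ρ σ + (χ σ : k) • ρ σ⁻¹ = t p • 1 := by
    intro p hp hb A hA σ hσ
    obtain ⟨i, j, hi, hj, h⟩ := hrel p hp hb A hA σ hσ
    rw [hj, ← hi]
    exact rhoEigen_frobenius hH i j p h
  obtain ⟨L, hL, hLf⟩ := hfield
  let K := (ρ.prod χ).ker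
  have hK : IsOpen (K : Set GQ) :=
    Subgroup.isOpen_mono (H₁ := L.fixingSubgroup)
      (fun σ hσ => by
        have h := hLf σ ((IntermediateField.mem_fixingSubgroup_iff _ _).1 hσ)
        exact MonoidHom.mem_ker.2 (Prod.ext (rhoEigen_eq_one hH h.1) h.2))
      (IntermediateField.fixingSubgroup_isOpen L)
  have hscal : ∀ σ, Scal (A := Module.End k _) ρ χ σ := fun σ => by
    refine FA.Density.forall_of_frobenius_pow K hK (fun τ => Scal (A := Module.End k _) ρ χ τ)
      ?_ bad ?_ σ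
    · intro τ n hn ⟨b, hb⟩
      obtain ⟨h1, h2⟩ := Prod.ext_iff.1 (MonoidHom.mem_ker.1 hn)
      have h3 : ρ n⁻¹ = 1 := by
        have h4 : ρ n⁻¹ * ρ n = 1 := by rw [← map_mul, inv_mul_cancel, map_one]
        rwa [show ρ n = 1 from h1, mul_one] at h4
      refine ⟨b, ?_⟩
      rw [map_mul, map_mul, mul_inv_rev, map_mul, show ρ n = 1 from h1, h3,
        show χ n = 1 from h2, mul_one, mul_one, one_mul]
      exact hb
    · intro q hq hqS A hA τ hτ m
      exact Scal.pow ⟨_, hfrob q hq hqS A hA τ hτ⟩ m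
  obtain ⟨r, hr, -⟩ := exists_twoDim' ρ χ hscal
  exact ⟨r.toHomUnits, fun σ h1 h2 => Units.ext ((hr σ).2.2 (rhoEigen_eq_one hH h1) h2),
    fun σ => (hr σ).2.1, fun p hp hb A hA σ hσ => (hr σ).1 _ (hfrob p hp hb A hA σ hσ)⟩

end FA.Weight1

end
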