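import Fermat.Agent.Weight1.GalDefs
import Fermat.Agent.Weight1.CycLevel
import Fermat.Agent.Weight1.ResidualModule
import Fermat.Agent.JTorsion.GaloisTors
import Fermat.Agent.Density.Places
import Mathlib.RingTheory.TensorProduct.Finite

/-!
# The residual representation of an eigen functional on the lattice of `±Γ₁(M)`

The Galois module is the quotient of the lattice modulo `ℓ`, with coefficients in the field, by the
images of `T_p - c p` and `⟨γ⟩ - χ γ`; the quadratic relation of the Frobenius elements gives a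
two-dimensional representation.
-/

set_option autoImplicit false
set_option linter.unusedSectionVars false
set_option linter.style.haveILetI false
set_option synthInstance.maxHeartbeats 200000
set_option maxHeartbeats 1600000

noncomputable section

namespace FA.Weight1

open FA.Level AlgebraicCurve
open FA.HeckeH1 (GamH Tc ulHom Corr)
open FA.JTorsion (cuspLat tors tors_finite latTors Scal exists_twoDim')
open FA.NebLocal (latC iDia iDia_rational galComm_iDia GalRel exists_galRel galQ galQ_mk_iff nMul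
  mem_nMul clsQ clsQ_mk clsQ_injective clsQ_galQVal galQVal)
open scoped MatrixGroups

local notation "Qb" => AlgebraicClosure ℚ
local notation "GQ" => AlgebraicClosure ℚ ≃ₐ[ℚ] AlgebraicClosure ℚ

variable [Algebra Qb ℂ] {V : Lvl} {n : ℕ} [NeZero n]

/-- The action on the lattice modulo `n` factors through a finite extension. -/
theorem exists_field_galQ (V : Lvl) (n : ℕ) [NeZero n] :
    ∃ L : IntermediateField ℚ Qb, FiniteDimensional ℚ L ∧
      ∀ σ : GQ, (∀ a ∈ L, σ a = a) → galQ V n σ = 1 := by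
  classical
  haveI := tors_finite V Qb n
  choose S hS using FA.JTorsion.exists_finset_fix (F₀ := V.F₀) (V.isFunctionField Qb)
  let T : Finset Qb :=
    (Set.finite_range (fun x : tors V Qb n => (x : Pic0 Qb (V.fld Qb)))).toFinset.biUnion S
  refine ⟨IntermediateField.adjoin ℚ (T : Set Qb),
    IntermediateField.finiteDimensional_adjoin fun a _ =>
      ((AlgebraicClosure.isAlgebraic ℚ).isAlgebraic a).isIntegral,
    fun σ h => LinearMap.ext fun q => clsQ_injective ?_⟩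
  show clsQ V n (galQVal V n σ q) = clsQ V n q
  rw [clsQ_galQVal]
  obtain ⟨φ, rfl⟩ := Submodule.Quotient.mk_surjective _ q
  rw [clsQ_mk]
  exact hS _ σ fun a ha => h a (IntermediateField.subset_adjoin ℚ _
    (Finset.mem_biUnion.2 ⟨_, (Set.Finite.mem_toFinset _).2 ⟨latTors V Qb n φ, rfl⟩, ha⟩))

/-- A correspondence on the lattice modulo `n`. -/
def corrQ (n : ℕ) (C : Corr V.grp V.grp) :
    (cuspLat V ⧸ nMul V n) →ₗ[ℤ] (cuspLat V ⧸ nMul V n) :=
  (nMul V n).mapQ (nMul V n) (latC (V := V) (V' := V) C).toIntLinearMap fun x hx => by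
    obtain ⟨y, rfl⟩ := mem_nMul.1 hx
    exact mem_nMul.2 ⟨latC C y, map_nsmul (latC C) n y⟩

theorem corrQ_mk (C : Corr V.grp V.grp) (x : cuspLat V) :
    corrQ n C (Submodule.Quotient.mk x) = Submodule.Quotient.mk (latC C x) := rfl

theorem galQ_corrQ {C : Corr V.grp V.grp} {σ : GQ}
    (h : ∀ x y : cuspLat V, GalRel V n σ x y → GalRel V n σ (latC C x) (latC C y)) :
    (galQ V n σ).comp (corrQ n C) = (corrQ n C).comp (galQ V n σ) := by
  refine LinearMap.ext fun q => ?_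
  obtain ⟨φ, rfl⟩ := Submodule.Quotient.mk_surjective _ q
  obtain ⟨φ', hφ⟩ := exists_galRel (n := n) σ φ
  rw [LinearMap.comp_apply, LinearMap.comp_apply, corrQ_mk, (galQ_mk_iff σ φ φ').2 hφ, corrQ_mk]
  exact (galQ_mk_iff _ _ _).2 (h φ φ' hφ)

theorem galQ_rel {C D : Corr V.grp V.grp} {σ : GQ} {p : ℕ}
    (h : ∀ x y z : cuspLat V, GalRel V n σ x z → GalRel V n σ y x →
      ∃ w : cuspLat V, latC C x = z + p • (latC D y) + n • w) (q : cuspLat V ⧸ nMul V n) :
    corrQ n C q = galQ V n σ q + p • corrQ n D (galQ V n σ⁻¹ q) := by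
  obtain ⟨x, rfl⟩ := Submodule.Quotient.mk_surjective _ q
  obtain ⟨z, hz⟩ := exists_galRel (n := n) σ x
  obtain ⟨y, hy⟩ := exists_galRel (n := n) σ⁻¹ x
  have hy' : GalRel V n σ y x := by
    rw [← galQ_mk_iff, ← (galQ_mk_iff σ⁻¹ x y).2 hy, ← Module.End.mul_apply, ← map_mul,
      mul_inv_cancel, map_one]
    rfl
  obtain ⟨w, hw⟩ := h x y z hz hy'
  have h0 : (Submodule.Quotient.mk (n • w) : cuspLat V ⧸ nMul V n) = 0 :=
    (Submodule.Quotient.mk_eq_zero _).2 (mem_nMul.2 ⟨w, rfl⟩)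
  rw [corrQ_mk, hw, Submodule.Quotient.mk_add, h0, add_zero, Submodule.Quotient.mk_add,
    (galQ_mk_iff σ x z).2 hz, (galQ_mk_iff σ⁻¹ x y).2 hy, corrQ_mk]
  rfl

theorem exists_functionalQ {k : Type} [Field k] [CharP k n] {g : cuspLat V →+ k} (hg : g ≠ 0) :
    ∃ gQ : (cuspLat V ⧸ nMul V n) →ₗ[ℤ] k, gQ ≠ 0 ∧ ∀ x, gQ (Submodule.Quotient.mk x) = g x := by
  have hker : nMul V n ≤ LinearMap.ker g.toIntLinearMap := fun x hx => by
    obtain ⟨y, rfl⟩ := mem_nMul.1 hx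
    show g (n • y) = 0
    rw [map_nsmul, nsmul_eq_mul, CharP.cast_eq_zero, zero_mul]
  refine ⟨(nMul V n).liftQ g.toIntLinearMap hker, fun h => hg (AddMonoidHom.ext fun x => ?_),
    fun x => rfl⟩
  exact LinearMap.congr_fun h (Submodule.Quotient.mk x)

section instantiate

variable (M : ℕ) [NeZero M] [Fact (1 < M)]

/-- The Hecke correspondences of the primes not dividing the level and the diamonds. -/
def eigenCorr : {p : ℕ // p.Prime ∧ ¬ p ∣ M} ⊕ GamH M (⊤ : Subgroup (ZMod M)ˣ) →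
    Corr (lvlOne M).grp (lvlOne M).grp
  | .inl p => haveI : Fact p.1.Prime := ⟨p.2.1⟩; Tc M (pmOne M) p.1
  | .inr γ => (iDia M (pmOne M) (neg_one_mem_pmOne M) γ).C

theorem galQ_eigenCorr (hH : HeckeComm) (ℓ : ℕ) [NeZero ℓ] (i) (σ : GQ) :
    (galQ (lvlOne M) ℓ σ).comp (corrQ ℓ (eigenCorr M i)) =
      (corrQ ℓ (eigenCorr M i)).comp (galQ (lvlOne M) ℓ σ) := by
  refine galQ_corrQ fun x y h => ?_
  rcases i with p | γ
  · haveI : Fact p.1.Prime := ⟨p.2.1⟩
    exact hH M ℓ p.1 p.2.2 σ x y h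
  · exact GalRel.latC (hC := iDia_rational M (pmOne M) (neg_one_mem_pmOne M) γ Qb)
      (hC' := iDia_rational M (pmOne M) (neg_one_mem_pmOne M) γ Qb)
      (galComm_iDia M (pmOne M) (neg_one_mem_pmOne M) γ σ) h

theorem galQ_inertia {ℓ : ℕ} [NeZero ℓ] {σ : GQ}
    (h : ∀ x : cuspLat (lvlOne M), GalRel (lvlOne M) ℓ σ x x) : galQ (lvlOne M) ℓ σ = 1 :=
  LinearMap.ext fun q => by
    obtain ⟨x, rfl⟩ := Submodule.Quotient.mk_surjective _ q
    exact (galQ_mk_iff σ x x).2 (h x)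

/-- The eigenvalues of the correspondences. -/
def eigenVal {k : Type} [Field k] (c : ℕ → k) (χ : (ZMod M)ˣ →* kˣ) :
    {p : ℕ // p.Prime ∧ ¬ p ∣ M} ⊕ GamH M (⊤ : Subgroup (ZMod M)ˣ) → k :=
  Sum.elim (fun p => c p.1) fun γ => (χ (ulHom M γ) : k)

/-- `u ↦ u χ(u)` at the cyclotomic character. -/
def detChar {k : Type} [Field k] {ℓ : ℕ} [CharP k ℓ] (hℓM : ℓ ∣ M) (χ : (ZMod M)ˣ →* kˣ) :
    GQ →* kˣ :=
  ((Units.map (ZMod.castHom hℓM k : ZMod M →* k)).comp (cycM M)) * (χ.comp (cycM M))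

theorem detChar_val {k : Type} [Field k] {ℓ : ℕ} [CharP k ℓ] (hℓM : ℓ ∣ M) (χ : (ZMod M)ˣ →* kˣ)
    (σ : GQ) : (detChar M hℓM χ σ : k) =
      ZMod.castHom hℓM k (cycM M σ : ZMod M) * (χ (cycM M σ) : k) := rfl

theorem detChar_eq_one {k : Type} [Field k] {ℓ : ℕ} [CharP k ℓ] (hℓM : ℓ ∣ M)
    (χ : (ZMod M)ˣ →* kˣ) {σ : GQ} (h : cycM M σ = 1) : detChar M hℓM χ σ = 1 := by
  refine Units.ext ?_
  rw [detChar_val, h, Units.val_one, map_one, map_one, Units.val_one, mul_one]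

end instantiate

/-- The representation of an eigen functional. -/
theorem residualAttached_of (hH : HeckeComm) (hF : FrobeniusRel) : ResidualAttached := by
  intro ℓ _ k _ _ _ M _ _ hℓM c χ g hg
  classical
  by_cases h23 : 2 ∣ M ∨ 3 ∣ M
  swap
  · exact ⟨1, ⟨⊥, inferInstance, fun _ _ => rfl⟩, fun _ _ _ h => absurd h h23⟩
  obtain ⟨hg0, hgT, hgD⟩ := hg
  obtain ⟨gQ, hgQ0, hgQ⟩ := exists_functionalQ (n := ℓ) hg0
  haveI : Module.Finite ℤ (cuspLat (lvlOne M)) :=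
    (FA.JTorsion.cuspLat_free_finite (lvlOne M)).2
  have hga : ∀ i q, gQ (corrQ ℓ (eigenCorr M i) q) = eigenVal M c χ i * gQ q := by
    intro i q
    obtain ⟨x, rfl⟩ := Submodule.Quotient.mk_surjective _ q
    rw [corrQ_mk, hgQ, hgQ]
    rcases i with p | γ
    · haveI : Fact p.1.Prime := ⟨p.2.1⟩
      exact hgT p.1 p.2.2 x
    · exact hgD γ x
  have hfield : ∃ L : IntermediateField ℚ Qb, FiniteDimensional ℚ L ∧
      ∀ σ : GQ, (∀ x ∈ L, σ x = x) →
        galQ (lvlOne M) ℓ σ = 1 ∧ detChar M hℓM χ σ = 1 := by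
    obtain ⟨L, hL, h⟩ := exists_field_galQ (lvlOne M) ℓ
    obtain ⟨L', hL', h'⟩ := exists_field_cycM M
    exact ⟨L ⊔ L', inferInstance, fun σ hσ => ⟨h σ fun a ha => hσ a ((le_sup_left : L ≤ L ⊔ L') ha),
      detChar_eq_one M hℓM χ (h' σ fun a ha => hσ a ((le_sup_right : L' ≤ L ⊔ L') ha))⟩⟩
  obtain ⟨r, hr1, hrd, hrt⟩ := exists_rep_of_eigen (G := galQ (lvlOne M) ℓ)
    (T := fun i => corrQ ℓ (eigenCorr M i)) (galQ_eigenCorr M hH ℓ) hgQ0 hga
    (detChar M hℓM χ) hfield M.primeFactors c fun p hp hb A hA σ hσ => by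
      haveI : Fact p.Prime := ⟨hp⟩
      have hpM : ¬ p ∣ M := fun h => hb (Nat.mem_primeFactors.2 ⟨hp, h, NeZero.ne M⟩)
      obtain ⟨γ, hγ, hrel⟩ := (hF M ℓ hℓM p hpM h23 A hA).2 σ hσ
      have hu : cycM M σ = ulHom M γ :=
        Units.ext ((cycM_frobenius M hp hpM hA hσ).trans hγ.symm)
      refine ⟨.inl ⟨p, hp, hpM⟩, .inr γ, rfl, ?_, galQ_rel hrel⟩
      rw [detChar_val, hu, hγ, map_natCast]
      rfl
  obtain ⟨L, hL, hLf⟩ := hfield
  refine ⟨r, ⟨L, hL, fun σ hσ => hr1 σ (hLf σ hσ).1 (hLf σ hσ).2⟩,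
    fun p hp hpM _ A hA => ⟨fun σ hσ => ?_, fun σ hσ u hu => ?_⟩⟩
  · haveI : Fact p.Prime := ⟨hp⟩
    exact hr1 σ (galQ_inertia M ((hF M ℓ hℓM p hpM h23 A hA).1 σ hσ))
      (detChar_eq_one M hℓM χ (cycM_inertia M hp hpM hA hσ))
  · have hb : p ∉ M.primeFactors := fun h => hpM (Nat.dvd_of_mem_primeFactors h)
    refine ⟨hrt p hp hb A hA σ hσ, (hrd σ).trans ?_⟩
    have hu' : cycM M σ = u := Units.ext ((cycM_frobenius M hp hpM hA hσ).trans hu.symm)
    rw [detChar_val, hu', hu, map_natCast]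

end FA.Weight1

end
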