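import Fermat.Agent.Period.Twist
import Fermat.Agent.Period.Descent
import Fermat.Agent.Level.Basic
import Fermat.Agent.ModField.Igusa.LevelP
import Fermat.Agent.CurveRed.Haupt.Series

/-!
# A form with rational series fixed exactly by the group of a level

A power of the discriminant times the separating function of the level.
-/

set_option autoImplicit false
set_option linter.style.haveILetI false

noncomputable section

namespace FA.Weight1

open UpperHalfPlane hiding I
open ModularForm CongruenceSubgroup Filter ModularCurve FA.ModField FA.Period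
open scoped MatrixGroups Manifold Topology

/-- Modular forms of weight `w` on a subgroup, as functions. -/
def formsG (Γ : Subgroup SL(2, ℤ)) (w : ℤ) : Submodule ℂ (ℍ → ℂ) where
  carrier := {f | (∀ γ ∈ Γ, f ∣[w] γ = f) ∧ MDiff f ∧
    ∀ γ : SL(2, ℤ), IsBoundedAtImInfty (f ∣[w] γ)}
  zero_mem' := ⟨fun γ _ => SlashAction.zero_slash _ _, mdifferentiable_const,
    fun γ => by rw [SlashAction.zero_slash]; exact Filter.const_boundedAtFilter _ _⟩
  add_mem' := fun {f g} hf hg => ⟨fun γ hγ => by rw [SlashAction.add_slash, hf.1 γ hγ, hg.1 γ hγ],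
    hf.2.1.add hg.2.1, fun γ => by rw [SlashAction.add_slash]; exact (hf.2.2 γ).add (hg.2.2 γ)⟩
  smul_mem' := fun c f hf => ⟨fun γ hγ => by rw [SL_smul_slash, hf.1 γ hγ],
    hf.2.1.const_smul c, fun γ => by rw [SL_smul_slash]; exact (hf.2.2 γ).const_smul_left c⟩

/-- The combinations of forms with rational series. -/
def ratG (Γ : Subgroup SL(2, ℤ)) (w : ℤ) : Submodule ℂ (ℍ → ℂ) :=
  Submodule.span ℂ {g | g ∈ formsG Γ w ∧ IsRationalSeq fun n => (qExp g).coeff n}

theorem isBoundedAtImInfty_width {f : ℍ → ℂ} {L : LaurentSeries ℂ} {m : ℕ} (hm : m ≠ 0)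
    (h : HasExp (qp m) f L) (h0 : OrdGE 0 L) : IsBoundedAtImInfty f :=
  isBoundedAtImInfty_of_hasSum_qExpansion (h := (m : ℝ))
    (by exact_mod_cast Nat.pos_of_ne_zero hm) (c := fun n : ℕ => L.coeff n)
    fun z => by simpa [qp, smul_eq_mul] using (hasExp_iff_nat h0).1 h z

theorem sepFun_slash (V : FA.Level.Lvl) (γ : SL(2, ℤ)) :
    V.sepFun ∣[(0 : ℤ)] γ = fun z => V.sepFun (γ • z) := by
  funext z
  rw [SL_slash_apply, neg_zero, zpow_zero, mul_one]

/-- **The separating form.** -/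
theorem exists_sepForm (V : FA.Level.Lvl) :
    ∃ (F : ℍ → ℂ) (w : ℤ), F ∈ ratG V.grp w ∧
      ∀ γ : SL(2, ℤ), F ∣[w] γ = F → γ ∈ V.grp := by
  classical
  have hmem := V.sepFun_mem
  choose L hL using fun q : V.Cos => hmem.2.2.2 (Quotient.out q)⁻¹
  obtain ⟨r, hr0, hr⟩ : ∃ r : ℕ, -V.sepSer.order ≤ (r : ℤ) ∧
      ∀ q, -(L q).order ≤ (r : ℤ) := by
    refine ⟨(-V.sepSer.order).toNat + ∑ q, (-(L q).order).toNat, by omega, fun q => ?_⟩
    have := Finset.single_le_sum (f := fun q => (-(L q).order).toNat) (fun _ _ => Nat.zero_le _)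
      (Finset.mem_univ q)
    omega
  set D := ModularForm.discriminant ^ r with hD
  have hDf : D ∈ forms 1 ((r : ℤ) * 12) := pow_mem_forms coe_discriminant_mem_forms r
  set F : ℍ → ℂ := V.sepFun * D with hF
  have hslash : ∀ γ : SL(2, ℤ),
      F ∣[(r : ℤ) * 12] γ = (fun z => V.sepFun (γ • z)) * D := fun γ => by
    rw [show (r : ℤ) * 12 = 0 + (r : ℤ) * 12 by rw [zero_add], hF, mul_slash_SL2, sepFun_slash,
      slash_eq_of_mem_forms_one hDf γ]
  have hinv : ∀ γ ∈ V.grp, (fun z => V.sepFun (γ • z)) = V.sepFun := fun γ hγ =>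
    funext fun z => hmem.2.1 γ hγ z
  have hbdd : ∀ δ : SL(2, ℤ), IsBoundedAtImInfty ((fun z => V.sepFun (δ • z)) * D) := by
    intro δ
    obtain ⟨⟨h, hh⟩, hout⟩ := QuotientGroup.mk_out_eq_mul V.grp δ⁻¹
    set q : V.Cos := QuotientGroup.mk δ⁻¹
    have hfun : (fun z => V.sepFun (δ • z)) =
        fun z => V.sepFun ((Quotient.out q)⁻¹ • z) := funext fun z => by
      rw [hout, mul_inv_rev, inv_inv, mul_smul]
      exact (hmem.2.1 _ (inv_mem hh) _).symm
    rw [hfun]
    have hd := hasExp_discriminant.comp (U := qp V.M) id V.M 1 fun z => by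
      simp [qp_pow_self]
    have h := (hL q).mul (qp_ne_zero V.M) (hd.pow (qp_ne_zero V.M) r)
    refine isBoundedAtImInfty_width V.M_ne h ?_
    have h1 : OrdGE ((V.M : ℤ) * 1) (qExpand ℂ V.M (twist 1 (deltaq ℂ))) := by
      refine FA.CurveRed.Haupt.OrdGE.qExpand V.M fun i hi => ?_
      rw [twist_coeff, FA.CurveRed.Haupt.ordGE_deltaq i hi, mul_zero]
    refine ((ordGE_order (L q)).mul (h1.pow r)).mono ?_
    have hM : (1 : ℤ) ≤ V.M := by exact_mod_cast Nat.pos_of_ne_zero V.M_ne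
    have := hr q
    nlinarith
  refine ⟨F, (r : ℤ) * 12, Submodule.subset_span ⟨⟨fun γ hγ => ?_, ?_, fun γ => ?_⟩, ?_⟩,
    fun γ hγ => ?_⟩
  · rw [hslash, hinv γ hγ]
  · exact hmem.1.mul hDf.2.1
  · rw [hslash]; exact hbdd γ
  · set P := coeffMap (algebraMap ℚ ℂ) (V.sepSer * deltaq ℚ ^ r) with hP
    have hexp : HasExp (qp 1) F P := by
      rw [hP, map_mul, map_pow, coeffMap_deltaq]
      exact V.sep_exp.mul (qp_ne_zero 1) (hasExp_discriminant.pow (qp_ne_zero 1) r)
    have hord : OrdGE 0 P := by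
      have h0 : OrdGE 0 (V.sepSer * deltaq ℚ ^ r) :=
        ((ordGE_order _).mul ((FA.CurveRed.Haupt.ordGE_deltaq (R := ℚ)).pow r)).mono (by omega)
      intro i hi
      rw [hP, coeffMap_coeff, h0 i hi, map_zero]
    have hQ : IsQFun F := by
      refine ⟨periodic_of_slash_T (w := (r : ℤ) * 12) ?_, hmem.1.mul hDf.2.1, ?_⟩
      · rw [hslash, hinv _ V.T_mem]
      · exact isBoundedAtImInfty_of_hasExp hexp hord
    intro n
    refine ⟨(V.sepSer * deltaq ℚ ^ r).coeff n, ?_⟩
    show (qExp F).coeff n = _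
    rw [← hQ.coeff_unique (c := fun n : ℕ => P.coeff n) (fun z => by
      simpa [qp, smul_eq_mul] using (hasExp_iff_nat hord).1 hexp z) n, hP, coeffMap_coeff]
    rfl
  · refine V.sep_spec γ fun z => ?_
    have h := congrFun ((hslash γ).symm.trans hγ) z
    exact mul_right_cancel₀
      (pow_ne_zero r (ModularForm.discriminant_ne_zero z)) (by simpa [hF, hD] using h)

end FA.Weight1

end
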